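/-
The quadratic lemma: an irreducible representation all of whose elements satisfy
`g + d(g) g⁻¹ = t(g)` has dimension at most two, and in dimension two `t` is the trace and
`d` the determinant.
-/
import Mathlib.RingTheory.SimpleModule.Basic
import Mathlib.FieldTheory.IsAlgClosed.Basic
import Mathlib.LinearAlgebra.Eigenspace.Triangularizable
import Mathlib.LinearAlgebra.Charpoly.Basic
import Mathlib.LinearAlgebra.Charpoly.ToMatrix
import Mathlib.LinearAlgebra.Matrix.Charpoly.Coeff
import Mathlib.LinearAlgebra.FiniteDimensional.Lemmas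

set_option autoImplicit false

noncomputable section

namespace Fermat.Agent.GalRep

open Module Polynomial

variable {Ω W G : Type*} [Field Ω] [AddCommGroup W] [Module Ω W] [Group G]

/-- Burnside: the image of an irreducible representation over an algebraically closed field
spans all endomorphisms. -/
theorem span_range_eq_top_of_irreducible [IsAlgClosed Ω] [FiniteDimensional Ω W] [Nontrivial W]
    (ρ : G →* Module.End Ω W)
    (hirr : ∀ U : Submodule Ω W, (∀ g, ∀ x ∈ U, ρ g x ∈ U) → U = ⊥ ∨ U = ⊤) :
    Submodule.span Ω (Set.range ρ) = ⊤ := by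
  classical
  let B : Subalgebra Ω (Module.End Ω W) := Algebra.adjoin Ω (Set.range ρ)
  have hB : (B : Set (Module.End Ω W)) = (Submodule.span Ω (Set.range ρ) : Set _) := by
    have h := Algebra.adjoin_eq_span (R := Ω) (Set.range ρ)
    rw [show Submonoid.closure (Set.range ρ) = MonoidHom.mrange ρ from by
      rw [← MonoidHom.coe_mrange, Submonoid.closure_eq], MonoidHom.coe_mrange] at h
    rw [← h]; rfl
  have hmem : ∀ g, ρ g ∈ B := fun g => Algebra.subset_adjoin ⟨g, rfl⟩
  haveI : IsSimpleModule B W := by
    refine (isSimpleModule_iff _ _).mpr { exists_pair_ne := ⟨⊥, ⊤, bot_ne_top⟩, eq_bot_or_eq_top := fun U => ?_ }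
    let U' : Submodule Ω W :=
      { carrier := U
        add_mem' := U.add_mem
        zero_mem' := U.zero_mem
        smul_mem' := fun c x hx => by
          have := U.smul_mem (algebraMap Ω B c) hx
          simpa using this }
    rcases hirr U' (fun g x hx => U.smul_mem (⟨ρ g, hmem g⟩ : B) hx) with h | h
    · left
      ext x
      exact (Submodule.ext_iff.mp h x)
    · right
      ext x
      exact (Submodule.ext_iff.mp h x)
  rw [eq_top_iff]
  intro x _
  rw [← SetLike.mem_coe, ← hB]
  have key : ∀ f : Module.End B W, ∃ c : Ω, ∀ w, f w = c • w := by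
    intro f
    let f' : Module.End Ω W :=
      { toFun := f
        map_add' := f.map_add
        map_smul' := fun c w => by
          have := f.map_smul (algebraMap Ω B c) w
          simpa using this }
    obtain ⟨c, hc⟩ := Module.End.exists_eigenvalue f'
    obtain ⟨v, hv, hv0⟩ := hc.exists_hasEigenvector
    refine ⟨c, fun w => ?_⟩
    let K : Submodule B W :=
      { carrier := {w | f w = c • w}
        add_mem' := fun {a b} ha hb => by
          simp only [Set.mem_setOf_eq] at ha hb ⊢
          rw [map_add, ha, hb, smul_add]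
        zero_mem' := by simp
        smul_mem' := fun b w hw => by
          simp only [Set.mem_setOf_eq] at hw ⊢
          rw [map_smul, hw, smul_comm] }
    have hK : K = ⊤ := by
      refine (eq_bot_or_eq_top K).resolve_left (fun h => hv0 ?_)
      have : v ∈ K := Module.End.mem_eigenspace_iff.mp hv
      rw [h] at this
      exact this
    exact (Submodule.eq_top_iff'.mp hK w)
  let x' : Module.End (Module.End B W) W :=
    { toFun := x
      map_add' := x.map_add
      map_smul' := fun f w => by
        obtain ⟨c, hc⟩ := key f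
        simp only [Module.End.smul_def, RingHom.id_apply, hc, map_smul] }
  haveI : Module.Finite (Module.End B W) W := by
    obtain ⟨s, hs⟩ := (Module.Finite.fg_top : (⊤ : Submodule Ω W).FG)
    refine ⟨⟨s, ?_⟩⟩
    rw [eq_top_iff]
    intro w _
    have : w ∈ Submodule.span Ω (s : Set W) := hs ▸ Submodule.mem_top
    induction this using Submodule.span_induction with
    | mem y hy => exact Submodule.subset_span hy
    | zero => exact zero_mem _
    | add a b _ _ ha hb => exact add_mem (ha trivial) (hb trivial)
    | smul c a _ ha =>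
      have h := Submodule.smul_mem (Submodule.span (Module.End B W) (s : Set W))
        (c • (1 : Module.End B W)) (ha trivial)
      simpa using h
  obtain ⟨b, hb⟩ := Module.Finite.toModuleEnd_moduleEnd_surjective (R := B) (M := W) x'
  have : (b : Module.End Ω W) = x := LinearMap.ext fun w => LinearMap.congr_fun hb w
  exact this ▸ b.2

section MatrixCore

variable {n : Type*} [Fintype n] [DecidableEq n]

open Matrix

/-- Core computation: a linear functional `τ` such that `x ↦ τ x • 1 - x` is anti-multiplicative
forces size at most two. -/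
theorem card_le_two_of_antiInvolution (τ : Matrix n n Ω →ₗ[Ω] Ω)
    (h : ∀ x y : Matrix n n Ω,
      τ (x * y) • (1 : Matrix n n Ω) - x * y = (τ y • 1 - y) * (τ x • 1 - x)) :
    Fintype.card n ≤ 2 := by
  by_contra hlt
  rw [not_le, Fintype.two_lt_card_iff] at hlt
  obtain ⟨a, b, c, hab, hac, hbc⟩ := hlt
  have e := h (Matrix.single a b 1) (Matrix.single b a 1)
  simp only [Matrix.sub_mul, Matrix.mul_sub, Matrix.smul_mul, Matrix.mul_smul, Matrix.one_mul,
    Matrix.mul_one, Matrix.single_mul_single_same] at e
  have e1 := congrFun (congrFun e c) c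
  have e2 := congrFun (congrFun e a) a
  simp [hab, hac, hbc, hab.symm, hac.symm, hbc.symm] at e1 e2
  grind

theorem eq_trace_of_antiInvolution (τ : Matrix (Fin 2) (Fin 2) Ω →ₗ[Ω] Ω)
    (h : ∀ x y : Matrix (Fin 2) (Fin 2) Ω,
      τ (x * y) • (1 : Matrix (Fin 2) (Fin 2) Ω) - x * y = (τ y • 1 - y) * (τ x • 1 - x)) :
    ∀ x, τ x = x.trace := by
  have key : ∀ i j : Fin 2, i ≠ j →
      τ (Matrix.single i j 1) = 0 ∧ τ (Matrix.single i i 1) = 1 := by
    intro i j hij
    have e := h (Matrix.single i j 1) (Matrix.single j i 1)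
    simp only [Matrix.sub_mul, Matrix.mul_sub, Matrix.smul_mul, Matrix.mul_smul, Matrix.one_mul,
      Matrix.mul_one, Matrix.single_mul_single_same] at e
    have e1 := congrFun (congrFun e j) j
    have e2 := congrFun (congrFun e i) i
    have e3 := congrFun (congrFun e j) i
    have e4 := congrFun (congrFun e i) j
    simp [hij, hij.symm] at e1 e2 e3 e4
    grind
  intro x
  rw [Matrix.eta_fin_two x]
  have hx : (!![x 0 0, x 0 1; x 1 0, x 1 1] : Matrix (Fin 2) (Fin 2) Ω) =
      x 0 0 • Matrix.single 0 0 1 + x 0 1 • Matrix.single 0 1 1 +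
      x 1 0 • Matrix.single 1 0 1 + x 1 1 • Matrix.single 1 1 1 := by
    ext i j
    fin_cases i <;> fin_cases j <;> simp [Matrix.single]
  rw [Matrix.trace_fin_two_of, hx, map_add, map_add, map_add, map_smul, map_smul, map_smul,
    map_smul, (key 0 1 (by decide)).1, (key 0 1 (by decide)).2, (key 1 0 (by decide)).1,
    (key 1 0 (by decide)).2]
  simp

end MatrixCore

/-- The quadratic lemma. -/
theorem finrank_le_two_and_charpoly [IsAlgClosed Ω] [FiniteDimensional Ω W]
    (ρ : G →* Module.End Ω W) (t : G → Ω) (d : G →* Ω)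
    (hrel : ∀ g, ρ g + d g • ρ g⁻¹ = t g • 1)
    (hirr : ∀ U : Submodule Ω W, (∀ g, ∀ x ∈ U, ρ g x ∈ U) → U = ⊥ ∨ U = ⊤) :
    finrank Ω W ≤ 2 ∧ (finrank Ω W = 2 →
      ∀ g, LinearMap.charpoly (ρ g) = X ^ 2 - C (t g) * X + C (d g)) := by
  classical
  by_cases hd : finrank Ω W ≤ 1
  · exact ⟨hd.trans one_le_two, fun h => absurd hd (by omega)⟩
  push Not at hd
  haveI : Nontrivial W := Module.nontrivial_of_finrank_pos (R := Ω) (by omega)
  have hspan := span_range_eq_top_of_irreducible ρ hirr
  let n := finrank Ω W
  let bas : Module.Basis (Fin n) Ω W := Module.finBasis Ω W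
  let Φ : Module.End Ω W ≃ₐ[Ω] Matrix (Fin n) (Fin n) Ω := LinearMap.toMatrixAlgEquiv bas
  -- the linear extension of the anti-involution
  let ev : (G →₀ Ω) →ₗ[Ω] Module.End Ω W := Finsupp.linearCombination Ω (fun g => ρ g)
  let τ₀ : (G →₀ Ω) →ₗ[Ω] Ω := Finsupp.linearCombination Ω t
  let ι₀ : (G →₀ Ω) →ₗ[Ω] Module.End Ω W :=
    Finsupp.linearCombination Ω (fun g => d g • ρ g⁻¹)
  have hι₀ : ∀ c, ι₀ c = τ₀ c • 1 - ev c := by
    intro c
    induction c using Finsupp.induction_linear with
    | zero => simp
    | add a b ha hb => rw [map_add, map_add, map_add, ha, hb, add_smul]; abel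
    | single g a =>
      simp only [ι₀, τ₀, ev, Finsupp.linearCombination_single, smul_eq_mul]
      rw [eq_sub_of_add_eq' (hrel g), smul_sub, mul_smul]
  have hevsurj : Function.Surjective ev := by
    rw [← LinearMap.range_eq_top]
    exact (Finsupp.range_linearCombination _).trans hspan
  have hscalar : ∃ v : Module.End Ω W, ∀ c : Ω, c • (1 : Module.End Ω W) ≠ v := by
    by_contra hall
    push Not at hall
    have : finrank Ω (Module.End Ω W) ≤ 1 := by
      refine finrank_le_one (1 : Module.End Ω W) fun v => ?_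
      obtain ⟨c, hc⟩ := hall v
      exact ⟨c, hc⟩
    rw [Module.finrank_linearMap] at this
    have h4 : 1 < finrank Ω W * finrank Ω W := by nlinarith
    omega
  have hker : ∀ c, ev c = 0 → τ₀ c = 0 := by
    intro c hc
    by_contra hs
    obtain ⟨v, hv⟩ := hscalar
    obtain ⟨b, hb⟩ := hevsurj v
    -- every `ρ h` is scalar
    have hsc : ∀ h, ∃ a : Ω, a • (1 : Module.End Ω W) = ρ h := by
      intro h
      let c' : G →₀ Ω := c.mapDomain (fun g => h * g)
      have hev : ev c' = ρ h * ev c := by
        clear hc hs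
        induction c using Finsupp.induction_linear with
        | zero => simp [c']
        | add a b ha hb =>
          simp only [c', Finsupp.mapDomain_add, map_add, mul_add] at ha hb ⊢
          rw [ha, hb]
        | single g a => simp [c', ev, Finsupp.mapDomain_single]
      have hι : ι₀ c' = d h • (ι₀ c * ρ h⁻¹) := by
        clear hc hs hev
        induction c using Finsupp.induction_linear with
        | zero => simp [c']
        | add a b ha hb =>
          simp only [c', Finsupp.mapDomain_add, map_add, add_mul, smul_add] at ha hb ⊢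
          rw [ha, hb]
        | single g a =>
          simp only [c', ι₀, Finsupp.mapDomain_single, Finsupp.linearCombination_single,
            mul_inv_rev, map_mul, smul_mul_assoc, smul_smul]
          congr 1
          ring
      rw [hι₀, hι₀, hev, hc, mul_zero, sub_zero, sub_zero, smul_mul_assoc, one_mul, smul_smul]
        at hι
      refine ⟨(τ₀ c' / (d h * τ₀ c))⁻¹, ?_⟩
      have hdh : d h ≠ 0 := fun h0 => by
        have := d.map_mul h h⁻¹
        rw [mul_inv_cancel, map_one, h0, zero_mul] at this
        exact one_ne_zero this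
      have hinv : ρ h⁻¹ = (τ₀ c' / (d h * τ₀ c)) • (1 : Module.End Ω W) := by
        rw [div_eq_inv_mul, mul_smul, hι, smul_smul, inv_mul_cancel₀ (mul_ne_zero hdh hs),
          one_smul]
      have h1 : ρ h * ρ h⁻¹ = 1 := by rw [← map_mul, mul_inv_cancel, map_one]
      rw [hinv, mul_smul_comm, mul_one] at h1
      have hne : τ₀ c' / (d h * τ₀ c) ≠ 0 := fun h0 => by
        rw [h0, zero_smul] at h1
        exact one_ne_zero h1.symm
      rw [← h1, smul_smul, inv_mul_cancel₀ hne, one_smul]
    have hmem : v ∈ Submodule.span Ω {(1 : Module.End Ω W)} := by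
      have hle : Submodule.span Ω (Set.range ρ) ≤ Submodule.span Ω {(1 : Module.End Ω W)} := by
        rw [Submodule.span_le]
        rintro _ ⟨h, rfl⟩
        exact Submodule.mem_span_singleton.mpr (hsc h)
      exact hle (hspan ▸ Submodule.mem_top)
    obtain ⟨a, ha⟩ := Submodule.mem_span_singleton.mp hmem
    exact hv a ha
  obtain ⟨sec, hsec⟩ := ev.exists_rightInverse_of_surjective (LinearMap.range_eq_top.mpr hevsurj)
  let τ : Module.End Ω W →ₗ[Ω] Ω := τ₀.comp sec
  have hsec' : ∀ x, ev (sec x) = x := LinearMap.congr_fun hsec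
  have hτ : ∀ c, τ (ev c) = τ₀ c := fun c => by
    have h0 := hker (sec (ev c) - c) (by rw [map_sub, hsec', sub_self])
    rwa [map_sub, sub_eq_zero] at h0
  have hτρ : ∀ g, τ (ρ g) = t g := fun g => by
    simpa [ev, τ₀] using hτ (Finsupp.single g 1)
  have hanti : ∀ x y : Module.End Ω W,
      τ (x * y) • (1 : Module.End Ω W) - x * y = (τ y • 1 - y) * (τ x • 1 - x) := by
    have hgen : ∀ g g', τ (ρ g * ρ g') • (1 : Module.End Ω W) - ρ g * ρ g' =
        (τ (ρ g') • 1 - ρ g') * (τ (ρ g) • 1 - ρ g) := by
      intro g g'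
      rw [← map_mul, hτρ, hτρ, hτρ, ← eq_sub_of_add_eq' (hrel (g * g')),
        ← eq_sub_of_add_eq' (hrel g'), ← eq_sub_of_add_eq' (hrel g), mul_inv_rev, map_mul,
        map_mul, smul_mul_smul_comm, mul_comm (d g')]
    intro x y
    have hx : x ∈ Submodule.span Ω (Set.range ρ) := hspan ▸ Submodule.mem_top
    have hy : y ∈ Submodule.span Ω (Set.range ρ) := hspan ▸ Submodule.mem_top
    induction hx using Submodule.span_induction with
    | mem x hx =>
      obtain ⟨g, rfl⟩ := hx
      induction hy using Submodule.span_induction with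
      | mem y hy => obtain ⟨g', rfl⟩ := hy; exact hgen g g'
      | zero => simp
      | add a b _ _ ha hb =>
        simp only [mul_add, map_add, add_smul, add_mul, sub_mul, add_sub_add_comm] at ha hb ⊢
        rw [ha, hb]
      | smul c a _ ha =>
        simp only [mul_smul_comm, map_smul, smul_eq_mul, mul_smul, ← smul_sub, smul_mul_assoc,
          ha]
    | zero => simp
    | add a b _ _ ha hb =>
      simp only [mul_add, map_add, add_smul, add_mul, mul_sub, add_sub_add_comm] at ha hb ⊢
      rw [ha, hb]
    | smul c a _ ha =>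
      simp only [mul_smul_comm, map_smul, smul_eq_mul, mul_smul, ← smul_sub, smul_mul_assoc, ha]
  let τM : Matrix (Fin n) (Fin n) Ω →ₗ[Ω] Ω := τ.comp Φ.symm.toLinearMap
  have hM : ∀ x y, τM (x * y) • (1 : Matrix (Fin n) (Fin n) Ω) - x * y =
      (τM y • 1 - y) * (τM x • 1 - x) := by
    intro x y
    have h := congrArg Φ (hanti (Φ.symm x) (Φ.symm y))
    simpa [τM, map_mul, map_sub, map_smul, map_one] using h
  have hn2 : n ≤ 2 := by simpa using card_le_two_of_antiInvolution τM hM
  refine ⟨hn2, fun _ g => ?_⟩
  have hn : n = 2 := le_antisymm hn2 hd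
  let bas2 : Module.Basis (Fin 2) Ω W := bas.reindex (finCongr hn)
  let Φ2 : Module.End Ω W ≃ₐ[Ω] Matrix (Fin 2) (Fin 2) Ω := LinearMap.toMatrixAlgEquiv bas2
  let τ2 : Matrix (Fin 2) (Fin 2) Ω →ₗ[Ω] Ω := τ.comp Φ2.symm.toLinearMap
  have h2 := eq_trace_of_antiInvolution τ2 (fun x y => by
    have h := congrArg Φ2 (hanti (Φ2.symm x) (Φ2.symm y))
    simpa [τ2, map_mul, map_sub, map_smul, map_one] using h)
  set M := Φ2 (ρ g) with hMdef
  have htr : M.trace = t g := by rw [← h2, ← hτρ]; simp [τ2, M]
  have hdet : M.det = d g := by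
    have h1 : ρ g * (t g • 1 - ρ g) = d g • 1 := by
      rw [← eq_sub_of_add_eq' (hrel g), mul_smul_comm, ← map_mul, mul_inv_cancel, map_one]
    have h2' := congrFun (congrFun (congrArg Φ2 h1) 0) 0
    simp only [map_mul, map_sub, map_smul, map_one, Matrix.mul_apply, Fin.sum_univ_two,
      Matrix.sub_apply, Matrix.smul_apply, Matrix.one_apply_eq, smul_eq_mul, ← htr,
      Matrix.trace_fin_two] at h2'
    rw [Matrix.det_fin_two]
    simp [M] at h2' ⊢
    linear_combination h2'
  rw [← LinearMap.charpoly_toMatrix (ρ g) bas2]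
  show M.charpoly = _
  rw [Matrix.charpoly_fin_two, htr, hdet]

end Fermat.Agent.GalRep
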