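/-
The `p`-adic cyclotomic character on the absolute Galois group of ℚ.
-/
import Mathlib
import Fermat.Agent.Galois.Places

set_option autoImplicit false

noncomputable section

namespace Fermat.Agent.GalRep

open IsLocalRing
open Fermat.Agent.Galois (GQ)

local notation "Q̄" => AlgebraicClosure ℚ

/-- The cyclotomic character. -/
def cyc (p : ℕ) [Fact p.Prime] : GQ →* ℤ_[p]ˣ :=
  (cyclotomicCharacter Q̄ p).comp (MulSemiringAction.toRingAut GQ Q̄)

/-- Roots of unity of order prime to the residue characteristic are distinct in the residue field. -/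
theorem eq_one_of_residue_eq_one {A : ValuationSubring Q̄} {ℓ n : ℕ} (hℓ : ℓ.Prime)
    (hA : A.LiesOverPrime ℓ) (hn : ¬ ℓ ∣ n) {x : A} (hx : x ^ n = 1)
    (h1 : residue A x = 1) : x = 1 := by
  have hgeo : (∑ i ∈ Finset.range n, x ^ i) * (x - 1) = 0 := by
    rw [geom_sum_mul, hx, sub_self]
  rcases mul_eq_zero.mp hgeo with h | h
  · exfalso
    have hres : (n : ResidueField A) = 0 := by
      have := congrArg (residue A) h
      simpa [map_sum, h1] using this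
    have hl : (ℓ : A) ∈ maximalIdeal A := by
      rw [← ValuationSubring.coe_mem_nonunits_iff]
      simpa [ValuationSubring.LiesOverPrime] using hA
    have hl0 : (ℓ : ResidueField A) = 0 := by
      rw [← map_natCast (residue A)]
      exact (residue_eq_zero_iff _).mpr hl
    obtain ⟨a, b, hab⟩ := Int.isCoprime_iff_gcd_eq_one.mpr
      (show Int.gcd (ℓ : ℤ) (n : ℤ) = 1 by
        simpa [Int.gcd_natCast_natCast] using (hℓ.coprime_iff_not_dvd.mpr hn))
    have h2 := congrArg (fun z : ℤ => (z : ResidueField A)) hab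
    push_cast at h2
    rw [hl0, hres] at h2
    simp at h2
  · exact sub_eq_zero.mp h

theorem pow_eq_of_residue_eq {A : ValuationSubring Q̄} {ℓ n : ℕ} (hℓ : ℓ.Prime)
    (hA : A.LiesOverPrime ℓ) (hn : ¬ ℓ ∣ n) {x y : A} (hx : x ^ n = 1) (hy : y ^ n = 1)
    (h : residue A x = residue A y) : x = y := by
  have hn0 : n ≠ 0 := fun h => hn (h ▸ dvd_zero ℓ)
  have hz : x * y ^ (n - 1) = 1 := by
    refine eq_one_of_residue_eq_one hℓ hA hn ?_ ?_
    · rw [mul_pow, hx, ← pow_mul, mul_comm (n - 1), pow_mul, hy, one_pow, one_mul]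
    · rw [map_mul, h, ← map_mul, ← pow_succ', Nat.sub_add_cancel (Nat.one_le_iff_ne_zero.mpr hn0),
        hy, map_one]
  calc x = x * (y ^ (n - 1) * y) := by
        rw [← pow_succ, Nat.sub_add_cancel (Nat.one_le_iff_ne_zero.mpr hn0), hy, mul_one]
    _ = y := by rw [← mul_assoc, hz, one_mul]

variable (p : ℕ) [Fact p.Prime]

theorem cyc_spec (σ : GQ) {k : ℕ} (t : Q̄) (ht : t ^ p ^ k = 1) :
    σ t = t ^ ((cyc p σ).val.toZModPow k).val :=
  cyclotomicCharacter.spec p (L := Q̄) (MulSemiringAction.toRingAut GQ Q̄ σ) t ht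

theorem toZModPow_cyc_eq (σ : GQ) {k : ℕ} (hk : k ≠ 0) {ζ : Q̄} (hζ : IsPrimitiveRoot ζ (p ^ k))
    {m : ℕ} (h : σ ζ = ζ ^ m) : (cyc p σ).val.toZModPow k = (m : ZMod (p ^ k)) := by
  have h1 := cyc_spec p σ ζ hζ.pow_eq_one
  have : NeZero (p ^ k) := ⟨pow_ne_zero k (Fact.out (p := p.Prime)).ne_zero⟩
  rw [h] at h1
  obtain ⟨u, hu⟩ := hζ.isUnit (NeZero.ne _)
  rw [← hu, ← Units.val_pow_eq_pow_val, ← Units.val_pow_eq_pow_val, Units.val_inj,
    pow_inj_mod, ← orderOf_units, hu, ← hζ.eq_orderOf] at h1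
  rw [← ZMod.natCast_zmod_val ((cyc p σ).val.toZModPow k)]
  exact ((ZMod.natCast_eq_natCast_iff' _ _ _).mpr h1).symm

/-- The residual action of a decomposition group element determines the cyclotomic character. -/
theorem cyc_eq_natCast_of_residue {A : ValuationSubring Q̄} {ℓ : ℕ} (hℓ : ℓ.Prime) (hℓp : ℓ ≠ p)
    (hA : A.LiesOverPrime ℓ) {σ : GQ} (hσ : σ ∈ A.decompositionSubgroup ℚ) (m : ℕ)
    (h : ∀ x : ResidueField A, (⟨σ, hσ⟩ : A.decompositionSubgroup ℚ) • x = x ^ m) :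
    (cyc p σ).val = (m : ℤ_[p]) := by
  refine PadicInt.ext_of_toZModPow.mp fun k => ?_
  rw [map_natCast]
  rcases eq_or_ne k 0 with rfl | hk
  · have : Subsingleton (ZMod (p ^ 0)) := by rw [pow_zero]; infer_instance
    exact Subsingleton.elim _ _
  have : NeZero (p ^ k) := ⟨pow_ne_zero k (Fact.out (p := p.Prime)).ne_zero⟩
  obtain ⟨ζ, hζ⟩ := HasEnoughRootsOfUnity.exists_primitiveRoot Q̄ (p ^ k)
  refine toZModPow_cyc_eq p σ hk hζ ?_
  have hnd : ¬ ℓ ∣ p ^ k := fun h =>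
    hℓp ((Nat.prime_dvd_prime_iff_eq hℓ Fact.out).mp (hℓ.dvd_of_dvd_pow h))
  have hζA : ζ ∈ A := by
    have hint : _root_.IsIntegral ℤ ζ := hζ.isIntegral (Nat.pos_of_ne_zero (NeZero.ne _))
    exact Galois.integralClosure_le A ⟨ζ, hint⟩
  let x : A := ⟨ζ, hζA⟩
  have hx : x ^ (p ^ k) = 1 := Subtype.ext (by simpa [x] using hζ.pow_eq_one)
  have hsx : ((⟨σ, hσ⟩ : A.decompositionSubgroup ℚ) • x) ^ (p ^ k) = 1 := by
    rw [← smul_pow', hx, smul_one]
  have hxm : (x ^ m) ^ (p ^ k) = 1 := by rw [← pow_mul, mul_comm, pow_mul, hx, one_pow]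
  have := pow_eq_of_residue_eq hℓ hA hnd hsx hxm
    (by rw [ResidueField.residue_smul, h, map_pow])
  exact congrArg Subtype.val this

theorem cyc_frobenius {A : ValuationSubring Q̄} {ℓ : ℕ} (hℓ : ℓ.Prime) (hℓp : ℓ ≠ p)
    (hA : A.LiesOverPrime ℓ) {σ : GQ} (hσ : A.IsFrobeniusAt σ ℓ) :
    (cyc p σ).val = (ℓ : ℤ_[p]) :=
  cyc_eq_natCast_of_residue p hℓ hℓp hA hσ.mem_decompositionSubgroup ℓ hσ.smul_residue_eq

theorem cyc_inertia {A : ValuationSubring Q̄} {ℓ : ℕ} (hℓ : ℓ.Prime) (hℓp : ℓ ≠ p)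
    (hA : A.LiesOverPrime ℓ) {σ : GQ} (hσ : σ ∈ A.inertiaSubgroupIn ℚ) : cyc p σ = 1 := by
  obtain ⟨s, hs, rfl⟩ := hσ
  refine Units.ext ?_
  have := cyc_eq_natCast_of_residue p hℓ hℓp hA s.2 1 (fun x => by
    have h := RingEquiv.congr_fun (MonoidHom.mem_ker.mp hs) x
    rw [pow_one]
    exact h)
  simpa using this

/-- The cyclotomic character is continuous. -/
theorem exists_cyc_level (k : ℕ) : ∃ F : IntermediateField ℚ Q̄, FiniteDimensional ℚ F ∧
    ∀ σ : GQ, (∀ x ∈ F, σ x = x) → ∃ c : ℤ_[p], (cyc p σ).val - 1 = (p ^ k : ℤ_[p]) * c := by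
  have : NeZero (p ^ k) := ⟨pow_ne_zero k (Fact.out (p := p.Prime)).ne_zero⟩
  obtain ⟨ζ, hζ⟩ := HasEnoughRootsOfUnity.exists_primitiveRoot Q̄ (p ^ k)
  refine ⟨IntermediateField.adjoin ℚ {ζ},
    IntermediateField.adjoin.finiteDimensional (Algebra.IsIntegral.isIntegral ζ), fun σ hσ => ?_⟩
  have h1 : ((cyc p σ).val - 1).toZModPow k = 0 := by
    rcases eq_or_ne k 0 with rfl | hk
    · have : Subsingleton (ZMod (p ^ 0)) := by rw [pow_zero]; infer_instance
      exact Subsingleton.elim _ _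
    rw [map_sub, toZModPow_cyc_eq p σ hk hζ (m := 1)
      (by rw [pow_one]; exact hσ ζ (IntermediateField.mem_adjoin_simple_self ℚ ζ))]
    simp
  rw [← RingHom.mem_ker, PadicInt.ker_toZModPow, Ideal.mem_span_singleton] at h1
  obtain ⟨c, hc⟩ := h1
  exact ⟨c, hc⟩

end Fermat.Agent.GalRep
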