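/-
Interface for the construction of the Galois representations of weight two eigen-systems:

* part A: Hecke action on parabolic homomorphisms of `Γ₀(N)` and periods;
* part B/C: Galois action on `Hom_par(Γ₀(N), ℤ/n)` through Kummer functions, congruences;
* part D: injectivity of reduction on Kummer classes;
* part E: assembly, from an `EichlerShimuraDatum`.
-/
import Mathlib
import Fermat.Prelude.Def_CuspForm_HeckeAlgebra
import Fermat.Prelude.Def_ModularCurve_PeriodMap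
import Fermat.Prelude.Def_EllipticCurve_FrobeniusTrace
import Fermat.Agent.Galois.Places

set_option autoImplicit false

noncomputable section

namespace Fermat.Agent.GalRep

open UpperHalfPlane CongruenceSubgroup
open scoped MatrixGroups Manifold
open Fermat.Agent.Galois (GQ)

/-! ## Parabolic homomorphisms and Hecke transfer (part A) -/

/-- Homomorphisms `Γ₀(N) → A` killing all elements of trace `±2` (so also `-1`). -/
abbrev ParHom (N : ℕ) (A : Type) [AddCommGroup A] : Submodule ℤ (Additive (Gamma0 N) →+ A) :=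
  ModularCurve.Period.parabolicHoms ℤ (Gamma0 N) A

/-- Primes not dividing the level. -/
abbrev GoodPrime (N : ℕ) : Type := {ℓ : Nat.Primes // ¬ (ℓ : ℕ) ∣ N}

/-- The standard representatives of the double coset of `diag(1, ℓ)`. -/
def heckeRep (ℓ : ℕ) : Option (Fin ℓ) → Matrix (Fin 2) (Fin 2) ℤ
  | none => !![(ℓ : ℤ), 0; 0, 1]
  | some b => !![1, (b : ℤ); 0, (ℓ : ℤ)]

/-- `χ'` is the Hecke transfer `T_ℓ χ` of `χ`. -/
def IsHeckeTransfer (N ℓ : ℕ) {A : Type} [AddCommGroup A]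
    (χ χ' : Additive (Gamma0 N) →+ A) : Prop :=
  ∀ γ : Gamma0 N, ∃ (e : Equiv.Perm (Option (Fin ℓ))) (g : Option (Fin ℓ) → Gamma0 N),
    (∀ i, heckeRep ℓ i * ((γ : SL(2, ℤ)) : Matrix (Fin 2) (Fin 2) ℤ) =
      ((g i : SL(2, ℤ)) : Matrix (Fin 2) (Fin 2) ℤ) * heckeRep ℓ (e i)) ∧
    χ' (Additive.ofMul γ) = ∑ i, χ (Additive.ofMul (g i))

/-! ## Functions on the upper half plane and their series at infinity (parts B, C, D) -/

/-- `F` is given near `i∞` by the Laurent series `f` in `exp(2πiτ/w)` (absolutely convergent). -/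
def HasQSeries (w : ℕ) (F : ℍ → ℂ) (f : LaurentSeries ℂ) : Prop :=
  ∀ᶠ τ : ℍ in atImInfty,
    HasSum (fun m : ℤ => f.coeff m * Complex.exp (2 * Real.pi * Complex.I * m * (τ : ℂ) / w)) (F τ)

/-- Meromorphy at every cusp, for a function holomorphic on `ℍ`. -/
def HasSeriesAtCusps (F : ℍ → ℂ) : Prop :=
  ∀ δ : SL(2, ℤ), ∃ (w : ℕ) (f : LaurentSeries ℂ), 0 < w ∧ HasQSeries w (fun τ => F (δ • τ)) f

/-- A holomorphic modular function for `Γ` (weight zero, poles at cusps allowed). -/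
structure IsModFun (Γ : Subgroup SL(2, ℤ)) (F : ℍ → ℂ) : Prop where
  holo : MDifferentiable 𝓘(ℂ) 𝓘(ℂ) F
  invariant : ∀ γ ∈ Γ, ∀ τ : ℍ, F (γ • τ) = F τ
  cusps : HasSeriesAtCusps F

/-- A nonzero holomorphic function on `ℍ`, meromorphic at the cusps, transforming by the
character `exp(2πi χ/n)`. -/
structure IsKummerRep (N n : ℕ) [NeZero n] (χ : ParHom N (ZMod n)) (F : ℍ → ℂ) : Prop where
  holo : MDifferentiable 𝓘(ℂ) 𝓘(ℂ) F
  ne_zero : F ≠ 0
  equivariant : ∀ (γ : Gamma0 N) (τ : ℍ), F ((γ : SL(2, ℤ)) • τ) =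
    ZMod.stdAddChar ((χ : Additive (Gamma0 N) →+ ZMod n) (Additive.ofMul γ)) * F τ
  cusps : HasSeriesAtCusps F

/-- A fixed embedding of `ℚ̄` in `ℂ`. -/
def qbarToC : AlgebraicClosure ℚ →+* ℂ :=
  (IsAlgClosed.lift (R := ℚ) (M := ℂ) (S := AlgebraicClosure ℚ)).toRingHom

/-- Coefficientwise image in `ℂ` of a series with algebraic coefficients. -/
def seriesToC (f : LaurentSeries (AlgebraicClosure ℚ)) : LaurentSeries ℂ :=
  f.map qbarToC.toAddMonoidHom

/-- Coefficientwise Galois conjugate. -/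
def seriesConj (σ : GQ) (f : LaurentSeries (AlgebraicClosure ℚ)) :
    LaurentSeries (AlgebraicClosure ℚ) :=
  f.map (σ.toRingEquiv.toRingHom.toAddMonoidHom)

/-- The Galois action on `Hom_par(Γ₀(N), ℤ/n)` (part B). -/
structure KummerGalois (N n : ℕ) [NeZero n] : Type where
  galois : GQ →* Module.End ℤ (ParHom N (ZMod n))
  continuous : ∃ L : IntermediateField ℚ (AlgebraicClosure ℚ), FiniteDimensional ℚ L ∧
    ∀ σ : GQ, (∀ x ∈ L, σ x = x) → galois σ = 1
  exists_algebraic : ∀ χ : ParHom N (ZMod n), ∃ (F : ℍ → ℂ)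
    (f : LaurentSeries (AlgebraicClosure ℚ)), IsKummerRep N n χ F ∧ HasQSeries 1 F (seriesToC f)
  galois_spec : ∀ (σ : GQ) (χ : ParHom N (ZMod n)) (F : ℍ → ℂ)
    (f : LaurentSeries (AlgebraicClosure ℚ)), IsKummerRep N n χ F → HasQSeries 1 F (seriesToC f) →
    ∃ F' : ℍ → ℂ, IsKummerRep N n (galois σ χ) F' ∧ HasQSeries 1 F' (seriesToC (seriesConj σ f))

/-- All coefficients lie in the valuation ring. -/
def SeriesIntegral (A : ValuationSubring (AlgebraicClosure ℚ))
    (f : LaurentSeries (AlgebraicClosure ℚ)) : Prop :=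
  ∀ m, f.coeff m ∈ A

/-- Coefficientwise congruence modulo the maximal ideal. -/
def SeriesCongr (A : ValuationSubring (AlgebraicClosure ℚ))
    (f g : LaurentSeries (AlgebraicClosure ℚ)) : Prop :=
  ∀ m, f.coeff m - g.coeff m ∈ A.nonunits

/-- Part D: a Kummer function whose `n`-th power is congruent to the `n`-th power of a modular
function has a character killed by a constant independent of `n`. -/
def KummerReduction (N : ℕ) : Prop :=
  ∀ ℓ : ℕ, ℓ.Prime → ¬ ℓ ∣ N → ∃ D : ℕ, 0 < D ∧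
    ∀ (n : ℕ) [NeZero n], ¬ ℓ ∣ n →
    ∀ A : ValuationSubring (AlgebraicClosure ℚ), A.LiesOverPrime ℓ →
    ∀ (χ : ParHom N (ZMod n)) (h v : ℍ → ℂ) (hq vq : LaurentSeries (AlgebraicClosure ℚ)),
      IsKummerRep N n χ h → HasQSeries 1 h (seriesToC hq) →
      IsModFun (Gamma0 N) v → HasQSeries 1 v (seriesToC vq) →
      SeriesIntegral A (hq ^ n) → SeriesIntegral A vq → (∃ m, vq.coeff m ∉ A.nonunits) →
      SeriesCongr A (hq ^ n) (vq ^ n) → D • χ = 0

/-- Parts B, C, D together: congruence relation and unramifiedness, up to a constant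
independent of `n`. -/
def KummerFrobenius (N : ℕ) : Prop :=
  ∀ ℓ : GoodPrime N, ∃ D : ℕ, 0 < D ∧
    ∀ (n : ℕ) [NeZero n], ¬ (ℓ : ℕ) ∣ n → ∀ K : KummerGalois N n,
    ∀ A : ValuationSubring (AlgebraicClosure ℚ), A.LiesOverPrime ℓ →
      (∀ σ ∈ A.inertiaSubgroupIn ℚ, ∀ χ, D • (K.galois σ χ - χ) = 0) ∧
      ∀ σ : GQ, A.IsFrobeniusAt σ ℓ → ∀ χ χ' : ParHom N (ZMod n),
        IsHeckeTransfer N ℓ
          ((K.galois σ χ : ParHom N (ZMod n)) : Additive (Gamma0 N) →+ ZMod n) χ' →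
        D • (K.galois σ (K.galois σ χ) - χ' + (ℓ : ℕ) • χ) = 0

/-- Part C: the Galois action commutes with the Hecke transfer. -/
def KummerHeckeComm (N n : ℕ) [NeZero n] : Prop :=
  ∀ (K : KummerGalois N n) (ℓ : GoodPrime N) (σ : GQ) (χ χ' : ParHom N (ZMod n)),
    IsHeckeTransfer N ℓ (χ : Additive (Gamma0 N) →+ ZMod n)
        (χ' : Additive (Gamma0 N) →+ ZMod n) →
      IsHeckeTransfer N ℓ
        ((K.galois σ χ : ParHom N (ZMod n)) : Additive (Gamma0 N) →+ ZMod n)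
        ((K.galois σ χ' : ParHom N (ZMod n)) : Additive (Gamma0 N) →+ ZMod n)

/-- Reduction of coefficients `ℤ/n → ℤ/m` on parabolic homomorphisms, as a relation. -/
def IsCastHom {N m n : ℕ} (hmn : m ∣ n) (χ : ParHom N (ZMod n)) (χ' : ParHom N (ZMod m)) : Prop :=
  (χ' : Additive (Gamma0 N) →+ ZMod m) =
    (ZMod.castHom hmn (ZMod m)).toAddMonoidHom.comp (χ : Additive (Gamma0 N) →+ ZMod n)

/-- Part B: compatibility of the Galois actions for `m ∣ n`. -/
def KummerCompat (N : ℕ) : Prop :=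
  ∀ (m n : ℕ) [NeZero m] [NeZero n] (hmn : m ∣ n) (K : KummerGalois N n) (K' : KummerGalois N m)
    (σ : GQ) (χ : ParHom N (ZMod n)) (χ' : ParHom N (ZMod m)),
    IsCastHom hmn χ χ' → IsCastHom hmn (K.galois σ χ) (K'.galois σ χ')

/-! ## The datum used by the assembly (part E) -/

/-- Polynomials in the good Hecke operators. -/
abbrev HeckePoly (N : ℕ) : Type := MvPolynomial (GoodPrime N) ℤ

/-- Evaluation of a Hecke polynomial on cusp forms of weight two. -/
def evForms (N : ℕ) [NeZero N] : HeckePoly N →ₐ[ℤ] CuspForm.heckeAlgebra N 2 (∅ : Set ℕ) :=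
  MvPolynomial.aeval fun ℓ =>
    CuspForm.heckeAlgebra.T ℓ.1.2 ℓ.2 (Set.notMem_empty _)

/-- The polynomial only involves primes outside `S`. -/
def SupportedOutside {N : ℕ} (S : Set ℕ) (P : HeckePoly N) : Prop :=
  P ∈ Algebra.adjoin ℤ (MvPolynomial.X '' {ℓ : GoodPrime N | ((ℓ : Nat.Primes) : ℕ) ∉ S})

/-- A `p`-adic lattice with commuting Galois and (faithful, saturated) Hecke actions satisfying
the congruence relation. -/
structure EichlerShimuraDatum (N p : ℕ) [NeZero N] [Fact p.Prime] : Type 1 where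
  L : Type
  [instAddCommGroup : AddCommGroup L]
  [instModule : Module ℤ_[p] L]
  [instFree : Module.Free ℤ_[p] L]
  [instFinite : Module.Finite ℤ_[p] L]
  galois : GQ →* Module.End ℤ_[p] L
  continuous : ∀ k : ℕ, ∃ F : IntermediateField ℚ (AlgebraicClosure ℚ), FiniteDimensional ℚ F ∧
    ∀ σ : GQ, (∀ x ∈ F, σ x = x) → ∀ v : L, ∃ w : L, galois σ v - v = (p ^ k : ℤ_[p]) • w
  hecke : HeckePoly N →ₐ[ℤ] Module.End ℤ_[p] L
  galois_hecke : ∀ σ P, Commute (galois σ) (hecke P)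
  unramified : ∀ q : ℕ, q.Prime → ¬ q ∣ N → q ≠ p → ∀ A : ValuationSubring (AlgebraicClosure ℚ),
    A.LiesOverPrime q → ∀ σ ∈ A.inertiaSubgroupIn ℚ, galois σ = 1
  frobenius : ∀ ℓ : GoodPrime N, (ℓ : ℕ) ≠ p → ∀ A : ValuationSubring (AlgebraicClosure ℚ),
    A.LiesOverPrime ℓ → ∀ σ : GQ, A.IsFrobeniusAt σ ℓ →
      galois σ * galois σ - hecke (MvPolynomial.X ℓ) * galois σ + ((ℓ : ℕ) : Module.End ℤ_[p] L) = 0
  saturated : ∀ (S : Set ℕ) (k : ℕ), ∃ m : ℕ, ∀ P : HeckePoly N, SupportedOutside S P →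
    (∀ v : L, ∃ w : L, hecke P v = (p ^ m : ℤ_[p]) • w) →
    ∃ Q : HeckePoly N, SupportedOutside S Q ∧ evForms N P = (p ^ k : ℕ) • evForms N Q

attribute [instance] EichlerShimuraDatum.instAddCommGroup EichlerShimuraDatum.instModule
  EichlerShimuraDatum.instFree EichlerShimuraDatum.instFinite

end Fermat.Agent.GalRep
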