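/-
Consequences of an Eichler-Shimura datum: the closed Hecke algebra, extension of eigen-systems,
and the universal trace function.
-/
import Mathlib
import Fermat.Agent.GalRep.Datum
import Fermat.Agent.GalRep.Cyclo

set_option autoImplicit false

noncomputable section

namespace Fermat.Agent.GalRep

open Fermat.Agent.Galois (GQ)
open MvPolynomial (X C aeval rename)

/-- Frobenius density, as used in the assembly. -/
def FrobeniusPowDensity : Prop :=
  ∀ (F : IntermediateField ℚ (AlgebraicClosure ℚ)) [FiniteDimensional ℚ F] (bad : Finset ℕ)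
    (g : GQ), ∃ ℓ : ℕ, ℓ.Prime ∧ ℓ ∉ bad ∧
      ∃ A : ValuationSubring (AlgebraicClosure ℚ), A.LiesOverPrime ℓ ∧
        ∃ σ : GQ, A.IsFrobeniusAt σ ℓ ∧ ∃ b : ℕ, ∀ x ∈ F, (σ ^ b) x = g x

/-- `F^b + l^b F^(-b)` as a polynomial in `t = F + l F^(-1)`. -/
def frobPoly {R : Type*} [Ring R] (t l : R) : ℕ → R
  | 0 => 2
  | 1 => t
  | n + 2 => t * frobPoly t l (n + 1) - l * frobPoly t l n

theorem map_frobPoly {R R' : Type*} [Ring R] [Ring R'] (f : R →+* R') (t l : R) :
    ∀ n, f (frobPoly t l n) = frobPoly (f t) (f l) n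
  | 0 => by simp [frobPoly, map_ofNat]
  | 1 => rfl
  | n + 2 => by
    simp only [frobPoly, map_sub, map_mul, map_frobPoly f t l (n + 1), map_frobPoly f t l n]

theorem pow_add_pow_eq_frobPoly {R : Type*} [Ring R] {F G t : R} {l : ℕ} (hFG : F * G = 1)
    (hGF : G * F = 1) (h : F + (l : R) * G = t) :
    ∀ n, F ^ n + (l : R) ^ n * G ^ n = frobPoly t (l : R) n
  | 0 => by simp [frobPoly, one_add_one_eq_two]
  | 1 => by simpa [frobPoly] using h
  | n + 2 => by
    simp only [frobPoly]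
    rw [← pow_add_pow_eq_frobPoly hFG hGF h (n + 1), ← pow_add_pow_eq_frobPoly hFG hGF h n, ← h]
    have hl : ∀ x : R, Commute (l : R) x := fun x => Nat.cast_commute l x
    have e1 : F * ((l : R) ^ (n + 1) * G ^ (n + 1)) = (l : R) * ((l : R) ^ n * G ^ n) := by
      rw [← mul_assoc, ← ((hl F).pow_left (n + 1)).eq, mul_assoc, pow_succ' G, ← mul_assoc F,
        hFG, one_mul, pow_succ', mul_assoc]
    have e2 : (l : R) * G * F ^ (n + 1) = (l : R) * F ^ n := by
      rw [pow_succ', mul_assoc, ← mul_assoc G, hGF, one_mul]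
    have e3 : (l : R) * G * ((l : R) ^ (n + 1) * G ^ (n + 1)) =
        (l : R) ^ (n + 2) * G ^ (n + 2) := by
      rw [mul_assoc, ← mul_assoc G, ← ((hl G).pow_left (n + 1)).eq, mul_assoc, ← pow_succ',
        ← mul_assoc, ← pow_succ']
    simp only [mul_add, add_mul, e1, e2, e3, ← pow_succ']
    abel

variable {N p : ℕ} [NeZero N] [Fact p.Prime]

/-- Good primes outside `S`. -/
abbrev GoodPrimeOff (N : ℕ) (S : Set ℕ) : Type :=
  {ℓ : GoodPrime N // ((ℓ : Nat.Primes) : ℕ) ∉ S}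

variable (D : EichlerShimuraDatum N p) (S : Set ℕ)

/-- The `ℤ_p`-algebra generated by the Hecke operators outside `S`. -/
def heckeClosure : Subalgebra ℤ_[p] (Module.End ℤ_[p] D.L) :=
  Algebra.adjoin ℤ_[p] (Set.range fun i : GoodPrimeOff N S => D.hecke (X (i : GoodPrime N)))

instance heckeClosure_isMulCommutative : IsMulCommutative (heckeClosure D S) :=
  Algebra.isMulCommutative_adjoin ℤ_[p] (by
    rintro _ ⟨a, rfl⟩ _ ⟨b, rfl⟩
    exact (Commute.all (X (a : GoodPrime N)) (X (b : GoodPrime N))).map D.hecke)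

open scoped IsMulCommutative in
instance heckeClosure_commRing : CommRing (heckeClosure D S) := inferInstance

/-- The generator of the closed Hecke algebra attached to a good prime. -/
def heckeGen (i : GoodPrimeOff N S) : heckeClosure D S :=
  ⟨D.hecke (X (i : GoodPrime N)), Algebra.subset_adjoin ⟨i, rfl⟩⟩

@[simp] theorem coe_heckeGen (i : GoodPrimeOff N S) :
    (heckeGen D S i : Module.End ℤ_[p] D.L) = D.hecke (X (i : GoodPrime N)) := rfl

/-- The closed Hecke algebra as a quotient of a polynomial ring. -/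
def heckeClosureHom : MvPolynomial (GoodPrimeOff N S) ℤ_[p] →ₐ[ℤ_[p]] heckeClosure D S :=
  aeval (heckeGen D S)

theorem heckeClosureHom_surjective : Function.Surjective (heckeClosureHom D S) := by
  have h : (heckeClosure D S) ≤ ((heckeClosure D S).val.comp (heckeClosureHom D S)).range := by
    refine Algebra.adjoin_le ?_
    rintro _ ⟨i, rfl⟩
    exact ⟨X i, by simp [heckeClosureHom]⟩
  intro c
  obtain ⟨q, hq⟩ := h c.2
  exact ⟨q, Subtype.ext hq⟩

theorem coe_heckeClosureHom_map (P : MvPolynomial (GoodPrimeOff N S) ℤ) :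
    ((heckeClosureHom D S (MvPolynomial.map (Int.castRingHom ℤ_[p]) P) : heckeClosure D S) :
        Module.End ℤ_[p] D.L) = D.hecke (rename Subtype.val P) := by
  induction P using MvPolynomial.induction_on with
  | C a => simp [heckeClosureHom]
  | add p q hp hq => simp only [map_add, Subalgebra.coe_add, hp, hq]
  | mul_X p i hp =>
    simp only [map_mul, Subalgebra.coe_mul, hp, MvPolynomial.map_X, MvPolynomial.rename_X]
    congr 1
    simp [heckeClosureHom]

/-- Evaluation of Hecke polynomials outside `S` in the Hecke algebra away from `S`. -/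
def evFormsOff : MvPolynomial (GoodPrimeOff N S) ℤ →ₐ[ℤ] CuspForm.heckeAlgebra N 2 S :=
  aeval fun i => CuspForm.heckeAlgebra.T i.1.1.2 i.1.2 i.2

theorem coe_evFormsOff (P : MvPolynomial (GoodPrimeOff N S) ℤ) :
    (evFormsOff (N := N) S P : Module.End ℂ (CuspForm (CongruenceSubgroup.Gamma0 N) 2)) =
      (evForms N (rename Subtype.val P) :) := by
  induction P using MvPolynomial.induction_on with
  | C a => simp [evFormsOff, evForms]
  | add p q hp hq => simp only [map_add, Subalgebra.coe_add, hp, hq]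
  | mul_X p i hp =>
    simp only [map_mul, Subalgebra.coe_mul, hp, MvPolynomial.rename_X]
    congr 1
    simp [evFormsOff, evForms]

theorem supportedOutside_rename (P : MvPolynomial (GoodPrimeOff N S) ℤ) :
    SupportedOutside S (rename Subtype.val P : HeckePoly N) := by
  rw [SupportedOutside]
  induction P using MvPolynomial.induction_on with
  | C a => rw [MvPolynomial.rename_C]; exact Subalgebra.algebraMap_mem _ a
  | add p q hp hq => rw [map_add]; exact add_mem hp hq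
  | mul_X p i hp =>
    rw [map_mul, MvPolynomial.rename_X]
    exact mul_mem hp (Algebra.subset_adjoin ⟨i, i.2, rfl⟩)

theorem exists_rename_of_supportedOutside {Q : HeckePoly N} (h : SupportedOutside S Q) :
    ∃ Q' : MvPolynomial (GoodPrimeOff N S) ℤ, rename Subtype.val Q' = Q := by
  have : Algebra.adjoin ℤ (MvPolynomial.X '' {ℓ : GoodPrime N | ((ℓ : Nat.Primes) : ℕ) ∉ S}) ≤
      (rename (Subtype.val : GoodPrimeOff N S → GoodPrime N) :
        MvPolynomial (GoodPrimeOff N S) ℤ →ₐ[ℤ] HeckePoly N).range := by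
    refine Algebra.adjoin_le ?_
    rintro _ ⟨i, hi, rfl⟩
    exact ⟨X ⟨i, hi⟩, MvPolynomial.rename_X _ _⟩
  exact this h

/-- Integral polynomials are dense. -/
theorem exists_int_approx {σ : Type*} (q : MvPolynomial σ ℤ_[p]) (m : ℕ) :
    ∃ (P : MvPolynomial σ ℤ) (q' : MvPolynomial σ ℤ_[p]),
      q = MvPolynomial.map (Int.castRingHom ℤ_[p]) P + C ((p : ℤ_[p]) ^ m) * q' := by
  induction q using MvPolynomial.induction_on with
  | C a =>
    have h := PadicInt.appr_spec m a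
    rw [Ideal.mem_span_singleton] at h
    obtain ⟨c, hc⟩ := h
    refine ⟨C (a.appr m : ℤ), C c, ?_⟩
    rw [MvPolynomial.map_C, ← map_mul, ← map_add, ← hc]
    simp
  | add a b ha hb =>
    obtain ⟨P, q', rfl⟩ := ha
    obtain ⟨P', q'', rfl⟩ := hb
    exact ⟨P + P', q' + q'', by rw [map_add]; ring⟩
  | mul_X a i ha =>
    obtain ⟨P, q', rfl⟩ := ha
    exact ⟨P * X i, q' * X i, by rw [map_mul, MvPolynomial.map_X]; ring⟩

variable {D S}

theorem exists_smul_of_forall {m : ℕ} {f : Module.End ℤ_[p] D.L}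
    (h : ∀ v, ∃ w, f v = (p ^ m : ℤ_[p]) • w) :
    ∃ f' : Module.End ℤ_[p] D.L, f = (p ^ m : ℤ_[p]) • f' := by
  let b := Module.Free.chooseBasis ℤ_[p] D.L
  choose w hw using h
  refine ⟨b.constr ℕ fun i => w (b i), b.ext fun i => ?_⟩
  rw [LinearMap.smul_apply, Module.Basis.constr_basis, ← hw]

/-- An element of the closed Hecke algebra divisible by a high power of `p` as an endomorphism
is small under every eigen-system. -/
theorem aeval_mem_pow_of_smul {R : Type*} [CommRing R] [Algebra ℤ_[p] R] {I : Ideal R}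
    (hp : (p : R) ∈ I) (χ : CuspForm.heckeAlgebra N 2 S →+* R) (k : ℕ) :
    ∃ m : ℕ, ∀ q : MvPolynomial (GoodPrimeOff N S) ℤ_[p],
      (∃ f : Module.End ℤ_[p] D.L,
        ((heckeClosureHom D S q : heckeClosure D S) : Module.End ℤ_[p] D.L) =
          (p ^ m : ℤ_[p]) • f) →
      aeval (fun i => χ (evFormsOff S (X i))) q ∈ I ^ k := by
  obtain ⟨m, hm⟩ := D.saturated S k
  refine ⟨max m k, fun q hq => ?_⟩
  obtain ⟨P, q', rfl⟩ := exists_int_approx q (max m k)
  obtain ⟨f, hf⟩ := hq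
  have hpk : ∀ j, k ≤ j → ((p : R) ^ j) ∈ I ^ k := fun j hj =>
    Ideal.pow_le_pow_right hj (Ideal.pow_mem_pow hp j)
  have hP : ∀ v : D.L, ∃ w : D.L, D.hecke (rename Subtype.val P) v = (p ^ m : ℤ_[p]) • w := by
    intro v
    rw [map_add, map_mul, ← MvPolynomial.algebraMap_eq, AlgHom.commutes, ← Algebra.smul_def,
      Subalgebra.coe_add, Subalgebra.coe_smul, coe_heckeClosureHom_map] at hf
    rw [eq_sub_of_add_eq hf, ← smul_sub, LinearMap.smul_apply]
    obtain ⟨j, hj⟩ := Nat.exists_eq_add_of_le (le_max_left m k)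
    exact ⟨(p ^ j : ℤ_[p]) • (f - ((heckeClosureHom D S q' : heckeClosure D S) :
      Module.End ℤ_[p] D.L)) v, by rw [smul_smul, ← pow_add, ← hj]⟩
  obtain ⟨Q, hQ, hPQ⟩ := hm _ (supportedOutside_rename S P) hP
  obtain ⟨Q', rfl⟩ := exists_rename_of_supportedOutside S hQ
  have hev : evFormsOff (N := N) S P = (p ^ k : ℕ) • evFormsOff S Q' := by
    refine Subtype.ext ?_
    have := congrArg
      (Subtype.val : CuspForm.heckeAlgebra N 2 (∅ : Set ℕ) → _) hPQ
    push_cast at this ⊢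
    rw [coe_evFormsOff, coe_evFormsOff]
    exact this
  have hev' : aeval (fun i => χ (evFormsOff S (X i))) (MvPolynomial.map (Int.castRingHom ℤ_[p]) P) =
      χ (evFormsOff S P) :=
    RingHom.congr_fun (MvPolynomial.ringHom_ext
      (f := (aeval (R := ℤ_[p]) fun i => χ (evFormsOff S (X i))).toRingHom.comp
        (MvPolynomial.map (Int.castRingHom ℤ_[p])))
      (g := χ.comp (evFormsOff (N := N) S).toRingHom)
      (fun a => by simp [evFormsOff]) (fun i => by simp)) P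
  rw [map_add, map_mul, hev', MvPolynomial.aeval_C, map_pow, map_natCast]
  refine add_mem ?_ (Ideal.mul_mem_right _ _ (hpk _ (le_max_right m k)))
  rw [hev, map_nsmul, nsmul_eq_mul, Nat.cast_pow]
  exact Ideal.mul_mem_right _ _ (hpk k le_rfl)

/-- Every eigen-system extends to the closed Hecke algebra, continuously. -/
theorem exists_extension {R : Type*} [CommRing R] [Algebra ℤ_[p] R] {I : Ideal R}
    (hp : (p : R) ∈ I) (hI : ∀ r : R, (∀ k, r ∈ I ^ k) → r = 0)
    (χ : CuspForm.heckeAlgebra N 2 S →+* R) :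
    ∃ ψ : heckeClosure D S →ₐ[ℤ_[p]] R,
      (∀ i, ψ (heckeGen D S i) = χ (CuspForm.heckeAlgebra.T i.1.1.2 i.1.2 i.2)) ∧
      ∀ k, ∃ m : ℕ, ∀ c : heckeClosure D S,
        (∃ f, (c : Module.End ℤ_[p] D.L) = (p ^ m : ℤ_[p]) • f) → ψ c ∈ I ^ k := by
  let ev : MvPolynomial (GoodPrimeOff N S) ℤ_[p] →ₐ[ℤ_[p]] R :=
    aeval (fun i => χ (evFormsOff S (X i)))
  have hker : RingHom.ker (heckeClosureHom D S).toRingHom ≤ RingHom.ker ev.toRingHom := by
    intro q hq
    rw [RingHom.mem_ker] at hq ⊢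
    refine hI _ fun k => ?_
    obtain ⟨m, hm⟩ := aeval_mem_pow_of_smul (D := D) hp χ k
    refine hm q ⟨0, ?_⟩
    rw [show heckeClosureHom D S q = 0 from hq, smul_zero]
    rfl
  let ψ : heckeClosure D S →ₐ[ℤ_[p]] R :=
    AlgHom.liftOfSurjective (heckeClosureHom D S) (heckeClosureHom_surjective D S) ev hker
  have hψ : ∀ q, ψ (heckeClosureHom D S q) = ev q := fun q =>
    AlgHom.liftOfSurjective_apply _ _ _ _ q
  refine ⟨ψ, fun i => ?_, fun k => ?_⟩
  · rw [show heckeGen D S i = heckeClosureHom D S (X i) from (MvPolynomial.aeval_X _ _).symm, hψ]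
    simp [ev, evFormsOff]
  · obtain ⟨m, hm⟩ := aeval_mem_pow_of_smul (D := D) hp χ k
    refine ⟨m, fun c hc => ?_⟩
    obtain ⟨q, rfl⟩ := heckeClosureHom_surjective D S c
    rw [hψ]
    exact hm q hc

variable (D S)

/-- The closed Hecke algebra is closed. -/
theorem mem_heckeClosure_of_approx {f : Module.End ℤ_[p] D.L}
    (h : ∀ m : ℕ, ∃ c ∈ heckeClosure D S, ∃ f', f - c = (p ^ m : ℤ_[p]) • f') :
    f ∈ heckeClosure D S := by
  let M := Module.End ℤ_[p] D.L ⧸ Subalgebra.toSubmodule (heckeClosure D S)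
  have h0 : (Submodule.Quotient.mk f : M) ∈
      (⨅ m : ℕ, (Ideal.span {(p : ℤ_[p])}) ^ m • (⊤ : Submodule ℤ_[p] M)) := by
    refine Submodule.mem_iInf _ |>.mpr fun m => ?_
    obtain ⟨c, hc, f', hf⟩ := h m
    have : (Submodule.Quotient.mk f : M) = (p ^ m : ℤ_[p]) • Submodule.Quotient.mk f' := by
      rw [← Submodule.Quotient.mk_smul, ← hf, Submodule.Quotient.eq, sub_sub_cancel]
      exact hc
    rw [this]
    exact Submodule.smul_mem_smul (Ideal.pow_mem_pow (Ideal.mem_span_singleton_self _) m)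
      Submodule.mem_top
  rw [Ideal.iInf_pow_smul_eq_bot_of_le_jacobson _ (by
    rw [← PadicInt.maximalIdeal_eq_span_p]
    exact IsLocalRing.maximalIdeal_le_jacobson _)] at h0
  rw [Submodule.mem_bot, Submodule.Quotient.mk_eq_zero] at h0
  exact h0

/-- The universal trace `g + cyc(g) g⁻¹`. -/
def uTrace (g : GQ) : Module.End ℤ_[p] D.L :=
  D.galois g + (cyc p g).val • D.galois g⁻¹

theorem galois_mul_inv (g : GQ) : D.galois g * D.galois g⁻¹ = 1 := by
  rw [← map_mul, mul_inv_cancel, map_one]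

/-- The relation at a Frobenius in the form `σ + ℓ σ⁻¹ = T_ℓ`. -/
theorem galois_add_smul_inv {i : GoodPrime N} (hi : ((i : Nat.Primes) : ℕ) ≠ p)
    {A : ValuationSubring (AlgebraicClosure ℚ)} (hA : A.LiesOverPrime ((i : Nat.Primes) : ℕ))
    {σ : GQ} (hσ : A.IsFrobeniusAt σ ((i : Nat.Primes) : ℕ)) :
    D.galois σ + (((i : Nat.Primes) : ℕ) : Module.End ℤ_[p] D.L) * D.galois σ⁻¹ =
      D.hecke (X i) := by
  have h := congrArg (fun z => z * D.galois σ⁻¹) (D.frobenius i hi A hA σ hσ)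
  simp only [add_mul, sub_mul, zero_mul, mul_assoc, galois_mul_inv, mul_one] at h
  rw [← sub_eq_zero, add_sub_right_comm]
  exact h

theorem uTrace_frobenius_pow {i : GoodPrime N} (hi : ((i : Nat.Primes) : ℕ) ≠ p)
    {A : ValuationSubring (AlgebraicClosure ℚ)} (hA : A.LiesOverPrime ((i : Nat.Primes) : ℕ))
    {σ : GQ} (hσ : A.IsFrobeniusAt σ ((i : Nat.Primes) : ℕ)) (b : ℕ) :
    uTrace D (σ ^ b) =
      frobPoly (D.hecke (X i)) (((i : Nat.Primes) : ℕ) : Module.End ℤ_[p] D.L) b := by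
  have hGF : D.galois σ⁻¹ * D.galois σ = 1 := by rw [← map_mul, inv_mul_cancel, map_one]
  rw [← pow_add_pow_eq_frobPoly (galois_mul_inv D σ) hGF (galois_add_smul_inv D hi hA hσ) b,
    uTrace, ← inv_pow, map_pow, map_pow, map_pow, Units.val_pow_eq_pow_val,
    cyc_frobenius p i.1.2 hi hA hσ, Algebra.smul_def, map_pow, map_natCast]

/-- A level at which the universal trace is constant modulo `p ^ m`. -/
theorem exists_uTrace_level (m : ℕ) :
    ∃ F : IntermediateField ℚ (AlgebraicClosure ℚ), FiniteDimensional ℚ F ∧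
      ∀ g g' : GQ, (∀ x ∈ F, g x = g' x) →
        ∃ f, uTrace D g - uTrace D g' = (p ^ m : ℤ_[p]) • f := by
  obtain ⟨F₁, hF₁, h1⟩ := D.continuous m
  obtain ⟨F₂, hF₂, h2⟩ := exists_cyc_level p m
  refine ⟨F₁ ⊔ F₂, IntermediateField.finiteDimensional_sup F₁ F₂, fun g g' hgg => ?_⟩
  let d : GQ := g'⁻¹ * g
  have hd : ∀ x ∈ F₁ ⊔ F₂, d x = x := fun x hx => by
    rw [AlgEquiv.mul_apply, hgg x hx, AlgEquiv.aut_inv, AlgEquiv.symm_apply_apply]
  have hd' : ∀ x ∈ F₁ ⊔ F₂, d⁻¹ x = x := fun x hx => by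
    conv_lhs => rw [← hd x hx]
    rw [AlgEquiv.aut_inv, AlgEquiv.symm_apply_apply]
  obtain ⟨c, hc⟩ := h2 d fun x hx => hd x ((le_sup_right : F₂ ≤ F₁ ⊔ F₂) hx)
  obtain ⟨f₁, hf₁⟩ := exists_smul_of_forall (D := D) (m := m) (f := D.galois d - 1)
    (fun v => by simpa using h1 d (fun x hx => hd x ((le_sup_left : F₁ ≤ F₁ ⊔ F₂) hx)) v)
  obtain ⟨f₂, hf₂⟩ := exists_smul_of_forall (D := D) (m := m) (f := D.galois d⁻¹ - 1)
    (fun v => by simpa using h1 d⁻¹ (fun x hx => hd' x ((le_sup_left : F₁ ≤ F₁ ⊔ F₂) hx)) v)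
  have hg : g = g' * d := by simp [d]
  have e1 : D.galois g = D.galois g' + (p ^ m : ℤ_[p]) • (D.galois g' * f₁) := by
    rw [hg, map_mul, ← mul_smul_comm, ← hf₁, mul_sub, mul_one, add_sub_cancel]
  have e2 : D.galois g⁻¹ = D.galois g'⁻¹ + (p ^ m : ℤ_[p]) • (f₂ * D.galois g'⁻¹) := by
    rw [hg, mul_inv_rev, map_mul, ← smul_mul_assoc, ← hf₂, sub_mul, one_mul, add_sub_cancel]
  have e3 : (cyc p g).val = (cyc p g').val + (p : ℤ_[p]) ^ m * ((cyc p g').val * c) := by
    rw [hg, map_mul, Units.val_mul, eq_add_of_sub_eq hc]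
    ring
  refine ⟨D.galois g' * f₁ + (cyc p g).val • (f₂ * D.galois g'⁻¹) +
    ((cyc p g').val * c) • D.galois g'⁻¹, ?_⟩
  rw [uTrace, uTrace, e1, e2, smul_add, smul_add, smul_add]
  conv_lhs => rw [e3]
  simp only [add_smul, smul_smul]
  rw [e3]
  module

theorem uTrace_mem (hdens : FrobeniusPowDensity) (S : Finset ℕ) (g : GQ) :
    uTrace D g ∈ heckeClosure D (↑S : Set ℕ) := by
  refine mem_heckeClosure_of_approx D _ fun m => ?_
  obtain ⟨F, hF, hF'⟩ := exists_uTrace_level D m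
  obtain ⟨ℓ, hℓ, hbad, A, hA, σ, hσ, b, hb⟩ := hdens F (S ∪ {p} ∪ N.primeFactors) g
  simp only [Finset.mem_union, Finset.mem_singleton, not_or] at hbad
  have hℓN : ¬ ℓ ∣ N := fun h => hbad.2 (Nat.mem_primeFactors.mpr ⟨hℓ, h, NeZero.ne N⟩)
  let i : GoodPrimeOff N (↑S : Set ℕ) := ⟨⟨⟨ℓ, hℓ⟩, hℓN⟩, fun h => hbad.1.1 (by simpa using h)⟩
  refine ⟨frobPoly (D.hecke (X (i : GoodPrime N))) ((ℓ : ℕ) : Module.End ℤ_[p] D.L) b, ?_, ?_⟩
  · have := map_frobPoly (heckeClosure D (↑S : Set ℕ)).val.toRingHom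
      (heckeGen D _ i) ((ℓ : ℕ) : heckeClosure D (↑S : Set ℕ)) b
    simp only [AlgHom.toRingHom_eq_coe, RingHom.coe_coe, map_natCast, Subalgebra.coe_val,
      coe_heckeGen] at this
    rw [← this]
    exact SetLike.coe_mem _
  · rw [← uTrace_frobenius_pow D (i := (i : GoodPrime N)) hbad.1.2 hA hσ b]
    exact hF' _ _ fun x hx => (hb x hx).symm

/-- An approximation of the value of an eigen-system on the universal trace. -/
theorem exists_level_eigen {R : Type*} [CommRing R] [Algebra ℤ_[p] R] {I : Ideal R} {k m : ℕ}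
    (S : Finset ℕ) (ψ : heckeClosure D (↑S : Set ℕ) →ₐ[ℤ_[p]] R)
    (hm : ∀ c : heckeClosure D (↑S : Set ℕ),
      (∃ f, (c : Module.End ℤ_[p] D.L) = (p ^ m : ℤ_[p]) • f) → ψ c ∈ I ^ k)
    (hdens : FrobeniusPowDensity) :
    ∃ F : IntermediateField ℚ (AlgebraicClosure ℚ), FiniteDimensional ℚ F ∧
      ∀ (g σ : GQ) (i : GoodPrimeOff N (↑S : Set ℕ)) (A : ValuationSubring (AlgebraicClosure ℚ))
        (b : ℕ), ((i.1 : Nat.Primes) : ℕ) ≠ p → A.LiesOverPrime ((i.1 : Nat.Primes) : ℕ) →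
        A.IsFrobeniusAt σ ((i.1 : Nat.Primes) : ℕ) → (∀ x ∈ F, (σ ^ b) x = g x) →
        ψ ⟨uTrace D g, uTrace_mem D hdens S g⟩ -
          frobPoly (ψ (heckeGen D _ i)) (((i.1 : Nat.Primes) : ℕ) : R) b ∈ I ^ k := by
  obtain ⟨F, hF, hF'⟩ := exists_uTrace_level D m
  refine ⟨F, hF, fun g σ i A b hi hA hσ hb => ?_⟩
  obtain ⟨f, hf⟩ := hF' g (σ ^ b) fun x hx => (hb x hx).symm
  have h := hm (⟨uTrace D g, uTrace_mem D hdens S g⟩ -
    frobPoly (heckeGen D _ i) (((i.1 : Nat.Primes) : ℕ) : heckeClosure D (↑S : Set ℕ)) b) ⟨f, by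
      rw [← hf, uTrace_frobenius_pow D hi hA hσ b]
      have := map_frobPoly (heckeClosure D (↑S : Set ℕ)).val.toRingHom
        (heckeGen D _ i) (((i.1 : Nat.Primes) : ℕ) : heckeClosure D (↑S : Set ℕ)) b
      simp only [AlgHom.toRingHom_eq_coe, RingHom.coe_coe, map_natCast, Subalgebra.coe_val,
        coe_heckeGen] at this
      rw [AddSubgroupClass.coe_sub, this]⟩
  have hh := map_frobPoly ψ.toRingHom (heckeGen D _ i)
    (((i.1 : Nat.Primes) : ℕ) : heckeClosure D (↑S : Set ℕ)) b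
  simp only [AlgHom.toRingHom_eq_coe, RingHom.coe_coe, map_natCast] at hh
  rwa [map_sub, hh] at h

end Fermat.Agent.GalRep
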