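/-
Two-dimensional representations attached to characters of the closed Hecke algebra.
-/
import Mathlib
import Fermat.Agent.GalRep.Universal
import Fermat.Agent.GalRep.Quadratic

set_option autoImplicit false
set_option linter.style.haveILetI false

noncomputable section

namespace Fermat.Agent.GalRep

open Fermat.Agent.Galois (GQ)
open scoped TensorProduct
open scoped IsMulCommutative
open Polynomial Module

variable {N p : ℕ} [NeZero N] [Fact p.Prime]


section Bounded

variable {K : Type} [Field K] [Algebra ℤ_[p] K]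
  {W : Type} [AddCommGroup W] [Module K W]
  {A : Type} [Ring A] [Algebra ℤ_[p] A] [Module.Finite ℤ_[p] A]

set_option maxHeartbeats 1000000 in
/-- A one-dimensional constituent gives a diagonal bounded representation. -/
theorem exists_bounded_rep_one
    (res : A →+* Module.End K W)
    (res_smul : ∀ (c : ℤ_[p]) (f : A), res (c • f) = algebraMap ℤ_[p] K c • res f)
    (a : GQ →* A) (c : GQ →* ℤ_[p]ˣ) (t : GQ → K)
    (hrel : ∀ g, res (a g) + algebraMap ℤ_[p] K (c g).val • res (a g⁻¹) = t g • 1)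
    (h1' : finrank K W = 1) :
    ∃ (r : GQ →* Matrix (Fin 2) (Fin 2) K) (B : Submodule ℤ_[p] (Matrix (Fin 2) (Fin 2) K)),
      B.FG ∧ 1 ∈ B ∧ (∀ x ∈ B, ∀ y ∈ B, x * y ∈ B) ∧ (∀ g, r g ∈ B) ∧
      (∀ g, (r g).trace = t g) ∧
      (∀ g, (r g).det = algebraMap ℤ_[p] K (c g).val) ∧
      (∀ g, a g = 1 → c g = 1 → r g = 1) ∧
      (∀ k : ℕ, ∀ g : GQ, (∃ b, res (a g) - 1 = algebraMap ℤ_[p] K (p ^ k : ℤ_[p]) • res b) →
        (∃ b, res (a g⁻¹) - 1 = algebraMap ℤ_[p] K (p ^ k : ℤ_[p]) • res b) →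
        (∃ e, (c g).val - 1 = (p ^ k : ℤ_[p]) * e) →
        ∃ x ∈ B, r g - 1 = (p ^ k : ℤ_[p]) • x) := by
  classical
  let d : GQ →* K := (algebraMap ℤ_[p] K).toMonoidHom.comp ((Units.coeHom ℤ_[p]).comp c)
  have hd : ∀ g, d g = algebraMap ℤ_[p] K (c g).val := fun g => rfl
  let ρW : GQ →* Module.End K W := res.toMonoidHom.comp a
  obtain ⟨w, hw0, hw⟩ := finrank_eq_one_iff'.mp h1'
  choose s hs using fun f : A => hw (res f w)
  have huniq : ∀ {x y : K}, x • w = y • w → x = y := fun h => smul_left_injective K hw0 h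
  let sl : A →ₗ[ℤ_[p]] K :=
    { toFun := s
      map_add' := fun x y => huniq (by
        rw [add_smul, hs, hs, hs, map_add, LinearMap.add_apply])
      map_smul' := fun e x => huniq (by
        rw [hs, res_smul, LinearMap.smul_apply, ← hs x, RingHom.id_apply, Algebra.smul_def,
          mul_smul]) }
  have s_mul : ∀ x y, s (x * y) = s x * s y := fun x y => huniq (by
    rw [hs, map_mul, Module.End.mul_apply, ← hs y, map_smul, ← hs x, smul_smul, mul_comm])
  have s_one : s 1 = 1 := huniq (by rw [hs, map_one, one_smul, Module.End.one_apply])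
  let φ : GQ →* K :=
    { toFun := fun g => s (a g)
      map_one' := by rw [map_one, s_one]
      map_mul' := fun x y => by rw [map_mul, s_mul] }
  have hφw : ∀ g, ρW g w = φ g • w := fun g => (hs _).symm
  let r : GQ →* Matrix (Fin 2) (Fin 2) K :=
    { toFun := fun g => Matrix.diagonal ![φ g, d g * φ g⁻¹]
      map_one' := by
        rw [inv_one, map_one, map_one, one_mul, ← Matrix.diagonal_one]
        congr 1
        ext i; fin_cases i <;> rfl
      map_mul' := fun x y => by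
        rw [Matrix.diagonal_mul_diagonal, mul_inv_rev, map_mul, map_mul, map_mul]
        congr 1
        ext i; fin_cases i <;> simp [Matrix.vecHead, Matrix.vecTail] <;> ring }
  let diag : (A × A) →ₗ[ℤ_[p]] Matrix (Fin 2) (Fin 2) K :=
    { toFun := fun u => Matrix.diagonal ![sl u.1, sl u.2]
      map_add' := fun u v => by
        ext i j; fin_cases i <;> fin_cases j <;> simp [Matrix.vecHead, Matrix.vecTail]
      map_smul' := fun e u => by
        ext i j; fin_cases i <;> fin_cases j <;> simp [Matrix.vecHead, Matrix.vecTail] }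
  refine ⟨r, LinearMap.range diag, ?_, ⟨(1, 1), ?_⟩, ?_, fun g => ⟨(a g,
    (c g).val • a g⁻¹), ?_⟩, fun g => ?_, fun g => ?_, fun g hg hc => ?_,
    fun k g hg hg' hc => ?_⟩
  · rw [LinearMap.range_eq_map]
    exact Submodule.FG.map _ Module.Finite.fg_top
  · show Matrix.diagonal ![s 1, s 1] = 1
    rw [s_one, ← Matrix.diagonal_one]
    congr 1
    ext i; fin_cases i <;> rfl
  · rintro _ ⟨u, rfl⟩ _ ⟨v, rfl⟩
    refine ⟨u * v, ?_⟩
    show Matrix.diagonal _ = Matrix.diagonal _ * Matrix.diagonal _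
    rw [Matrix.diagonal_mul_diagonal]
    congr 1
    ext i; fin_cases i <;> simp [sl, s_mul]
  · show Matrix.diagonal ![sl (a g), sl ((c g).val • a g⁻¹)] = Matrix.diagonal ![φ g, d g * φ g⁻¹]
    have e : sl ((c g).val • a g⁻¹) = d g * φ g⁻¹ := by
      rw [map_smul, Algebra.smul_def, hd]
      rfl
    rw [e]
    rfl
  · show (Matrix.diagonal ![φ g, d g * φ g⁻¹]).trace = t g
    rw [Matrix.trace_diagonal, Fin.sum_univ_two]
    have := LinearMap.congr_fun (hrel g) w
    rw [LinearMap.add_apply, LinearMap.smul_apply, LinearMap.smul_apply, ← hs, ← hs, smul_smul,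
      ← add_smul, Module.End.one_apply] at this
    simpa [φ, hd] using huniq this
  · show (Matrix.diagonal ![φ g, d g * φ g⁻¹]).det = _
    rw [Matrix.det_diagonal, Fin.prod_univ_two]
    have : φ g * φ g⁻¹ = 1 := by rw [← map_mul, mul_inv_cancel, map_one]
    simp only [Matrix.cons_val_zero, Matrix.cons_val_one]
    rw [mul_left_comm, this, mul_one, hd]
  · simp only [r, MonoidHom.coe_mk, OneHom.coe_mk]
    have e : φ g = 1 := by
      show s _ = 1
      rw [hg, s_one]
    have e' : φ g⁻¹ = 1 := by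
      have h := map_mul φ g g⁻¹
      rw [mul_inv_cancel, map_one, e, one_mul] at h
      exact h.symm
    rw [e, e', hd, hc, Units.val_one, map_one, mul_one, ← Matrix.diagonal_one]
    congr 1
    ext i; fin_cases i <;> rfl
  · obtain ⟨b, hb⟩ := hg
    obtain ⟨b', hb'⟩ := hg'
    obtain ⟨e, he⟩ := hc
    refine ⟨diag (b, b' + e • a g⁻¹), ⟨_, rfl⟩, ?_⟩
    have ea : φ g - 1 = algebraMap ℤ_[p] K (p ^ k : ℤ_[p]) * s b := huniq (by
      have := LinearMap.congr_fun hb w
      rw [LinearMap.sub_apply, LinearMap.smul_apply, ← hs, ← hs, Module.End.one_apply] at this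
      rw [sub_smul, one_smul, mul_smul]
      exact this)
    have ea' : φ g⁻¹ - 1 = algebraMap ℤ_[p] K (p ^ k : ℤ_[p]) * s b' := huniq (by
      have := LinearMap.congr_fun hb' w
      rw [LinearMap.sub_apply, LinearMap.smul_apply, ← hs, ← hs, Module.End.one_apply] at this
      rw [sub_smul, one_smul, mul_smul]
      exact this)
    have ec : d g = 1 + algebraMap ℤ_[p] K (p ^ k : ℤ_[p]) * algebraMap ℤ_[p] K e := by
      rw [hd, ← map_mul, ← he, map_sub, map_one, add_sub_cancel]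
    show Matrix.diagonal ![φ g, d g * φ g⁻¹] - 1 =
      (p ^ k : ℤ_[p]) • Matrix.diagonal ![sl b, sl (b' + e • a g⁻¹)]
    rw [← Matrix.diagonal_one, Matrix.diagonal_sub, ← Matrix.diagonal_smul]
    congr 1
    ext i
    fin_cases i
    · simpa [Algebra.smul_def, sl] using ea
    · simp only [Pi.smul_apply, Fin.mk_one, Matrix.cons_val_one, Matrix.cons_val_zero]
      rw [map_add, map_smul sl, Algebra.smul_def, Algebra.smul_def]
      show d g * φ g⁻¹ - 1 = algebraMap ℤ_[p] K (p ^ k : ℤ_[p]) *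
        (s b' + algebraMap ℤ_[p] K e * φ g⁻¹)
      rw [mul_add, ← ea', ec]
      ring

/-- An irreducible two-dimensional constituent gives a bounded representation. -/
theorem exists_bounded_rep_two [FiniteDimensional K W]
    (res : A →+* Module.End K W)
    (res_smul : ∀ (c : ℤ_[p]) (f : A), res (c • f) = algebraMap ℤ_[p] K c • res f)
    (a : GQ →* A) (c : GQ →* ℤ_[p]ˣ) (t : GQ → K)
    (hrel : ∀ g, res (a g) + algebraMap ℤ_[p] K (c g).val • res (a g⁻¹) = t g • 1)
    (h2 : finrank K W = 2)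
    (hcp : ∀ g, LinearMap.charpoly (res (a g)) =
      X ^ 2 - C (t g) * X + C (algebraMap ℤ_[p] K (c g).val)) :
    ∃ (r : GQ →* Matrix (Fin 2) (Fin 2) K) (B : Submodule ℤ_[p] (Matrix (Fin 2) (Fin 2) K)),
      B.FG ∧ 1 ∈ B ∧ (∀ x ∈ B, ∀ y ∈ B, x * y ∈ B) ∧ (∀ g, r g ∈ B) ∧
      (∀ g, (r g).trace = t g) ∧
      (∀ g, (r g).det = algebraMap ℤ_[p] K (c g).val) ∧
      (∀ g, a g = 1 → c g = 1 → r g = 1) ∧
      (∀ k : ℕ, ∀ g : GQ, (∃ b, res (a g) - 1 = algebraMap ℤ_[p] K (p ^ k : ℤ_[p]) • res b) →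
        (∃ b, res (a g⁻¹) - 1 = algebraMap ℤ_[p] K (p ^ k : ℤ_[p]) • res b) →
        (∃ e, (c g).val - 1 = (p ^ k : ℤ_[p]) * e) →
        ∃ x ∈ B, r g - 1 = (p ^ k : ℤ_[p]) • x) := by
  classical
  let ρW : GQ →* Module.End K W := res.toMonoidHom.comp a
  let d : GQ → K := fun g => algebraMap ℤ_[p] K (c g).val
  have hd : ∀ g, d g = algebraMap ℤ_[p] K (c g).val := fun g => rfl
  have _ := hrel
  let bas : Module.Basis (Fin 2) K W := (Module.finBasisOfFinrankEq K W h2)
  let Φ : Module.End K W ≃ₐ[K] Matrix (Fin 2) (Fin 2) K := LinearMap.toMatrixAlgEquiv bas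
  let M : A →ₗ[ℤ_[p]] Matrix (Fin 2) (Fin 2) K :=
    { toFun := fun f => Φ (res f)
      map_add' := fun x y => by rw [map_add, map_add]
      map_smul' := fun e x => by
        rw [res_smul, map_smul, RingHom.id_apply, IsScalarTower.algebraMap_smul] }
  let r : GQ →* Matrix (Fin 2) (Fin 2) K := Φ.toAlgHom.toMonoidHom.comp ρW
  have hchar : ∀ g, (r g).charpoly = X ^ 2 - C (t g) * X + C (d g) := fun g => by
    rw [← hcp g]
    exact LinearMap.charpoly_toMatrix (ρW g) bas
  refine ⟨r, LinearMap.range M, ?_, ⟨1, ?_⟩, ?_, fun g => ⟨a g, rfl⟩, fun g => ?_,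
    fun g => ?_, fun g hg _ => ?_, fun k g hg _ _ => ?_⟩
  · rw [LinearMap.range_eq_map]
    exact Submodule.FG.map _ Module.Finite.fg_top
  · show Φ (res 1) = 1
    rw [map_one, map_one]
  · rintro _ ⟨x, rfl⟩ _ ⟨y, rfl⟩
    refine ⟨x * y, ?_⟩
    show Φ (res (x * y)) = Φ (res x) * Φ (res y)
    rw [map_mul, map_mul]
  · have h := congrArg (fun q => Polynomial.coeff q 1) (hchar g)
    rw [Matrix.charpoly_fin_two] at h
    simpa [coeff_X_pow, coeff_C] using h
  · have h := congrArg (fun q => Polynomial.coeff q 0) (hchar g)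
    rw [Matrix.charpoly_fin_two] at h
    simpa [coeff_X_pow, coeff_C, hd] using h
  · show Φ (res (a g)) = 1
    rw [hg, map_one, map_one]
  · obtain ⟨b, hb⟩ := hg
    refine ⟨M b, ⟨b, rfl⟩, ?_⟩
    show Φ (res (a g)) - 1 = (p ^ k : ℤ_[p]) • Φ (res b)
    rw [← IsScalarTower.algebraMap_smul K, ← map_smul, ← hb, map_sub, map_one]


/-- From an irreducible quadratic representation realised in a finite algebra to a bounded
representation by two by two matrices. -/
theorem exists_bounded_rep [IsAlgClosed K] [FiniteDimensional K W] [Nontrivial W]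
    (res : A →+* Module.End K W)
    (res_smul : ∀ (c : ℤ_[p]) (f : A), res (c • f) = algebraMap ℤ_[p] K c • res f)
    (a : GQ →* A) (c : GQ →* ℤ_[p]ˣ) (t : GQ → K)
    (hrel : ∀ g, res (a g) + algebraMap ℤ_[p] K (c g).val • res (a g⁻¹) = t g • 1)
    (hirr : ∀ V : Submodule K W, (∀ g, ∀ x ∈ V, res (a g) x ∈ V) → V = ⊥ ∨ V = ⊤) :
    ∃ (r : GQ →* Matrix (Fin 2) (Fin 2) K) (B : Submodule ℤ_[p] (Matrix (Fin 2) (Fin 2) K)),
      B.FG ∧ 1 ∈ B ∧ (∀ x ∈ B, ∀ y ∈ B, x * y ∈ B) ∧ (∀ g, r g ∈ B) ∧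
      (∀ g, (r g).trace = t g) ∧
      (∀ g, (r g).det = algebraMap ℤ_[p] K (c g).val) ∧
      (∀ g, a g = 1 → c g = 1 → r g = 1) ∧
      (∀ k : ℕ, ∀ g : GQ, (∃ b, res (a g) - 1 = algebraMap ℤ_[p] K (p ^ k : ℤ_[p]) • res b) →
        (∃ b, res (a g⁻¹) - 1 = algebraMap ℤ_[p] K (p ^ k : ℤ_[p]) • res b) →
        (∃ e, (c g).val - 1 = (p ^ k : ℤ_[p]) * e) →
        ∃ x ∈ B, r g - 1 = (p ^ k : ℤ_[p]) • x) := by
  obtain ⟨hle, hcp⟩ := finrank_le_two_and_charpoly (res.toMonoidHom.comp a) t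
    ((algebraMap ℤ_[p] K).toMonoidHom.comp ((Units.coeHom ℤ_[p]).comp c)) hrel hirr
  rcases hle.lt_or_eq with h1 | h2
  · refine exists_bounded_rep_one res res_smul a c t hrel ?_
    have := Module.finrank_pos (R := K) (M := W)
    omega
  · exact exists_bounded_rep_two res res_smul a c t hrel h2 (hcp h2)


/-- A bounded two-dimensional representation inside an action satisfying the quadratic relation. -/
theorem exists_rep_of_action [IsAlgClosed K] {U : Type} [AddCommGroup U] [Module K U]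
    [FiniteDimensional K U] [Nontrivial U] {E : Type} [Ring E] [Algebra ℤ_[p] E]
    [Module.Finite ℤ_[p] E] (e : E →+* Module.End K U)
    (e_smul : ∀ (c : ℤ_[p]) (f : E), e (c • f) = algebraMap ℤ_[p] K c • e f)
    (ρ : GQ →* E) (c : GQ →* ℤ_[p]ˣ) (t : GQ → K)
    (hrel : ∀ g, e (ρ g) + algebraMap ℤ_[p] K (c g).val • e (ρ g⁻¹) = t g • 1) :
    ∃ (r : GQ →* Matrix (Fin 2) (Fin 2) K) (B : Submodule ℤ_[p] (Matrix (Fin 2) (Fin 2) K)),
      B.FG ∧ 1 ∈ B ∧ (∀ x ∈ B, ∀ y ∈ B, x * y ∈ B) ∧ (∀ g, r g ∈ B) ∧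
      (∀ g, (r g).trace = t g) ∧
      (∀ g, (r g).det = algebraMap ℤ_[p] K (c g).val) ∧
      (∀ g, ρ g = 1 → c g = 1 → r g = 1) ∧
      (∀ k : ℕ, ∀ g : GQ, (∃ f, ρ g - 1 = (p ^ k : ℤ_[p]) • f) →
        (∃ f, ρ g⁻¹ - 1 = (p ^ k : ℤ_[p]) • f) →
        (∃ e', (c g).val - 1 = (p ^ k : ℤ_[p]) * e') →
        ∃ x ∈ B, r g - 1 = (p ^ k : ℤ_[p]) • x) := by
  classical
  -- a minimal stable subspace
  have hex : ∃ n, ∃ W : Submodule K U, W ≠ ⊥ ∧ (∀ g, ∀ x ∈ W, e (ρ g) x ∈ W) ∧
      finrank K W = n := ⟨_, ⊤, top_ne_bot, fun _ _ _ => Submodule.mem_top, rfl⟩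
  obtain ⟨W, hW0, hWst, hWn⟩ := Nat.find_spec hex
  haveI : Nontrivial W := Submodule.nontrivial_iff_ne_bot.mpr hW0
  -- the stabiliser of `W`
  let A : Subalgebra ℤ_[p] E :=
    { carrier := {f | ∀ x ∈ W, e f x ∈ W}
      mul_mem' := fun {a b} ha hb x hx => by
        rw [map_mul]; exact ha _ (hb x hx)
      add_mem' := fun {a b} ha hb x hx => by
        rw [map_add]; exact W.add_mem (ha x hx) (hb x hx)
      algebraMap_mem' := fun r x hx => by
        rw [Algebra.algebraMap_eq_smul_one, e_smul, map_one]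
        exact W.smul_mem _ hx }
  let res : A →+* Module.End K W :=
    { toFun := fun f => (e f.1).restrict f.2
      map_one' := LinearMap.ext fun x => Subtype.ext (by simp)
      map_mul' := fun a b => LinearMap.ext fun x => Subtype.ext (by simp)
      map_zero' := LinearMap.ext fun x => Subtype.ext (by simp)
      map_add' := fun a b => LinearMap.ext fun x => Subtype.ext (by simp) }
  have res_smul : ∀ (r : ℤ_[p]) (f : A), res (r • f) = algebraMap ℤ_[p] K r • res f := fun r f =>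
    LinearMap.ext fun x => Subtype.ext (by
      show e (r • f.1) x = algebraMap ℤ_[p] K r • e f.1 x
      rw [e_smul, LinearMap.smul_apply])
  let aA : GQ →* A :=
    { toFun := fun g => ⟨ρ g, hWst g⟩
      map_one' := Subtype.ext (map_one ρ)
      map_mul' := fun x y => Subtype.ext (map_mul ρ x y) }
  have hrel' : ∀ g, res (aA g) + algebraMap ℤ_[p] K (c g).val • res (aA g⁻¹) = t g • 1 :=
    fun g => LinearMap.ext fun x => Subtype.ext (LinearMap.congr_fun (hrel g) (x : U))
  have hirr : ∀ V : Submodule K W, (∀ g, ∀ x ∈ V, res (aA g) x ∈ V) → V = ⊥ ∨ V = ⊤ := by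
    intro V hV
    rcases eq_or_ne V ⊥ with h | hne
    · exact Or.inl h
    right
    have h1 : Submodule.map W.subtype V ≠ ⊥ := fun h => hne
      (Submodule.map_injective_of_injective (Submodule.subtype_injective W)
        (h.trans (Submodule.map_bot _).symm))
    have hle := Nat.find_min' hex ⟨Submodule.map W.subtype V, h1, fun g => by
      rintro _ ⟨y, hy, rfl⟩
      exact ⟨_, hV g y hy, rfl⟩, rfl⟩
    rw [← hWn] at hle
    have heq : Submodule.map W.subtype V = W :=
      Submodule.eq_of_le_of_finrank_le (Submodule.map_subtype_le W V) hle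
    exact Submodule.map_injective_of_injective (Submodule.subtype_injective W)
      (heq.trans (Submodule.map_subtype_top W).symm)
  haveI : Module.Finite ℤ_[p] A :=
    Module.Finite.of_injective A.val.toLinearMap Subtype.val_injective
  -- divisibility inside the stabiliser
  have hdiv : ∀ (k : ℕ) (a : A), (∃ f : E, (a : E) = (p ^ k : ℤ_[p]) • f) →
      ∃ b : A, res a = algebraMap ℤ_[p] K (p ^ k : ℤ_[p]) • res b := by
    rintro k a ⟨f, hf⟩
    by_cases hK : algebraMap ℤ_[p] K (p ^ k : ℤ_[p]) = 0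
    · refine ⟨0, LinearMap.ext fun x => Subtype.ext ?_⟩
      show e (a : E) x = _
      rw [hf, e_smul, hK]
      simp
    · have hfA : f ∈ A := fun x hx => by
        have h := a.2 x hx
        rw [hf, e_smul, LinearMap.smul_apply] at h
        exact (Submodule.smul_mem_iff W hK).mp h
      refine ⟨⟨f, hfA⟩, ?_⟩
      rw [← res_smul]
      exact congrArg res (Subtype.ext hf)
  obtain ⟨r, B, h1, h2, h3, h4, h5, h6, h7, h8⟩ :=
    exists_bounded_rep (W := ↥W) res res_smul aA c t hrel' hirr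
  refine ⟨r, B, h1, h2, h3, h4, h5, h6, fun g hg => h7 g (Subtype.ext hg),
    fun k g ⟨f, hf⟩ ⟨f', hf'⟩ hc => h8 k g ?_ ?_ hc⟩
  · obtain ⟨b, hb⟩ := hdiv k (aA g - 1) ⟨f, hf⟩
    exact ⟨b, by rw [← hb, map_sub, map_one]⟩
  · obtain ⟨b, hb⟩ := hdiv k (aA g⁻¹ - 1) ⟨f', hf'⟩
    exact ⟨b, by rw [← hb, map_sub, map_one]⟩

end Bounded

section Abstract

variable {C₀ : Type} [CommRing C₀] [IsNoetherianRing C₀] [Algebra ℤ_[p] C₀]
  {L : Type} [AddCommGroup L] [Module ℤ_[p] L] [Module C₀ L] [IsScalarTower ℤ_[p] C₀ L]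
  [Module.Finite C₀ L] [Module.Finite ℤ_[p] L]
  (K : Type) [Field K] [Algebra ℤ_[p] K] [Algebra C₀ K] [IsScalarTower ℤ_[p] C₀ K]

/-- The eigen-quotient of a faithful finite module is nonzero. -/
theorem nontrivial_tensor (hfaith : ∀ c : C₀, (∀ x : L, c • x = 0) → c = 0) :
    Nontrivial (K ⊗[C₀] L) := by
  let P : PrimeSpectrum C₀ := ⟨RingHom.ker (algebraMap C₀ K), RingHom.ker_isPrime _⟩
  have hmem : P ∈ Module.support C₀ L := by
    rw [Module.support_eq_zeroLocus, PrimeSpectrum.mem_zeroLocus]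
    intro c hc
    rw [hfaith c fun x => Module.mem_annihilator.mp hc x]
    exact zero_mem _
  haveI : P.asIdeal.IsPrime := P.isPrime
  haveI := (Module.mem_support_iff_nontrivial_residueField_tensorProduct P).mp hmem
  let j : P.asIdeal.ResidueField →ₐ[C₀] K :=
    Ideal.ResidueField.liftₐ P.asIdeal (Algebra.ofId C₀ K)
      (fun x hx => RingHom.mem_ker.mpr (RingHom.mem_ker.mp hx :))
      (fun x hx => isUnit_iff_ne_zero.mpr fun h0 => hx (RingHom.mem_ker.mpr h0))
  letI : Algebra P.asIdeal.ResidueField K := j.toRingHom.toAlgebra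
  haveI : IsScalarTower C₀ P.asIdeal.ResidueField K :=
    IsScalarTower.of_algebraMap_eq fun c => (j.commutes c).symm
  exact (TensorProduct.AlgebraTensorModule.cancelBaseChange C₀ P.asIdeal.ResidueField K K
    L).symm.toEquiv.nontrivial

/-- The action of endomorphisms on the eigen-quotient. -/
def eigenHom : Module.End C₀ L →+* Module.End K (K ⊗[C₀] L) :=
  (Module.End.baseChangeHom C₀ K L).toRingHom

theorem eigenHom_tmul (f : Module.End C₀ L) (a : K) (x : L) :
    eigenHom K f (a ⊗ₜ x) = a ⊗ₜ f x := rfl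

theorem eigenHom_algebraMap_smul (c : C₀) (f : Module.End C₀ L) :
    eigenHom K (c • f) = algebraMap C₀ K c • eigenHom K f := by
  rw [algebraMap_smul]
  exact map_smul (Module.End.baseChangeHom C₀ K L) c f

theorem eigenHom_smul (c : ℤ_[p]) (f : Module.End C₀ L) :
    eigenHom K (c • f) = algebraMap ℤ_[p] K c • eigenHom K f := by
  rw [IsScalarTower.algebraMap_apply ℤ_[p] C₀ K, ← eigenHom_algebraMap_smul]
  congr 1
  exact LinearMap.ext fun x => (IsScalarTower.algebraMap_smul C₀ c (f x)).symm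

/-- A bounded two-dimensional representation attached to an eigen-system. -/
theorem exists_twoDimRep_abstract [IsAlgClosed K] [Module.IsTorsionFree ℤ_[p] L]
    (hfaith : ∀ c : C₀, (∀ x : L, c • x = 0) → c = 0)
    (ρ : GQ →* Module.End C₀ L) (c : GQ →* ℤ_[p]ˣ) (u : GQ → C₀)
    (hu : ∀ g, ρ g + (c g).val • ρ g⁻¹ = u g • 1) :
    ∃ (r : GQ →* Matrix (Fin 2) (Fin 2) K) (B : Submodule ℤ_[p] (Matrix (Fin 2) (Fin 2) K)),
      B.FG ∧ 1 ∈ B ∧ (∀ x ∈ B, ∀ y ∈ B, x * y ∈ B) ∧ (∀ g, r g ∈ B) ∧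
      (∀ g, (r g).trace = algebraMap C₀ K (u g)) ∧
      (∀ g, (r g).det = algebraMap ℤ_[p] K (c g).val) ∧
      (∀ g, ρ g = 1 → c g = 1 → r g = 1) ∧
      (∀ k : ℕ, ∀ g : GQ, (∃ f, ρ g - 1 = (p ^ k : ℤ_[p]) • f) →
        (∃ f, ρ g⁻¹ - 1 = (p ^ k : ℤ_[p]) • f) →
        (∃ e, (c g).val - 1 = (p ^ k : ℤ_[p]) * e) →
        ∃ x ∈ B, r g - 1 = (p ^ k : ℤ_[p]) • x) := by
  haveI := nontrivial_tensor (C₀ := C₀) (L := L) K hfaith
  haveI : Module.Finite ℤ_[p] (Module.End C₀ L) := by
    let inc : Module.End C₀ L →ₗ[ℤ_[p]] Module.End ℤ_[p] L :=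
      { toFun := fun f => f.restrictScalars ℤ_[p]
        map_add' := fun _ _ => rfl
        map_smul' := fun _ _ => rfl }
    exact Module.Finite.of_injective inc (LinearMap.restrictScalars_injective ℤ_[p])
  let e : Module.End C₀ L →+* Module.End K (K ⊗[C₀] L) := eigenHom K
  have he : ∀ (c : ℤ_[p]) (f : Module.End C₀ L), e (c • f) = algebraMap ℤ_[p] K c • e f :=
    fun c f => eigenHom_smul K c f
  have hrel : ∀ g, e (ρ g) + algebraMap ℤ_[p] K (c g).val • e (ρ g⁻¹) =
      algebraMap C₀ K (u g) • 1 := fun g => by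
    have h := congrArg e (hu g)
    rw [map_add, he] at h
    exact h.trans ((eigenHom_algebraMap_smul K (u g) 1).trans
      (congrArg (algebraMap C₀ K (u g) • ·) e.map_one))
  exact exists_rep_of_action (U := K ⊗[C₀] L) (E := Module.End C₀ L) e he ρ c
    (fun g => algebraMap C₀ K (u g)) hrel

end Abstract

section Datum

variable (D : EichlerShimuraDatum N p) (S : Finset ℕ)

/-- The Galois action as Hecke-linear maps. -/
def galoisLinear : GQ →* Module.End (heckeClosure D (↑S : Set ℕ)) D.L where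
  toFun g :=
    { toFun := D.galois g
      map_add' := map_add _
      map_smul' := fun c x => by
        have h : D.galois g * (c : Module.End ℤ_[p] D.L) = (c : Module.End ℤ_[p] D.L) * D.galois g := by
          obtain ⟨q, rfl⟩ := heckeClosureHom_surjective D (↑S : Set ℕ) c
          induction q using MvPolynomial.induction_on with
          | C a =>
            rw [show heckeClosureHom D (↑S : Set ℕ) (MvPolynomial.C a) = algebraMap ℤ_[p] _ a from
              AlgHom.commutes _ a, Subalgebra.coe_algebraMap]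
            exact (Algebra.commutes a _).symm
          | add a b ha hb => rw [map_add, Subalgebra.coe_add, mul_add, add_mul, ha, hb]
          | mul_X a i ha =>
            rw [map_mul, Subalgebra.coe_mul, ← mul_assoc, ha, mul_assoc, mul_assoc]
            congr 1
            simp only [heckeClosureHom, MvPolynomial.aeval_X, coe_heckeGen]
            exact (D.galois_hecke g _).eq
        exact LinearMap.congr_fun h x }
  map_one' := LinearMap.ext fun x => LinearMap.congr_fun (map_one D.galois) x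
  map_mul' g h := LinearMap.ext fun x => LinearMap.congr_fun (map_mul D.galois g h) x

instance moduleFinite_lattice : Module.Finite (heckeClosure D (↑S : Set ℕ)) D.L :=
  Module.Finite.of_restrictScalars_finite ℤ_[p] _ _

instance moduleFinite_heckeClosure : Module.Finite ℤ_[p] (heckeClosure D (↑S : Set ℕ)) :=
  inferInstanceAs (Module.Finite ℤ_[p] (Subalgebra.toSubmodule (heckeClosure D (↑S : Set ℕ))))

instance isNoetherianRing_heckeClosure : IsNoetherianRing (heckeClosure D (↑S : Set ℕ)) :=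
  Algebra.FiniteType.isNoetherianRing ℤ_[p] _

/-- The two-dimensional representation attached to a character of the closed Hecke algebra. -/
theorem exists_twoDimRep (hdens : FrobeniusPowDensity) {K : Type} [Field K] [IsAlgClosed K]
    [Algebra ℤ_[p] K] (ψ : heckeClosure D (↑S : Set ℕ) →ₐ[ℤ_[p]] K) :
    ∃ (r : GQ →* Matrix (Fin 2) (Fin 2) K) (B : Submodule ℤ_[p] (Matrix (Fin 2) (Fin 2) K)),
      B.FG ∧ 1 ∈ B ∧ (∀ x ∈ B, ∀ y ∈ B, x * y ∈ B) ∧ (∀ g, r g ∈ B) ∧
      (∀ g, (r g).trace = ψ ⟨uTrace D g, uTrace_mem D hdens S g⟩) ∧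
      (∀ g, (r g).det = algebraMap ℤ_[p] K (cyc p g).val) ∧
      (∀ g, D.galois g = 1 → cyc p g = 1 → r g = 1) ∧
      (∀ k : ℕ, ∃ F : IntermediateField ℚ (AlgebraicClosure ℚ), FiniteDimensional ℚ F ∧
        ∀ g : GQ, (∀ x ∈ F, g x = x) → ∃ x ∈ B, r g - 1 = (p ^ k : ℤ_[p]) • x) := by
  letI : Algebra (heckeClosure D (↑S : Set ℕ)) K := ψ.toRingHom.toAlgebra
  haveI : IsScalarTower ℤ_[p] (heckeClosure D (↑S : Set ℕ)) K :=
    IsScalarTower.of_algebraMap_eq fun c => (ψ.commutes c).symm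
  obtain ⟨r, B, h1, h2, h3, h4, h5, h6, h7, h8⟩ :=
    exists_twoDimRep_abstract (L := D.L) K
      (fun c hc => Subtype.ext (LinearMap.ext fun x => hc x))
      (galoisLinear D S) (cyc p) (fun g => ⟨uTrace D g, uTrace_mem D hdens S g⟩)
      (fun g => LinearMap.ext fun x => rfl)
  refine ⟨r, B, h1, h2, h3, h4, h5, h6, fun g hg hc => h7 g
    (LinearMap.ext fun x => LinearMap.congr_fun hg x) hc, fun k => ?_⟩
  obtain ⟨F₁, hF₁, e1⟩ := D.continuous k
  obtain ⟨F₂, hF₂, e2⟩ := exists_cyc_level p k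
  refine ⟨F₁ ⊔ F₂, IntermediateField.finiteDimensional_sup F₁ F₂, fun g hg => ?_⟩
  have hpk : (p ^ k : ℤ_[p]) ≠ 0 :=
    pow_ne_zero k (Nat.cast_ne_zero.mpr (Fact.out (p := p.Prime)).ne_zero)
  have key : ∀ τ : GQ, (∀ x ∈ F₁, τ x = x) →
      ∃ f, galoisLinear D S τ - 1 = (p ^ k : ℤ_[p]) • f := by
    intro τ hτ
    choose w hw using e1 τ hτ
    refine ⟨{ toFun := w, map_add' := fun x y => ?_, map_smul' := fun c x => ?_ },
      LinearMap.ext fun x => hw x⟩
    · refine smul_right_injective D.L hpk ?_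
      show (p ^ k : ℤ_[p]) • w (x + y) = (p ^ k : ℤ_[p]) • (w x + w y)
      rw [smul_add, ← hw, ← hw, ← hw, map_add]
      abel
    · refine smul_right_injective D.L hpk ?_
      show (p ^ k : ℤ_[p]) • w (c • x) = (p ^ k : ℤ_[p]) • (c • w x)
      rw [smul_comm, ← hw, ← hw, smul_sub]
      exact congrArg (· - c • x) ((galoisLinear D S τ).map_smul c x)
  refine h8 k g (key g fun x hx => hg x ((le_sup_left : F₁ ≤ F₁ ⊔ F₂) hx))
    (key g⁻¹ fun x hx => ?_) (e2 g fun x hx => hg x ((le_sup_right : F₂ ≤ F₁ ⊔ F₂) hx))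
  conv_lhs => rw [← hg x ((le_sup_left : F₁ ≤ F₁ ⊔ F₂) hx)]
  rw [AlgEquiv.aut_inv, AlgEquiv.symm_apply_apply]

end Datum

end Fermat.Agent.GalRep
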