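/-
Common facts for the assembly of the Galois representations.
-/
import Mathlib
import Fermat.Agent.Density.Frobenius
import Fermat.Agent.GalRep.Constituent

set_option autoImplicit false

noncomputable section

namespace Fermat.Agent.GalRep

open Fermat.Agent.Galois (GQ)

/-- Frobenius density holds. -/
theorem frobeniusPowDensity : FrobeniusPowDensity := fun F _ bad g =>
  Fermat.Agent.Density.exists_frobenius_pow F bad g

variable {N p : ℕ} [NeZero N] [Fact p.Prime] (D : EichlerShimuraDatum N p)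

/-- The universal trace at a Frobenius element is the Hecke operator. -/
theorem uTrace_frobenius {i : GoodPrime N} (hi : ((i : Nat.Primes) : ℕ) ≠ p)
    {A : ValuationSubring (AlgebraicClosure ℚ)} (hA : A.LiesOverPrime ((i : Nat.Primes) : ℕ))
    {σ : GQ} (hσ : A.IsFrobeniusAt σ ((i : Nat.Primes) : ℕ)) :
    uTrace D σ = D.hecke (MvPolynomial.X i) := by
  have h := uTrace_frobenius_pow D hi hA hσ 1
  rwa [pow_one] at h

/-- A two dimensional representation given by the trace of the universal trace and the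
cyclotomic determinant has the expected trace and determinant at Frobenius elements, and is
unramified outside `Np`. -/
structure IsEigenRep {R : Type} [CommRing R] [Algebra ℤ_[p] R] (S : Finset ℕ)
    (ψ : heckeClosure D (↑S : Set ℕ) →ₐ[ℤ_[p]] R) (r : GQ →* Matrix (Fin 2) (Fin 2) R) : Prop where
  trace_frob : ∀ (i : GoodPrimeOff N (↑S : Set ℕ)), ((i.1 : Nat.Primes) : ℕ) ≠ p →
    ∀ A : ValuationSubring (AlgebraicClosure ℚ), A.LiesOverPrime ((i.1 : Nat.Primes) : ℕ) →
    ∀ σ : GQ, A.IsFrobeniusAt σ ((i.1 : Nat.Primes) : ℕ) →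
      (r σ).trace = ψ (heckeGen D _ i) ∧ (r σ).det = (((i.1 : Nat.Primes) : ℕ) : R)
  unramified : ∀ q : ℕ, q.Prime → ¬ q ∣ N → q ≠ p →
    ∀ A : ValuationSubring (AlgebraicClosure ℚ), A.LiesOverPrime q →
    ∀ σ ∈ A.inertiaSubgroupIn ℚ, r σ = 1

theorem isEigenRep_of_trace {R : Type} [CommRing R] [Algebra ℤ_[p] R] (S : Finset ℕ)
    (hdens : FrobeniusPowDensity) (ψ : heckeClosure D (↑S : Set ℕ) →ₐ[ℤ_[p]] R)
    (r : GQ →* Matrix (Fin 2) (Fin 2) R)
    (htr : ∀ g, (r g).trace = ψ ⟨uTrace D g, uTrace_mem D hdens S g⟩)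
    (hdet : ∀ g, (r g).det = algebraMap ℤ_[p] R (cyc p g).val)
    (hker : ∀ g, D.galois g = 1 → cyc p g = 1 → r g = 1) : IsEigenRep D S ψ r := by
  refine ⟨fun i hi A hA σ hσ => ⟨?_, ?_⟩, fun q hq hqN hqp A hA σ hσ => ?_⟩
  · rw [htr]
    congr 1
    exact Subtype.ext (uTrace_frobenius D hi hA hσ)
  · rw [hdet, cyc_frobenius p i.1.1.2 hi hA hσ, map_natCast]
  · exact hker σ (D.unramified q hq hqN hqp A hA σ hσ) (cyc_inertia p hq hqp hA hσ)

end Fermat.Agent.GalRep
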