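/-
Normal finite extensions of a complete discrete valuation ring.
-/
import Mathlib
import Fermat.Prelude.Thm_IsLocalRing_isAdicComplete_of_module_finite

set_option autoImplicit false

noncomputable section

namespace Fermat.Agent.GalRep

open IsLocalRing Polynomial

/-- A finite free module over a complete ring is complete. -/
theorem isAdicComplete_of_basis {R M ι : Type} [CommRing R] [AddCommGroup M] [Module R M]
    [Finite ι] {I : Ideal R} [IsAdicComplete I R] (b : Module.Basis ι R M) : IsAdicComplete I M := by
  cases nonempty_fintype ι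
  have hmem : ∀ (J : Ideal R) (x : M), x ∈ J • (⊤ : Submodule R M) ↔ ∀ i, b.repr x i ∈ J := by
    intro J x
    refine ⟨fun hx i => ?_, fun hx => ?_⟩
    · refine Submodule.smul_induction_on hx (fun a ha m _ => ?_) (fun u v hu hv => ?_)
      · rw [map_smul, Finsupp.smul_apply, smul_eq_mul]
        exact J.mul_mem_right _ ha
      · rw [map_add, Finsupp.add_apply]
        exact add_mem hu hv
    · rw [← b.sum_repr x]
      exact Submodule.sum_mem _ fun i _ => Submodule.smul_mem_smul (hx i) Submodule.mem_top
  have hR : ∀ (n : ℕ) (u v : R),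
      u ≡ v [SMOD (I ^ n • ⊤ : Submodule R R)] ↔ u - v ∈ I ^ n := fun n u v => by
    rw [SModEq.sub_mem, smul_eq_mul, Ideal.mul_top]
  refine { haus' := fun x hx => ?_, prec' := fun f hf => ?_ }
  · refine b.ext_elem fun i => ?_
    rw [map_zero, Finsupp.zero_apply]
    refine IsHausdorff.haus (inferInstance : IsHausdorff I R) _ fun n => ?_
    rw [hR, sub_zero]
    have := (hmem _ x).mp (SModEq.zero.mp (hx n)) i
    exact this
  · have hc : ∀ i, ∃ L : R, ∀ n, b.repr (f n) i ≡ L [SMOD (I ^ n • ⊤ : Submodule R R)] := fun i =>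
      IsPrecomplete.prec (inferInstance : IsPrecomplete I R) fun {m n} h => by
        rw [hR, ← Finsupp.sub_apply, ← map_sub]
        exact (hmem _ _).mp (SModEq.sub_mem.mp (hf h)) i
    choose L hL using hc
    refine ⟨b.equivFun.symm L, fun n => SModEq.sub_mem.mpr ((hmem _ _).mpr fun i => ?_)⟩
    rw [map_sub, Finsupp.sub_apply]
    have : b.repr (b.equivFun.symm L) i = L i := by
      rw [← b.equivFun_apply, LinearEquiv.apply_symm_apply]
    rw [this]
    exact (hR _ _ _).mp (hL i n)

variable {O : Type} [CommRing O] [IsDomain O] [IsDiscreteValuationRing O]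
  [IsAdicComplete (maximalIdeal O) O] [Finite (ResidueField O)]
  {R : Type} [CommRing R] [IsDomain R] [Algebra O R] [Module.Finite O R]

/-- The quotient of a finite algebra by the maximal ideal of the base is finite. -/
theorem finite_quotient_map :
    Finite (R ⧸ (maximalIdeal O).map (algebraMap O R)) := by
  haveI : Finite (O ⧸ maximalIdeal O) := inferInstanceAs (Finite (ResidueField O))
  exact Module.finite_of_finite (O ⧸ maximalIdeal O)

/-- Idempotent powers in a finite monoid. -/
theorem exists_pow_idem {M : Type} [Monoid M] [Finite M] (x : M) :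
    ∃ n : ℕ, 0 < n ∧ x ^ n * x ^ n = x ^ n := by
  obtain ⟨i, j, hne, h⟩ := Finite.exists_ne_map_eq_of_infinite (fun n : ℕ => x ^ (n + 1))
  wlog hij : i < j generalizing i j
  · exact this j i hne.symm h.symm (by omega)
  obtain ⟨d, hd⟩ := Nat.exists_eq_add_of_lt hij
  have key : ∀ k t : ℕ, i + 1 ≤ t → x ^ (t + k * (d + 1)) = x ^ t := by
    intro k t ht
    induction k with
    | zero => simp
    | succ k ih =>
      obtain ⟨s, rfl⟩ := Nat.exists_eq_add_of_le ht
      have e : x ^ (i + 1 + (d + 1)) = x ^ (i + 1) := by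
        rw [show i + 1 + (d + 1) = j + 1 by omega]; exact h.symm
      rw [show i + 1 + s + (k + 1) * (d + 1) = (i + 1 + s + (d + 1)) + k * (d + 1) by ring]
      rw [show i + 1 + s + (d + 1) + k * (d + 1) = (i + 1 + (d + 1)) + (s + k * (d + 1)) by ring,
        pow_add, e, ← pow_add, show i + 1 + (s + k * (d + 1)) = i + 1 + s + k * (d + 1) by ring]
      exact ih
  refine ⟨(i + 1) * (d + 1), by positivity, ?_⟩
  rw [← pow_add]
  exact key (i + 1) _ (Nat.le_mul_of_pos_right _ (Nat.succ_pos d))

/-- A finite domain over a complete discrete valuation ring is local. -/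
theorem isLocal_finite_domain [Module.Free O R] :
    IsLocalRing R ∧ ∀ x : R, ¬ IsUnit x →
      ∃ n : ℕ, x ^ n ∈ (maximalIdeal O).map (algebraMap O R) := by
  classical
  set J := (maximalIdeal O).map (algebraMap O R) with hJ
  haveI : IsAdicComplete J R :=
    (IsAdicComplete.map_algebraMap_iff _ _).mpr
      (isAdicComplete_of_basis (Module.Free.chooseBasis O R))
  have hjac : ∀ y ∈ J, IsUnit (1 + y) := fun y hy => by
    have := Ideal.mem_jacobson_bot.mp (IsAdicComplete.le_jacobson_bot J hy) 1
    rwa [mul_one, add_comm] at this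
  haveI : Finite (R ⧸ J) := finite_quotient_map
  have hrad : ∀ x : R, ¬ IsUnit x → ∃ n : ℕ, x ^ n ∈ J := by
    intro x hx
    obtain ⟨n, hn, hid⟩ := exists_pow_idem (Ideal.Quotient.mk J x)
    rw [← map_pow, ← map_mul, Ideal.Quotient.eq] at hid
    have h1 : ((X ^ 2 - X : R[X])).eval (x ^ n) ∈ J := by
      simpa [pow_two] using hid
    have h2 : IsUnit (Ideal.Quotient.mk J ((X ^ 2 - X : R[X]).derivative.eval (x ^ n))) := by
      refine IsUnit.of_mul_eq_one (Ideal.Quotient.mk J ((X ^ 2 - X : R[X]).derivative.eval (x ^ n))) ?_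
      rw [← map_mul, ← map_one (Ideal.Quotient.mk J), Ideal.Quotient.eq]
      simp [derivative_pow]
      have := J.mul_mem_left 4 hid
      convert this using 1
      ring
    obtain ⟨a, ha, hae⟩ :=
      HenselianRing.is_henselian (I := J) (X ^ 2 - X : R[X])
        (monic_X_pow_sub (by rw [degree_X]; norm_num)) (x ^ n) h1 h2
    have ha' : a * (a - 1) = 0 := by
      have : a ^ 2 - a = 0 := by simpa using ha
      linear_combination this
    rcases mul_eq_zero.mp ha' with h | h
    · refine ⟨n, ?_⟩
      rw [h, zero_sub] at hae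
      exact (neg_mem_iff).mp hae
    · exfalso
      rw [sub_eq_zero] at h
      rw [h] at hae
      have := hjac _ (neg_mem hae)
      rw [← sub_eq_add_neg, sub_sub_cancel] at this
      exact hx ((isUnit_pow_iff hn.ne').mp this)
  refine ⟨IsLocalRing.of_nonunits_add fun a b ha hb => ?_, hrad⟩
  intro hu
  obtain ⟨n, hn⟩ := hrad a ha
  obtain ⟨m, hm⟩ := hrad b hb
  have hab : a + b ∈ J.radical := add_mem ⟨n, hn⟩ ⟨m, hm⟩
  obtain ⟨k, hk⟩ := hab
  have : J = ⊤ := Ideal.eq_top_of_isUnit_mem _ hk (hu.pow k)
  have h1 := hjac (-1) (this ▸ Submodule.mem_top)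
  rw [add_neg_cancel] at h1
  exact not_isUnit_zero h1

variable (O) in
/-- The integral closure of a complete discrete valuation ring in a finite extension is again
one, with finite residue field. -/
theorem isDiscreteValuationRing_finite [IsIntegrallyClosed R] [CharZero O]
    (hinj : Function.Injective (algebraMap O R)) :
    ∃ (_ : IsLocalRing R) (_ : IsLocalHom (algebraMap O R)), IsDiscreteValuationRing R ∧
      IsAdicComplete (maximalIdeal R) R ∧ Finite (ResidueField R) := by
  haveI : FaithfulSMul O R := (faithfulSMul_iff_algebraMap_injective O R).mpr hinj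
  haveI : Module.IsTorsionFree O R := inferInstance
  haveI : Module.Free O R := inferInstance
  obtain ⟨hloc, hrad⟩ := isLocal_finite_domain (O := O) (R := R)
  haveI := hloc
  haveI hlh : IsLocalHom (algebraMap O R) :=
    RingHom.IsIntegral.isLocalHom (f := algebraMap O R) (Algebra.IsIntegral.isIntegral (R := O) (A := R)) hinj
  refine ⟨hloc, hlh, ?_, IsLocalRing.isAdicComplete_of_module_finite (𝒪 := O) (T := R), ?_⟩
  · haveI : IsNoetherianRing R := Algebra.FiniteType.isNoetherianRing O R
    haveI : Ring.DimensionLEOne R := Ring.DimensionLEOne.of_isIntegral O R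
    haveI : IsDedekindDomain R := { }
    have hnf : ¬ IsField R := fun hf => IsDiscreteValuationRing.not_isField O
      (isField_of_isIntegral_of_isField hinj hf)
    exact ((IsDiscreteValuationRing.TFAE R hnf).out 0 2).mpr ‹_›
  · have hle : (maximalIdeal O).map (algebraMap O R) ≤ maximalIdeal R :=
      (IsLocalRing.local_hom_TFAE (algebraMap O R)).out 0 2 |>.mp hlh
    haveI := finite_quotient_map (O := O) (R := R)
    exact Finite.of_surjective (Ideal.Quotient.factor hle) (Ideal.Quotient.factor_surjective hle)

end Fermat.Agent.GalRep
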