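/-
Rings complete at an ideal containing `p` are algebras over the `p`-adic integers.
-/
import Mathlib

set_option autoImplicit false

noncomputable section

namespace Fermat.Agent.GalRep

variable {p : ℕ} [Fact p.Prime] {R : Type} [CommRing R] {I : Ideal R}

/-- The map `ℤ/p^n → R/I^n`. -/
def zmodToQuotient (hp : (p : R) ∈ I) (n : ℕ) : ZMod (p ^ n) →+* R ⧸ I ^ n :=
  (Ideal.Quotient.lift (Ideal.span {((p ^ n : ℕ) : ℤ)}) (Int.castRingHom (R ⧸ I ^ n))
    (fun a ha => by
      obtain ⟨c, rfl⟩ := Ideal.mem_span_singleton.mp ha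
      have : ((p ^ n : ℕ) : R ⧸ I ^ n) = 0 := by
        rw [← map_natCast (Ideal.Quotient.mk (I ^ n)), Ideal.Quotient.eq_zero_iff_mem, Nat.cast_pow]
        exact Ideal.pow_mem_pow hp n
      rw [map_mul, eq_intCast, eq_intCast, Int.cast_natCast, this, zero_mul])).comp
    (Int.quotientSpanNatEquivZMod (p ^ n)).symm.toRingHom

/-- A ring complete at an ideal containing `p` receives the `p`-adic integers. -/
theorem exists_padicHom [IsAdicComplete I R] (hp : (p : R) ∈ I) :
    ∃ _f : ℤ_[p] →+* R, True :=
  ⟨(AdicCompletion.ofAlgEquiv I (S := R)).symm.toRingEquiv.toRingHom.comp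
    (AdicCompletion.liftRingHom I (fun n => (zmodToQuotient hp n).comp (PadicInt.toZModPow n))
      (fun {m n} hle => by
        rw [← PadicInt.zmod_cast_comp_toZModPow m n hle, ← RingHom.comp_assoc, ← RingHom.comp_assoc]
        congr 1
        exact RingHom.ext_zmod _ _)), trivial⟩

/-- The algebra structure. -/
@[reducible] def padicAlgebra [IsAdicComplete I R] (hp : (p : R) ∈ I) : Algebra ℤ_[p] R :=
  (exists_padicHom hp).choose.toAlgebra

end Fermat.Agent.GalRep
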