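/-
Adic Galois representations attached to points of the Hecke algebra.
-/
import Mathlib
import Fermat.Prelude.Def_CuspForm_HeckeGaloisRepDatum
import Fermat.Agent.Deform.MatrixRep
import Fermat.Agent.GalRep.Assembly
import Fermat.Agent.GalRep.PadicLift
import Fermat.Agent.GalRep.FiniteExtension

set_option autoImplicit false

noncomputable section

namespace Fermat.Agent.GalRep

open Fermat.Agent.Galois (GQ)
open IsLocalRing Polynomial

section Lattice

variable {R E : Type} [CommRing R] [IsDomain R] [IsDiscreteValuationRing R] [Field E]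
  [Algebra R E] [IsFractionRing R E]

/-- A finitely generated lattice containing the standard vectors has a basis indexed by `Fin 2`
which is also a basis of `E²`. -/
theorem exists_basis_lattice (Λ : Submodule R (Fin 2 → E)) (hfg : Λ.FG)
    (hstd : ∀ j, Pi.single j 1 ∈ Λ) :
    ∃ (b : Module.Basis (Fin 2) R Λ) (b' : Module.Basis (Fin 2) E (Fin 2 → E)),
      ∀ i, b' i = (b i : Fin 2 → E) := by
  classical
  haveI : Module.Finite R Λ := Module.Finite.of_fg hfg
  haveI : FaithfulSMul R E := (faithfulSMul_iff_algebraMap_injective R E).mpr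
    (IsFractionRing.injective R E)
  haveI : Module.IsTorsionFree R E := inferInstance
  haveI : Module.Free R Λ := inferInstance
  let b₀ := Module.Free.chooseBasis R Λ
  have hliR : LinearIndependent R fun i => (b₀ i : Fin 2 → E) :=
    b₀.linearIndependent.map' Λ.subtype Λ.ker_subtype
  have hliE : LinearIndependent E fun i => (b₀ i : Fin 2 → E) :=
    (LinearIndependent.iff_fractionRing R E).mp hliR
  have hspan : ⊤ ≤ Submodule.span E (Set.range fun i => (b₀ i : Fin 2 → E)) := by
    rw [← (Pi.basisFun E (Fin 2)).span_eq, Submodule.span_le]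
    rintro _ ⟨j, rfl⟩
    rw [Pi.basisFun_apply]
    have : (⟨_, hstd j⟩ : Λ) = ∑ i, b₀.repr ⟨_, hstd j⟩ i • b₀ i := (b₀.sum_repr _).symm
    have h' := congrArg Subtype.val this
    simp only [AddSubmonoidClass.coe_finset_sum, Submodule.coe_smul] at h'
    rw [SetLike.mem_coe, h']
    exact Submodule.sum_mem _ fun i _ => by
      rw [← IsScalarTower.algebraMap_smul E]
      exact Submodule.smul_mem _ _ (Submodule.subset_span ⟨i, rfl⟩)
  let b' := Module.Basis.mk hliE hspan
  have hcard : Fintype.card (Module.Free.ChooseBasisIndex R Λ) = 2 := by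
    rw [← Module.finrank_eq_card_basis b', Module.finrank_fin_fun]
  let e := Fintype.equivFinOfCardEq hcard
  refine ⟨b₀.reindex e, b'.reindex e, fun i => ?_⟩
  rw [Module.Basis.reindex_apply, Module.Basis.reindex_apply, Module.Basis.mk_apply]

/-- A stable lattice for a bounded matrix representation. -/
theorem exists_galoisRep_of_bounded (hR : Function.Injective (algebraMap R E))
    (r : GQ →* Matrix (Fin 2) (Fin 2) E) (B : Submodule R (Matrix (Fin 2) (Fin 2) E))
    (hfg : B.FG) (h1 : 1 ∈ B) (hmul : ∀ x ∈ B, ∀ y ∈ B, x * y ∈ B) (hr : ∀ g, r g ∈ B)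
    (c : R) (hc : c ∈ maximalIdeal R)
    (hcts : ∀ k : ℕ, ∃ F : IntermediateField ℚ (AlgebraicClosure ℚ), FiniteDimensional ℚ F ∧
      ∀ g : GQ, (∀ x ∈ F, g x = x) → ∃ x ∈ B, r g - 1 = c ^ k • x) :
    ∃ ρ : GaloisRepAdic R, (∀ g, r g = 1 → ρ.ρ g = 1) ∧
      ∀ (g : GQ) (t d : R), (r g).trace = algebraMap R E t → (r g).det = algebraMap R E d →
        LinearMap.charpoly (ρ.ρ g) = X ^ 2 - C t * X + C d := by
  classical
  let col : Fin 2 → Matrix (Fin 2) (Fin 2) E →ₗ[R] (Fin 2 → E) := fun j =>
    { toFun := fun X i => X i j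
      map_add' := fun _ _ => rfl
      map_smul' := fun _ _ => rfl }
  let Λ : Submodule R (Fin 2 → E) := ⨆ j, B.map (col j)
  have hfgΛ : Λ.FG := Submodule.fg_iSup _ fun j => hfg.map _
  have hstd : ∀ j, Pi.single j 1 ∈ Λ := fun j =>
    Submodule.mem_iSup_of_mem j ⟨1, h1, funext fun i => by
      show (1 : Matrix (Fin 2) (Fin 2) E) i j = _
      rw [Matrix.one_apply, Pi.single_apply]⟩
  obtain ⟨b, b', hbb'⟩ := exists_basis_lattice Λ hfgΛ hstd
  haveI : Module.Finite R Λ := Module.Finite.of_fg hfgΛ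
  haveI : Module.Free R Λ := Module.Free.of_basis b
  have hstab : ∀ X ∈ B, ∀ v ∈ Λ, X.mulVec v ∈ Λ := by
    intro X hX v hv
    refine Submodule.iSup_induction _ (motive := fun v => X.mulVec v ∈ Λ) hv
      (fun j v hv => ?_) ?_ (fun u w hu hw => ?_)
    · obtain ⟨Y, hY, rfl⟩ := hv
      refine Submodule.mem_iSup_of_mem j ⟨X * Y, hmul X hX Y hY, ?_⟩
      funext i
      rfl
    · rw [Matrix.mulVec_zero]; exact zero_mem _
    · rw [Matrix.mulVec_add]; exact add_mem hu hw
  let act : GQ →* Module.End R Λ :=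
    { toFun := fun g =>
        { toFun := fun v => ⟨(r g).mulVec v, hstab _ (hr g) _ v.2⟩
          map_add' := fun u w => Subtype.ext (by
            show (r g).mulVec ((u : Fin 2 → E) + w) = (r g).mulVec u + (r g).mulVec w
            exact Matrix.mulVec_add _ _ _)
          map_smul' := fun a u => Subtype.ext (by
            show (r g).mulVec (a • (u : Fin 2 → E)) = a • (r g).mulVec u
            exact Matrix.mulVec_smul _ _ _) }
      map_one' := LinearMap.ext fun v => Subtype.ext (by simp)
      map_mul' := fun g h => LinearMap.ext fun v => Subtype.ext (by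
        show (r (g * h)).mulVec v = (r g).mulVec ((r h).mulVec v)
        rw [map_mul, Matrix.mulVec_mulVec]) }
  refine ⟨
    { V := Λ
      finrank_eq := by rw [Module.finrank_eq_card_basis b, Fintype.card_fin]
      ρ := act
      isAdicContinuous := fun n => ?_ },
    fun g hg => LinearMap.ext fun v => Subtype.ext ?_, fun g t d ht hd => ?_⟩
  · obtain ⟨F, hF, hF'⟩ := hcts n
    refine ⟨F, hF, fun g hg v => ?_⟩
    obtain ⟨x, hx, hxe⟩ := hF' g hg
    have : act g v - v = c ^ n • (⟨x.mulVec v, hstab x hx _ v.2⟩ : Λ) := Subtype.ext (by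
      show (r g).mulVec v - (v : Fin 2 → E) = c ^ n • x.mulVec v
      rw [← Matrix.smul_mulVec, ← hxe, Matrix.sub_mulVec, Matrix.one_mulVec])
    rw [this]
    exact Submodule.smul_mem_smul (Ideal.pow_mem_pow hc n) Submodule.mem_top
  · show (r g).mulVec v = v
    rw [hg, Matrix.one_mulVec]
  · have hmat : (LinearMap.toMatrix b b (act g)).map (algebraMap R E) =
        LinearMap.toMatrix b' b' (Matrix.toLin' (r g)) := by
      ext i j
      rw [Matrix.map_apply, LinearMap.toMatrix_apply, LinearMap.toMatrix_apply]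
      have h := congrArg (fun z : Λ => (z : Fin 2 → E)) (b.sum_repr (act g (b j)))
      simp only [AddSubmonoidClass.coe_finset_sum, Submodule.coe_smul] at h
      have hv : Matrix.toLin' (r g) (b' j) = ∑ i, algebraMap R E (b.repr (act g (b j)) i) • b' i := by
        rw [hbb' j, Matrix.toLin'_apply]
        refine (h.symm.trans ?_)
        exact Finset.sum_congr rfl fun i _ => by rw [hbb', algebraMap_smul]
      rw [hv, b'.repr_sum_self]
    have hmap : ((LinearMap.toMatrix b b (act g)).charpoly).map (algebraMap R E) =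
        (X ^ 2 - C t * X + C d : R[X]).map (algebraMap R E) := by
      rw [← Matrix.charpoly_map, hmat, LinearMap.charpoly_toMatrix, Matrix.charpoly_toLin',
        Matrix.charpoly_fin_two, ht, hd]
      simp
    rw [← LinearMap.charpoly_toMatrix _ b]
    exact Polynomial.map_injective _ hR hmap

end Lattice

variable {N p : ℕ} [NeZero N] [Fact p.Prime]

/-- The adic representation attached to a point of the Hecke algebra. -/
theorem exists_galoisRepAdic (D : EichlerShimuraDatum N p) (S : Finset ℕ) (hpS : p ∈ S)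
    (𝒪' : Type) [CommRing 𝒪'] [IsDomain 𝒪'] [IsDiscreteValuationRing 𝒪']
    [IsAdicComplete (maximalIdeal 𝒪') 𝒪'] [Finite (ResidueField 𝒪')] [CharZero 𝒪']
    (hp : (p : 𝒪') ∈ maximalIdeal 𝒪')
    (χ : CuspForm.heckeAlgebra N 2 (↑S : Set ℕ) →+* 𝒪') :
    ∃ (𝒪'' : Type) (_ : CommRing 𝒪'') (_ : IsDomain 𝒪'') (_ : IsDiscreteValuationRing 𝒪'')
      (_ : IsAdicComplete (maximalIdeal 𝒪'') 𝒪'')
      (_ : Finite (ResidueField 𝒪'')) (_ : CharZero 𝒪'')
      (_ : Algebra 𝒪' 𝒪'') (_ : Module.Finite 𝒪' 𝒪'') (_ : IsLocalHom (algebraMap 𝒪' 𝒪'')),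
    Function.Injective (algebraMap 𝒪' 𝒪'') ∧
    ∃ ρ : GaloisRepAdic 𝒪'',
      (∀ (ℓ : ℕ) (hℓ : ℓ.Prime) (hℓN : ¬ ℓ ∣ N) (hℓS : ℓ ∉ (↑S : Set ℕ)),
        ∀ A : ValuationSubring (AlgebraicClosure ℚ), A.LiesOverPrime ℓ →
          ∀ σ : GQ, A.IsFrobeniusAt σ ℓ →
            LinearMap.charpoly (ρ.ρ σ) =
              X ^ 2 - C (algebraMap 𝒪' 𝒪'' (χ (CuspForm.heckeAlgebra.T hℓ hℓN hℓS))) * X
                + C ((ℓ : 𝒪''))) ∧
      (∀ q : ℕ, q.Prime → ¬ q ∣ N → q ≠ p → ρ.IsUnramifiedAt q) := by
  classical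
  letI : Algebra ℤ_[p] 𝒪' := padicAlgebra hp
  let F₀ := FractionRing 𝒪'
  let K := AlgebraicClosure F₀
  haveI : CharZero F₀ := charZero_of_injective_algebraMap (IsFractionRing.injective 𝒪' F₀)
  obtain ⟨ψ, hψ, -⟩ := exists_extension (D := D) hp
    (fun x hx => IsHausdorff.haus (inferInstance : IsHausdorff (maximalIdeal 𝒪') 𝒪') x fun k => by
      rw [SModEq.zero, smul_eq_mul, Ideal.mul_top]; exact hx k) χ
  obtain ⟨r, B, hfg, h1, hmul, hr, htr, hdet, hker, hcts⟩ :=
    exists_twoDimRep D S frobeniusPowDensity ((IsScalarTower.toAlgHom ℤ_[p] 𝒪' K).comp ψ)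
  have hE := isEigenRep_of_trace D S frobeniusPowDensity _ r htr hdet hker
  obtain ⟨gens, hgens⟩ := hfg
  let ent : Set K := (fun x : Matrix (Fin 2) (Fin 2) K × Fin 2 × Fin 2 => x.1 x.2.1 x.2.2) ''
    ((↑gens : Set (Matrix (Fin 2) (Fin 2) K)) ×ˢ Set.univ)
  let E : IntermediateField F₀ K := IntermediateField.adjoin F₀ ent
  haveI : Finite ent := Set.Finite.to_subtype
    (((Finset.finite_toSet gens).prod Set.finite_univ).image _)
  haveI : FiniteDimensional F₀ E :=
    IntermediateField.finiteDimensional_adjoin fun x _ => Algebra.IsIntegral.isIntegral x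
  haveI : Algebra.IsSeparable F₀ E := inferInstance
  let R'' := integralClosure 𝒪' E
  haveI : Module.Finite 𝒪' R'' := IsIntegralClosure.finite 𝒪' F₀ E R''
  haveI : IsFractionRing R'' E :=
    IsIntegralClosure.isFractionRing_of_finite_extension 𝒪' F₀ E R''
  haveI : IsIntegrallyClosed R'' := integralClosure.isIntegrallyClosedOfFiniteExtension F₀
  have hinj : Function.Injective (algebraMap 𝒪' R'') := by
    intro a b hab
    have h := congrArg (fun z : R'' => ((z : E) : K)) hab
    exact IsFractionRing.injective 𝒪' F₀ ((algebraMap F₀ K).injective h)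
  obtain ⟨hloc, hlh, hdvr, hcompl, hfin⟩ := isDiscreteValuationRing_finite 𝒪' (R := R'') hinj
  haveI : CharZero R'' := charZero_of_injective_algebraMap hinj
  refine ⟨R'', inferInstance, inferInstance, hdvr, hcompl, hfin, inferInstance, inferInstance,
    inferInstance, hlh, hinj, ?_⟩
  -- descend `B` and `r` to `E`
  have hBE : ∀ X ∈ B, ∀ i j, X i j ∈ E := by
    intro X hX
    rw [← hgens] at hX
    induction hX using Submodule.span_induction with
    | mem X hX =>
      exact fun i j => IntermediateField.subset_adjoin _ _ ⟨(X, i, j), ⟨hX, trivial⟩, rfl⟩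
    | zero => exact fun i j => zero_mem _
    | add X Y _ _ hX hY => exact fun i j => add_mem (hX i j) (hY i j)
    | smul a X _ hX =>
      intro i j
      rw [Matrix.smul_apply, Algebra.smul_def]
      refine mul_mem ?_ (hX i j)
      rw [IsScalarTower.algebraMap_apply ℤ_[p] 𝒪' K, IsScalarTower.algebraMap_apply 𝒪' F₀ K]
      exact E.algebraMap_mem _
  have hval : Function.Injective ((algebraMap E K).mapMatrix :
      Matrix (Fin 2) (Fin 2) E → Matrix (Fin 2) (Fin 2) K) := fun X Y h => Matrix.ext fun i j =>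
    (algebraMap E K).injective (congrFun (congrFun h i) j)
  let rE : GQ →* Matrix (Fin 2) (Fin 2) E :=
    { toFun := fun g => Matrix.of fun i j => ⟨r g i j, hBE _ (hr g) i j⟩
      map_one' := hval ((map_one r).trans (map_one _).symm)
      map_mul' := fun g h => hval (by
        refine (map_mul r g h).trans (Eq.trans ?_ (map_mul (algebraMap E K).mapMatrix _ _).symm)
        rfl) }
  have hrE : ∀ g, (algebraMap E K).mapMatrix (rE g) = r g := fun g => rfl
  let gensE : Finset (Matrix (Fin 2) (Fin 2) E) :=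
    gens.attach.image fun X : {x // x ∈ gens} =>
      Matrix.of fun i j => ⟨X.1 i j, hBE _ (hgens.le (Submodule.subset_span X.2)) i j⟩
  let BE : Submodule R'' (Matrix (Fin 2) (Fin 2) E) := Submodule.span R'' ↑gensE
  have hlift : ∀ X : Matrix (Fin 2) (Fin 2) E, (algebraMap E K).mapMatrix X ∈ B → X ∈ BE := by
    intro X hX
    rw [← hgens] at hX
    suffices ∀ Y ∈ Submodule.span ℤ_[p] (↑gens : Set (Matrix (Fin 2) (Fin 2) K)),
        ∀ X : Matrix (Fin 2) (Fin 2) E, (algebraMap E K).mapMatrix X = Y → X ∈ BE from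
      this _ hX X rfl
    intro Y hY
    induction hY using Submodule.span_induction with
    | mem Y hY =>
      intro X hX
      refine Submodule.subset_span (Finset.mem_coe.mpr (Finset.mem_image.mpr
        ⟨⟨Y, hY⟩, Finset.mem_attach _ _, hval ?_⟩))
      rw [hX]
      rfl
    | zero => exact fun X hX => by rw [hval (hX.trans (map_zero _).symm)]; exact zero_mem _
    | add Y Z hY hZ hy hz =>
      intro X hX
      have e1 : ∀ i j, Y i j ∈ E := hBE Y (hgens.le hY)
      have e : X = Matrix.of (fun i j => (⟨Y i j, e1 i j⟩ : E)) +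
          (X - Matrix.of (fun i j => (⟨Y i j, e1 i j⟩ : E))) := by abel
      rw [e]
      refine add_mem (hy _ rfl) (hz _ ?_)
      rw [map_sub, hX]
      exact add_sub_cancel_left Y Z
    | smul a Y hY hy =>
      intro X hX
      have e1 : ∀ i j, Y i j ∈ E := hBE Y (hgens.le hY)
      have e : X = algebraMap 𝒪' R'' (algebraMap ℤ_[p] 𝒪' a) •
          Matrix.of (fun i j => (⟨Y i j, e1 i j⟩ : E)) := hval (by
        rw [hX]
        ext i j
        show a • Y i j = _
        rw [Algebra.smul_def]
        rfl)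
      rw [e]
      exact Submodule.smul_mem _ _ (hy _ rfl)
  have hup : ∀ X ∈ BE, ∀ Y ∈ BE, X * Y ∈ BE := by
    have base : ∀ X ∈ (↑gensE : Set (Matrix (Fin 2) (Fin 2) E)), (algebraMap E K).mapMatrix X ∈ B := by
      intro X hX
      obtain ⟨⟨Y, hY⟩, -, rfl⟩ := Finset.mem_image.mp (Finset.mem_coe.mp hX)
      exact hgens.le (Submodule.subset_span hY)
    intro X hX Y hY
    induction hX using Submodule.span_induction with
    | mem X hX =>
      induction hY using Submodule.span_induction with
      | mem Y hY =>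
        refine hlift _ ?_
        rw [map_mul]
        exact hmul _ (base X hX) _ (base Y hY)
      | zero => rw [mul_zero]; exact zero_mem _
      | add Y Z _ _ hy hz => rw [mul_add]; exact add_mem hy hz
      | smul a Y _ hy => rw [mul_smul_comm]; exact Submodule.smul_mem _ _ hy
    | zero => rw [zero_mul]; exact zero_mem _
    | add Y Z _ _ hy hz => rw [add_mul]; exact add_mem hy hz
    | smul a Y _ hy => rw [smul_mul_assoc]; exact Submodule.smul_mem _ _ hy
  have hpm : (p : R'') ∈ maximalIdeal R'' := by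
    have := map_nonunit (algebraMap 𝒪' R'') _ hp
    rwa [map_natCast] at this
  have hRE : Function.Injective (algebraMap R'' E) := IsFractionRing.injective R'' E
  obtain ⟨ρ, hρ1, hρc⟩ := exists_galoisRep_of_bounded hRE rE BE ⟨gensE, rfl⟩
    (hlift 1 (by rw [map_one]; exact h1)) hup (fun g => hlift _ (by rw [hrE]; exact hr g))
    (p : R'') hpm (fun k => by
      obtain ⟨F, hF, hF'⟩ := hcts k
      refine ⟨F, hF, fun g hg => ?_⟩
      obtain ⟨x, hx, hxe⟩ := hF' g hg
      let xE : Matrix (Fin 2) (Fin 2) E := Matrix.of fun i j => ⟨x i j, hBE x hx i j⟩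
      refine ⟨xE, hlift xE hx, hval ?_⟩
      rw [map_sub, map_one, hrE, hxe]
      ext i j
      show (p ^ k : ℤ_[p]) • x i j = algebraMap E K ((p : R'') ^ k • xE i j)
      simp only [xE, Matrix.of_apply, Algebra.smul_def, map_mul, map_pow, map_natCast]
      rfl)
  refine ⟨ρ, fun ℓ hℓ hℓN hℓS A hA σ hσ => ?_, fun q hq hqN hqp A hA σ hσ => ?_⟩
  · have hℓp : ℓ ≠ p := fun h => hℓS (h ▸ (Finset.mem_coe.mpr hpS))
    obtain ⟨e1, e2⟩ := hE.trace_frob ⟨⟨⟨ℓ, hℓ⟩, hℓN⟩, hℓS⟩ hℓp A hA σ hσ
    refine hρc σ _ _ ?_ ?_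
    · refine (algebraMap E K).injective ?_
      rw [show algebraMap E K (rE σ).trace = (r σ).trace by
        simp [Matrix.trace_fin_two, ← hrE σ], e1, AlgHom.comp_apply, hψ]
      rfl
    · refine (algebraMap E K).injective ?_
      rw [RingHom.map_det, hrE, e2, map_natCast, map_natCast]
  · refine hρ1 σ (hval ?_)
    rw [hrE, hE.unramified q hq hqN hqp A hA σ hσ, map_one]

end Fermat.Agent.GalRep
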