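/-
The eigencharacter of a normalised eigenform, with values in the algebraic integers.
-/
import Mathlib
import Fermat.Prelude.Def_FLTPrelim_Modularity
import Fermat.Agent.Hecke.QCoeff
import Fermat.Agent.Hecke.Eigenvector
import Fermat.Agent.Hecke.IntegralBasis

set_option autoImplicit false

noncomputable section

namespace Fermat.Agent.GalRep

open ModularFormClass CongruenceSubgroup
open Fermat.Agent.Hecke

variable {N : ℕ} [NeZero N] {g : CuspForm (Gamma0 N) 2}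

/-- A normalised eigenform is an eigenvector of the good Hecke operators. -/
theorem heckeTLin_eigenform (hg : g.IsNormalizedEigenform) {ℓ : ℕ} (hℓ : ℓ.Prime)
    (hℓN : ¬ ℓ ∣ N) : CuspForm.heckeTLin 2 hℓ hℓN g = qCoeff ⇑g ℓ • g := by
  refine cuspForm_ext_qCoeff fun n => ?_
  rw [qCoeff_heckeTLin hℓ hℓN, qCoeff_smul, show ((2 : ℤ) - 1) = 1 by norm_num, zpow_one]
  rcases eq_or_ne n 0 with rfl | hn
  · simp [qCoeff_cusp_zero]
  obtain ⟨r, m, hm, rfl⟩ :=
    Nat.exists_eq_pow_mul_and_not_dvd hn ℓ hℓ.ne_one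
  have hcop : ∀ s : ℕ, (ℓ ^ s).Coprime m := fun s =>
    Nat.Coprime.pow_left s (hℓ.coprime_iff_not_dvd.mpr hm)
  cases r with
  | zero =>
    rw [pow_zero, one_mul, if_neg hm, add_zero, mul_comm m ℓ]
    exact hg.qCoeff_mul_of_coprime _ _ (by simpa using hcop 1)
  | succ r =>
    have h1 : ℓ ^ (r + 1) * m * ℓ = ℓ ^ (r + 2) * m := by ring
    have h2 : ℓ ^ (r + 1) * m / ℓ = ℓ ^ r * m := by
      rw [pow_succ', mul_assoc, Nat.mul_div_cancel_left _ hℓ.pos]
    rw [if_pos ((dvd_pow_self ℓ (Nat.succ_ne_zero r)).mul_right m), h1, h2,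
      hg.qCoeff_mul_of_coprime _ _ (hcop _), hg.qCoeff_mul_of_coprime _ _ (hcop _),
      hg.qCoeff_mul_of_coprime _ _ (hcop _), hg.qCoeff_prime_pow_of_not_dvd ℓ r hℓ hℓN]
    ring

/-- A normalised eigenform is an eigenvector of the operators at primes dividing the level. -/
theorem heckeULin_eigenform (hg : g.IsNormalizedEigenform) {q : ℕ} (hq : q.Prime)
    (hqN : q ∣ N) : CuspForm.heckeULin 2 hqN g = qCoeff ⇑g q • g := by
  refine cuspForm_ext_qCoeff fun n => ?_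
  rw [qCoeff_heckeULin hq hqN, qCoeff_smul]
  rcases eq_or_ne n 0 with rfl | hn
  · simp [qCoeff_cusp_zero]
  obtain ⟨r, m, hm, rfl⟩ :=
    Nat.exists_eq_pow_mul_and_not_dvd hn q hq.ne_one
  have hcop : ∀ s : ℕ, (q ^ s).Coprime m := fun s =>
    Nat.Coprime.pow_left s (hq.coprime_iff_not_dvd.mpr hm)
  rw [show q ^ r * m * q = q ^ (r + 1) * m by ring, hg.qCoeff_mul_of_coprime _ _ (hcop _),
    hg.qCoeff_mul_of_coprime _ _ (hcop _)]
  cases r with
  | zero => rw [pow_zero, pow_one, hg.qCoeff_one, one_mul]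
  | succ r =>
    rw [hg.qCoeff_prime_pow_of_dvd q r hq hqN]
    ring

/-- The eigencharacter of a normalised eigenform takes algebraic integral values. -/
theorem exists_eigenCharacter (hg : g.IsNormalizedEigenform) (S : Set ℕ) :
    ∃ χ : CuspForm.heckeAlgebra N 2 S →+* integralClosure ℤ ℂ,
      ∀ (ℓ : ℕ) (hℓ : ℓ.Prime) (hℓN : ¬ ℓ ∣ N) (hℓS : ℓ ∉ S),
        (χ (CuspForm.heckeAlgebra.T hℓ hℓN hℓS) : ℂ) = qCoeff ⇑g ℓ := by
  have hg0 : g ≠ 0 := fun h0 => by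
    have := hg.qCoeff_one
    rw [h0, qCoeff_zero_form] at this
    exact zero_ne_one this
  let ρ : CuspForm.heckeAlgebra N 2 S →+* Module.End ℂ (CuspForm (Gamma0 N) 2) :=
    (CuspForm.heckeAlgebra N 2 S).val.toRingHom
  have heig : ∀ T ∈ CuspForm.heckeAlgebra N 2 S, ∃ c : ℂ, T g = c • g := by
    intro T hT
    refine Algebra.adjoin_induction ?_ (fun z => ⟨z, ?_⟩) ?_ ?_ hT
    · rintro T (⟨ℓ, hℓ, hℓN, -, rfl⟩ | ⟨q, hqN, hq, -, rfl⟩)
      · exact ⟨_, heckeTLin_eigenform hg hℓ hℓN⟩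
      · exact ⟨_, heckeULin_eigenform hg hq hqN⟩
    · rw [Module.algebraMap_end_apply, Int.cast_smul_eq_zsmul]
    · rintro T T' - - ⟨c, hc⟩ ⟨c', hc'⟩
      exact ⟨c + c', by rw [LinearMap.add_apply, hc, hc', add_smul]⟩
    · rintro T T' - - ⟨c, hc⟩ ⟨c', hc'⟩
      exact ⟨c' * c, by rw [Module.End.mul_apply, hc', map_smul, hc, smul_smul]⟩
  obtain ⟨χ, hχ⟩ := exists_character ρ hg0 (fun t => heig t.1 t.2)
  haveI := moduleFinite_heckeAlgebra N 2 S
  have hint : ∀ t, χ t ∈ integralClosure ℤ ℂ := fun t =>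
    (Algebra.IsIntegral.isIntegral (R := ℤ) t).map χ.toIntAlgHom
  refine ⟨χ.codRestrict (integralClosure ℤ ℂ).toSubring hint, fun ℓ hℓ hℓN hℓS => ?_⟩
  refine smul_left_injective ℂ hg0 ?_
  show χ (CuspForm.heckeAlgebra.T hℓ hℓN hℓS) • g = qCoeff ⇑g ℓ • g
  rw [← hχ, ← heckeTLin_eigenform hg hℓ hℓN]
  rfl

end Fermat.Agent.GalRep
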