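/-
Residual Galois representations attached to normalised eigenforms of weight two.
-/
import Mathlib
import Fermat.Prelude.Def_GaloisRep_Residual
import Fermat.Agent.Deform.MatrixRep
import Fermat.Agent.GalRep.Assembly
import Fermat.Agent.GalRep.EigenChar

set_option autoImplicit false

noncomputable section

namespace Fermat.Agent.GalRep

open Fermat.Agent.Galois (GQ)
open ModularFormClass CongruenceSubgroup Polynomial

section Algebraic

variable {p : ℕ} [Fact p.Prime]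

/-- The `ℤ_p`-algebra structure on a ring of characteristic `p`. -/
@[reducible] def padicAlgebraOfCharP (R : Type) [CommRing R] [CharP R p] : Algebra ℤ_[p] R :=
  ((ZMod.castHom (dvd_refl p) R).comp PadicInt.toZMod).toAlgebra

/-- The kernel of a map from the algebraic integers to a field of positive characteristic is
maximal. -/
theorem ker_isMaximal {k : Type} [Field k] [CharP k p] (φ : integralClosure ℤ ℂ →+* k) :
    (RingHom.ker φ).IsMaximal := by
  haveI : (RingHom.ker φ).IsPrime := RingHom.ker_isPrime φ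
  refine Ideal.isMaximal_of_isIntegral_of_isMaximal_comap (R := ℤ) _ ?_
  haveI : ((RingHom.ker φ).comap (algebraMap ℤ (integralClosure ℤ ℂ))).IsPrime := inferInstance
  refine Ideal.IsPrime.isMaximal inferInstance ?_
  intro h
  have h1 : ((p : ℤ)) ∈ (RingHom.ker φ).comap (algebraMap ℤ (integralClosure ℤ ℂ)) := by
    rw [Ideal.mem_comap, RingHom.mem_ker, map_natCast, map_natCast, CharP.cast_eq_zero]
  rw [h, Submodule.mem_bot] at h1
  exact (Fact.out (p := p.Prime)).ne_zero (by exact_mod_cast h1)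

/-- Quotients of the algebraic integers by maximal ideals are algebraically closed. -/
theorem isAlgClosed_quotient {𝔪 : Ideal (integralClosure ℤ ℂ)} (h : 𝔪.IsMaximal) :
    @IsAlgClosed (integralClosure ℤ ℂ ⧸ 𝔪) (Ideal.Quotient.field 𝔪) := by
  letI := Ideal.Quotient.field 𝔪
  refine IsAlgClosed.of_exists_root _ fun f hf hirr => ?_
  obtain ⟨g, hg, hdeg, hgm⟩ := lifts_and_degree_eq_and_monic
    ((Polynomial.mem_lifts f).mpr (Polynomial.map_surjective _ Ideal.Quotient.mk_surjective f)) hf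
  have hd : (g.map (algebraMap (integralClosure ℤ ℂ) ℂ)).degree ≠ 0 := by
    rw [hgm.degree_map, hdeg]
    exact hirr.degree_pos.ne'
  obtain ⟨z, hz⟩ := IsAlgClosed.exists_root _ hd
  have hzi : IsIntegral (integralClosure ℤ ℂ) z := ⟨g, hgm, by
    rw [← eval_map]; exact hz⟩
  have hz' : z ∈ integralClosure ℤ ℂ := isIntegral_trans z hzi
  refine ⟨Ideal.Quotient.mk 𝔪 ⟨z, hz'⟩, ?_⟩
  rw [← hg, eval_map, eval₂_at_apply]
  have : g.eval ⟨z, hz'⟩ = 0 := by
    refine Subtype.ext ?_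
    show algebraMap (integralClosure ℤ ℂ) ℂ _ = 0
    rw [← eval₂_at_apply]
    rw [IsRoot.def, eval_map] at hz
    exact hz
  rw [this, map_zero]

end Algebraic

variable {N p : ℕ} [NeZero N] [Fact p.Prime]

/-- The residual representation attached to an eigenform, from a datum. -/
theorem exists_residual_matrix (D : EichlerShimuraDatum N p)
    {g : CuspForm (Gamma0 N) 2} (hg : g.IsNormalizedEigenform)
    {k : Type} [Field k] [CharP k p] (φ : integralClosure ℤ ℂ →+* k) :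
    ∃ r : GQ →* Matrix (Fin 2) (Fin 2) k, GaloisFactorsThroughFiniteLevel r ∧
      (∀ ℓ : ℕ, ℓ.Prime → ¬ ℓ ∣ N → ℓ ≠ p →
        ∀ A : ValuationSubring (AlgebraicClosure ℚ), A.LiesOverPrime ℓ →
        ∀ σ : GQ, A.IsFrobeniusAt σ ℓ → ∃ a : integralClosure ℤ ℂ,
          (a : ℂ) = qCoeff ⇑g ℓ ∧ (r σ).trace = φ a ∧ (r σ).det = (ℓ : k)) ∧
      (∀ ℓ : ℕ, ℓ.Prime → ¬ ℓ ∣ N → ℓ ≠ p →
        ∀ A : ValuationSubring (AlgebraicClosure ℚ), A.LiesOverPrime ℓ →
        ∀ σ ∈ A.inertiaSubgroupIn ℚ, r σ = 1) := by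
  haveI := ker_isMaximal φ
  letI := Ideal.Quotient.field (RingHom.ker φ)
  haveI := isAlgClosed_quotient (𝔪 := RingHom.ker φ) inferInstance
  let j : integralClosure ℤ ℂ ⧸ RingHom.ker φ →+* k := RingHom.kerLift φ
  haveI : CharP (integralClosure ℤ ℂ ⧸ RingHom.ker φ) p :=
    (j.charP_iff_charP p).mpr inferInstance
  letI := padicAlgebraOfCharP (p := p) (integralClosure ℤ ℂ ⧸ RingHom.ker φ)
  obtain ⟨χ, hχ⟩ := exists_eigenCharacter hg ((↑(∅ : Finset ℕ) : Set ℕ))
  have hp0 : (p : integralClosure ℤ ℂ ⧸ RingHom.ker φ) = 0 := CharP.cast_eq_zero _ p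
  obtain ⟨ψ, hψ, -⟩ := exists_extension (D := D) (I := ⊥) (by rw [hp0]; exact zero_mem _)
    (fun r hr => by simpa using hr 1) ((Ideal.Quotient.mk (RingHom.ker φ)).comp χ)
  obtain ⟨r, B, -, -, -, -, htr, hdet, hker, hcts⟩ :=
    exists_twoDimRep D ∅ frobeniusPowDensity ψ
  have hE := isEigenRep_of_trace D ∅ frobeniusPowDensity ψ r htr hdet hker
  refine ⟨(Deform.mapHom j).comp r, ?_, fun ℓ hℓ hℓN hℓp A hA σ hσ => ?_,
    fun ℓ hℓ hℓN hℓp A hA σ hσ => ?_⟩
  · obtain ⟨F, hF, hF1⟩ := hcts 1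
    refine ⟨F, hF, fun σ hσ => ?_⟩
    obtain ⟨x, -, hx⟩ := hF1 σ hσ
    have : r σ = 1 := by
      rw [← sub_eq_zero, hx, pow_one, ← IsScalarTower.algebraMap_smul
        (integralClosure ℤ ℂ ⧸ RingHom.ker φ), map_natCast, hp0, zero_smul]
    rw [MonoidHom.comp_apply, this, map_one]
  · let i : GoodPrimeOff N (↑(∅ : Finset ℕ) : Set ℕ) := ⟨⟨⟨ℓ, hℓ⟩, hℓN⟩, by simp⟩
    obtain ⟨h1, h2⟩ := hE.trace_frob i hℓp A hA σ hσ
    refine ⟨χ (CuspForm.heckeAlgebra.T hℓ hℓN i.2), hχ ℓ hℓ hℓN i.2, ?_, ?_⟩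
    · show ((r σ).map j).trace = _
      rw [show ((r σ).map j).trace = j (r σ).trace by simp [Matrix.trace_fin_two], h1, hψ i]
      rfl
    · show ((r σ).map j).det = _
      rw [← RingHom.mapMatrix_apply, ← RingHom.map_det, h2, map_natCast]
  · rw [MonoidHom.comp_apply, hE.unramified ℓ hℓ hℓN hℓp A hA σ hσ, map_one]

/-- The residual representation on column vectors. -/
def residualOfMatrix {k : Type} [Field k] (r : GQ →* Matrix (Fin 2) (Fin 2) k)
    (h : GaloisFactorsThroughFiniteLevel r) : ResidualGaloisRep k where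
  V := Fin 2 → k
  finrank_eq := by simp
  ρ := (Deform.actHom k).comp r
  factorsThroughFiniteLevel := by
    obtain ⟨L, hL, h1⟩ := h
    exact ⟨L, hL, fun σ hσ => by rw [MonoidHom.comp_apply, h1 σ hσ, map_one]⟩

/-- Existence of the attached residual representation, given data at every level and prime. -/
theorem exists_isAttachedTo
    (hdata : ∀ (M q : ℕ) [NeZero M] [Fact q.Prime], Nonempty (EichlerShimuraDatum M q))
    {M : ℕ} {g : CuspForm (Gamma0 M) 2} (hg : g.IsNormalizedEigenform)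
    {q : ℕ} (hq : q.Prime) {k : Type} [Field k] [CharP k q] (φ : integralClosure ℤ ℂ →+* k) :
    ∃ ρ : ResidualGaloisRep k, ρ.IsAttachedTo g φ ∧
      ∀ ℓ : ℕ, ℓ.Prime → ¬ ℓ ∣ M * q → ρ.IsUnramifiedAt ℓ := by
  rcases eq_or_ne M 0 with rfl | hM
  · exact ⟨residualOfMatrix 1 ⟨⊥, inferInstance, fun _ _ => rfl⟩,
      fun ℓ _ h => absurd (dvd_zero ℓ) h, fun ℓ _ h => absurd ((dvd_zero ℓ).mul_right q) h⟩
  haveI : NeZero M := ⟨hM⟩
  haveI : Fact q.Prime := ⟨hq⟩
  obtain ⟨D⟩ := hdata M q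
  obtain ⟨r, hr, hfrob, hunr⟩ := exists_residual_matrix D hg φ
  refine ⟨residualOfMatrix r hr, fun ℓ hℓ hℓM hℓk A hA σ hσ => ?_,
    fun ℓ hℓ hℓMq A hA σ hσ => ?_⟩
  · have hℓq : ℓ ≠ q := fun h => hℓk (by rw [h, CharP.cast_eq_zero])
    obtain ⟨a, ha, htr, hdet⟩ := hfrob ℓ hℓ hℓM hℓq A hA σ hσ
    refine ⟨a, ha, ?_⟩
    show LinearMap.charpoly (Matrix.toLin' (r σ)) = _
    rw [Matrix.charpoly_toLin', Matrix.charpoly_fin_two, htr, hdet]
  · show Deform.actHom k (r σ) = 1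
    rw [hunr ℓ hℓ (fun h => hℓMq (h.mul_right q))
      (fun h => hℓMq (h ▸ dvd_mul_left q M)) A hA σ hσ, map_one]

end Fermat.Agent.GalRep
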