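/-
Residual attachment for eigenforms, along a Frey package.
-/
import Mathlib
import Fermat.Prelude.Def_FreyPackage_EigenformResidualAttachment
import Fermat.Agent.EC.Rep
import Fermat.Agent.EC.Frey
import Fermat.Agent.GalRep.Residual

set_option autoImplicit false

noncomputable section

namespace Fermat.Agent.GalRep

open Fermat.Agent.Galois (GQ)
open ModularFormClass CongruenceSubgroup
open WeierstrassCurve WeierstrassCurve.Affine.Point

/-- The residual attachment, given data at every level and prime. -/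
theorem eigenformResidualAttachmentAt
    (hdata : ∀ (M q : ℕ) [NeZero M] [Fact q.Prime], Nonempty (EichlerShimuraDatum M q))
    (P : FreyPackage) {M : ℕ} (hM : 0 < M) : P.EigenformResidualAttachmentAt M := by
  intro g hg 𝔪 h𝔪 hp𝔪
  classical
  haveI : NeZero M := ⟨hM.ne'⟩
  haveI : Fact P.p.Prime := ⟨P.pp⟩
  letI : Field (integralClosure ℤ ℂ ⧸ 𝔪) := Ideal.Quotient.field 𝔪
  haveI : CharP (integralClosure ℤ ℂ ⧸ 𝔪) P.p := by
    have h0 : (P.p : integralClosure ℤ ℂ ⧸ 𝔪) = 0 := by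
      rw [← map_natCast (Ideal.Quotient.mk 𝔪), Ideal.Quotient.eq_zero_iff_mem]
      exact hp𝔪
    exact (CharP.charP_iff_prime_eq_zero P.pp).mpr h0
  obtain ⟨D⟩ := hdata M P.p
  obtain ⟨r, hr, hfrob, -⟩ := exists_residual_matrix D hg (Ideal.Quotient.mk 𝔪)
  obtain ⟨L₁, hL₁, h1⟩ := hr
  obtain ⟨L₂, hL₂, h2⟩ :=
    Fermat.Agent.EC.exists_finite_level ℚ P.freyCurve (K := AlgebraicClosure ℚ) P.p P.pp.one_le
  haveI := hL₁
  haveI := hL₂
  haveI : Normal ℚ (AlgebraicClosure ℚ) := IsGalois.to_normal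
  let F := IntermediateField.normalClosure ℚ ↥(L₁ ⊔ L₂) (AlgebraicClosure ℚ)
  haveI : FiniteDimensional ℚ F := inferInstance
  haveI : NumberField F := { }
  haveI : Normal ℚ F := normalClosure.normal ℚ ↥(L₁ ⊔ L₂) (AlgebraicClosure ℚ)
  haveI : IsGalois ℚ F := ⟨⟩
  refine ⟨integralClosure ℤ ℂ ⧸ 𝔪, inferInstance, ZMod.algebra _ P.p,
    Fin 2 → integralClosure ℤ ℂ ⧸ 𝔪, inferInstance, inferInstance,
    (Deform.actHom _).comp r, Ideal.Quotient.mk 𝔪, F, inferInstance, inferInstance, inferInstance,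
    inferInstance, inferInstance, by rw [Ideal.mk_ker], by simp, fun σ hσ => ?_,
    fun ℓ hℓ hℓM hℓp A hA τ hτ => ?_, fun ℓ hℓ hℓM hℓp A hA τ hτ => ?_⟩
  · have hfix : ∀ x ∈ L₁ ⊔ L₂, σ x = x := fun x hx => by
      have hx' : x ∈ F := (L₁ ⊔ L₂).le_normalClosure hx
      have h := AlgEquiv.restrictNormal_commutes σ F ⟨x, hx'⟩
      rw [show σ.restrictNormal F = 1 from hσ] at h
      exact h.symm
    refine ⟨?_, ?_⟩
    · refine LinearMap.ext fun x => ?_
      rw [galoisRepModuleEnd_apply, Module.End.one_apply]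
      exact h2 σ (fun x hx => hfix x (le_sup_right (a := L₁) hx)) x
    · show Deform.actHom _ (r σ) = 1
      rw [h1 σ (fun x hx => hfix x (le_sup_left (b := L₂) hx)), map_one]
  · obtain ⟨a, ha, htr, -⟩ := hfrob ℓ hℓ hℓM hℓp A hA τ hτ
    refine ⟨a, ha, ?_⟩
    show LinearMap.trace _ _ (Matrix.toLin' (r τ)) = _
    rw [Matrix.trace_toLin'_eq, htr]
  · obtain ⟨a, -, -, hdet⟩ := hfrob ℓ hℓ hℓM hℓp A hA τ hτ
    show LinearMap.det (Matrix.toLin' (r τ)) = _
    rw [LinearMap.det_toLin', hdet]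

end Fermat.Agent.GalRep
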