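import Fermat.Agent.GalRep.Lattice

/-!
The Eichler–Shimura datum from compatible Galois actions modulo prime powers.
-/

set_option autoImplicit false

noncomputable section

namespace Fermat.Agent.GalRep

open CongruenceSubgroup
open scoped MatrixGroups
open Fermat.Agent.Galois (GQ)

variable {N : ℕ} [NeZero N] {p : ℕ} [Fact p.Prime]

/-- A compatible sequence of residues comes from a `p`-adic integer. -/
theorem exists_padic_of_compatible (a : ∀ k : ℕ, ZMod (p ^ k))
    (ha : ∀ m n (h : m ≤ n), ZMod.castHom (pow_dvd_pow p h) (ZMod (p ^ m)) (a n) = a m) :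
    ∃ y : ℤ_[p], ∀ k, PadicInt.toZModPow k y = a k := by
  have hI : ∀ (n : ℕ) (x y : ℤ_[p]),
      x ≡ y [SMOD (IsLocalRing.maximalIdeal ℤ_[p] ^ n • ⊤ : Submodule ℤ_[p] ℤ_[p])] ↔
        PadicInt.toZModPow n x = PadicInt.toZModPow n y := fun n x y => by
    rw [SModEq.sub_mem, PadicInt.maximalIdeal_eq_span_p, Ideal.span_singleton_pow, smul_eq_mul,
      Ideal.mul_top, ← PadicInt.ker_toZModPow, RingHom.mem_ker, map_sub, sub_eq_zero]
  obtain ⟨L, hL⟩ := IsPrecomplete.prec (I := IsLocalRing.maximalIdeal ℤ_[p])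
    (inferInstance : IsPrecomplete (IsLocalRing.maximalIdeal ℤ_[p]) ℤ_[p])
    (f := fun n => ((a n).val : ℤ_[p])) (fun {m n} h => by
      rw [hI, map_natCast, map_natCast, ZMod.natCast_zmod_val]
      conv_lhs => rw [← ha m n h, ZMod.castHom_apply, ZMod.cast_eq_val])
  exact ⟨L, fun k => by rw [← (hI k _ _).mp (hL k), map_natCast, ZMod.natCast_zmod_val]⟩

/-- Reduction of the lattice modulo `p^k`. -/
def redPow (k : ℕ) : Lat N p →+ ParHom N (ZMod (p ^ k)) :=
  AddMonoidHom.mk' (fun v => parMap (PadicInt.toZModPow k).toAddMonoidHom (toPar v))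
    (fun v w => by rw [← map_add]; rfl)

theorem redPow_apply (k : ℕ) (v : Lat N p) (x : Additive (Gamma0 N)) :
    (redPow k v : Additive (Gamma0 N) →+ ZMod (p ^ k)) x =
      PadicInt.toZModPow k ((v : Additive (Gamma0 N) →+ ℤ_[p]) x) := rfl

theorem redPow_isCast {m n : ℕ} (h : m ≤ n) (v : Lat N p) :
    IsCastHom (pow_dvd_pow p h) (redPow n v) (redPow m v) :=
  AddMonoidHom.ext fun x => by
    rw [AddMonoidHom.comp_apply, redPow_apply]
    exact (RingHom.congr_fun (PadicInt.zmod_cast_comp_toZModPow m n h) _).symm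

theorem lat_ext {v w : Lat N p} (h : ∀ k, redPow k v = redPow k w) : v = w :=
  Subtype.ext (AddMonoidHom.ext fun x => PadicInt.ext_of_toZModPow.mp fun k => by
    rw [← redPow_apply, ← redPow_apply, h k])

theorem exists_lat_of_compatible (χ : ∀ k, ParHom N (ZMod (p ^ k)))
    (h : ∀ m n (hmn : m ≤ n), IsCastHom (pow_dvd_pow p hmn) (χ n) (χ m)) :
    ∃ v : Lat N p, ∀ k, redPow k v = χ k := by
  choose y hy using fun x => exists_padic_of_compatible
    (fun k => (χ k : Additive (Gamma0 N) →+ ZMod (p ^ k)) x)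
    (fun m n hmn => (DFunLike.congr_fun (h m n hmn) x).symm)
  refine ⟨⟨AddMonoidHom.mk' y fun a b => PadicInt.ext_of_toZModPow.mp fun k => by
      rw [map_add, hy, hy, hy, map_add], fun γ hγ => ?_⟩,
    fun k => Subtype.ext (AddMonoidHom.ext fun x => hy x k)⟩
  exact PadicInt.ext_of_toZModPow.mp fun k => by
    show PadicInt.toZModPow k (y (Additive.ofMul γ)) = _
    rw [hy, map_zero]
    exact (χ k).2 γ hγ

theorem redPow_smul (k : ℕ) (c : ℤ_[p]) (v : Lat N p) :
    redPow k (c • v) = (PadicInt.toZModPow k c).val • redPow k v :=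
  Subtype.ext (AddMonoidHom.ext fun x => by
    rw [redPow_apply, Submodule.coe_smul, AddMonoidHom.smul_apply, smul_eq_mul, map_mul,
      ← redPow_apply, Submodule.coe_smul_of_tower, AddMonoidHom.smul_apply, nsmul_eq_mul,
      ZMod.natCast_zmod_val])

section Datum

variable (K : ∀ k : ℕ, KummerGalois N (p ^ k))

theorem exists_galois_limit (hC : KummerCompat N) (σ : GQ) (v : Lat N p) :
    ∃ w : Lat N p, ∀ k, redPow k w = (K k).galois σ (redPow k v) :=
  exists_lat_of_compatible (fun k => (K k).galois σ (redPow k v))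
    fun m n h => hC (p ^ m) (p ^ n) (pow_dvd_pow p h) (K n) (K m) σ _ _ (redPow_isCast h v)

/-- The value of the limit action. -/
def galoisFun (hC : KummerCompat N) (σ : GQ) (v : Lat N p) : Lat N p := (exists_galois_limit K hC σ v).choose

theorem redPow_galoisFun (hC : KummerCompat N) (σ : GQ) (v : Lat N p) (k : ℕ) :
    redPow k (galoisFun K hC σ v) = (K k).galois σ (redPow k v) :=
  (exists_galois_limit K hC σ v).choose_spec k

/-- The Galois action on the lattice, as a linear map. -/
def galoisLin (hC : KummerCompat N) (σ : GQ) : Module.End ℤ_[p] (Lat N p) where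
  toFun := galoisFun K hC σ
  map_add' v w := lat_ext fun k => by
    rw [map_add, redPow_galoisFun, redPow_galoisFun, redPow_galoisFun, map_add, map_add]
  map_smul' c v := lat_ext fun k => by
    rw [RingHom.id_apply, redPow_galoisFun, redPow_smul, redPow_smul, redPow_galoisFun,
      map_nsmul]

theorem redPow_galoisLin (hC : KummerCompat N) (σ : GQ) (v : Lat N p) (k : ℕ) :
    redPow k (galoisLin K hC σ v) = (K k).galois σ (redPow k v) := redPow_galoisFun K hC σ v k

theorem galoisLin_one (hC : KummerCompat N) : galoisLin K hC 1 = 1 :=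
  LinearMap.ext fun v => lat_ext fun k => by
    rw [redPow_galoisLin, map_one, Module.End.one_apply, Module.End.one_apply]

theorem galoisLin_mul (hC : KummerCompat N) (σ τ : GQ) :
    galoisLin K hC (σ * τ) = galoisLin K hC σ * galoisLin K hC τ :=
  LinearMap.ext fun v => lat_ext fun k => by
    rw [Module.End.mul_apply, redPow_galoisLin, redPow_galoisLin, redPow_galoisLin, map_mul,
      Module.End.mul_apply]

/-- The Galois action on the lattice. -/
def latGalois (hC : KummerCompat N) : GQ →* Module.End ℤ_[p] (Lat N p) where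
  toFun := galoisLin K hC
  map_one' := galoisLin_one K hC
  map_mul' := galoisLin_mul K hC

theorem redPow_latGalois (hC : KummerCompat N) (σ : GQ) (v : Lat N p) (k : ℕ) :
    redPow k (latGalois K hC σ v) = (K k).galois σ (redPow k v) := redPow_galoisFun K hC σ v k

theorem latGalois_continuous (hC : KummerCompat N) (k : ℕ) :
    ∃ F : IntermediateField ℚ (AlgebraicClosure ℚ), FiniteDimensional ℚ F ∧
      ∀ σ : GQ, (∀ x ∈ F, σ x = x) → ∀ v : Lat N p,
        ∃ w : Lat N p, latGalois K hC σ v - v = (p ^ k : ℤ_[p]) • w := by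
  obtain ⟨F, hF, hfix⟩ := (K k).continuous
  refine ⟨F, hF, fun σ hσ v => ?_⟩
  have h0 : redPow k (latGalois K hC σ v - v) = 0 := by
    rw [map_sub, redPow_latGalois, hfix σ hσ, Module.End.one_apply, sub_self]
  set u := latGalois K hC σ v - v
  have hdvd : ∀ x, (p : ℤ_[p]) ^ k ∣ (u : Additive (Gamma0 N) →+ ℤ_[p]) x := fun x => by
    rw [← Ideal.mem_span_singleton, ← PadicInt.ker_toZModPow, RingHom.mem_ker, ← redPow_apply, h0]
    rfl
  choose q hq using hdvd
  have hp : (p : ℤ_[p]) ^ k ≠ 0 := pow_ne_zero _ (Nat.cast_ne_zero.mpr (Fact.out : p.Prime).ne_zero)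
  exact ⟨⟨AddMonoidHom.mk' q fun a b => mul_left_cancel₀ hp (by rw [mul_add, ← hq, ← hq, ← hq, map_add]),
      fun γ hγ => mul_left_cancel₀ hp (by
        show (p : ℤ_[p]) ^ k * q (Additive.ofMul γ) = _
        rw [← hq, u.2 γ hγ, mul_zero])⟩,
    Subtype.ext (AddMonoidHom.ext fun x => hq x)⟩

theorem redPow_latHecke (ℓ : GoodPrime N) (v : Lat N p) (k : ℕ) :
    redPow k (latHecke N p ℓ v) = heckeHomAt ℓ (redPow k v) :=
  Subtype.ext (transferHom_comp (goodIndex ℓ) (PadicInt.toZModPow k).toAddMonoidHom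
    (v : Additive (Gamma0 N) →+ ℤ_[p])).symm

theorem nsmul_eq_zero_lat {D : ℕ} (hD : 0 < D) {v : Lat N p} (h : ∀ k, D • redPow k v = 0) :
    v = 0 := by
  have h1 : D • v = 0 := lat_ext fun k => by rw [map_nsmul, h k, map_zero]
  rw [← Nat.cast_smul_eq_nsmul ℤ_[p]] at h1
  exact (smul_eq_zero.mp h1).resolve_left (Nat.cast_ne_zero.mpr hD.ne')

/-- The datum. -/
def eichlerShimuraDatum (hC : KummerCompat N) (hT : ∀ k, KummerHeckeComm N (p ^ k)) (hF : KummerFrobenius N) :
    EichlerShimuraDatum N p where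
  L := Lat N p
  galois := latGalois K hC
  continuous := latGalois_continuous K hC
  hecke := latHeckePoly N p
  galois_hecke σ P := by
    induction P using MvPolynomial.induction_on with
    | C a =>
      rw [← MvPolynomial.algebraMap_eq, AlgHom.commutes]
      exact (Algebra.commutes a (latGalois K hC σ)).symm
    | add P Q hP hQ => rw [map_add]; exact hP.add_right hQ
    | mul_X P ℓ hP =>
      rw [map_mul]
      refine hP.mul_right ?_
      rw [latHeckePoly, polyHom_X]
      refine LinearMap.ext fun v => lat_ext fun k => ?_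
      rw [Module.End.mul_apply, Module.End.mul_apply, redPow_latGalois, redPow_latHecke,
        redPow_latHecke, redPow_latGalois]
      exact eq_heckeHom (goodIndex ℓ)
        (hT k (K k) ℓ σ _ _ (isHeckeTransfer_heckeHom (goodIndex ℓ) (redPow k v)))
  unramified q hq hqN hqp A hA σ hσ := by
    obtain ⟨D, hD, h⟩ := hF ⟨⟨q, hq⟩, hqN⟩
    refine LinearMap.ext fun v => sub_eq_zero.mp (nsmul_eq_zero_lat hD fun k => ?_)
    rw [map_sub, redPow_latGalois, Module.End.one_apply]
    exact (h (p ^ k) (fun hdvd => hqp ((Nat.prime_dvd_prime_iff_eq hq Fact.out).mp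
      (hq.dvd_of_dvd_pow hdvd))) (K k) A hA).1 σ hσ (redPow k v)
  frobenius ℓ hℓp A hA σ hσ := by
    obtain ⟨D, hD, h⟩ := hF ℓ
    refine LinearMap.ext fun v => nsmul_eq_zero_lat hD fun k => ?_
    have hk := (h (p ^ k) (fun hdvd => hℓp ((Nat.prime_dvd_prime_iff_eq ℓ.1.2 Fact.out).mp
      (ℓ.1.2.dvd_of_dvd_pow hdvd))) (K k) A hA).2 σ hσ (redPow k v) _
      (isHeckeTransfer_heckeHom (goodIndex ℓ) _)
    rw [latHeckePoly, polyHom_X]
    simp only [LinearMap.add_apply, LinearMap.sub_apply, Module.End.mul_apply,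
      Module.End.natCast_apply, map_add, map_sub, redPow_latGalois, redPow_latHecke, map_nsmul]
    exact hk
  saturated := saturation

end Datum

end Fermat.Agent.GalRep
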