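import Fermat.Agent.GalRep.KummerAut
import Fermat.Agent.Galois.Places

/-!
# Valuations of `ℚ̄` over a prime and series with integral coefficients

In a number field all values are, up to a bounded exponent, powers of the value of `ℓ`. Hence
integrality of series can be tested on powers with a bounded denominator, and series with bounded
coefficients can be normalised to have a unit coefficient.
-/

set_option autoImplicit false

noncomputable section

namespace Fermat.Agent.GalRep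

open Fermat.Agent.Galois

local notation "ℚb" => AlgebraicClosure ℚ

variable {A : ValuationSubring (AlgebraicClosure ℚ)} {ℓ : ℕ}

theorem valuation_ell_lt_one (hA : A.LiesOverPrime ℓ) : A.valuation (ℓ : ℚb) < 1 :=
  A.mem_nonunits_iff.mp hA

theorem valuation_ell_pos (hℓ : ℓ.Prime) : 0 < A.valuation (ℓ : ℚb) :=
  zero_lt_iff.mpr ((map_ne_zero _).mpr (Nat.cast_ne_zero.mpr hℓ.ne_zero))

theorem valuation_intCast (hℓ : ℓ.Prime) (hA : A.LiesOverPrime ℓ) {m : ℤ} (hm : m ≠ 0) :
    ∃ k : ℕ, A.valuation (m : ℚb) = A.valuation (ℓ : ℚb) ^ k := by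
  obtain ⟨k, m', hm', rfl⟩ := WfDvdMonoid.max_power_factor (x := (ℓ : ℤ)) hm
    (Nat.prime_iff_prime_int.mp hℓ).irreducible
  refine ⟨k, ?_⟩
  have h1 : A.valuation ((m' : ℤ) : ℚb) = 1 := by
    refine le_antisymm ((A.valuation_le_one_iff _).mpr ?_) (not_lt.mp fun h => hm' ?_)
    · have := integralClosure_le A (m' : ZBar)
      simpa using this
    · refine (intCast_mem_placeCenter hℓ hA m').mp ?_
      rw [mem_placeCenter_iff, ValuationSubring.mem_nonunits_iff]
      simpa using h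
  push_cast
  rw [map_mul, map_pow, h1, mul_one]

theorem valuation_ratCast (hℓ : ℓ.Prime) (hA : A.LiesOverPrime ℓ) {r : ℚ} (hr : r ≠ 0) :
    ∃ s : ℤ, A.valuation (r : ℚb) = A.valuation (ℓ : ℚb) ^ s := by
  obtain ⟨a, ha⟩ := valuation_intCast hℓ hA (Rat.num_ne_zero.mpr hr)
  obtain ⟨b, hb⟩ := valuation_intCast hℓ hA (m := (r.den : ℤ)) (by exact_mod_cast r.den_nz)
  refine ⟨(a : ℤ) - b, ?_⟩
  rw [Rat.cast_def, map_div₀, ha]
  rw [Int.cast_natCast] at hb
  rw [hb, zpow_sub₀ (valuation_ell_pos hℓ).ne', zpow_natCast, zpow_natCast]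

/-- In a number field all values are roots of powers of the value of `ℓ`. -/
theorem exists_valuation_exponent (hℓ : ℓ.Prime) (hA : A.LiesOverPrime ℓ)
    (L : IntermediateField ℚ ℚb) [FiniteDimensional ℚ L] :
    ∃ e : ℕ, 0 < e ∧ ∀ x ∈ L, x ≠ 0 → ∃ s : ℤ,
      A.valuation x ^ e = A.valuation (ℓ : ℚb) ^ s := by
  classical
  refine ⟨(Module.finrank ℚ L).factorial, Nat.factorial_pos _, fun x hx hx0 => ?_⟩
  set p := minpoly ℚ x with hp
  have hint : _root_.IsIntegral ℚ x := (Algebra.IsAlgebraic.isAlgebraic x).isIntegral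
  have hdeg : p.natDegree ≤ Module.finrank ℚ L := by
    have h1 : p = minpoly ℚ (⟨x, hx⟩ : L) :=
      minpoly.algHom_eq L.val L.val.injective (⟨x, hx⟩ : L)
    rw [h1]
    exact minpoly.natDegree_le _
  set v := A.valuation with hv
  let T : ℕ → ℚb := fun i => algebraMap ℚ ℚb (p.coeff i) * x ^ i
  have hsum : ∑ i ∈ p.support, T i = 0 := by
    have h := minpoly.aeval ℚ x
    rw [← hp, Polynomial.aeval_def, Polynomial.eval₂_eq_sum, Polynomial.sum_def] at h
    exact h
  have hne : p.support.Nonempty := Polynomial.support_nonempty.mpr (minpoly.ne_zero hint)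
  obtain ⟨j, hj, hmax⟩ := p.support.exists_max_image (fun i => v (T i)) hne
  have hT0 : ∀ i ∈ p.support, T i ≠ 0 := fun i hi => mul_ne_zero
    ((map_ne_zero _).mpr (Polynomial.mem_support_iff.mp hi)) (pow_ne_zero _ hx0)
  obtain ⟨i, hi, hij, hval⟩ : ∃ i ∈ p.support, i ≠ j ∧ v (T i) = v (T j) := by
    by_contra hcon
    push Not at hcon
    have h := v.map_sum_eq_of_lt (f := T) hj fun i hi => by
      obtain ⟨hi1, hi2⟩ := Finset.mem_sdiff.mp hi
      exact lt_of_le_of_ne (hmax i hi1) (hcon i hi1 (Finset.notMem_singleton.mp hi2))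
    rw [hsum, map_zero] at h
    exact hT0 j hj ((map_eq_zero _).mp h.symm)
  suffices key : ∀ i ∈ p.support, ∀ j ∈ p.support, i < j → v (T i) = v (T j) →
      ∃ s : ℤ, A.valuation x ^ (Module.finrank ℚ L).factorial = A.valuation (ℓ : ℚb) ^ s by
    rcases hij.lt_or_gt with hlt | hlt
    · exact key i hi j hj hlt hval
    · exact key j hj i hi hlt hval.symm
  clear! i j
  intro i hi j hj hlt hval
  obtain ⟨si, hsi⟩ := valuation_ratCast hℓ hA (Polynomial.mem_support_iff.mp hi)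
  obtain ⟨sj, hsj⟩ := valuation_ratCast hℓ hA (Polynomial.mem_support_iff.mp hj)
  obtain ⟨k, hk⟩ := Nat.dvd_factorial (show 0 < j - i by omega)
    (show j - i ≤ Module.finrank ℚ L from (Nat.sub_le _ _).trans
      ((Polynomial.le_natDegree_of_mem_supp _ hj).trans hdeg))
  refine ⟨(si - sj) * k, ?_⟩
  simp only [T, map_mul, map_pow, eq_ratCast, hv] at hval
  rw [hsi, hsj, show j = (j - i) + i by omega, pow_add, ← mul_assoc] at hval
  have h2 := mul_right_cancel₀ (pow_ne_zero _ ((map_ne_zero A.valuation).mpr hx0)) hval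
  rw [hk, pow_mul, zpow_mul, zpow_natCast]
  congr 1
  rw [zpow_sub₀ (valuation_ell_pos hℓ).ne', h2,
    mul_div_cancel_left₀ _ (zpow_ne_zero _ (valuation_ell_pos hℓ).ne')]

/-- The value group has rank one. -/
theorem exists_pow_mul_not_mem (hℓ : ℓ.Prime) (hA : A.LiesOverPrime ℓ) {x w : ℚb}
    (hx : x ∉ A) (hw : w ≠ 0) : ∃ k : ℕ, w * x ^ k ∉ A := by
  haveI : FiniteDimensional ℚ (IntermediateField.adjoin ℚ ({x, w} : Set ℚb)) :=
    IntermediateField.finiteDimensional_adjoin fun y _ =>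
      (Algebra.IsAlgebraic.isAlgebraic y).isIntegral
  obtain ⟨e, he, hL⟩ := exists_valuation_exponent hℓ hA
    (IntermediateField.adjoin ℚ ({x, w} : Set ℚb))
  have hx0 : x ≠ 0 := fun h => hx (h ▸ A.zero_mem)
  obtain ⟨s, hs⟩ := hL x (IntermediateField.subset_adjoin ℚ _ (Set.mem_insert _ _)) hx0
  obtain ⟨t, ht⟩ := hL w (IntermediateField.subset_adjoin ℚ _ (Set.mem_insert_of_mem _ rfl)) hw
  have hsneg : s < 0 := by
    by_contra h
    refine hx ((A.valuation_le_one_iff x).mp ((pow_le_one_iff_of_nonneg zero_le he.ne').mp ?_))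
    rw [hs]
    exact (zpow_le_one_iff_right_of_lt_one₀ (valuation_ell_pos hℓ) (valuation_ell_lt_one hA)).mpr
      (not_lt.mp h)
  refine ⟨t.toNat + 1, fun hmem => ?_⟩
  have h1 : A.valuation (w * x ^ (t.toNat + 1)) ^ e ≤ 1 :=
    pow_le_one₀ zero_le ((A.valuation_le_one_iff _).mpr hmem)
  rw [map_mul, map_pow, mul_pow, ht, ← pow_mul, mul_comm _ e, pow_mul, hs, ← zpow_natCast,
    ← zpow_mul, ← zpow_add₀ (valuation_ell_pos hℓ).ne',
    zpow_le_one_iff_right_of_lt_one₀ (valuation_ell_pos hℓ) (valuation_ell_lt_one hA)] at h1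
  push_cast at h1
  nlinarith [Int.self_le_toNat t, Int.natCast_nonneg t.toNat]

/-- Series with coefficients in the valuation ring, as a subring. -/
def intSeriesA (A : ValuationSubring (AlgebraicClosure ℚ)) :
    Subring (LaurentSeries (AlgebraicClosure ℚ)) :=
  (lmap A.subtype).range

theorem mem_intSeriesA {f : LaurentSeries ℚb} : f ∈ intSeriesA A ↔ SeriesIntegral A f := by
  constructor
  · rintro ⟨g, rfl⟩ m
    exact (g.coeff m).2
  · intro h
    refine ⟨⟨fun m => ⟨f.coeff m, h m⟩, f.isPWO_support.mono fun m hm h0 => hm (Subtype.ext h0)⟩,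
      ?_⟩
    ext m
    rfl

theorem leadingCoeff_pow_series (a : LaurentSeries ℚb) (k : ℕ) :
    (a ^ k).leadingCoeff = a.leadingCoeff ^ k := by
  induction k with
  | zero => simp
  | succ k ih => rw [pow_succ, HahnSeries.leadingCoeff_mul, ih, pow_succ]

/-- Integrality is detected by powers with a bounded denominator. -/
theorem mem_intSeriesA_of_pow (hℓ : ℓ.Prime) (hA : A.LiesOverPrime ℓ) {w a : LaurentSeries ℚb}
    (hw : w ≠ 0) (h : ∀ k : ℕ, w * a ^ k ∈ intSeriesA A) : a ∈ intSeriesA A := by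
  classical
  by_contra hna
  obtain ⟨m₁, hm₁⟩ : ∃ m, a.coeff m ∉ A := by
    by_contra hall
    push Not at hall
    exact hna (mem_intSeriesA.mpr hall)
  obtain ⟨m₀, hm₀, hmin⟩ := Int.exists_least_of_bdd (P := fun m => a.coeff m ∉ A)
    ⟨a.order, fun m hm => not_lt.mp fun hlt => hm (by
      rw [HahnSeries.coeff_eq_zero_of_lt_order hlt]; exact A.zero_mem)⟩ ⟨m₁, hm₁⟩
  set low : LaurentSeries ℚb := ⟨fun m => if m < m₀ then a.coeff m else 0,
    a.isPWO_support.mono fun m hm => by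
      simp only [Function.mem_support, ne_eq, ite_eq_right_iff, Classical.not_imp] at hm
      exact hm.2⟩ with hlow
  set a' := a - low with ha'
  have hlowA : low ∈ intSeriesA A := mem_intSeriesA.mpr fun m => by
    show (if m < m₀ then a.coeff m else 0) ∈ A
    split_ifs with hm
    · by_contra hc; exact absurd (hmin m hc) (not_le.mpr hm)
    · exact A.zero_mem
  have hpow : ∀ k, w * a' ^ k ∈ intSeriesA A := fun k => by
    rw [ha', sub_eq_add_neg, add_pow, Finset.mul_sum]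
    refine Subring.sum_mem _ fun i _ => ?_
    rw [← mul_assoc, ← mul_assoc]
    exact Subring.mul_mem _ (Subring.mul_mem _ (h i)
      (Subring.pow_mem _ (Subring.neg_mem _ hlowA) _)) (natCast_mem _ _)
  have hc0 : a'.coeff m₀ = a.coeff m₀ := by
    show a.coeff m₀ - (if m₀ < m₀ then _ else (0 : ℚb)) = _
    rw [if_neg (lt_irrefl _), sub_zero]
  have hne : a.coeff m₀ ≠ 0 := fun h0 => hm₀ (h0 ▸ A.zero_mem)
  have ha0 : a' ≠ 0 := fun h0 => hne (by rw [← hc0, h0]; rfl)
  have hord : a'.order = m₀ := by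
    refine le_antisymm (HahnSeries.order_le_of_coeff_ne_zero (hc0 ▸ hne)) ?_
    by_contra hlt
    refine HahnSeries.coeff_order_eq_zero.not.mpr ha0 ?_
    show a.coeff a'.order - (if a'.order < m₀ then a.coeff a'.order else 0) = 0
    rw [if_pos (not_le.mp hlt), sub_self]
  obtain ⟨k, hk⟩ := exists_pow_mul_not_mem hℓ hA hm₀
    (show w.coeff w.order ≠ 0 from HahnSeries.coeff_order_eq_zero.not.mpr hw)
  refine hk ?_
  have hlead : (w * a' ^ k).coeff (w * a' ^ k).order = w.coeff w.order * a.coeff m₀ ^ k := by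
    have hl : (w * a' ^ k).leadingCoeff = w.leadingCoeff * a'.leadingCoeff ^ k := by
      rw [HahnSeries.leadingCoeff_mul]
      rw [leadingCoeff_pow_series]
    simp only [HahnSeries.leadingCoeff_eq] at hl
    rw [hl, hord, hc0]
  rw [← hlead]
  exact mem_intSeriesA.mp (hpow k) _

/-- Normalisation of a series with bounded coefficients in a number field. -/
theorem exists_normalisation (hℓ : ℓ.Prime) (hA : A.LiesOverPrime ℓ)
    (L : IntermediateField ℚ ℚb) [FiniteDimensional ℚ L] {g : LaurentSeries ℚb} (hg : g ≠ 0)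
    (hL : ∀ m, g.coeff m ∈ L) {w : ℚb} (hw : w ≠ 0)
    (hb : HahnSeries.C w * g ∈ intSeriesA A) :
    ∃ c : ℚb, c ≠ 0 ∧ HahnSeries.C c * g ∈ intSeriesA A ∧
      ∃ m, (HahnSeries.C c * g).coeff m ∉ A.nonunits := by
  classical
  haveI : FiniteDimensional ℚ (IntermediateField.adjoin ℚ ({w} : Set ℚb)) :=
    IntermediateField.finiteDimensional_adjoin fun y _ =>
      (Algebra.IsAlgebraic.isAlgebraic y).isIntegral
  obtain ⟨e, he, hLv⟩ := exists_valuation_exponent hℓ hA (L ⊔ IntermediateField.adjoin ℚ ({w} : Set ℚb))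
  obtain ⟨t, ht⟩ := hLv w (SetLike.le_def.mp le_sup_right
    (IntermediateField.subset_adjoin ℚ _ rfl)) hw
  have hcoe : ∀ (c : ℚb) (m : ℤ), (HahnSeries.C c * g).coeff m = c * g.coeff m := fun c m => by
    rw [HahnSeries.C_mul_eq_smul, HahnSeries.coeff_smul, smul_eq_mul]
  let P : ℤ → Prop := fun s => ∃ m, g.coeff m ≠ 0 ∧
    A.valuation (g.coeff m) ^ e = A.valuation (ℓ : ℚb) ^ s
  have hS : ∀ m, g.coeff m ≠ 0 → ∃ s : ℤ, A.valuation (g.coeff m) ^ e = A.valuation (ℓ : ℚb) ^ s :=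
    fun m hm => hLv _ (SetLike.le_def.mp le_sup_left (hL m)) hm
  have hbdd : ∀ s, P s → -t ≤ s := by
    rintro s ⟨m, hm, hs⟩
    have h1 : A.valuation (w * g.coeff m) ^ e ≤ 1 :=
      pow_le_one₀ zero_le ((A.valuation_le_one_iff _).mpr (hcoe w m ▸ mem_intSeriesA.mp hb m))
    rw [map_mul, mul_pow, hs, ht, ← zpow_add₀ (valuation_ell_pos hℓ).ne',
      zpow_le_one_iff_right_of_lt_one₀ (valuation_ell_pos hℓ) (valuation_ell_lt_one hA)] at h1
    omega
  have hm1 : g.coeff g.order ≠ 0 := HahnSeries.coeff_order_eq_zero.not.mpr hg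
  obtain ⟨s₁, hs₁⟩ := hS _ hm1
  obtain ⟨s₀, ⟨m₀, hm₀, hs₀⟩, hmin⟩ :=
    Int.exists_least_of_bdd ⟨-t, hbdd⟩ (⟨s₁, g.order, hm1, hs₁⟩ : ∃ s, P s)
  refine ⟨(g.coeff m₀)⁻¹, inv_ne_zero hm₀, mem_intSeriesA.mpr fun m => ?_, m₀, ?_⟩
  · rw [hcoe]
    rcases eq_or_ne (g.coeff m) 0 with h0 | h0
    · rw [h0, mul_zero]; exact A.zero_mem
    obtain ⟨s, hs⟩ := hS m h0
    refine (A.valuation_le_one_iff _).mp ((pow_le_one_iff_of_nonneg zero_le he.ne').mp ?_)
    rw [map_mul, map_inv₀, mul_pow, inv_pow, hs, hs₀, ← zpow_neg,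
      ← zpow_add₀ (valuation_ell_pos hℓ).ne',
      zpow_le_one_iff_right_of_lt_one₀ (valuation_ell_pos hℓ) (valuation_ell_lt_one hA)]
    linarith [hmin s ⟨m, h0, hs⟩]
  · rw [hcoe, inv_mul_cancel₀ hm₀, ValuationSubring.mem_nonunits_iff, map_one]
    exact lt_irrefl 1

end Fermat.Agent.GalRep
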