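import Fermat.Agent.GalRep.KummerGalois
import Fermat.Agent.GalRep.PlaceVal
import Fermat.Agent.MCurve.JFun

/-!
# Integral normalisation of modular functions and representatives

A modular function on `Γ₀(N)` with algebraic coefficients at infinity has them in a number field
and, after scaling, integral at any place with some coefficient a unit.
-/

set_option autoImplicit false

noncomputable section

namespace Fermat.Agent.GalRep

open UpperHalfPlane CongruenceSubgroup Filter Topology
open Fermat.Agent.Period (jFun Coset baseCoset)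
open scoped MatrixGroups Manifold

local notation "ℚb" => AlgebraicClosure ℚ

/-! ## The series of `j` over any ring -/

theorem jq_eq_jqModC : jq = ModularCurve.jqModC ℂ := by
  have h : HasQSeries 1 (fun τ : ℍ => qq 1 τ * jFun τ)
      (HahnSeries.ofPowerSeries ℤ ℂ (ModularCurve.jNum.map (Int.castRingHom ℂ))) := by
    rw [hasQSeries_iff]
    refine .of_forall fun τ => ?_
    refine (Nat.cast_injective.hasSum_iff fun m hm => ?_).mp ?_
    · rw [HahnSeries.ofPowerSeries_apply, HahnSeries.embDomain_of_notMem_range, zero_mul]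
      rintro ⟨k, hk⟩; exact hm ⟨k, hk⟩
    · simpa [Function.comp_def, qq_eq_qParam, HahnSeries.ofPowerSeries_apply_coeff,
        MCurve.jFn, Period.jFun] using MCurve.qExp_qParam_mul_jFn τ
  refine hasQSeries_jq.unique one_pos (((HasQSeries.single 1 (-1) 1).mul h).congr
    (.of_forall fun τ => ?_))
  simp [qq_ne_zero 1 τ]

theorem lmap_jqModC {R S : Type*} [CommRing R] [CommRing S] (φ : R →+* S) :
    lmap φ (ModularCurve.jqModC R) = ModularCurve.jqModC S := ModularCurve.map_jqModC φ

/-! ## Bivariate evaluation in Laurent series -/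

section Ev

variable {R S : Type*} [CommRing R] [CommRing S]

/-- Evaluation of a bivariate polynomial at `(s, r)` in Laurent series. -/
def lEval (s r : LaurentSeries R) : Polynomial (Polynomial R) →+* LaurentSeries R :=
  Polynomial.eval₂RingHom (Polynomial.eval₂RingHom HahnSeries.C s) r

theorem lmap_lEval (φ : R →+* S) (s r : LaurentSeries R) (P : Polynomial (Polynomial R)) :
    lmap φ (lEval s r P) = lEval (lmap φ s) (lmap φ r) (P.map (Polynomial.mapRingHom φ)) := by
  suffices h : (lmap φ).comp (lEval s r) =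
      (lEval (lmap φ s) (lmap φ r)).comp (Polynomial.mapRingHom (Polynomial.mapRingHom φ)) from
    RingHom.congr_fun h P
  refine Polynomial.ringHom_ext (fun a => ?_) (by simp [lEval])
  simp only [RingHom.comp_apply, lEval, Polynomial.coe_eval₂RingHom, Polynomial.coe_mapRingHom,
    Polynomial.map_C, Polynomial.eval₂_C, Polynomial.hom_eval₂, Polynomial.eval₂_map]
  congr 1
  ext c : 1
  exact lmap_C φ c

theorem lEval_mem (T : Subring (LaurentSeries R)) {s r : LaurentSeries R} (hs : s ∈ T) (hr : r ∈ T)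
    (P : Polynomial (Polynomial R)) (c : R)
    (hc : ∀ i j, HahnSeries.C (c * (P.coeff i).coeff j) ∈ T) :
    HahnSeries.C c * lEval s r P ∈ T := by
  rw [lEval, Polynomial.coe_eval₂RingHom, Polynomial.eval₂_eq_sum_range, Finset.mul_sum]
  refine T.sum_mem fun i _ => ?_
  rw [← mul_assoc, Polynomial.coe_eval₂RingHom, Polynomial.eval₂_eq_sum_range, Finset.mul_sum]
  refine T.mul_mem (T.sum_mem fun j _ => ?_) (T.pow_mem hr _)
  rw [← mul_assoc, ← map_mul]
  exact T.mul_mem (hc i j) (T.pow_mem hs _)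

end Ev

theorem lEval_eq_biEval (s r : LaurentSeries ℂ) (P : Polynomial (Polynomial ℂ)) :
    lEval s r P = biEval s r P := by
  suffices h : lEval s r = biEval s r from RingHom.congr_fun h P
  refine Polynomial.ringHom_ext (fun a => ?_) (by simp [lEval, biEval])
  simp only [lEval, biEval, Polynomial.coe_eval₂RingHom, Polynomial.eval₂_C,
    AlgHom.toRingHom_eq_coe, RingHom.coe_coe, Polynomial.aeval_def]
  congr 1
  ext c : 1
  simp [HahnSeries.algebraMap_apply']

variable {N : ℕ} [NeZero N]

theorem hasQSeries_biEval {F : modFuns (Gamma0 N)} {f : LaurentSeries ℂ}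
    (hf : HasQSeries 1 (F : ℍ → ℂ) f) (P : Polynomial (Polynomial ℂ)) :
    HasQSeries 1 ((biEval (jMF (Gamma0 N)) F P : modFuns (Gamma0 N)) : ℍ → ℂ) (biEval jq f P) := by
  induction P using Polynomial.induction_on' with
  | add p q hp hq => rw [map_add, map_add]; exact hp.add hq
  | monomial k a =>
    simp only [biEval, Polynomial.coe_eval₂RingHom, Polynomial.eval₂_monomial,
      AlgHom.toRingHom_eq_coe, RingHom.coe_coe]
    refine ((hasQSeries_aeval_jFun a).mul (hf.pow k)).congr (.of_forall fun τ => ?_)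
    show a.eval (jFun τ) * (F : ℍ → ℂ) τ ^ k = _
    rw [← evJ_apply (Gamma0 N)]
    rfl

/-! ## Algebraicity of the polynomials -/

theorem isAlgebraic_of_fixed {x : ℂ}
    (h : ∀ σ : ℂ ≃+* ℂ, (∀ y, σ (qbarToC y) = qbarToC y) → σ x = x) : IsAlgebraic ℚ x := by
  classical
  by_contra hx
  haveI : Algebra.IsAlgebraic ℚ (algebraicClosure ℚ ℂ) := algebraicClosure.isAlgebraic ℚ ℂ
  have hx' : Transcendental (algebraicClosure ℚ ℂ) x := fun h' =>
    hx (IsAlgebraic.restrictScalars ℚ h')
  have hind : AlgebraicIndepOn (algebraicClosure ℚ ℂ) id ({x} : Set ℂ) :=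
    algebraicIndependent_unique_type_iff.mpr hx'
  obtain ⟨s, hxs, hs⟩ := exists_isTranscendenceBasis_superset hind
  let i : s := ⟨x, hxs rfl⟩
  let f : MvPolynomial s (algebraicClosure ℚ ℂ) →ₐ[algebraicClosure ℚ ℂ]
      MvPolynomial s (algebraicClosure ℚ ℂ) :=
    MvPolynomial.aeval fun j => if j = i then -MvPolynomial.X j else MvPolynomial.X j
  have hff : f.comp f = AlgHom.id (algebraicClosure ℚ ℂ) _ := by
    refine MvPolynomial.algHom_ext fun j => ?_
    rw [AlgHom.comp_apply, AlgHom.id_apply]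
    simp only [f, MvPolynomial.aeval_X]
    by_cases hj : j = i
    · simp only [if_pos hj, map_neg, MvPolynomial.aeval_X, neg_neg]
    · simp only [if_neg hj, MvPolynomial.aeval_X]
  obtain ⟨σ, hσ⟩ := Hecke.exists_complexAut_of_polyAut _ hs
    (AlgEquiv.ofAlgHom f f hff hff).toRingEquiv
  have h1 := hσ (MvPolynomial.X i)
  have h2 : (AlgEquiv.ofAlgHom f f hff hff).toRingEquiv (MvPolynomial.X i) =
      -MvPolynomial.X i := by
    show f (MvPolynomial.X i) = _
    simp [f]
  rw [h2, map_neg, MvPolynomial.aeval_X] at h1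
  have hfix : ∀ y, σ (qbarToC y) = qbarToC y := fun y => by
    have hy : qbarToC y ∈ algebraicClosure ℚ ℂ := (mem_algebraicClosure_iff').mpr
      ((Algebra.IsAlgebraic.isAlgebraic y).algHom qbarToC.toRatAlgHom).isIntegral
    have h3 := hσ (MvPolynomial.C (⟨qbarToC y, hy⟩ : algebraicClosure ℚ ℂ))
    have h4 : (AlgEquiv.ofAlgHom f f hff hff).toRingEquiv
        (MvPolynomial.C (⟨qbarToC y, hy⟩ : algebraicClosure ℚ ℂ)) = MvPolynomial.C ⟨qbarToC y, hy⟩ :=
      f.commutes _
    rw [h4, MvPolynomial.aeval_C] at h3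
    exact h3
  rw [show (((i : s)) : ℂ) = x from rfl, h σ hfix] at h1
  exact hx ((show x = 0 by linear_combination h1 / 2) ▸ isAlgebraic_zero)

theorem exists_lift_of_fixed {P : Polynomial (Polynomial ℂ)}
    (h : ∀ σ : ℂ ≃+* ℂ, (∀ y, σ (qbarToC y) = qbarToC y) → gmap σ P = P) :
    ∃ Q : Polynomial (Polynomial ℚb), Q.map (Polynomial.mapRingHom qbarToC) = P := by
  refine (Polynomial.mem_lifts P).mp ((Polynomial.lifts_iff_coeff_lifts P).mpr fun i => ?_)
  refine (Polynomial.mem_lifts _).mp ((Polynomial.lifts_iff_coeff_lifts (P.coeff i)).mpr fun j => ?_)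
  refine exists_qbarToC_eq (isAlgebraic_of_fixed fun σ hσ => ?_)
  conv_rhs => rw [← h σ hσ]
  simp [gmap]

attribute [local instance] Classical.decEq

local instance instFintypeCosetIntegral : Fintype (Coset N) := Fintype.ofFinite _

section Fixed

variable (σ : ℂ ≃+* ℂ) {φ : modFuns (Gamma0 N)} {g : LaurentSeries ℂ}

theorem lmap_biEval_jq (P : Polynomial (Polynomial ℂ)) (r : LaurentSeries ℂ) :
    lmap σ.toRingHom (biEval jq r P) = biEval jq (lmap σ.toRingHom r) (gmap σ P) := by
  rw [lmap_biEval, lmap_jq]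

theorem gmap_num_eq (hg : HasQSeries 1 (φ : ℍ → ℂ) g) (hσ : lmap σ.toRingHom g = g)
    {G : Polynomial (Polynomial ℂ)} (hdeg : G.natDegree < idx N)
    (hG : φ * biEval (jMF (Gamma0 N)) (jNMF N) (Polynomial.derivative (modPoly N)) =
      biEval (jMF (Gamma0 N)) (jNMF N) G) : gmap σ G = G := by
  have hj : HasQSeries 1 ((jNMF N : modFuns (Gamma0 N)) : ℍ → ℂ) (expand N (NeZero.ne N) jq) :=
    hasQSeries_jNFun N
  have h1 : g * biEval jq (expand N (NeZero.ne N) jq) (Polynomial.derivative (modPoly N)) =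
      biEval jq (expand N (NeZero.ne N) jq) G :=
    (((hg.mul (hasQSeries_biEval hj _))).congr (.of_forall fun τ =>
      congrFun (congrArg Subtype.val hG) τ)).unique one_pos (hasQSeries_biEval hj G)
  have h2 := congrArg (lmap σ.toRingHom) h1
  rw [map_mul, hσ, lmap_biEval_jq, lmap_biEval_jq, lmap_expand, lmap_jq, gmap_derivative_modPoly,
    h1] at h2
  have hdeg' : (gmap σ G).natDegree < idx N :=
    lt_of_le_of_lt Polynomial.natDegree_map_le hdeg
  refine eq_of_biEval_eq hdeg' hdeg (Subtype.ext ?_)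
  exact eq_of_hasQSeries (biEval (jMF (Gamma0 N)) (jNMF N) (gmap σ G)).2.holo
    (biEval (jMF (Gamma0 N)) (jNMF N) G).2.holo (h2 ▸ hasQSeries_biEval hj (gmap σ G))
    (hasQSeries_biEval hj G)

theorem gmap_orbitPoly_eq (hg : HasQSeries 1 (φ : ℍ → ℂ) g) (hσ : lmap σ.toRingHom g = g) :
    gmap σ (orbitPoly φ) = orbitPoly φ := by
  obtain ⟨G, hdeg, hG⟩ := exists_interp φ
  have hGσ := gmap_num_eq σ hg hσ hdeg hG
  set r : Coset N → LaurentSeries ℂ := fun q => serAlg N (node q) with hr
  set s : Coset N → LaurentSeries ℂ := fun q => serAlg N (conjugate q φ) with hs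
  have hrel : ∀ q, s q * biEval (jqN N) (r q) (Polynomial.derivative (modPoly N)) =
      biEval (jqN N) (r q) G := fun q => by
    simp only [hs, hr, jqN, ← map_biEval, ← map_mul]
    congr 1
    rw [← conjugate_biEval, ← conjugate_biEval, ← map_mul, hG]
  have hperm : ∀ q, ∃ q', lmap σ.toRingHom (r q) = r q' := fun q => by
    refine (biEval_modPoly_eq_zero_iff (serAlg N) _).mp ?_
    have h0 : biEval (jqN N) (r q) (modPoly N) = 0 :=
      (biEval_modPoly_eq_zero_iff (serAlg N) _).mpr ⟨q, rfl⟩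
    have h := congrArg (lmap σ.toRingHom) h0
    rw [map_zero, lmap_biEval, lmap_jqN, gmap_modPoly] at h
    exact h
  choose π hπ using hperm
  have hrinj : Function.Injective r := (serAlg_injective N).comp node_injective
  have hπinj : Function.Injective π := fun a b hab => by
    refine hrinj (lmap_injective (φ := σ.toRingHom) σ.injective ?_)
    rw [hπ, hπ, hab]
  have hsσ : ∀ q, lmap σ.toRingHom (s q) = s (π q) := fun q => by
    have h := congrArg (lmap σ.toRingHom) (hrel q)
    rw [map_mul, lmap_biEval, lmap_biEval, lmap_jqN, gmap_derivative_modPoly, hGσ, hπ,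
      ← hrel (π q)] at h
    exact mul_right_cancel₀ (den_series_ne_zero (π q)) h
  set J : Polynomial ℂ →+* LaurentSeries ℂ :=
    (serAlg N : modFuns (Gamma N) →+* LaurentSeries ℂ).comp (evJ (Gamma N)).toRingHom with hJ
  have hJinj : Function.Injective J := (serAlg_injective N).comp (evJ_injective _)
  have hmap : (orbitPoly φ).map J = ∏ q, (Polynomial.X - Polynomial.C (s q)) := by
    rw [hJ, ← Polynomial.map_map, map_orbitPoly, Lagrange.nodal_eq, Polynomial.map_prod]
    simp [hs]
  have hcomm : J.comp (Polynomial.mapRingHom σ.toRingHom) = (lmap σ.toRingHom).comp J := by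
    refine Polynomial.ringHom_ext (fun c => ?_) ?_
    · simp only [hJ, RingHom.comp_apply, Polynomial.coe_mapRingHom, Polynomial.map_C,
        AlgHom.toRingHom_eq_coe, RingHom.coe_coe, Polynomial.aeval_C, AlgHom.commutes]
      exact (lmap_algebraMap σ c).symm
    · simp only [hJ, RingHom.comp_apply, Polynomial.coe_mapRingHom, Polynomial.map_X,
        AlgHom.toRingHom_eq_coe, RingHom.coe_coe, Polynomial.aeval_X]
      exact (lmap_jqN σ).symm
  apply Polynomial.map_injective J hJinj
  rw [gmap, Polynomial.coe_mapRingHom, Polynomial.map_map, hcomm, ← Polynomial.map_map, hmap,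
    Polynomial.map_prod]
  refine Fintype.prod_equiv (Equiv.ofBijective π (Finite.injective_iff_bijective.mp hπinj)) _ _
    fun q => ?_
  rw [Polynomial.map_sub, Polynomial.map_X, Polynomial.map_C, hsσ]
  rfl

theorem biEval_orbitPoly_self : biEval (jMF (Gamma0 N)) φ (orbitPoly φ) = 0 := by
  refine Subalgebra.inclusion_injective (modFuns_anti (Gamma_le_Gamma0 N)) ?_
  show incl N _ = incl N _
  rw [map_zero, map_biEval]
  show biEval (jMF (Gamma N)) (incl N φ) (orbitPoly φ) = 0
  rw [← conjugate_baseCoset, biEval_evJ, map_orbitPoly, Lagrange.eval_nodal]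
  exact Finset.prod_eq_zero (Finset.mem_univ (baseCoset N)) (sub_self _)

end Fixed

/-! ## Boundedness and normalisation -/

theorem exists_common_denominator (A : ValuationSubring ℚb) (S : Finset ℚb) :
    ∃ c : ℚb, c ≠ 0 ∧ c ∈ A ∧ ∀ x ∈ S, c * x ∈ A := by
  classical
  induction S using Finset.induction with
  | empty => exact ⟨1, one_ne_zero, A.one_mem, fun x hx => absurd hx (Finset.notMem_empty x)⟩
  | insert a S ha ih =>
    obtain ⟨c, hc0, hcA, hc⟩ := ih
    by_cases h : a ∈ A
    · refine ⟨c, hc0, hcA, fun x hx => ?_⟩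
      rcases Finset.mem_insert.mp hx with rfl | hx
      · exact A.mul_mem _ _ hcA h
      · exact hc x hx
    · have ha0 : a ≠ 0 := fun h0 => h (h0 ▸ A.zero_mem)
      have hai : a⁻¹ ∈ A := (A.mem_or_inv_mem a).resolve_left h
      refine ⟨c * a⁻¹, mul_ne_zero hc0 (inv_ne_zero ha0), A.mul_mem _ _ hcA hai, fun x hx => ?_⟩
      rcases Finset.mem_insert.mp hx with rfl | hx
      · rwa [mul_assoc, inv_mul_cancel₀ ha0, mul_one]
      · rw [mul_right_comm]; exact A.mul_mem _ _ (hc x hx) hai

/-- All coefficients of a bivariate polynomial. -/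
def coeffSet (P : Polynomial (Polynomial ℚb)) : Finset ℚb := by
  classical
  exact insert 0 (P.support.biUnion fun i => (P.coeff i).support.image fun j => (P.coeff i).coeff j)

theorem coeff_mem_coeffSet (P : Polynomial (Polynomial ℚb)) (i j : ℕ) :
    (P.coeff i).coeff j ∈ coeffSet P := by
  classical
  simp only [coeffSet, Finset.mem_insert, Finset.mem_biUnion, Finset.mem_image]
  by_cases h : (P.coeff i).coeff j = 0
  · exact Or.inl h
  · refine Or.inr ⟨i, Polynomial.mem_support_iff.mpr fun h0 => h (by rw [h0, Polynomial.coeff_zero]),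
      j, Polynomial.mem_support_iff.mpr h, rfl⟩

theorem C_mem_intSeriesA {A : ValuationSubring ℚb} {x : ℚb} (hx : x ∈ A) :
    (HahnSeries.C x : LaurentSeries ℚb) ∈ intSeriesA A :=
  ⟨HahnSeries.C (⟨x, hx⟩ : A), lmap_C _ _⟩

theorem jqModC_mem_intSeriesA (A : ValuationSubring ℚb) :
    ModularCurve.jqModC ℚb ∈ intSeriesA A := ⟨_, lmap_jqModC A.subtype⟩

theorem expand_mem_intSeriesA {A : ValuationSubring ℚb} {a : ℕ} (ha : a ≠ 0)
    {f : LaurentSeries ℚb} (hf : f ∈ intSeriesA A) : expand a ha f ∈ intSeriesA A := by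
  refine mem_intSeriesA.mpr fun m => ?_
  by_cases h : (a : ℤ) ∣ m
  · obtain ⟨k, rfl⟩ := h
    rw [expand_coeff_mul]
    exact mem_intSeriesA.mp hf k
  · rw [expand_coeff_of_not_dvd _ _ _ _ h]
    exact A.zero_mem

/-- Normalisation of an algebraic modular function. -/
theorem exists_modFun_normalisation {A : ValuationSubring ℚb} {ℓ : ℕ} (hℓ : ℓ.Prime)
    (hA : A.LiesOverPrime ℓ) {φ : ℍ → ℂ} (hφ : IsModFun (Gamma0 N) φ) {g : LaurentSeries ℚb}
    (hg : HasQSeries 1 φ (seriesToC g)) (hg0 : g ≠ 0) :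
    ∃ c : ℚb, c ≠ 0 ∧ HahnSeries.C c * g ∈ intSeriesA A ∧
      ∃ m, (HahnSeries.C c * g).coeff m ∉ A.nonunits := by
  classical
  set Φ : modFuns (Gamma0 N) := ⟨φ, hφ⟩
  have hfix : ∀ σ : ℂ ≃+* ℂ, (∀ y, σ (qbarToC y) = qbarToC y) → ∀ f : LaurentSeries ℚb,
      lmap σ.toRingHom (seriesToC f) = seriesToC f := fun σ hσ f => by
    ext m; exact hσ _
  choose G hGdeg hG using fun i : ℕ => exists_interp (Φ ^ i)
  have hpow : ∀ i : ℕ, HasQSeries 1 ((Φ ^ i : modFuns (Gamma0 N)) : ℍ → ℂ) (seriesToC (g ^ i)) :=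
    fun i => by
    rw [seriesToC_eq_lmap, map_pow]
    exact hg.pow i
  choose GA hGA using fun i : ℕ => exists_lift_of_fixed fun σ hσ =>
    gmap_num_eq σ (hpow i) (hfix σ hσ _) (hGdeg i) (hG i)
  obtain ⟨DA, hDA⟩ := exists_lift_of_fixed fun σ _ => gmap_derivative_modPoly (N := N) σ
  obtain ⟨PA, hPA⟩ := exists_lift_of_fixed fun σ hσ =>
    gmap_orbitPoly_eq σ (φ := Φ) hg (hfix σ hσ g)
  set μ := idx N with hμ
  have hmap2 : Function.Injective (Polynomial.mapRingHom qbarToC) :=
    Polynomial.map_injective _ qbarToC_injective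
  have hPdeg : PA.natDegree = μ := by
    rw [← Polynomial.natDegree_map_eq_of_injective hmap2, hPA, natDegree_orbitPoly]
  have hPmon : PA.Monic := Polynomial.monic_of_injective hmap2 (hPA.symm ▸ orbitPoly_monic Φ)
  set J : LaurentSeries ℚb := ModularCurve.jqModC ℚb with hJ
  set JN : LaurentSeries ℚb := expand N (NeZero.ne N) J with hJN
  have hJC : seriesToC J = jq := by rw [seriesToC_eq_lmap, lmap_jqModC, jq_eq_jqModC]
  have hJNC : seriesToC JN = expand N (NeZero.ne N) jq := by
    rw [seriesToC_eq_lmap, hJN, lmap_expand, ← seriesToC_eq_lmap, hJC]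
  have hval : ∀ (P : Polynomial (Polynomial ℚb)) (r : LaurentSeries ℚb),
      seriesToC (lEval J r P) =
        biEval jq (seriesToC r) (P.map (Polynomial.mapRingHom qbarToC)) := fun P r => by
    rw [seriesToC_eq_lmap, lmap_lEval, lEval_eq_biEval, ← seriesToC_eq_lmap, hJC]
    rfl
  have hj : HasQSeries 1 ((jNMF N : modFuns (Gamma0 N)) : ℍ → ℂ) (expand N (NeZero.ne N) jq) :=
    hasQSeries_jNFun N
  have hD : ∀ i : ℕ, g ^ i * lEval J JN DA = lEval J JN (GA i) := fun i => seriesToC_injective (by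
    rw [seriesToC_eq_lmap, map_mul, ← seriesToC_eq_lmap, ← seriesToC_eq_lmap, hval, hval, hJNC,
      hDA, hGA]
    exact (((hpow i).mul (hasQSeries_biEval hj _)).congr (.of_forall fun τ =>
      congrFun (congrArg Subtype.val (hG i)) τ)).unique one_pos (hasQSeries_biEval hj (G i)))
  have hD0 : lEval J JN DA ≠ 0 := fun h0 => by
    have h1 := congrArg seriesToC h0
    rw [hval, hJNC, hDA, seriesToC_eq_lmap, map_zero] at h1
    refine biEval_modPoly_deriv_ne_zero (N := N) (baseCoset N) ?_
    rw [← incl_biEval]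
    refine (congrArg (incl N) (show biEval (jMF (Gamma0 N)) (jNMF N) _ = 0 from Subtype.ext ?_)).trans
      (map_zero _)
    exact eq_of_hasQSeries (biEval (jMF (Gamma0 N)) (jNMF N) _).2.holo mdifferentiable_const
      (h1 ▸ hasQSeries_biEval hj (Polynomial.derivative (modPoly N))) (HasQSeries.zero 1)
  have hroot : lEval J g PA = 0 := seriesToC_injective (by
    rw [hval, hPA, seriesToC_eq_lmap (f := (0 : LaurentSeries ℚb)), map_zero]
    have h := hasQSeries_biEval (F := Φ) hg (orbitPoly Φ)
    rw [biEval_orbitPoly_self] at h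
    exact h.eq_zero one_pos)
  -- the number field
  set S : Finset ℚb := (Finset.range (μ + 2)).biUnion (fun i => coeffSet (GA i)) ∪
    coeffSet DA ∪ coeffSet PA with hS
  haveI : Finite (S : Set ℚb) := S.finite_toSet.to_subtype
  set L := IntermediateField.adjoin ℚ (S : Set ℚb) with hL
  haveI : FiniteDimensional ℚ L :=
    IntermediateField.finiteDimensional_adjoin fun y _ =>
      (Algebra.IsAlgebraic.isAlgebraic y).isIntegral
  have hcoefL : ∀ m, g.coeff m ∈ L := by
    set T := (lmap (L.val : L →+* ℚb)).fieldRange with hT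
    have hC : ∀ x ∈ S, (HahnSeries.C x : LaurentSeries ℚb) ∈ T := fun x hx =>
      ⟨HahnSeries.C (⟨x, IntermediateField.subset_adjoin ℚ _ hx⟩ : L), lmap_C _ _⟩
    have hJT : J ∈ T := ⟨_, lmap_jqModC _⟩
    have hJNT : JN ∈ T := ⟨expand N (NeZero.ne N) (ModularCurve.jqModC L), by
      rw [lmap_expand, lmap_jqModC]⟩
    have hev : ∀ P, (∀ i j, (P.coeff i).coeff j ∈ S) → lEval J JN P ∈ T := fun P hP => by
      have := lEval_mem T.toSubring hJT hJNT P 1 fun i j => by
        rw [one_mul]; exact hC _ (hP i j)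
      rwa [map_one, one_mul] at this
    have hgT : g ∈ T := by
      have h1 := hev (GA 1) fun i j => by
        simp only [hS, Finset.mem_union, Finset.mem_biUnion, Finset.mem_range]
        exact Or.inl (Or.inl ⟨1, by omega, coeff_mem_coeffSet _ i j⟩)
      have h2 := hev DA fun i j => by
        simp only [hS, Finset.mem_union]
        exact Or.inl (Or.inr (coeff_mem_coeffSet _ i j))
      rw [← hD 1, pow_one] at h1
      rw [show g = g * lEval J JN DA / lEval J JN DA by field_simp]
      exact div_mem h1 h2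
    obtain ⟨g', hg'⟩ := hgT
    intro m
    rw [← hg']
    exact (g'.coeff m).2
  obtain ⟨c, hc0, hcA, hc⟩ := exists_common_denominator A S
  set a := HahnSeries.C c * g with ha
  set W := HahnSeries.C c * lEval J JN DA with hW
  have hJint := jqModC_mem_intSeriesA A
  have hJNint : JN ∈ intSeriesA A := expand_mem_intSeriesA (NeZero.ne N) hJint
  have hint : ∀ k : ℕ, W * a ^ k ∈ intSeriesA A := by
    intro k
    induction k using Nat.strong_induction_on with
    | _ k ih =>
    rcases lt_or_ge k μ with hk | hk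
    · rw [hW, ha, mul_pow, show HahnSeries.C c * lEval J JN DA * (HahnSeries.C c ^ k * g ^ k) =
        HahnSeries.C c ^ k * (HahnSeries.C c * (g ^ k * lEval J JN DA)) by ring, hD k]
      refine Subring.mul_mem _ (Subring.pow_mem _ (C_mem_intSeriesA hcA) _)
        (lEval_mem _ hJint hJNint _ _ fun i j => C_mem_intSeriesA (hc _ ?_))
      simp only [hS, Finset.mem_union, Finset.mem_biUnion, Finset.mem_range]
      exact Or.inl (Or.inl ⟨k, by omega, coeff_mem_coeffSet _ i j⟩)
    · have hmon : g ^ μ = -∑ i ∈ Finset.range μ,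
          (PA.coeff i).eval₂ HahnSeries.C J * g ^ i := by
        have h := hroot
        rw [lEval, Polynomial.coe_eval₂RingHom, Polynomial.eval₂_eq_sum_range, hPdeg,
          Finset.sum_range_succ, ← hPdeg, hPmon.coeff_natDegree, map_one, one_mul, hPdeg] at h
        simp only [Polynomial.coe_eval₂RingHom] at h
        exact eq_neg_of_add_eq_zero_right h
      have hμ0 : 0 < μ := idx_pos
      rw [show W * a ^ k = W * a ^ (k - μ) * (HahnSeries.C c ^ μ * g ^ μ) by
        rw [← mul_pow, mul_assoc W, ← pow_add, Nat.sub_add_cancel hk], hmon, mul_neg, mul_neg,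
        Finset.mul_sum, Finset.mul_sum]
      refine Subring.neg_mem _ (Subring.sum_mem _ fun i hi => ?_)
      have hi' := Finset.mem_range.mp hi
      rw [show W * a ^ (k - μ) * (HahnSeries.C c ^ μ * ((PA.coeff i).eval₂ HahnSeries.C J * g ^ i)) =
        (HahnSeries.C c ^ (μ - i - 1) * (HahnSeries.C c * (PA.coeff i).eval₂ HahnSeries.C J)) *
          (W * a ^ (k - μ + i)) by
        obtain ⟨d, hd⟩ : ∃ d, μ = i + 1 + d := ⟨μ - i - 1, by omega⟩
        rw [ha, pow_add (HahnSeries.C c * g) (k - μ) i, show μ - i - 1 = d by omega, hd,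
          mul_pow (HahnSeries.C c) g i]
        ring]
      refine Subring.mul_mem _ (Subring.mul_mem _ (Subring.pow_mem _ (C_mem_intSeriesA hcA) _) ?_)
        (ih _ (by omega))
      rw [Polynomial.eval₂_eq_sum_range, Finset.mul_sum]
      refine Subring.sum_mem _ fun j _ => ?_
      rw [← mul_assoc, ← map_mul]
      refine Subring.mul_mem _ (C_mem_intSeriesA (hc _ ?_)) (Subring.pow_mem _ hJint _)
      simp only [hS, Finset.mem_union]
      exact Or.inr (coeff_mem_coeffSet _ i j)
  have hCc : (HahnSeries.C c : LaurentSeries ℚb) ≠ 0 :=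
    (map_ne_zero_iff _ HahnSeries.C_injective).mpr hc0
  exact exists_normalisation hℓ hA L hg0 hcoefL hc0
    (mem_intSeriesA_of_pow hℓ hA (mul_ne_zero hCc hD0) hint)

variable {n : ℕ} [NeZero n]

/-- Every character has a representative whose `n`-th power is integral with a unit coefficient. -/
theorem exists_integral_rep {A : ValuationSubring ℚb} {ℓ : ℕ} (hℓ : ℓ.Prime)
    (hA : A.LiesOverPrime ℓ) (χ : ParHom N (ZMod n)) :
    ∃ (h : ℍ → ℂ) (hq : LaurentSeries ℚb), IsKummerRep N n χ h ∧ HasQSeries 1 h (seriesToC hq) ∧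
      hq ^ n ∈ intSeriesA A ∧ ∃ m, (hq ^ n).coeff m ∉ A.nonunits := by
  obtain ⟨F, f, hF⟩ := exists_algebraic_rep χ
  have hf0 : f ≠ 0 := fun h0 => hF.ne_zero (by rw [h0, seriesToC_eq_lmap, map_zero])
  obtain ⟨c, hc0, hint, hunit⟩ := exists_modFun_normalisation hℓ hA hF.rep.isModFun_pow
    (g := f ^ n) (by rw [seriesToC_eq_lmap, map_pow]; exact hF.series.pow n) (pow_ne_zero _ hf0)
  obtain ⟨r, hr⟩ := IsAlgClosed.exists_pow_nat_eq c (NeZero.pos n)
  have hr0 : r ≠ 0 := fun h0 => hc0 (by rw [← hr, h0, zero_pow (NeZero.ne n)])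
  have hpow : (HahnSeries.C r * f) ^ n = HahnSeries.C c * f ^ n := by
    rw [mul_pow, ← map_pow, hr]
  refine ⟨fun τ => qbarToC r * F τ, HahnSeries.C r * f,
    hF.rep.const_mul ((map_ne_zero _).mpr hr0), ?_, hpow.symm ▸ hint, hpow.symm ▸ hunit⟩
  rw [seriesToC_eq_lmap, map_mul, lmap_C]
  exact hF.series.smul _

end Fermat.Agent.GalRep
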