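import Fermat.Agent.GalRep.KummerHecke
import Fermat.Agent.GalRep.KummerIntegral
import Mathlib.Algebra.CharP.Lemmas

/-!
# The congruence relation on Kummer classes

Modulo a place over `ℓ` the transfer of `ψ` reduces to `ψ(q^ℓ) · Frob(ψ)`. With `ψ` the conjugate
of a normalised representative this produces a representative congruent to an `n`-th power, so
`KummerReduction` gives the congruence relation and unramifiedness.
-/

set_option autoImplicit false

noncomputable section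

namespace Fermat.Agent.GalRep

open UpperHalfPlane CongruenceSubgroup
open Fermat.Agent.Galois (GQ)
open scoped MatrixGroups Manifold

local notation "ℚb" => AlgebraicClosure ℚ

variable {A : ValuationSubring (AlgebraicClosure ℚ)}

/-- `F` is the coefficientwise reduction of `f`. -/
def HasRed (A : ValuationSubring (AlgebraicClosure ℚ)) (f : LaurentSeries (AlgebraicClosure ℚ))
    (F : LaurentSeries (IsLocalRing.ResidueField A)) : Prop :=
  ∀ m, ∃ h : f.coeff m ∈ A, IsLocalRing.residue A ⟨f.coeff m, h⟩ = F.coeff m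

namespace HasRed

variable {f g : LaurentSeries ℚb} {F G : LaurentSeries (IsLocalRing.ResidueField A)}

theorem iff_exists :
    HasRed A f F ↔ ∃ a : LaurentSeries A, lmap A.subtype a = f ∧ lmap (IsLocalRing.residue A) a = F := by
  constructor
  · intro h
    choose hm hr using h
    refine ⟨⟨fun m => ⟨f.coeff m, hm m⟩, f.isPWO_support.mono fun m h0 h1 => h0 (Subtype.ext h1)⟩,
      ?_, ?_⟩
    · ext m; rfl
    · ext m; exact hr m
  · rintro ⟨a, rfl, rfl⟩ m
    exact ⟨(a.coeff m).2, rfl⟩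

theorem one : HasRed A 1 1 := iff_exists.mpr ⟨1, map_one _, map_one _⟩

theorem mul (hf : HasRed A f F) (hg : HasRed A g G) : HasRed A (f * g) (F * G) := by
  obtain ⟨a, rfl, rfl⟩ := iff_exists.mp hf
  obtain ⟨b, rfl, rfl⟩ := iff_exists.mp hg
  exact iff_exists.mpr ⟨a * b, map_mul _ _ _, map_mul _ _ _⟩

theorem pow (hf : HasRed A f F) : ∀ k : ℕ, HasRed A (f ^ k) (F ^ k)
  | 0 => by rw [pow_zero, pow_zero]; exact one
  | k + 1 => by rw [pow_succ, pow_succ]; exact (hf.pow k).mul hf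

theorem prod {ι : Type*} (s : Finset ι) {a : ι → LaurentSeries ℚb}
    {b : ι → LaurentSeries (IsLocalRing.ResidueField A)} (h : ∀ i ∈ s, HasRed A (a i) (b i)) :
    HasRed A (∏ i ∈ s, a i) (∏ i ∈ s, b i) := by
  classical
  induction s using Finset.induction with
  | empty => simpa using one
  | insert x s hx ih =>
    rw [Finset.prod_insert hx, Finset.prod_insert hx]
    exact (h x (s.mem_insert_self x)).mul (ih fun i hi => h i (Finset.mem_insert_of_mem hi))

theorem integral (hf : HasRed A f F) : SeriesIntegral A f := fun m => (hf m).1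

theorem congr (hf : HasRed A f F) (hg : HasRed A g F) : SeriesCongr A f g := fun m => by
  obtain ⟨h1, e1⟩ := hf m
  obtain ⟨h2, e2⟩ := hg m
  have hmem : (⟨f.coeff m, h1⟩ - ⟨g.coeff m, h2⟩ : A) ∈ IsLocalRing.maximalIdeal A := by
    rw [← IsLocalRing.residue_eq_zero_iff, map_sub, e1, e2, sub_self]
  exact ValuationSubring.coe_mem_nonunits_iff.mpr hmem

theorem exists_unit (hf : HasRed A f F) (hF : F ≠ 0) : ∃ m, f.coeff m ∉ A.nonunits := by
  obtain ⟨m, hm⟩ : ∃ m, F.coeff m ≠ 0 := by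
    by_contra h
    push Not at h
    exact hF (by ext m; exact h m)
  obtain ⟨h1, e1⟩ := hf m
  refine ⟨m, fun hn => hm ?_⟩
  rw [← e1, IsLocalRing.residue_eq_zero_iff]
  exact ValuationSubring.coe_mem_nonunits_iff.mp hn

theorem expand (hf : HasRed A f F) (a : ℕ) (ha : a ≠ 0) :
    HasRed A (GalRep.expand a ha f) (GalRep.expand a ha F) := fun m => by
  by_cases h : (a : ℤ) ∣ m
  · obtain ⟨k, rfl⟩ := h
    obtain ⟨h1, e1⟩ := hf k
    refine ⟨by rw [expand_coeff_mul]; exact h1, ?_⟩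
    rw [expand_coeff_mul a ha F k, ← e1]
    exact congrArg _ (Subtype.ext (expand_coeff_mul a ha f k))
  · refine ⟨by rw [expand_coeff_of_not_dvd _ _ _ _ h]; exact A.zero_mem, ?_⟩
    rw [expand_coeff_of_not_dvd a ha F m h]
    exact (congrArg _ (Subtype.ext (expand_coeff_of_not_dvd a ha f m h) :
      (⟨(GalRep.expand a ha f).coeff m, _⟩ : A) = 0)).trans (map_zero _)

theorem of_expand (a : ℕ) (ha : a ≠ 0)
    (hf : HasRed A (GalRep.expand a ha f) (GalRep.expand a ha F)) : HasRed A f F := fun m => by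
  obtain ⟨h1, e1⟩ := hf ((a : ℤ) * m)
  simp only [expand_coeff_mul] at h1 e1
  exact ⟨h1, e1⟩

theorem twist_root {ℓ : ℕ} [CharP (IsLocalRing.ResidueField A) ℓ] [Fact ℓ.Prime]
    (hf : HasRed A f F) {ω : ℚbˣ} (hω : ω ^ ℓ = 1) : HasRed A (GalRep.twist ω f) F := by
  have hℓ : ℓ ≠ 0 := (Fact.out : ℓ.Prime).ne_zero
  have hω' : (ω : ℚb) ^ ℓ = 1 := by rw [← Units.val_pow_eq_pow_val, hω, Units.val_one]
  have hmem : (ω : ℚb) ∈ A := by
    refine (A.valuation_le_one_iff _).mp ((pow_le_one_iff_of_nonneg zero_le hℓ).mp ?_)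
    rw [← map_pow, hω', map_one]
  have hinv : ((ω⁻¹ : ℚbˣ) : ℚb) ∈ A := by
    have : ((ω⁻¹ : ℚbˣ) : ℚb) = (ω : ℚb) ^ (ℓ - 1) := by
      rw [Units.val_inv_eq_inv_val, inv_eq_of_mul_eq_one_right]
      rw [← pow_succ', Nat.sub_add_cancel (Nat.one_le_iff_ne_zero.mpr hℓ), hω']
    rw [this]
    exact pow_mem hmem _
  have hres : IsLocalRing.residue A ⟨(ω : ℚb), hmem⟩ = 1 := by
    refine sub_eq_zero.mp (eq_zero_of_pow_eq_zero (n := ℓ) ?_)
    rw [sub_pow_char, one_pow, ← map_pow]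
    exact sub_eq_zero.mpr (by rw [show (⟨(ω : ℚb), hmem⟩ : A) ^ ℓ = 1 from Subtype.ext hω', map_one])
  let u : Aˣ := ⟨⟨(ω : ℚb), hmem⟩, ⟨((ω⁻¹ : ℚbˣ) : ℚb), hinv⟩, Subtype.ext ω.mul_inv,
    Subtype.ext ω.inv_mul⟩
  intro m
  obtain ⟨h1, e1⟩ := hf m
  have hu : ((ω ^ m : ℚbˣ) : ℚb) = (((u ^ m : Aˣ) : A) : ℚb) := by
    rw [show ω = Units.map (A.subtype : A →* ℚb) u from Units.ext rfl, ← map_zpow]
    rfl
  have hcoeff : (GalRep.twist ω f).coeff m = ((⟨f.coeff m, h1⟩ * ((u ^ m : Aˣ) : A) : A) : ℚb) := by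
    rw [twist_coeff, hu]
    rfl
  refine ⟨hcoeff ▸ SetLike.coe_mem _, ?_⟩
  rw [show (⟨(GalRep.twist ω f).coeff m, hcoeff ▸ SetLike.coe_mem _⟩ : A) =
    ⟨f.coeff m, h1⟩ * ((u ^ m : Aˣ) : A) from Subtype.ext hcoeff, map_mul, e1]
  have : IsLocalRing.residue A ((u ^ m : Aˣ) : A) = 1 := by
    show (Units.map (IsLocalRing.residue A).toMonoidHom (u ^ m) : IsLocalRing.ResidueField A) = 1
    rw [map_zpow,
      show Units.map (IsLocalRing.residue A).toMonoidHom u = 1 from Units.ext hres,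
      one_zpow, Units.val_one]
  rw [this, mul_one]

end HasRed

theorem exists_hasRed {f : LaurentSeries ℚb} (hf : f ∈ intSeriesA A) : ∃ F, HasRed A f F := by
  obtain ⟨a, rfl⟩ := hf
  exact ⟨_, HasRed.iff_exists.mpr ⟨a, rfl, rfl⟩⟩

theorem charP_residue {ℓ : ℕ} (hℓ : ℓ.Prime) (hA : A.LiesOverPrime ℓ) :
    CharP (IsLocalRing.ResidueField A) ℓ := by
  refine (CharP.charP_iff_prime_eq_zero hℓ).mpr ?_
  rw [← map_natCast (IsLocalRing.residue A), IsLocalRing.residue_eq_zero_iff,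
    ← ValuationSubring.coe_mem_nonunits_iff]
  exact hA

/-- In characteristic `ℓ` the `ℓ`-th power is the Frobenius twist at `q^ℓ`. -/
theorem pow_char_eq_expand {k : Type*} [Field k] {ℓ : ℕ} [CharP k ℓ] [Fact ℓ.Prime]
    (f : LaurentSeries k) :
    f ^ ℓ = expand ℓ (Fact.out : ℓ.Prime).ne_zero (lmap (frobenius k ℓ) f) := by
  classical
  have hℓ : ℓ.Prime := Fact.out
  have hℓZ : (0 : ℤ) < ℓ := by exact_mod_cast hℓ.pos
  haveI : CharP (LaurentSeries k) ℓ :=
    (RingHom.charP_iff (HahnSeries.C : k →+* LaurentSeries k) HahnSeries.C_injective ℓ).mp ‹_›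
  set E : LaurentSeries k →+* LaurentSeries k :=
    (expand ℓ hℓ.ne_zero).comp (lmap (frobenius k ℓ)) with hE
  show frobenius (LaurentSeries k) ℓ f = E f
  ext M
  -- split at an index beyond which nothing contributes
  set K : ℤ := max M 0 + 1 with hK
  set low : LaurentSeries k := ∑ i ∈ Finset.Ico (min f.order K) K, HahnSeries.single i (f.coeff i)
    with hlow
  have hhigh : ∀ m < K, (f - low).coeff m = 0 := fun m hm => by
    rw [HahnSeries.coeff_sub, hlow, HahnSeries.coeff_sum]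
    simp only [HahnSeries.coeff_single]
    by_cases h : m ∈ Finset.Ico (min f.order K) K
    · rw [Finset.sum_eq_single m]
      · simp
      · intro x _ hx
        simp [Ne.symm hx]
      · intro h'
        exact absurd h h'
    · rw [Finset.sum_eq_zero, sub_zero]
      swap
      · intro x hx
        have hmx : m ≠ x := fun hmx => h (hmx ▸ hx)
        simp [hmx]
      refine HahnSeries.coeff_eq_zero_of_lt_order (not_le.mp fun h' => h ?_)
      exact Finset.mem_Ico.mpr ⟨(min_le_left _ _).trans h', hm⟩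
  have hsingle : ∀ i (a : k),
      frobenius (LaurentSeries k) ℓ (HahnSeries.single i a) = E (HahnSeries.single i a) := by
    intro i a
    ext m
    simp only [frobenius_def, HahnSeries.single_pow, hE, RingHom.comp_apply]
    by_cases h : (ℓ : ℤ) ∣ m
    · obtain ⟨j, rfl⟩ := h
      rw [expand_coeff_mul, lmap_coeff, HahnSeries.coeff_single, HahnSeries.coeff_single,
        nsmul_eq_mul]
      by_cases hj : j = i
      · rw [if_pos (by rw [hj]), if_pos hj, frobenius_def]
      · rw [if_neg (fun h' => hj (mul_left_cancel₀ hℓZ.ne' h')), if_neg hj, map_zero]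
    · rw [expand_coeff_of_not_dvd _ _ _ _ h, HahnSeries.coeff_single, if_neg]
      rintro rfl
      exact h ⟨i, by rw [nsmul_eq_mul]⟩
  have hdec : f = low + (f - low) := (add_sub_cancel low f).symm
  rw [hdec, map_add, map_add, HahnSeries.coeff_add, HahnSeries.coeff_add,
    show frobenius (LaurentSeries k) ℓ low = E low by rw [hlow, map_sum, map_sum]; simp only [hsingle]]
  congr 1
  have hMK : M < K := lt_add_of_le_of_pos (le_max_left _ _) one_pos
  have hKℓ : K ≤ (ℓ : ℤ) * K := le_mul_of_one_le_left (by positivity) (by exact_mod_cast hℓ.one_le)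
  have hpow : ∀ (j : ℕ), ∀ m < (j : ℤ) * K, ((f - low) ^ j).coeff m = 0 := by
    intro j
    induction j with
    | zero => intro m hm; simp at hm; simp [HahnSeries.coeff_one, hm.ne]
    | succ j ih =>
      intro m hm
      rw [pow_succ, HahnSeries.coeff_mul]
      refine Finset.sum_eq_zero fun ij hij => ?_
      simp only [Finset.mem_antidiagonal] at hij
      rcases lt_or_ge ij.1 ((j : ℤ) * K) with h | h
      · rw [ih _ h, zero_mul]
      · rw [hhigh _ (by push_cast at hm; linarith [hij.2.2]), mul_zero]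
  rw [frobenius_def, hpow ℓ M (hMK.trans_le hKℓ)]
  simp only [hE, RingHom.comp_apply]
  by_cases h : (ℓ : ℤ) ∣ M
  · obtain ⟨j, rfl⟩ := h
    rw [expand_coeff_mul, lmap_coeff, hhigh j ?_, map_zero]
    rcases lt_or_ge j 0 with hj | hj
    · exact hj.trans_le (by positivity)
    · refine lt_of_le_of_lt ?_ hMK
      exact le_mul_of_one_le_left hj (by exact_mod_cast hℓ.one_le)
  · rw [expand_coeff_of_not_dvd _ _ _ _ h]

/-! ## Conjugation and reduction -/

theorem coe_smul_place (σ : GQ) (hσ : σ ∈ A.decompositionSubgroup ℚ) (x : A) :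
    (((⟨σ, hσ⟩ : A.decompositionSubgroup ℚ) • x : A) : ℚb) = σ x := rfl

theorem HasRed.conj {σ : GQ} (hσ : σ ∈ A.decompositionSubgroup ℚ)
    {ρ : IsLocalRing.ResidueField A →+* IsLocalRing.ResidueField A}
    (hρ : ∀ x, (⟨σ, hσ⟩ : A.decompositionSubgroup ℚ) • x = ρ x)
    {f : LaurentSeries ℚb} {F : LaurentSeries (IsLocalRing.ResidueField A)} (hf : HasRed A f F) :
    HasRed A (seriesConj σ f) (lmap ρ F) := fun m => by
  obtain ⟨h1, e1⟩ := hf m
  refine ⟨((⟨σ, hσ⟩ : A.decompositionSubgroup ℚ) • (⟨f.coeff m, h1⟩ : A)).2, ?_⟩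
  rw [lmap_coeff, ← e1, ← hρ, ← IsLocalRing.ResidueField.residue_smul]
  rfl

/-! ## The series of the transfer over `ℚ̄` -/

section Hecke

variable (ℓ : ℕ) [NeZero ℓ]

local instance instFintypeRootsCongr (K : Type) [Field K] : Fintype (rootsOfUnity ℓ K) :=
  Fintype.ofFinite _

/-- The width `ℓ` series of the transfer over `ℚ̄`. -/
def heckeSeriesA (f : LaurentSeries ℚb) : LaurentSeries ℚb :=
  expand ℓ (NeZero.ne ℓ) (expand ℓ (NeZero.ne ℓ) f) *
    ∏ ω : rootsOfUnity ℓ ℚb, twist (ω : ℚbˣ) f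

theorem heckeSeriesA_pow (f : LaurentSeries ℚb) (k : ℕ) :
    heckeSeriesA ℓ (f ^ k) = heckeSeriesA ℓ f ^ k := by
  simp only [heckeSeriesA, map_pow, mul_pow, Finset.prod_pow]

theorem seriesToC_heckeSeriesA (f : LaurentSeries ℚb) :
    seriesToC (heckeSeriesA ℓ f) = heckeSeries ℓ (seriesToC f) := by
  simp only [heckeSeriesA, heckeSeries, seriesToC_eq_lmap, map_mul, map_prod, lmap_expand]
  congr 1
  let e : rootsOfUnity ℓ ℚb → rootsOfUnity ℓ ℂ :=
    fun ω => ⟨Units.map ((qbarToC : ℚb →+* ℂ) : ℚb →* ℂ) (ω : ℚbˣ), by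
      rw [mem_rootsOfUnity, ← map_pow, (mem_rootsOfUnity _ _).mp ω.2, map_one]⟩
  have he : Function.Bijective e := by
    rw [Nat.bijective_iff_injective_and_card]
    refine ⟨fun a b h => Subtype.ext (Units.map_injective
      (f := ((qbarToC : ℚb →+* ℂ) : ℚb →* ℂ)) qbarToC.injective (congrArg Subtype.val h)), ?_⟩
    rw [Complex.card_rootsOfUnity, HasEnoughRootsOfUnity.natCard_rootsOfUnity]
  exact Fintype.prod_bijective e he _ _ fun ω => lmap_twist qbarToC _ f

theorem HasRed.heckeSeriesA [CharP (IsLocalRing.ResidueField A) ℓ] [Fact ℓ.Prime]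
    {f : LaurentSeries ℚb} {F : LaurentSeries (IsLocalRing.ResidueField A)} (hf : HasRed A f F) :
    HasRed A (GalRep.heckeSeriesA ℓ f)
      (GalRep.expand ℓ (NeZero.ne ℓ) (GalRep.expand ℓ (NeZero.ne ℓ) F) * F ^ ℓ) := by
  refine ((hf.expand ℓ (NeZero.ne ℓ)).expand ℓ (NeZero.ne ℓ)).mul ?_
  have h := HasRed.prod (Finset.univ : Finset (rootsOfUnity ℓ ℚb))
    (b := fun _ => F) fun ω _ => hf.twist_root (ℓ := ℓ) ((mem_rootsOfUnity _ _).mp ω.2)
  rwa [Finset.prod_const, Finset.card_univ, ← Nat.card_eq_fintype_card,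
    HasEnoughRootsOfUnity.natCard_rootsOfUnity] at h

end Hecke

/-! ## The theorem -/

variable {N n : ℕ} [NeZero N] [NeZero n]

theorem add_pred_nsmul_eq_zero (ψ : ParHom N (ZMod n)) : ψ + (n - 1) • ψ = 0 := by
  rw [← succ_nsmul', show n - 1 + 1 = n by have := NeZero.pos n; omega]
  exact Subtype.ext (AddMonoidHom.ext fun x => by simp)

theorem isModFun_pow_rep {χ : ParHom N (ZMod n)} {F : ℍ → ℂ} (hF : IsKummerRep N n χ F)
    {f : LaurentSeries ℚb} (hf : HasQSeries 1 F (seriesToC f)) :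
    IsModFun (Gamma0 N) (F ^ n) ∧ HasQSeries 1 (F ^ n) (seriesToC (f ^ n)) :=
  ⟨hF.isModFun_pow, by rw [seriesToC_eq_lmap, map_pow]; exact hf.pow n⟩

theorem hasQSeries_mul_seriesToC {F G : ℍ → ℂ} {f g : LaurentSeries ℚb}
    (hF : HasQSeries 1 F (seriesToC f)) (hG : HasQSeries 1 G (seriesToC g)) :
    HasQSeries 1 (F * G) (seriesToC (f * g)) := by
  rw [seriesToC_eq_lmap, map_mul]; exact hF.mul hG

theorem hasQSeries_pow_seriesToC {F : ℍ → ℂ} {f : LaurentSeries ℚb}
    (hF : HasQSeries 1 F (seriesToC f)) (k : ℕ) :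
    HasQSeries 1 (F ^ k) (seriesToC (f ^ k)) := by
  rw [seriesToC_eq_lmap, map_pow]; exact hF.pow k

set_option maxHeartbeats 1000000 in
variable (N) in
/-- Congruence relation and unramifiedness, from injectivity of reduction. -/
theorem kummerFrobenius (hred : KummerReduction N) : KummerFrobenius N := by
  intro p
  have hℓ : ((p : Nat.Primes) : ℕ).Prime := p.1.2
  set ℓ : ℕ := ((p : Nat.Primes) : ℕ) with hℓdef
  obtain ⟨D, hD, hmain⟩ := hred ℓ hℓ p.2
  refine ⟨D, hD, fun n _ hn K A hA => ?_⟩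
  haveI : Fact ℓ.Prime := ⟨hℓ⟩
  haveI : NeZero ℓ := ⟨hℓ.ne_zero⟩
  haveI := charP_residue hℓ hA
  constructor
  · intro σ hσ χ
    obtain ⟨⟨σ', hσ'⟩, hker, rfl⟩ := hσ
    obtain ⟨h0, f0, hh0, hf0, hint, m, hm⟩ := exists_integral_rep hℓ hA χ
    obtain ⟨Φ, hΦ⟩ := exists_hasRed hint
    obtain ⟨h1, hh1, hf1⟩ := K.galois_spec σ' χ h0 f0 hh0 hf0
    have hred1 : HasRed A (seriesConj σ' f0 ^ n) Φ := by
      have h := hΦ.conj hσ' (ρ := RingHom.id _) fun x => by
        have := MonoidHom.mem_ker.mp hker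
        exact RingEquiv.congr_fun this x
      rw [seriesConj_eq_lmap, map_pow, ← seriesConj_eq_lmap] at h
      rwa [show lmap (RingHom.id (IsLocalRing.ResidueField A)) Φ = Φ by ext; rfl] at h
    have hΦ0 : Φ ≠ 0 := by
      intro h0'
      obtain ⟨hm1, hm2⟩ := hΦ m
      refine hm (ValuationSubring.coe_mem_nonunits_iff.mpr
        ((IsLocalRing.residue_eq_zero_iff (R := A) ⟨_, hm1⟩).mp ?_))
      rw [hm2, h0', HahnSeries.coeff_zero]
    have hH := hh1.mul (hh0.pow (n - 1))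
    have hser := hasQSeries_mul_seriesToC hf1 (hasQSeries_pow_seriesToC hf0 (n - 1))
    have hred2 : HasRed A ((seriesConj σ' f0 * f0 ^ (n - 1)) ^ n) (Φ ^ n) := by
      rw [mul_pow, ← pow_mul, mul_comm (n - 1), pow_mul]
      have := hred1.mul (hΦ.pow (n - 1))
      rwa [← pow_succ', Nat.sub_add_cancel (NeZero.pos n)] at this
    have hmod := isModFun_pow_rep hh0 hf0
    have key := hmain n hn A hA _ _ _ _ _ hH hser hmod.1 hmod.2 hred2.integral hΦ.integral ⟨m, hm⟩
      (hred2.congr (hΦ.pow n))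
    rwa [show K.galois σ' χ + (n - 1) • χ = K.galois σ' χ - χ by
      rw [eq_neg_of_add_eq_zero_right (add_pred_nsmul_eq_zero χ), ← sub_eq_add_neg]] at key
  · intro σ hσ χ χ' hT
    obtain ⟨hdec, hfrob⟩ := hσ
    obtain ⟨h0, f0, hh0, hf0, hint, m, hm⟩ := exists_integral_rep hℓ hA χ
    obtain ⟨Φ, hΦ⟩ := exists_hasRed hint
    obtain ⟨h1, hh1, hf1⟩ := K.galois_spec σ χ h0 f0 hh0 hf0
    obtain ⟨h2, hh2, hf2⟩ := K.galois_spec σ _ h1 _ hh1 hf1
    set Fr := frobenius (IsLocalRing.ResidueField A) ℓ with hFr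
    have hconj : ∀ {f : LaurentSeries ℚb} {F : LaurentSeries (IsLocalRing.ResidueField A)},
        HasRed A (f ^ n) F → HasRed A (seriesConj σ f ^ n) (lmap Fr F) := fun {f F} h => by
      have h' := h.conj hdec (ρ := Fr) fun x => by rw [hfrob, hFr, frobenius_def]
      rwa [seriesConj_eq_lmap, map_pow, ← seriesConj_eq_lmap] at h'
    have hψ := hconj hΦ
    have hφ2 := hconj hψ
    -- the transfer
    have hg : GoodIndex N ℓ := goodIndex p
    have hTh := heckeProd_rep hg hh1 hT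
    obtain ⟨uC, huC, -⟩ := hTh.exists_series_one
    have hexp : expand ℓ (NeZero.ne ℓ) uC = seriesToC (heckeSeriesA ℓ (seriesConj σ f0)) := by
      have := huC.refine_width one_pos ℓ (NeZero.ne ℓ)
      rw [one_mul] at this
      rw [seriesToC_heckeSeriesA]
      exact this.unique (NeZero.pos ℓ) (hasQSeries_heckeProd hg hf1)
    obtain ⟨u, rfl⟩ : ∃ u, seriesToC u = uC := exists_seriesToC_eq fun j => by
      rw [← expand_coeff_mul ℓ (NeZero.ne ℓ) uC j, hexp]
      exact (Algebra.IsAlgebraic.isAlgebraic _).algHom qbarToC.toRatAlgHom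
    have hu : expand ℓ (NeZero.ne ℓ) u = heckeSeriesA ℓ (seriesConj σ f0) :=
      seriesToC_injective (by rw [← hexp, seriesToC_eq_lmap, lmap_expand]; rfl)
    obtain ⟨U, hU⟩ : ∃ U : LaurentSeries (IsLocalRing.ResidueField A),
        U = Φ ^ ℓ * lmap Fr (lmap Fr Φ) := ⟨_, rfl⟩
    have hured : HasRed A (u ^ n) U := by
      refine HasRed.of_expand ℓ (NeZero.ne ℓ) ?_
      have h := hψ.heckeSeriesA ℓ
      rw [heckeSeriesA_pow, ← hu, ← map_pow] at h
      rw [hU, map_mul, pow_char_eq_expand Φ]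
      rw [pow_char_eq_expand (lmap Fr Φ)] at h
      exact h
    have hΦ0 : Φ ≠ 0 := by
      intro h0'
      obtain ⟨hm1, hm2⟩ := hΦ m
      refine hm (ValuationSubring.coe_mem_nonunits_iff.mpr
        ((IsLocalRing.residue_eq_zero_iff (R := A) ⟨_, hm1⟩).mp ?_))
      rw [hm2, h0', HahnSeries.coeff_zero]
    have hU0 : U ≠ 0 := by
      rw [hU]
      refine mul_ne_zero (pow_ne_zero _ hΦ0) fun h => hΦ0 ?_
      have hi := lmap_injective (φ := Fr) Fr.injective
      exact hi (hi (by rw [h, map_zero, map_zero]))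
    have hH := (hh2.mul (hh0.pow ℓ)).mul (hTh.pow (n - 1))
    have hser := hasQSeries_mul_seriesToC (hasQSeries_mul_seriesToC hf2 (hasQSeries_pow_seriesToC hf0 ℓ))
      (hasQSeries_pow_seriesToC huC (n - 1))
    have hred2 : HasRed A ((seriesConj σ (seriesConj σ f0) * f0 ^ ℓ * u ^ (n - 1)) ^ n) (U ^ n) := by
      rw [mul_pow, mul_pow, ← pow_mul, mul_comm ℓ, pow_mul, ← pow_mul u, mul_comm (n - 1), pow_mul]
      have := (hφ2.mul (hΦ.pow ℓ)).mul (hured.pow (n - 1))
      rwa [mul_comm (lmap Fr (lmap Fr Φ)), ← hU, ← pow_succ', Nat.sub_add_cancel (NeZero.pos n)] at this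
    have hmod := isModFun_pow_rep hTh huC
    have key := hmain n hn A hA _ _ _ _ _ hH hser hmod.1 hmod.2 hred2.integral hured.integral
      (hured.exists_unit hU0) (hred2.congr (hured.pow n))
    rwa [show K.galois σ (K.galois σ χ) + ℓ • χ + (n - 1) • χ' =
        K.galois σ (K.galois σ χ) - χ' + ℓ • χ by
      rw [eq_neg_of_add_eq_zero_right (add_pred_nsmul_eq_zero χ')]; abel] at key

end Fermat.Agent.GalRep
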