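import Fermat.Agent.GalRep.Periods
import Mathlib.GroupTheory.Schreier
import Mathlib.LinearAlgebra.Matrix.FixedDetMatrices
import Mathlib.NumberTheory.Padics.RingHoms
import Mathlib.RingTheory.Filtration

/-!
The `p`-adic lattice of parabolic homomorphisms with its Hecke action.
-/

set_option autoImplicit false

noncomputable section

namespace Fermat.Agent.GalRep

open CongruenceSubgroup
open scoped MatrixGroups

variable {N : ℕ}

/-- Evaluation of integral polynomials at commuting elements of a ring. -/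
def polyHom {σ : Type} {E : Type} [Ring E] (f : σ → E) (hf : ∀ i j, Commute (f i) (f j)) :
    MvPolynomial σ ℤ →ₐ[ℤ] E :=
  haveI : IsMulCommutative (Algebra.adjoin ℤ (Set.range f)) :=
    Algebra.isMulCommutative_adjoin ℤ (by rintro _ ⟨i, rfl⟩ _ ⟨j, rfl⟩; exact hf i j)
  open scoped IsMulCommutative in
  (Algebra.adjoin ℤ (Set.range f)).val.comp
    (MvPolynomial.aeval fun i => ⟨f i, Algebra.subset_adjoin ⟨i, rfl⟩⟩)

@[simp] theorem polyHom_X {σ : Type} {E : Type} [Ring E] (f : σ → E)
    (hf : ∀ i j, Commute (f i) (f j)) (i : σ) : polyHom f hf (MvPolynomial.X i) = f i := by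
  simp [polyHom]

/-- The action of Hecke polynomials on parabolic homomorphisms. -/
def heckePolyHom (N : ℕ) (A : Type) [AddCommGroup A] :
    HeckePoly N →ₐ[ℤ] Module.End ℤ (ParHom N A) :=
  polyHom (fun ℓ => heckeHomAt ℓ) fun ℓ m => heckeHom_commute _ (goodIndex m)

@[simp] theorem heckePolyHom_X (A : Type) [AddCommGroup A] (ℓ : GoodPrime N) :
    heckePolyHom N A (MvPolynomial.X ℓ) = heckeHomAt ℓ := polyHom_X _ _ _

/-- Composition with a map of coefficients. -/
def parMap {A B : Type} [AddCommGroup A] [AddCommGroup B] (f : A →+ B) :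
    ParHom N A →ₗ[ℤ] ParHom N B :=
  AddMonoidHom.toIntLinearMap
    { toFun := fun χ => ⟨f.comp (χ : Additive (Gamma0 N) →+ A), fun γ hγ => by
        show f ((χ : Additive (Gamma0 N) →+ A) (Additive.ofMul γ)) = 0
        rw [χ.2 γ hγ, map_zero]⟩
      map_zero' := Subtype.ext (AddMonoidHom.comp_zero f)
      map_add' := fun χ χ' => Subtype.ext (AddMonoidHom.comp_add f _ _) }

@[simp] theorem parMap_apply {A B : Type} [AddCommGroup A] [AddCommGroup B] (f : A →+ B)
    (χ : ParHom N A) (x : Additive (Gamma0 N)) :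
    ((parMap f χ : ParHom N B) : Additive (Gamma0 N) →+ B) x =
      f ((χ : Additive (Gamma0 N) →+ A) x) := rfl

theorem heckePolyHom_natural {A B : Type} [AddCommGroup A] [AddCommGroup B] (f : A →+ B)
    (P : HeckePoly N) (χ : ParHom N A) :
    heckePolyHom N B P (parMap f χ) = parMap f (heckePolyHom N A P χ) := by
  induction P using MvPolynomial.induction_on generalizing χ with
  | C a => simp
  | add P Q hP hQ => simp [hP, hQ]
  | mul_X P ℓ hP =>
    rw [map_mul, map_mul, Module.End.mul_apply, Module.End.mul_apply, heckePolyHom_X,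
      heckePolyHom_X, ← hP]
    congr 1
    exact Subtype.ext (transferHom_comp _ f _)

/-! ### Finite generation -/

theorem exists_generators (N : ℕ) [NeZero N] :
    ∃ s : Finset (Gamma0 N), Subgroup.closure (s : Set (Gamma0 N)) = ⊤ := by
  haveI : Group.FG SL(2, ℤ) :=
    Group.fg_iff.mpr ⟨_, SpecialLinearGroup.SL2Z_generators, Set.toFinite _⟩
  haveI : (Gamma0 N).FiniteIndex :=
    IsCongruenceSubgroup.finiteIndex (Gamma0_is_congruence N)
  haveI : Group.FG (Gamma0 N) := Subgroup.fg_of_index_ne_zero (Gamma0 N)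
  exact Group.fg_def.mp inferInstance

theorem hom_eq_zero_of_generators {A : Type} [AddCommGroup A] {s : Set (Gamma0 N)}
    (hs : Subgroup.closure s = ⊤) (φ : Additive (Gamma0 N) →+ A)
    (h : ∀ g ∈ s, φ (Additive.ofMul g) = 0) : φ = 0 := by
  refine AddMonoidHom.ext fun x => ?_
  obtain ⟨γ, rfl⟩ := Additive.ofMul.surjective x
  have hγ : γ ∈ Subgroup.closure s := hs ▸ Subgroup.mem_top γ
  induction hγ using Subgroup.closure_induction with
  | mem g hg => exact h g hg
  | one => exact map_zero φ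
  | mul a b _ _ ha hb => rw [ofMul_mul, map_add, ha, hb]; simp
  | inv a _ ha => rw [ofMul_inv, map_neg, ha]; simp

theorem parabolicHoms_finite (N : ℕ) [NeZero N] (R : Type) [CommRing R] [IsNoetherianRing R]
    (A : Type) [AddCommGroup A] [Module R A] [Module.Finite R A] :
    Module.Finite R (ModularCurve.Period.parabolicHoms R (Gamma0 N) A) := by
  obtain ⟨s, hs⟩ := exists_generators N
  let ev : ModularCurve.Period.parabolicHoms R (Gamma0 N) A →ₗ[R] (s → A) :=
    { toFun := fun χ g => (χ : Additive (Gamma0 N) →+ A) (Additive.ofMul (g : Gamma0 N))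
      map_add' := fun _ _ => rfl
      map_smul' := fun _ _ => rfl }
  refine Module.Finite.of_injective ev ((injective_iff_map_eq_zero ev).mpr fun χ hχ => ?_)
  exact Subtype.ext (hom_eq_zero_of_generators hs _ fun g hg => congrFun hχ ⟨g, hg⟩)

instance parHomInt_finite (N : ℕ) [NeZero N] : Module.Finite ℤ (ParHom N ℤ) :=
  parabolicHoms_finite N ℤ ℤ

instance parHomInt_free (N : ℕ) [NeZero N] : Module.Free ℤ (ParHom N ℤ) :=
  haveI : IsAddTorsionFree (ParHom N ℤ) :=
    ⟨fun n hn a b hab => Subtype.ext (AddMonoidHom.ext fun x =>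
      nsmul_right_injective hn (DFunLike.congr_fun (congrArg Subtype.val hab) x))⟩
  Module.free_of_finite_type_torsion_free'

/-! ### Periods and faithfulness -/

variable [NeZero N]

/-- Periods as parabolic homomorphisms. -/
def periodPar (f : CuspForm (Gamma0 N) 2) : ParHom N ℂ :=
  ⟨ModularCurve.periodMap N f, periodMap_mem_parHom f⟩

theorem periodPar_add (f g : CuspForm (Gamma0 N) 2) :
    periodPar (f + g) = periodPar f + periodPar g := by
  obtain ⟨pml, hpml⟩ := Period.existsPeriodMapLinear N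
  exact Subtype.ext (by
    show ModularCurve.periodMap N (f + g) = _
    rw [← hpml, map_add, hpml, hpml]; rfl)

/-- The periods as an additive map. -/
def periodParHom (N : ℕ) [NeZero N] : CuspForm (Gamma0 N) 2 →+ ParHom N ℂ :=
  AddMonoidHom.mk' periodPar periodPar_add

theorem periodPar_heckePoly (P : HeckePoly N) (f : CuspForm (Gamma0 N) 2) :
    heckePolyHom N ℂ P (periodParHom N f) =
      periodParHom N ((evForms N P : Module.End ℂ (CuspForm (Gamma0 N) 2)) f) := by
  induction P using MvPolynomial.induction_on generalizing f with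
  | C a => simp [evForms]
  | add P Q hP hQ =>
    rw [map_add, map_add, LinearMap.add_apply, hP, hQ, Subalgebra.coe_add, LinearMap.add_apply,
      map_add]
  | mul_X P ℓ hP =>
    rw [map_mul, map_mul, Module.End.mul_apply, heckePolyHom_X, Subalgebra.coe_mul,
      Module.End.mul_apply, ← hP]
    congr 1
    refine Subtype.ext ?_
    simp only [evForms, MvPolynomial.aeval_X, CuspForm.heckeAlgebra.coe_T]
    exact (periodMap_heckeTLin (goodIndex ℓ) f).symm

/-- Every parabolic homomorphism into `ℂ` is a combination of integral ones. -/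
theorem exists_int_decomp (χ : ParHom N ℂ) :
    ∃ (ι : Type) (_ : Fintype ι) (φ : ι → ParHom N ℤ) (emb : ι → ℤ →+ ℂ),
      χ = ∑ i, parMap (emb i) (φ i) := by
  obtain ⟨s, hs⟩ := exists_generators N
  let W : Submodule ℤ ℂ := Submodule.span ℤ
    ((fun g => (χ : Additive (Gamma0 N) →+ ℂ) (Additive.ofMul g)) '' (s : Set (Gamma0 N)))
  have hW : ∀ x, (χ : Additive (Gamma0 N) →+ ℂ) x ∈ W := by
    intro x
    obtain ⟨γ, rfl⟩ := Additive.ofMul.surjective x
    have hγ : γ ∈ Subgroup.closure (s : Set (Gamma0 N)) := hs ▸ Subgroup.mem_top γ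
    induction hγ using Subgroup.closure_induction with
    | mem g hg => exact Submodule.subset_span ⟨g, hg, rfl⟩
    | one => rw [ofMul_one, map_zero]; exact W.zero_mem
    | mul a b _ _ ha hb => rw [ofMul_mul, map_add]; exact W.add_mem ha hb
    | inv a _ ha => rw [ofMul_inv, map_neg]; exact W.neg_mem ha
  haveI : Module.Finite ℤ W := Module.Finite.span_of_finite ℤ ((s.finite_toSet).image _)
  haveI : IsAddTorsionFree ℂ := .of_isTorsionFree ℂ ℂ
  haveI : Module.Free ℤ W := Module.free_of_finite_type_torsion_free'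
  let b := Module.Free.chooseBasis ℤ W
  let χW : Additive (Gamma0 N) →+ W :=
    AddMonoidHom.mk' (fun x => ⟨(χ : Additive (Gamma0 N) →+ ℂ) x, hW x⟩)
      (fun x y => Subtype.ext (map_add _ x y))
  let φ : Module.Free.ChooseBasisIndex ℤ W → ParHom N ℤ := fun i =>
    ⟨(b.coord i).toAddMonoidHom.comp χW, fun γ hγ => by
      show b.coord i (χW (Additive.ofMul γ)) = 0
      rw [show χW (Additive.ofMul γ) = 0 from Subtype.ext (χ.2 γ hγ), map_zero]⟩
  let emb : Module.Free.ChooseBasisIndex ℤ W → ℤ →+ ℂ := fun i => zmultiplesHom ℂ ((b i : W) : ℂ)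
  have hχ : χ = ∑ i, parMap (emb i) (φ i) := by
    refine Subtype.ext (AddMonoidHom.ext fun x => ?_)
    rw [AddSubmonoidClass.coe_finsetSum, AddMonoidHom.finsetSum_apply]
    simp only [parMap_apply, φ, emb, AddMonoidHom.comp_apply, zmultiplesHom_apply,
      LinearMap.toAddMonoidHom_coe, Module.Basis.coord_apply]
    have := congrArg Subtype.val (b.sum_repr (χW x))
    rw [AddSubmonoidClass.coe_finsetSum] at this
    exact this.symm
  exact ⟨_, inferInstance, φ, emb, hχ⟩

theorem heckePoly_eq_zero_complex {P : HeckePoly N} (h : heckePolyHom N ℤ P = 0) :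
    heckePolyHom N ℂ P = 0 := by
  refine LinearMap.ext fun χ => ?_
  obtain ⟨ι, _, φ, emb, rfl⟩ := exists_int_decomp χ
  rw [map_sum, LinearMap.zero_apply]
  exact Finset.sum_eq_zero fun i _ => by
    rw [heckePolyHom_natural, h, LinearMap.zero_apply, map_zero]

/-- A polynomial killing the integral homomorphisms acts as zero on cusp forms. -/
theorem evForms_eq_zero {P : HeckePoly N} (h : heckePolyHom N ℤ P = 0) : evForms N P = 0 := by
  refine Subtype.ext (LinearMap.ext fun f => periodMap_injective ?_)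
  have h1 := periodPar_heckePoly P f
  rw [heckePoly_eq_zero_complex h, LinearMap.zero_apply] at h1
  have h2 : periodParHom N (((0 : CuspForm.heckeAlgebra N 2 (∅ : Set ℕ)) :
      Module.End ℂ (CuspForm (Gamma0 N) 2)) f) = 0 := by
    rw [Subalgebra.coe_zero, LinearMap.zero_apply, map_zero]
  exact congrArg Subtype.val (h1.symm.trans h2.symm)

/-! ### The lattice -/

variable (N) (p : ℕ) [Fact p.Prime]

/-- The `p`-adic lattice. -/
abbrev Lat : Type := ↥(ModularCurve.Period.parabolicHoms ℤ_[p] (Gamma0 N) ℤ_[p])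

instance lat_finite : Module.Finite ℤ_[p] (Lat N p) := parabolicHoms_finite N ℤ_[p] ℤ_[p]

instance lat_free : Module.Free ℤ_[p] (Lat N p) :=
  haveI : Module.IsTorsionFree ℤ_[p] (Lat N p) :=
    Function.Injective.moduleIsTorsionFree
      (fun χ : Lat N p => fun x => (χ : Additive (Gamma0 N) →+ ℤ_[p]) x)
      (fun _ _ h => Subtype.ext (DFunLike.coe_injective h)) (fun _ _ => rfl)
  Module.free_of_finite_type_torsion_free'

variable {N p}

omit [NeZero N] in
/-- The underlying parabolic homomorphism. -/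
def toPar (v : Lat N p) : ParHom N ℤ_[p] := ⟨(v : Additive (Gamma0 N) →+ ℤ_[p]), v.2⟩

variable (N p) in
/-- The Hecke operator on the lattice. -/
def latHecke (ℓ : GoodPrime N) : Module.End ℤ_[p] (Lat N p) where
  toFun v := ⟨transferHom (goodIndex ℓ) (v : Additive (Gamma0 N) →+ ℤ_[p]),
    transferHom_mem (goodIndex ℓ) (toPar v)⟩
  map_add' _ _ := Subtype.ext (transferHom_add _ _ _)
  map_smul' c v := Subtype.ext (transferHom_comp (goodIndex ℓ) (AddMonoidHom.mulLeft c)
    (v : Additive (Gamma0 N) →+ ℤ_[p]))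

variable (N p) in
/-- The action of Hecke polynomials on the lattice. -/
def latHeckePoly : HeckePoly N →ₐ[ℤ] Module.End ℤ_[p] (Lat N p) :=
  polyHom (latHecke N p) fun ℓ m => LinearMap.ext fun v =>
    Subtype.ext (transferHom_comm (goodIndex ℓ) (goodIndex m) _)

theorem toPar_latHeckePoly (P : HeckePoly N) (v : Lat N p) :
    toPar (latHeckePoly N p P v) = heckePolyHom N ℤ_[p] P (toPar v) := by
  induction P using MvPolynomial.induction_on generalizing v with
  | C a =>
    rw [← MvPolynomial.algebraMap_eq, AlgHom.commutes, AlgHom.commutes,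
      Module.algebraMap_end_apply, Module.algebraMap_end_apply]
    exact Subtype.ext (AddMonoidHom.ext fun x => rfl)
  | add P Q hP hQ =>
    rw [map_add, map_add, LinearMap.add_apply, LinearMap.add_apply, ← hP, ← hQ]
    rfl
  | mul_X P ℓ hP =>
    rw [map_mul, map_mul, Module.End.mul_apply, Module.End.mul_apply, hP]
    congr 1
    rw [latHeckePoly, polyHom_X, heckePolyHom_X]
    rfl

/-- The inclusion of integral homomorphisms. -/
def ofIntHom (φ : ParHom N ℤ) : Lat N p :=
  ⟨(parMap (Int.castAddHom ℤ_[p]) φ : ParHom N ℤ_[p]).1,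
    (parMap (Int.castAddHom ℤ_[p]) φ : ParHom N ℤ_[p]).2⟩

/-- A polynomial divisible by `p^m` on the lattice is divisible by `p^m` on integral
homomorphisms. -/
theorem exists_pow_smul_of_lat {P : HeckePoly N} {m : ℕ}
    (h : ∀ v : Lat N p, ∃ w : Lat N p, latHeckePoly N p P v = (p ^ m : ℤ_[p]) • w)
    (φ : ParHom N ℤ) : ∃ ψ : ParHom N ℤ, heckePolyHom N ℤ P φ = ((p : ℤ) ^ m) • ψ := by
  obtain ⟨w, hw⟩ := h (ofIntHom φ)
  set θ := heckePolyHom N ℤ P φ
  have hdvd : ∀ x, (p : ℤ) ^ m ∣ (θ : Additive (Gamma0 N) →+ ℤ) x := fun x => by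
    rw [← PadicInt.pow_p_dvd_int_iff]
    have h1 := congrArg toPar hw
    rw [toPar_latHeckePoly, show toPar (ofIntHom φ : Lat N p) = parMap (Int.castAddHom ℤ_[p]) φ
      from rfl, heckePolyHom_natural] at h1
    exact ⟨_, DFunLike.congr_fun (congrArg Subtype.val h1) x⟩
  choose q hq using hdvd
  have hp : ((p : ℤ) ^ m) ≠ 0 := pow_ne_zero _ (Int.natCast_ne_zero.mpr (Fact.out : p.Prime).ne_zero)
  refine ⟨⟨AddMonoidHom.mk' q fun x y => mul_left_cancel₀ hp (by rw [mul_add, ← hq, ← hq, ← hq, map_add]),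
    fun γ hγ => ?_⟩, ?_⟩
  · show q (Additive.ofMul γ) = 0
    refine mul_left_cancel₀ hp ?_
    rw [← hq, θ.2 γ hγ, mul_zero]
  · exact Subtype.ext (AddMonoidHom.ext fun x => hq x)

/-- Saturation of the Hecke algebra in the endomorphisms of the lattice. -/
theorem saturation (S : Set ℕ) (k : ℕ) : ∃ m : ℕ, ∀ P : HeckePoly N, SupportedOutside S P →
    (∀ v : Lat N p, ∃ w : Lat N p, latHeckePoly N p P v = (p ^ m : ℤ_[p]) • w) →
    ∃ Q : HeckePoly N, SupportedOutside S Q ∧ evForms N P = (p ^ k : ℕ) • evForms N Q := by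
  let E := Module.End ℤ (ParHom N ℤ)
  let supp : Submodule ℤ (HeckePoly N) := Subalgebra.toSubmodule
    (Algebra.adjoin ℤ (MvPolynomial.X '' {ℓ : GoodPrime N | ((ℓ : Nat.Primes) : ℕ) ∉ S}))
  let R : Submodule ℤ E := supp.map (heckePolyHom N ℤ).toLinearMap
  obtain ⟨k₀, hk₀⟩ := Ideal.exists_pow_inf_eq_pow_smul (Ideal.span {(p : ℤ)}) R
  refine ⟨k₀ + k, fun P hP hdiv => ?_⟩
  have hp : ((p : ℤ) ^ (k₀ + k)) ≠ 0 :=
    pow_ne_zero _ (Int.natCast_ne_zero.mpr (Fact.out : p.Prime).ne_zero)
  choose ψ hψ using exists_pow_smul_of_lat hdiv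
  have hinj : Function.Injective fun χ : ParHom N ℤ => ((p : ℤ) ^ (k₀ + k)) • χ := fun a b hab =>
    Subtype.ext (AddMonoidHom.ext fun x =>
      mul_left_cancel₀ hp (DFunLike.congr_fun (congrArg Subtype.val hab) x))
  let Ψ : E :=
    { toFun := ψ
      map_add' := fun a b => hinj (by simp only [smul_add, ← hψ, map_add])
      map_smul' := fun c a => hinj (by simp only [RingHom.id_apply]; rw [smul_comm, ← hψ, ← hψ, map_smul]) }
  have hmem : heckePolyHom N ℤ P ∈
      Ideal.span {(p : ℤ)} ^ (k₀ + k) • (⊤ : Submodule ℤ E) ⊓ R := by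
    refine ⟨?_, ⟨P, hP, rfl⟩⟩
    rw [show heckePolyHom N ℤ P = ((p : ℤ) ^ (k₀ + k)) • Ψ from LinearMap.ext hψ,
      Ideal.span_singleton_pow]
    exact Submodule.smul_mem_smul (Ideal.mem_span_singleton_self _) Submodule.mem_top
  rw [hk₀ _ (Nat.le_add_right k₀ k), Nat.add_sub_cancel_left, Ideal.span_singleton_pow,
    Submodule.ideal_span_singleton_smul] at hmem
  obtain ⟨_, ⟨-, Q, hQ, rfl⟩, hQP⟩ := hmem
  refine ⟨Q, hQ, ?_⟩
  have h0 : heckePolyHom N ℤ (P - ((p : ℤ) ^ k) • Q) = 0 := by
    rw [map_sub, map_smul, sub_eq_zero]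
    exact hQP.symm
  have := evForms_eq_zero h0
  rw [map_sub, map_smul, sub_eq_zero] at this
  rw [this, ← natCast_zsmul, Nat.cast_pow]

end Fermat.Agent.GalRep
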