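import Fermat.Agent.GalRep.KummerRep
import Fermat.Agent.GalRep.Lattice
import Fermat.Agent.Hecke.ComplexAut
import Mathlib.FieldTheory.IntermediateField.Adjoin.Basic

/-!
# The Galois action on parabolic homomorphisms to `ℤ/n`

Every character has a normalised representative (poles of order at most one, largest order at
infinity, leading coefficient one). It is unique, so its coefficients have finite orbits under
`Aut ℂ` and are algebraic; conjugating them defines the Galois action.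
-/

set_option autoImplicit false

noncomputable section

namespace Fermat.Agent.GalRep

open UpperHalfPlane CongruenceSubgroup Filter Topology
open Fermat.Agent.Galois (GQ)
open scoped MatrixGroups Manifold

variable {N : ℕ} [NeZero N] {n : ℕ} [NeZero n]

instance finite_parHom_zmod : Finite (ParHom N (ZMod n)) := by
  obtain ⟨s, hs⟩ := exists_generators N
  refine Finite.of_injective
    (fun (χ : ParHom N (ZMod n)) (g : s) =>
      (χ : Additive (Gamma0 N) →+ ZMod n) (Additive.ofMul (g : Gamma0 N))) fun χ χ' h => ?_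
  exact Subtype.ext (sub_eq_zero.mp
    (hom_eq_zero_of_generators hs _ fun g hg => sub_eq_zero.mpr (congrFun h ⟨g, hg⟩)))

/-! ## The action of `Aut ℂ` -/

theorem exists_autChar (σ : ℂ ≃+* ℂ) (χ : ParHom N (ZMod n)) :
    ∃ χ' : ParHom N (ZMod n), ∀ (F : ℍ → ℂ) (f : LaurentSeries ℂ),
      IsKummerRep N n χ F → HasQSeries 1 F f →
      ∃ F', IsKummerRep N n χ' F' ∧ HasQSeries 1 F' (lmap σ.toRingHom f) ∧
        ∀ B, CuspBound N B F → CuspBound N B F' := by
  obtain ⟨E, hE, -⟩ := exists_cuspBound_rep χ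
  obtain ⟨e, he, -⟩ := hE.exists_series_one
  obtain ⟨χ', E', hE', he', -⟩ := exists_conj_rep σ hE he
  refine ⟨χ', fun F f hF hf => ?_⟩
  obtain ⟨χ'', F', hF', hf', hb⟩ := exists_conj_rep σ hF hf
  exact ⟨F', conj_char_unique σ hE he hF hf hE' he' hF' hf' ▸ hF', hf', hb⟩

/-- The conjugate character. -/
def autChar (σ : ℂ ≃+* ℂ) (χ : ParHom N (ZMod n)) : ParHom N (ZMod n) :=
  (exists_autChar σ χ).choose

theorem autChar_spec (σ : ℂ ≃+* ℂ) {χ : ParHom N (ZMod n)} {F : ℍ → ℂ} {f : LaurentSeries ℂ}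
    (hF : IsKummerRep N n χ F) (hf : HasQSeries 1 F f) :
    ∃ F', IsKummerRep N n (autChar σ χ) F' ∧ HasQSeries 1 F' (lmap σ.toRingHom f) ∧
      ∀ B, CuspBound N B F → CuspBound N B F' :=
  (exists_autChar σ χ).choose_spec F f hF hf

theorem eq_autChar (σ : ℂ ≃+* ℂ) {χ χ' : ParHom N (ZMod n)} {F F' : ℍ → ℂ} {f : LaurentSeries ℂ}
    (hF : IsKummerRep N n χ F) (hf : HasQSeries 1 F f)
    (hF' : IsKummerRep N n χ' F') (hf' : HasQSeries 1 F' (lmap σ.toRingHom f)) :
    χ' = autChar σ χ := by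
  obtain ⟨F'', h1, h2, -⟩ := autChar_spec σ hF hf
  exact conj_char_unique σ hF hf hF hf hF' hf' h1 h2

theorem autChar_add (σ : ℂ ≃+* ℂ) (χ χ' : ParHom N (ZMod n)) :
    autChar σ (χ + χ') = autChar σ χ + autChar σ χ' := by
  obtain ⟨E, hE, -⟩ := exists_cuspBound_rep χ
  obtain ⟨e, he, -⟩ := hE.exists_series_one
  obtain ⟨F, hF, -⟩ := exists_cuspBound_rep χ'
  obtain ⟨f, hf, -⟩ := hF.exists_series_one
  obtain ⟨E', hE', he', -⟩ := autChar_spec σ hE he
  obtain ⟨F', hF', hf', -⟩ := autChar_spec σ hF hf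
  refine (eq_autChar σ (hE.mul hF) (he.mul hf) (hE'.mul hF') ?_).symm
  rw [map_mul]
  exact he'.mul hf'

theorem autChar_autChar (σ τ : ℂ ≃+* ℂ) (χ : ParHom N (ZMod n)) :
    autChar σ (autChar τ χ) = autChar (τ.trans σ) χ := by
  obtain ⟨E, hE, -⟩ := exists_cuspBound_rep χ
  obtain ⟨e, he, -⟩ := hE.exists_series_one
  obtain ⟨E', hE', he', -⟩ := autChar_spec τ hE he
  obtain ⟨E'', hE'', he'', -⟩ := autChar_spec σ hE' he'
  refine eq_autChar _ hE he hE'' ?_
  rw [lmap_lmap] at he''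
  exact he''

theorem autChar_refl (χ : ParHom N (ZMod n)) : autChar (RingEquiv.refl ℂ) χ = χ := by
  obtain ⟨E, hE, -⟩ := exists_cuspBound_rep χ
  obtain ⟨e, he, -⟩ := hE.exists_series_one
  refine (eq_autChar _ hE he hE ?_).symm
  have : lmap (RingEquiv.refl ℂ).toRingHom e = e := by ext; simp
  rwa [this]

/-- The action as a linear map. -/
def autEnd (σ : ℂ ≃+* ℂ) : Module.End ℤ (ParHom N (ZMod n)) :=
  (AddMonoidHom.mk' (autChar σ) (autChar_add σ)).toIntLinearMap

@[simp] theorem autEnd_apply (σ : ℂ ≃+* ℂ) (χ : ParHom N (ZMod n)) :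
    autEnd σ χ = autChar σ χ := rfl

/-! ## Normalised representatives -/

theorem series_one_coeff_eq_zero {F : ℍ → ℂ} {b : ℕ} (hb : CuspBound N b F)
    {f : LaurentSeries ℂ} (hf : HasQSeries 1 F f) {m : ℤ} (hm : m < -(b : ℤ)) : f.coeff m = 0 := by
  obtain ⟨h, hh, hc⟩ := hb 1
  obtain rfl := hh.unique (NeZero.pos N) (hasQSeries_expand hf)
  have hN : (0 : ℤ) < N := by exact_mod_cast NeZero.pos N
  rw [← expand_coeff_mul N (NeZero.ne N) f m]
  exact hc _ (by push_cast; nlinarith)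

/-- Normalised representative. -/
structure IsNormal (χ : ParHom N (ZMod n)) (F : ℍ → ℂ) (f : LaurentSeries ℂ) : Prop where
  rep : IsKummerRep N n χ F
  bound : CuspBound N 1 F
  series : HasQSeries 1 F f
  ne_zero : f ≠ 0
  leading : f.coeff f.order = 1
  maximal : ∀ (F' : ℍ → ℂ) (f' : LaurentSeries ℂ), IsKummerRep N n χ F' → CuspBound N 1 F' →
    HasQSeries 1 F' f' → f' ≠ 0 → f'.order ≤ f.order

theorem exists_isNormal (χ : ParHom N (ZMod n)) :
    ∃ (F : ℍ → ℂ) (f : LaurentSeries ℂ), IsNormal χ F f := by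
  classical
  let P : ℤ → Prop := fun d => ∃ (F : ℍ → ℂ) (f : LaurentSeries ℂ), IsKummerRep N n χ F ∧
    CuspBound N 1 F ∧ HasQSeries 1 F f ∧ f ≠ 0 ∧ f.order = d
  obtain ⟨E, hE, hEb⟩ := exists_cuspBound_rep χ
  obtain ⟨e, he, he0⟩ := hE.exists_series_one
  obtain ⟨d, ⟨F, f, hF, hFb, hf, hf0, rfl⟩, hmax⟩ := Int.exists_greatest_of_bdd (P := P)
    ⟨((idx N - 1) * 1 : ℕ), fun z ⟨F, f, hF, hFb, hf, _, hz⟩ => hz ▸ order_le_of_rep hF hFb hf⟩
    ⟨_, E, e, hE, hEb, he, he0, rfl⟩
  have hc : f.coeff f.order ≠ 0 := fun h => hf0 (HahnSeries.coeff_order_eq_zero.mp h)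
  set c := (f.coeff f.order)⁻¹ with hcdef
  have hc0 : HahnSeries.C c * f ≠ 0 := mul_ne_zero (by simp [hcdef, hc]) hf0
  have hord : (HahnSeries.C c * f).order = f.order := by
    rw [HahnSeries.order_mul (by simp [hcdef, hc]) hf0, HahnSeries.C_apply,
      HahnSeries.order_single (inv_ne_zero hc), zero_add]
  refine ⟨fun τ => c * F τ, HahnSeries.C c * f, hF.const_mul (inv_ne_zero hc), ?_, hf.smul c, hc0,
    ?_, fun F' f' h1 h2 h3 h4 => ?_⟩
  · exact (CuspBound.const (N := N) c).mul hFb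
  · rw [hord, HahnSeries.C_mul_eq_smul, HahnSeries.coeff_smul, smul_eq_mul, hcdef,
      inv_mul_cancel₀ hc]
  · rw [hord]
    exact hmax _ ⟨F', f', h1, h2, h3, h4, rfl⟩

theorem IsNormal.series_unique {χ : ParHom N (ZMod n)} {F F' : ℍ → ℂ} {f f' : LaurentSeries ℂ}
    (h : IsNormal χ F f) (h' : IsNormal χ F' f') : f = f' := by
  by_contra hne
  have hord : f.order = f'.order := le_antisymm (h'.maximal _ _ h.rep h.bound h.series h.ne_zero)
    (h.maximal _ _ h'.rep h'.bound h'.series h'.ne_zero)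
  have hsub : f - f' ≠ 0 := sub_ne_zero.mpr hne
  have hFF : F - F' ≠ 0 := fun h0 => hsub ((h.series.sub h'.series).unique one_pos
    (h0 ▸ HasQSeries.zero 1))
  have hle := h.maximal _ _ (h.rep.sub h'.rep hFF) (h.bound.sub h'.bound) (h.series.sub h'.series)
    hsub
  have : f.order + 1 ≤ (f - f').order := le_order_of_coeff hsub fun m hm => by
    rw [HahnSeries.coeff_sub]
    rcases (Int.lt_add_one_iff.mp hm).lt_or_eq with h1 | h1
    · rw [HahnSeries.coeff_eq_zero_of_lt_order h1,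
        HahnSeries.coeff_eq_zero_of_lt_order (hord ▸ h1), sub_zero]
    · rw [h1, h.leading, hord, h'.leading, sub_self]
  omega

/-- The normalised series. -/
def normalSeries (χ : ParHom N (ZMod n)) : LaurentSeries ℂ := (exists_isNormal χ).choose_spec.choose

theorem exists_isNormal_normalSeries (χ : ParHom N (ZMod n)) :
    ∃ F, IsNormal χ F (normalSeries χ) :=
  ⟨_, (exists_isNormal χ).choose_spec.choose_spec⟩

theorem autChar_symm (σ : ℂ ≃+* ℂ) (χ : ParHom N (ZMod n)) :
    autChar σ.symm (autChar σ χ) = χ := by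
  rw [autChar_autChar, RingEquiv.self_trans_symm, autChar_refl]

theorem lmap_normalSeries (σ : ℂ ≃+* ℂ) (χ : ParHom N (ZMod n)) :
    lmap σ.toRingHom (normalSeries χ) = normalSeries (autChar σ χ) := by
  obtain ⟨F, hF⟩ := exists_isNormal_normalSeries χ
  obtain ⟨F', hF', hf', hb⟩ := autChar_spec σ hF.rep hF.series
  obtain ⟨F₁, hF₁⟩ := exists_isNormal_normalSeries (autChar σ χ)
  refine IsNormal.series_unique (F := F') ⟨hF', hb 1 hF.bound, hf',
    fun h => hF.ne_zero (lmap_injective (φ := σ.toRingHom) σ.injective (h.trans (map_zero _).symm)),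
    ?_, fun G g h1 h2 h3 h4 => ?_⟩ hF₁
  · rw [order_lmap (φ := σ.toRingHom) σ.injective, lmap_coeff, hF.leading, map_one]
  · obtain ⟨G', hG', hg', hb'⟩ := autChar_spec σ.symm h1 h3
    rw [autChar_symm] at hG'
    have hle := hF.maximal _ _ hG' (hb' 1 h2) hg'
      (fun h => h4 (lmap_injective (φ := σ.symm.toRingHom) σ.symm.injective
        (h.trans (map_zero _).symm)))
    rwa [order_lmap (φ := σ.symm.toRingHom) σ.symm.injective,
      ← order_lmap (φ := σ.toRingHom) σ.injective (normalSeries χ)] at hle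

/-! ## Algebraicity -/

theorem isAlgebraic_of_finite_orbit {x : ℂ} (h : (Set.range fun σ : ℂ ≃+* ℂ => σ x).Finite) :
    IsAlgebraic ℚ x := by
  classical
  set O := h.toFinset with hO
  set P : Polynomial ℂ := ∏ y ∈ O, (Polynomial.X - Polynomial.C y) with hP
  have hmap : ∀ σ : ℂ ≃+* ℂ, P.map σ.toRingHom = P := fun σ => by
    rw [hP, Polynomial.map_prod]
    refine Finset.prod_equiv σ.toEquiv (fun y => ?_) fun y _ => by simp
    simp only [hO, Set.Finite.mem_toFinset, Set.mem_range]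
    constructor
    · rintro ⟨τ, rfl⟩; exact ⟨τ.trans σ, rfl⟩
    · rintro ⟨τ, hτ⟩
      exact ⟨τ.trans σ.symm, by
        rw [RingEquiv.trans_apply, hτ]; exact σ.symm_apply_apply y⟩
  have hl : P ∈ Polynomial.lifts (algebraMap ℚ ℂ) := (Polynomial.lifts_iff_coeff_lifts P).mpr
    fun i => by
      obtain ⟨r, hr⟩ := Hecke.exists_rat_of_fixed (x := P.coeff i) fun σ => by
        conv_rhs => rw [← hmap σ]
        rw [Polynomial.coeff_map]; rfl
      exact ⟨r, by simpa using hr⟩
  obtain ⟨Q, hQ⟩ := (Polynomial.mem_lifts P).mp hl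
  have hP0 : P ≠ 0 := (Polynomial.monic_prod_of_monic _ _ fun y _ => Polynomial.monic_X_sub_C y).ne_zero
  refine ⟨Q, fun h0 => hP0 (by rw [← hQ, h0, Polynomial.map_zero]), ?_⟩
  rw [Polynomial.aeval_def, ← Polynomial.eval_map, hQ, hP, Polynomial.eval_prod]
  refine Finset.prod_eq_zero (i := x) ?_ (by simp)
  simp only [hO, Set.Finite.mem_toFinset, Set.mem_range]
  exact ⟨RingEquiv.refl ℂ, rfl⟩

theorem qbarToC_injective : Function.Injective qbarToC := qbarToC.injective

theorem exists_qbarToC_eq {x : ℂ} (hx : IsAlgebraic ℚ x) : ∃ y, qbarToC y = x := by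
  have hroot : x ∈ (minpoly ℚ x).rootSet ℂ := by
    rw [Polynomial.mem_rootSet]
    exact ⟨minpoly.ne_zero hx.isIntegral, minpoly.aeval ℚ x⟩
  have himg := (IsAlgClosed.splits
    ((minpoly ℚ x).map (algebraMap ℚ (AlgebraicClosure ℚ)))).image_rootSet qbarToC.toRatAlgHom
  rw [← himg] at hroot
  obtain ⟨y, -, hy⟩ := hroot
  exact ⟨y, hy⟩

theorem exists_seriesToC_eq {f : LaurentSeries ℂ} (h : ∀ m, IsAlgebraic ℚ (f.coeff m)) :
    ∃ g, seriesToC g = f := by
  choose y hy using fun m => exists_qbarToC_eq (h m)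
  refine ⟨⟨y, f.isPWO_support.mono fun m hm h0 => hm ?_⟩, ?_⟩
  · exact qbarToC_injective ((hy m).trans (h0.trans (map_zero qbarToC).symm))
  · ext m; exact hy m

theorem seriesToC_eq_lmap (f : LaurentSeries (AlgebraicClosure ℚ)) :
    seriesToC f = lmap qbarToC f := rfl

theorem seriesConj_eq_lmap (s : GQ) (f : LaurentSeries (AlgebraicClosure ℚ)) :
    seriesConj s f = lmap s.toRingEquiv.toRingHom f := rfl

theorem seriesToC_injective : Function.Injective seriesToC := lmap_injective qbarToC_injective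

theorem isAlgebraic_normalSeries (χ : ParHom N (ZMod n)) (m : ℤ) :
    IsAlgebraic ℚ ((normalSeries χ).coeff m) := by
  refine isAlgebraic_of_finite_orbit ((Set.finite_range fun χ' : ParHom N (ZMod n) =>
    (normalSeries χ').coeff m).subset ?_)
  rintro _ ⟨σ, rfl⟩
  exact ⟨autChar σ χ, by show (normalSeries (autChar σ χ)).coeff m = σ _
                         rw [← lmap_normalSeries]; rfl⟩

theorem exists_algebraic_rep (χ : ParHom N (ZMod n)) :
    ∃ (F : ℍ → ℂ) (f : LaurentSeries (AlgebraicClosure ℚ)),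
      IsNormal χ F (seriesToC f) := by
  obtain ⟨F, hF⟩ := exists_isNormal_normalSeries χ
  obtain ⟨g, hg⟩ := exists_seriesToC_eq (isAlgebraic_normalSeries χ)
  exact ⟨F, g, hg ▸ hF⟩

/-! ## Lifting Galois automorphisms -/

theorem exists_liftAut (s : GQ) : ∃ σ : ℂ ≃+* ℂ, ∀ x, σ (qbarToC x) = qbarToC (s x) := by
  haveI : Algebra.IsAlgebraic ℚ (algebraicClosure ℚ ℂ) := algebraicClosure.isAlgebraic ℚ ℂ
  let φ : AlgebraicClosure ℚ →ₐ[ℚ] algebraicClosure ℚ ℂ :=
    qbarToC.toRatAlgHom.codRestrict (algebraicClosure ℚ ℂ).toSubalgebra fun x =>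
      (mem_algebraicClosure_iff').mpr
        ((Algebra.IsAlgebraic.isAlgebraic x).algHom qbarToC.toRatAlgHom).isIntegral
  have hφ : Function.Bijective φ := ⟨φ.toRingHom.injective, fun y => by
    obtain ⟨x, hx⟩ := exists_qbarToC_eq ((Algebra.IsAlgebraic.isAlgebraic y).algHom
      (algebraicClosure ℚ ℂ).val)
    exact ⟨x, Subtype.ext hx⟩⟩
  let e := AlgEquiv.ofBijective φ hφ
  obtain ⟨S, hS⟩ := exists_isTranscendenceBasis (algebraicClosure ℚ ℂ) ℂ
  obtain ⟨σ, hσ⟩ := Hecke.exists_complexAut_of_polyAut _ hS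
    (MvPolynomial.mapEquiv (↥S) ((e.symm.trans (s.trans e)).toRingEquiv))
  refine ⟨σ, fun x => ?_⟩
  have h1 := hσ (MvPolynomial.C (e x))
  have h2 : MvPolynomial.mapEquiv (↥S) ((e.symm.trans (s.trans e)).toRingEquiv)
      (MvPolynomial.C (e x)) = MvPolynomial.C (e (s x)) := by
    rw [MvPolynomial.mapEquiv_apply, MvPolynomial.map_C]
    congr 1
    show e (s (e.symm (e x))) = _
    rw [AlgEquiv.symm_apply_apply]
  rw [h2, MvPolynomial.aeval_C, MvPolynomial.aeval_C] at h1
  exact h1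

/-- An extension to `ℂ`. -/
def liftAut (s : GQ) : ℂ ≃+* ℂ := (exists_liftAut s).choose

theorem liftAut_spec (s : GQ) (x : AlgebraicClosure ℚ) :
    liftAut s (qbarToC x) = qbarToC (s x) := (exists_liftAut s).choose_spec x

theorem lmap_seriesToC {σ : ℂ ≃+* ℂ} {s : GQ} (h : ∀ x, σ (qbarToC x) = qbarToC (s x))
    (f : LaurentSeries (AlgebraicClosure ℚ)) :
    lmap σ.toRingHom (seriesToC f) = seriesToC (seriesConj s f) := by
  ext m; exact h _

theorem autChar_eq_of_agree {σ τ : ℂ ≃+* ℂ} (h : ∀ x, σ (qbarToC x) = τ (qbarToC x))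
    (χ : ParHom N (ZMod n)) : autChar σ χ = autChar τ χ := by
  obtain ⟨F, f, hF⟩ := exists_algebraic_rep χ
  obtain ⟨F', hF', hf', -⟩ := autChar_spec σ hF.rep hF.series
  refine eq_autChar τ hF.rep hF.series hF' ?_
  have : lmap σ.toRingHom (seriesToC f) = lmap τ.toRingHom (seriesToC f) := by
    ext m; exact h _
  rwa [this] at hf'

theorem coeff_pow_eq_zero {f : LaurentSeries ℂ} (hf : ∀ m < (-1 : ℤ), f.coeff m = 0) :
    ∀ (k : ℕ) (m : ℤ), m < -(k : ℤ) → (f ^ k).coeff m = 0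
  | 0, m, hm => by simp at hm; simp [HahnSeries.coeff_one, hm.ne]
  | k + 1, m, hm => by
    rw [pow_succ]
    exact coeff_mul_eq_zero (coeff_pow_eq_zero hf k) hf (by push_cast at hm; linarith)

/-- Agreement of enough coefficients forces equality of the characters. -/
theorem autChar_eq_self {σ : ℂ ≃+* ℂ} {χ : ParHom N (ZMod n)}
    (h : ∀ m : ℤ, -1 ≤ m → m ≤ ((idx N - 1) * n + n : ℕ) →
      σ ((normalSeries χ).coeff m) = (normalSeries χ).coeff m) : autChar σ χ = χ := by
  obtain ⟨F, hF⟩ := exists_isNormal_normalSeries χ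
  obtain ⟨F', hF', hg, hb⟩ := autChar_spec σ hF.rep hF.series
  set f := normalSeries χ
  set g := lmap σ.toRingHom f with hgdef
  have hFb' := hb 1 hF.bound
  have hf1 : ∀ m < (-1 : ℤ), f.coeff m = 0 := fun m hm =>
    series_one_coeff_eq_zero hF.bound hF.series (by exact_mod_cast hm)
  have hg1 : ∀ m < (-1 : ℤ), g.coeff m = 0 := fun m hm => by
    rw [hgdef, lmap_coeff, hf1 m hm, map_zero]
  set M : ℤ := (((idx N - 1) * n + n : ℕ) : ℤ) with hM
  have hdiff : ∀ m < M + 1, (f - g).coeff m = 0 := fun m hm => by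
    rw [HahnSeries.coeff_sub]
    rcases lt_or_ge m (-1) with h1 | h1
    · rw [hf1 m h1, hg1 m h1, sub_zero]
    · rw [hgdef, lmap_coeff]
      exact sub_eq_zero.mpr (h m h1 (by omega)).symm
  have hpow : f ^ n = g ^ n := by
    by_contra hne
    have h0 : f ^ n - g ^ n ≠ 0 := sub_ne_zero.mpr hne
    have hmod : IsModFun (Gamma0 N) (F ^ n - F' ^ n) :=
      mem_modFuns.mp ((modFuns (Gamma0 N)).sub_mem (mem_modFuns.mpr hF.rep.isModFun_pow)
        (mem_modFuns.mpr hF'.isModFun_pow))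
    have hle := order_le_of_modFun hmod ((hF.bound.pow n).sub (hFb'.pow n))
      ((hF.series.pow n).sub (hg.pow n)) h0
    rw [mul_one] at hle
    have hge : M + 1 + -((n - 1 : ℕ) : ℤ) ≤ (f ^ n - g ^ n).order := le_order_of_coeff h0 fun m hm => by
      rw [← geom_sum₂_mul, mul_comm]
      refine coeff_mul_eq_zero hdiff (b := -((n - 1 : ℕ) : ℤ)) (fun j hj => ?_) hm
      rw [HahnSeries.coeff_sum]
      refine Finset.sum_eq_zero fun i hi => coeff_mul_eq_zero (coeff_pow_eq_zero hf1 i)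
        (coeff_pow_eq_zero hg1 (n - 1 - i)) ?_
      have := Finset.mem_range.mp hi
      omega
    rw [hM] at hge
    have hn := NeZero.pos n
    omega
  obtain ⟨ω, hωn, hω⟩ := exists_root_unity_of_pow_eq (a := g) (b := f) hF.ne_zero hpow.symm
  have hω0 : ω ≠ 0 := fun h0 => by simp [h0, zero_pow (NeZero.ne n)] at hωn
  have hrep := hF.rep.const_mul hω0
  have : F' = fun τ => ω * F τ :=
    eq_of_hasQSeries hF'.holo hrep.holo (hω ▸ hg) (hF.series.smul ω)
  exact hF'.char_unique (this ▸ hrep)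

/-! ## The datum -/

theorem exists_finite_level :
    ∃ L : IntermediateField ℚ (AlgebraicClosure ℚ), FiniteDimensional ℚ L ∧
      ∀ s : GQ, (∀ x ∈ L, s x = x) → ∀ χ : ParHom N (ZMod n), autChar (liftAut s) χ = χ := by
  choose y hy using fun (p : ParHom N (ZMod n) × ℤ) =>
    exists_qbarToC_eq (isAlgebraic_normalSeries p.1 p.2)
  set S : Set (AlgebraicClosure ℚ) :=
    y '' (Set.univ ×ˢ Set.Icc (-1 : ℤ) (((idx N - 1) * n + n : ℕ) : ℤ)) with hS
  haveI : Finite S := (Set.Finite.image y (Set.finite_univ.prod (Set.finite_Icc _ _))).to_subtype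
  refine ⟨IntermediateField.adjoin ℚ S,
    IntermediateField.finiteDimensional_adjoin fun x _ =>
      (Algebra.IsAlgebraic.isAlgebraic x).isIntegral, fun s hs χ => ?_⟩
  refine autChar_eq_self fun m h1 h2 => ?_
  rw [← hy (χ, m), liftAut_spec, hs _ (IntermediateField.subset_adjoin ℚ _
    ⟨(χ, m), ⟨trivial, h1, h2⟩, rfl⟩)]

/-- The Galois action on `Hom_par(Γ₀(N), ℤ/n)`. -/
def kummerGalois (N n : ℕ) [NeZero N] [NeZero n] : KummerGalois N n where
  galois :=
    { toFun := fun s => autEnd (liftAut s)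
      map_one' := LinearMap.ext fun χ => by
        rw [autEnd_apply, autChar_eq_of_agree (τ := RingEquiv.refl ℂ) (fun x => ?_), autChar_refl]
        · rfl
        · rw [liftAut_spec]; rfl
      map_mul' := fun s t => LinearMap.ext fun χ => by
        show autChar (liftAut (s * t)) χ = autChar (liftAut s) (autChar (liftAut t) χ)
        rw [autChar_autChar]
        refine autChar_eq_of_agree (fun x => ?_) χ
        rw [RingEquiv.trans_apply, liftAut_spec, liftAut_spec, liftAut_spec]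
        rfl }
  continuous := by
    obtain ⟨L, hL, h⟩ := exists_finite_level (N := N) (n := n)
    exact ⟨L, hL, fun s hs => LinearMap.ext fun χ => h s hs χ⟩
  exists_algebraic χ := by
    obtain ⟨F, f, hF⟩ := exists_algebraic_rep χ
    exact ⟨F, f, hF.rep, hF.series⟩
  galois_spec s χ F f hF hf := by
    obtain ⟨F', hF', hf', -⟩ := autChar_spec (liftAut s) hF hf
    exact ⟨F', hF', by rwa [lmap_seriesToC (liftAut_spec s)] at hf'⟩

/-- Any Galois datum is given by `autChar`. -/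
theorem KummerGalois.galois_eq (K : KummerGalois N n) (s : GQ) (χ : ParHom N (ZMod n)) :
    K.galois s χ = autChar (liftAut s) χ := by
  obtain ⟨F, f, hF, hf⟩ := K.exists_algebraic χ
  obtain ⟨F', hF', hf'⟩ := K.galois_spec s χ F f hF hf
  exact eq_autChar _ hF hf hF' (by rwa [lmap_seriesToC (liftAut_spec s)])

/-- Compatibility for `m ∣ n`. -/
theorem kummerCompat (N : ℕ) [NeZero N] : KummerCompat N := by
  intro m n _ _ hmn K K' s χ χ' h
  obtain ⟨k, rfl⟩ := hmn
  have hcast : ∀ (a : ZMod (m * k)),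
      ZMod.stdAddChar a ^ k = ZMod.stdAddChar (ZMod.castHom (Dvd.intro k rfl) (ZMod m) a) := by
    intro a
    have hk : (k : ℂ) ≠ 0 := Nat.cast_ne_zero.mpr fun h0 => NeZero.ne (m * k) (by simp [h0])
    obtain ⟨j, rfl⟩ := ZMod.intCast_surjective a
    rw [map_intCast (ZMod.castHom (Dvd.intro k rfl) (ZMod m)), ZMod.stdAddChar_coe, ZMod.stdAddChar_coe, ← Complex.exp_nat_mul]
    congr 1
    have : (m : ℂ) ≠ 0 := Nat.cast_ne_zero.mpr (NeZero.ne m)
    push_cast
    field_simp
  have key : ∀ {ψ : ParHom N (ZMod (m * k))} {F : ℍ → ℂ}, IsKummerRep N (m * k) ψ F →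
      ∀ ψ' : ParHom N (ZMod m), IsCastHom (Dvd.intro k rfl) ψ ψ' → IsKummerRep N m ψ' (F ^ k) :=
    fun {ψ F} hF ψ' hψ => ⟨(hF.pow k).holo, (hF.pow k).ne_zero, fun γ τ => by
      show F _ ^ k = _ * F τ ^ k
      rw [hF.equivariant, mul_pow, hcast, hψ]
      rfl, (hF.pow k).cusps⟩
  rw [K.galois_eq, K'.galois_eq]
  obtain ⟨F, hF, -⟩ := exists_cuspBound_rep χ
  obtain ⟨f, hf, -⟩ := hF.exists_series_one
  obtain ⟨F', hF', hf', -⟩ := autChar_spec (liftAut s) hF hf
  set c := (ZMod.castHom (Dvd.intro k rfl) (ZMod m) : ZMod (m * k) →+* ZMod m).toAddMonoidHom.comp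
    ((autChar (liftAut s) χ : ParHom N (ZMod (m * k))) : Additive (Gamma0 N) →+ ZMod (m * k))
  have hc : c ∈ ParHom N (ZMod m) := fun γ hγ => by
    show (ZMod.castHom (Dvd.intro k rfl) (ZMod m)) _ = 0
    rw [(autChar (liftAut s) χ).2 γ hγ, map_zero]
  have := eq_autChar (liftAut s) (key hF χ' h) (hf.pow k) (key hF' ⟨c, hc⟩ rfl)
    (by rw [map_pow]; exact hf'.pow k)
  exact (congrArg Subtype.val this).symm

end Fermat.Agent.GalRep
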