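import Fermat.Agent.GalRep.Datum

/-!
The Hecke transfer on homomorphisms out of `Γ₀(N)`: existence, uniqueness, parabolicity,
naturality and commutation.
-/

set_option autoImplicit false

noncomputable section

namespace Fermat.Agent.GalRep

open CongruenceSubgroup
open scoped MatrixGroups

/-- Abbreviation for integral two by two matrices. -/
abbrev IMat : Type := Matrix (Fin 2) (Fin 2) ℤ

theorem det_heckeRep (ℓ : ℕ) (i : Option (Fin ℓ)) : (heckeRep ℓ i).det = (ℓ : ℤ) := by
  cases i <;> simp [heckeRep, Matrix.det_fin_two]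

theorem heckeRep_one_zero (ℓ : ℕ) (i : Option (Fin ℓ)) : heckeRep ℓ i 1 0 = 0 := by
  cases i <;> simp [heckeRep]

theorem mul_heckeRep_none (ℓ : ℕ) (M : IMat) :
    M * heckeRep ℓ none = !![M 0 0 * ℓ, M 0 1; M 1 0 * ℓ, M 1 1] := by
  ext i j
  fin_cases i <;> fin_cases j <;> simp [heckeRep, Matrix.mul_apply, Fin.sum_univ_two]

theorem mul_heckeRep_some (ℓ : ℕ) (M : IMat) (b : Fin ℓ) :
    M * heckeRep ℓ (some b) =
      !![M 0 0, M 0 0 * b + M 0 1 * ℓ; M 1 0, M 1 0 * b + M 1 1 * ℓ] := by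
  ext i j
  fin_cases i <;> fin_cases j <;> simp [heckeRep, Matrix.mul_apply, Fin.sum_univ_two]

theorem mul_heckeRep_cancel {ℓ : ℕ} (hℓ : ℓ ≠ 0) (i : Option (Fin ℓ)) {M M' : IMat}
    (h : M * heckeRep ℓ i = M' * heckeRep ℓ i) : M = M' := by
  have := congrArg (fun X => X * (heckeRep ℓ i).adjugate) h
  simp only [Matrix.mul_assoc, Matrix.mul_adjugate, det_heckeRep, Matrix.mul_smul, Matrix.mul_one]
    at this
  exact (smul_right_injective IMat (Int.natCast_ne_zero.mpr hℓ)) this

/-- An integral matrix with determinant divisible by a prime `ℓ` is right divisible by one of the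
standard representatives. -/
theorem exists_eq_mul_heckeRep {ℓ : ℕ} (hℓ : ℓ.Prime) (M : IMat) (hM : (ℓ : ℤ) ∣ M.det) :
    ∃ (i : Option (Fin ℓ)) (M' : IMat), M = M' * heckeRep ℓ i := by
  haveI := Fact.mk hℓ
  by_cases h : (ℓ : ℤ) ∣ M 0 0 ∧ (ℓ : ℤ) ∣ M 1 0
  · obtain ⟨⟨x, hx⟩, ⟨y, hy⟩⟩ := h
    refine ⟨none, !![x, M 0 1; y, M 1 1], ?_⟩
    rw [mul_heckeRep_none]
    ext i j
    fin_cases i <;> fin_cases j <;> simp [hx, hy, mul_comm]
  · have key : ∃ t : ZMod ℓ, (M 0 1 : ZMod ℓ) = t * (M 0 0 : ZMod ℓ) ∧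
        (M 1 1 : ZMod ℓ) = t * (M 1 0 : ZMod ℓ) := by
      have hd : (M 0 0 : ZMod ℓ) * (M 1 1 : ZMod ℓ) = (M 0 1 : ZMod ℓ) * (M 1 0 : ZMod ℓ) := by
        have := (ZMod.intCast_zmod_eq_zero_iff_dvd _ _).mpr hM
        rw [Matrix.det_fin_two] at this
        push_cast at this
        linear_combination this
      simp only [← ZMod.intCast_zmod_eq_zero_iff_dvd, not_and_or] at h
      rcases h with h | h
      · refine ⟨(M 0 1 : ZMod ℓ) / (M 0 0 : ZMod ℓ), ?_, ?_⟩ <;> field_simp
        linear_combination hd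
      · refine ⟨(M 1 1 : ZMod ℓ) / (M 1 0 : ZMod ℓ), ?_, ?_⟩ <;> field_simp
        linear_combination -hd
    obtain ⟨t, ht0, ht1⟩ := key
    let b : Fin ℓ := ⟨t.val, t.val_lt⟩
    have hb : (((b : ℕ) : ℤ) : ZMod ℓ) = t := by simp [b]
    obtain ⟨x, hx⟩ : (ℓ : ℤ) ∣ M 0 1 - M 0 0 * (b : ℕ) := by
      rw [← ZMod.intCast_zmod_eq_zero_iff_dvd, Int.cast_sub, Int.cast_mul, hb, ht0]
      ring
    obtain ⟨y, hy⟩ : (ℓ : ℤ) ∣ M 1 1 - M 1 0 * (b : ℕ) := by
      rw [← ZMod.intCast_zmod_eq_zero_iff_dvd, Int.cast_sub, Int.cast_mul, hb, ht1]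
      ring
    refine ⟨some b, !![M 0 0, x; M 1 0, y], ?_⟩
    rw [mul_heckeRep_some]
    ext i j
    fin_cases i <;> fin_cases j <;> simp <;> linarith

/-- The representative in such a factorisation is unique. -/
theorem heckeRep_unique {ℓ : ℕ} (hℓ : ℓ.Prime) {M M' : IMat} (hM : ¬ (ℓ : ℤ) ∣ M.det)
    {i j : Option (Fin ℓ)} (h : M * heckeRep ℓ i = M' * heckeRep ℓ j) : i = j := by
  haveI := Fact.mk hℓ
  have hd : M'.det = M.det := by
    have := congrArg Matrix.det h
    rw [Matrix.det_mul, Matrix.det_mul, det_heckeRep, det_heckeRep] at this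
    exact (mul_right_cancel₀ (Int.natCast_ne_zero.mpr hℓ.ne_zero) this).symm
  have hM' : ¬ (ℓ : ℤ) ∣ M'.det := hd ▸ hM
  rw [← ZMod.intCast_zmod_eq_zero_iff_dvd, Matrix.det_fin_two] at hM hM'
  push_cast at hM hM'
  cases i with
  | none =>
    cases j with
    | none => rfl
    | some b =>
      rw [mul_heckeRep_none, mul_heckeRep_some] at h
      have h00 := congrArg (fun X : IMat => ((X 0 0 : ℤ) : ZMod ℓ)) h
      have h10 := congrArg (fun X : IMat => ((X 1 0 : ℤ) : ZMod ℓ)) h
      simp at h00 h10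
      exact absurd (by rw [← h00, ← h10]; ring) hM'
  | some a =>
    cases j with
    | none =>
      rw [mul_heckeRep_some, mul_heckeRep_none] at h
      have h00 := congrArg (fun X : IMat => ((X 0 0 : ℤ) : ZMod ℓ)) h
      have h10 := congrArg (fun X : IMat => ((X 1 0 : ℤ) : ZMod ℓ)) h
      simp at h00 h10
      exact absurd (by rw [h00, h10]; ring) hM
    | some b =>
      rw [mul_heckeRep_some, mul_heckeRep_some] at h
      have h00 := congrArg (fun X : IMat => ((X 0 0 : ℤ) : ZMod ℓ)) h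
      have h10 := congrArg (fun X : IMat => ((X 1 0 : ℤ) : ZMod ℓ)) h
      have h01 := congrArg (fun X : IMat => ((X 0 1 : ℤ) : ZMod ℓ)) h
      have h11 := congrArg (fun X : IMat => ((X 1 1 : ℤ) : ZMod ℓ)) h
      simp at h00 h10 h01 h11
      have key : ((a : ℕ) : ZMod ℓ) = ((b : ℕ) : ZMod ℓ) := by
        by_contra hne
        apply hM
        have hsub : ((a : ℕ) : ZMod ℓ) - ((b : ℕ) : ZMod ℓ) ≠ 0 := sub_ne_zero.mpr hne
        have e0 : (M 0 0 : ZMod ℓ) = 0 := by
          refine (mul_eq_zero.mp (?_ : (M 0 0 : ZMod ℓ) * (((a : ℕ) : ZMod ℓ) - ((b : ℕ) : ZMod ℓ)) = 0)).resolve_right hsub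
          linear_combination h01 - ((b : ℕ) : ZMod ℓ) * h00
        have e1 : (M 1 0 : ZMod ℓ) = 0 := by
          refine (mul_eq_zero.mp (?_ : (M 1 0 : ZMod ℓ) * (((a : ℕ) : ZMod ℓ) - ((b : ℕ) : ZMod ℓ)) = 0)).resolve_right hsub
          linear_combination h11 - ((b : ℕ) : ZMod ℓ) * h10
        rw [e0, e1]
        ring
      have := congrArg ZMod.val key
      rw [ZMod.val_cast_of_lt a.2, ZMod.val_cast_of_lt b.2] at this
      exact congrArg some (Fin.ext this)

variable {N : ℕ}

/-- The matrix of an element of `Γ₀(N)`. -/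
abbrev gMat (γ : Gamma0 N) : IMat := ((γ : SL(2, ℤ)) : IMat)

theorem gMat_det (γ : Gamma0 N) : (gMat γ).det = 1 := (γ : SL(2, ℤ)).2

theorem gMat_injective : Function.Injective (gMat (N := N)) := fun _ _ h =>
  Subtype.ext (Subtype.ext h)

theorem gMat_mul (γ δ : Gamma0 N) : gMat (γ * δ) = gMat γ * gMat δ := rfl

theorem gMat_one : gMat (1 : Gamma0 N) = 1 := rfl

theorem dvd_gMat (γ : Gamma0 N) : (N : ℤ) ∣ gMat γ 1 0 :=
  (ZMod.intCast_zmod_eq_zero_iff_dvd _ _).mp (Gamma0_mem.mp γ.2)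

theorem exists_transfer_step {ℓ : ℕ} (hℓ : ℓ.Prime) (hℓN : ¬ ℓ ∣ N) (γ : Gamma0 N)
    (i : Option (Fin ℓ)) :
    ∃ (j : Option (Fin ℓ)) (g : Gamma0 N), heckeRep ℓ i * gMat γ = gMat g * heckeRep ℓ j := by
  obtain ⟨j, M, hM⟩ := exists_eq_mul_heckeRep hℓ (heckeRep ℓ i * gMat γ)
    ⟨1, by rw [Matrix.det_mul, det_heckeRep, gMat_det, mul_one]⟩
  have hdet : M.det = 1 := by
    have := congrArg Matrix.det hM
    rw [Matrix.det_mul, Matrix.det_mul, det_heckeRep, det_heckeRep, gMat_det, mul_one] at this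
    exact mul_right_cancel₀ (Int.natCast_ne_zero.mpr hℓ.ne_zero) (this.symm.trans (one_mul _).symm)
  have hNM : (N : ℤ) ∣ (M * heckeRep ℓ j) 1 0 := by
    rw [← hM, Matrix.mul_apply, Fin.sum_univ_two, heckeRep_one_zero, zero_mul, zero_add]
    exact (dvd_gMat γ).mul_left _
  have hN : (N : ℤ) ∣ M 1 0 := by
    cases j with
    | none =>
      rw [mul_heckeRep_none] at hNM
      refine (Int.isCoprime_iff_gcd_eq_one.mpr ?_).dvd_of_dvd_mul_right (by simpa using hNM)
      exact ((Nat.Prime.coprime_iff_not_dvd hℓ).mpr hℓN).symm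
    | some b =>
      rw [mul_heckeRep_some] at hNM
      simpa using hNM
  exact ⟨j, ⟨⟨M, hdet⟩, Gamma0_mem.mpr ((ZMod.intCast_zmod_eq_zero_iff_dvd _ _).mpr hN)⟩, hM⟩

variable (N) in
/-- Bundled hypotheses `ℓ` prime, not dividing `N`. -/
structure GoodIndex (ℓ : ℕ) : Prop where
  prime : ℓ.Prime
  not_dvd : ¬ ℓ ∣ N

theorem goodIndex (ℓ : GoodPrime N) : GoodIndex N (ℓ : ℕ) := ⟨ℓ.1.2, ℓ.2⟩

variable {ℓ : ℕ} (hg : GoodIndex N ℓ)

/-- The permuted index. -/
def trIdx (γ : Gamma0 N) (i : Option (Fin ℓ)) : Option (Fin ℓ) :=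
  (exists_transfer_step hg.prime hg.not_dvd γ i).choose

/-- The coefficient in `Γ₀(N)`. -/
def trCoef (γ : Gamma0 N) (i : Option (Fin ℓ)) : Gamma0 N :=
  (exists_transfer_step hg.prime hg.not_dvd γ i).choose_spec.choose

theorem trSpec (γ : Gamma0 N) (i : Option (Fin ℓ)) :
    heckeRep ℓ i * gMat γ = gMat (trCoef hg γ i) * heckeRep ℓ (trIdx hg γ i) :=
  (exists_transfer_step hg.prime hg.not_dvd γ i).choose_spec.choose_spec

theorem tr_unique {γ g : Gamma0 N} {i j : Option (Fin ℓ)}
    (h : heckeRep ℓ i * gMat γ = gMat g * heckeRep ℓ j) :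
    trIdx hg γ i = j ∧ trCoef hg γ i = g := by
  have h' := (trSpec hg γ i).symm.trans h
  have hne : ¬ (ℓ : ℤ) ∣ (gMat (trCoef hg γ i)).det := by
    rw [gMat_det]
    exact_mod_cast hg.prime.not_dvd_one
  obtain rfl := heckeRep_unique hg.prime hne h'
  exact ⟨rfl, gMat_injective (mul_heckeRep_cancel hg.prime.ne_zero _ h')⟩

theorem tr_mul (γ δ : Gamma0 N) (i : Option (Fin ℓ)) :
    trIdx hg (γ * δ) i = trIdx hg δ (trIdx hg γ i) ∧
      trCoef hg (γ * δ) i = trCoef hg γ i * trCoef hg δ (trIdx hg γ i) :=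
  tr_unique hg (by
    rw [gMat_mul, gMat_mul, ← mul_assoc, trSpec hg γ i, mul_assoc, trSpec hg δ, ← mul_assoc])

theorem tr_one (i : Option (Fin ℓ)) : trIdx hg 1 i = i ∧ trCoef hg 1 i = 1 :=
  tr_unique hg (by rw [gMat_one, mul_one, one_mul])

/-- The permutation of the representatives. -/
def trPerm (γ : Gamma0 N) : Equiv.Perm (Option (Fin ℓ)) where
  toFun := trIdx hg γ
  invFun := trIdx hg γ⁻¹
  left_inv i := by rw [← (tr_mul hg γ γ⁻¹ i).1, mul_inv_cancel, (tr_one hg i).1]
  right_inv i := by rw [← (tr_mul hg γ⁻¹ γ i).1, inv_mul_cancel, (tr_one hg i).1]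

@[simp] theorem trPerm_apply (γ : Gamma0 N) (i : Option (Fin ℓ)) :
    trPerm hg γ i = trIdx hg γ i := rfl

variable {A : Type} [AddCommGroup A]

/-- The transfer of a homomorphism. -/
def transferHom (χ : Additive (Gamma0 N) →+ A) : Additive (Gamma0 N) →+ A where
  toFun γ := ∑ i, χ (Additive.ofMul (trCoef hg (Additive.toMul γ) i))
  map_zero' := Finset.sum_eq_zero fun i _ => by
    rw [toMul_zero, (tr_one hg i).2]
    exact map_zero χ
  map_add' γ δ := by
    rw [toMul_add]
    simp only [fun i => (tr_mul hg (Additive.toMul γ) (Additive.toMul δ) i).2, ofMul_mul, map_add,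
      Finset.sum_add_distrib]
    exact congrArg _ (Equiv.sum_comp (trPerm hg (Additive.toMul γ))
      (fun i => χ (Additive.ofMul (trCoef hg (Additive.toMul δ) i))))

theorem transferHom_apply (χ : Additive (Gamma0 N) →+ A) (γ : Gamma0 N) :
    transferHom hg χ (Additive.ofMul γ) = ∑ i, χ (Additive.ofMul (trCoef hg γ i)) := rfl

theorem isHeckeTransfer_transferHom (χ : Additive (Gamma0 N) →+ A) :
    IsHeckeTransfer N ℓ χ (transferHom hg χ) := fun γ =>
  ⟨trPerm hg γ, trCoef hg γ, fun i => trSpec hg γ i, rfl⟩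

theorem eq_transferHom {χ χ' : Additive (Gamma0 N) →+ A} (h : IsHeckeTransfer N ℓ χ χ') :
    χ' = transferHom hg χ := by
  refine AddMonoidHom.ext fun x => ?_
  obtain ⟨γ, rfl⟩ := Additive.ofMul.surjective x
  obtain ⟨e, g, heq, hsum⟩ := h γ
  rw [hsum, transferHom_apply]
  exact Finset.sum_congr rfl fun i _ => by rw [(tr_unique hg (heq i)).2]

theorem transferHom_comp {B : Type} [AddCommGroup B] (f : A →+ B)
    (χ : Additive (Gamma0 N) →+ A) : transferHom hg (f.comp χ) = f.comp (transferHom hg χ) :=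
  AddMonoidHom.ext fun x => by
    obtain ⟨γ, rfl⟩ := Additive.ofMul.surjective x
    rw [transferHom_apply, AddMonoidHom.comp_apply, transferHom_apply, map_sum]
    rfl

theorem transferHom_add (χ χ' : Additive (Gamma0 N) →+ A) :
    transferHom hg (χ + χ') = transferHom hg χ + transferHom hg χ' :=
  AddMonoidHom.ext fun x => by
    obtain ⟨γ, rfl⟩ := Additive.ofMul.surjective x
    rw [AddMonoidHom.add_apply, transferHom_apply, transferHom_apply, transferHom_apply,
      ← Finset.sum_add_distrib]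
    rfl

/-! ### Parabolicity -/

theorem trace_pow_sq_eq_four (M : IMat) (hdet : M.det = 1) (h : M.trace ^ 2 = 4) :
    ∀ n : ℕ, (M ^ n).trace ^ 2 = 4 := by
  obtain ⟨ε, hε, hεsq⟩ : ∃ ε : ℤ, M.trace = 2 * ε ∧ ε * ε = 1 := by
    have h2 : (M.trace - 2) * (M.trace + 2) = 0 := by linear_combination h
    rcases mul_eq_zero.mp h2 with h2 | h2
    · exact ⟨1, by linarith, rfl⟩
    · exact ⟨-1, by linarith, rfl⟩
  have hCH : M * M = M.trace • M - (1 : IMat) := by
    have hd := hdet
    rw [Matrix.det_fin_two] at hd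
    ext i j
    fin_cases i <;> fin_cases j <;>
      simp [Matrix.mul_apply, Fin.sum_univ_two, Matrix.trace_fin_two, Matrix.smul_apply,
        Matrix.one_apply, -zsmul_eq_mul, smul_eq_mul] <;> linarith
  have key : ∀ n : ℕ, (M ^ n).trace = 2 * ε ^ n ∧ (M ^ (n + 1)).trace = 2 * ε ^ (n + 1) := by
    intro n
    induction n with
    | zero => simp [hε]
    | succ n ih =>
      refine ⟨ih.2, ?_⟩
      have : M ^ (n + 2) = M.trace • M ^ (n + 1) - M ^ n := by
        rw [pow_succ, pow_succ, mul_assoc, hCH, mul_sub, mul_smul_comm, mul_one]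
      rw [this, Matrix.trace_sub, Matrix.trace_smul, ih.1, ih.2, hε, smul_eq_mul]
      linear_combination 2 * ε ^ n * hεsq
  intro n
  rw [(key n).1, mul_pow, ← pow_mul, mul_comm n 2, pow_mul, sq ε, hεsq, one_pow]
  norm_num

theorem gMat_pow (γ : Gamma0 N) (n : ℕ) : gMat (γ ^ n) = gMat γ ^ n := by
  induction n with
  | zero => rfl
  | succ n ih => rw [pow_succ, pow_succ, gMat_mul, ih]

theorem trace_trCoef_of_fixed {γ : Gamma0 N} {i : Option (Fin ℓ)} (h : trIdx hg γ i = i) :
    (gMat (trCoef hg γ i)).trace = (gMat γ).trace := by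
  have h1 := trSpec hg γ i
  rw [h] at h1
  have h2 := congrArg (fun X => (X * (heckeRep ℓ i).adjugate).trace) h1
  simp only [Matrix.mul_assoc, Matrix.mul_adjugate, det_heckeRep, Matrix.mul_smul,
    Matrix.mul_one, Matrix.trace_smul] at h2
  rw [Matrix.trace_mul_comm, Matrix.mul_assoc, Matrix.adjugate_mul, det_heckeRep, Matrix.mul_smul,
    Matrix.mul_one, Matrix.trace_smul] at h2
  exact (mul_left_cancel₀ (Int.natCast_ne_zero.mpr hg.prime.ne_zero) h2).symm

theorem trPerm_pow (γ : Gamma0 N) (n : ℕ) (i : Option (Fin ℓ)) :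
    trIdx hg (γ ^ n) i = (trIdx hg γ)^[n] i := by
  induction n with
  | zero => simpa using (tr_one hg i).1
  | succ n ih => rw [pow_succ, (tr_mul hg _ _ i).1, ih, Function.iterate_succ_apply']

theorem trCoef_pow_apply (χ : Additive (Gamma0 N) →+ A) (γ : Gamma0 N) (n : ℕ)
    (i : Option (Fin ℓ)) :
    χ (Additive.ofMul (trCoef hg (γ ^ n) i)) =
      ∑ t ∈ Finset.range n, χ (Additive.ofMul (trCoef hg γ ((trIdx hg γ)^[t] i))) := by
  induction n with
  | zero =>
    rw [pow_zero, (tr_one hg i).2, Finset.sum_range_zero]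
    exact map_zero χ
  | succ n ih =>
    rw [pow_succ, (tr_mul hg _ _ i).2, ofMul_mul, map_add, ih, Finset.sum_range_succ, trPerm_pow]

theorem transferHom_mem (χ : ParHom N A) :
    transferHom hg (χ : Additive (Gamma0 N) →+ A) ∈ ParHom N A := by
  classical
  intro γ hγ
  rw [transferHom_apply]
  set e := trPerm hg γ
  set F : Option (Fin ℓ) → A := fun i =>
    (χ : Additive (Gamma0 N) →+ A) (Additive.ofMul (trCoef hg γ i))
  -- the sum over each cycle vanishes
  rw [← Finset.sum_fiberwise (Finset.univ : Finset (Option (Fin ℓ)))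
    (fun i => (Quotient.mk (Equiv.Perm.SameCycle.setoid e) i)) F]
  refine Finset.sum_eq_zero fun q _ => ?_
  induction q using Quotient.inductionOn with
  | h i =>
    set c := Function.minimalPeriod e i
    have hc : 0 < c := Function.IsPeriodicPt.minimalPeriod_pos (orderOf_pos e)
      (show e^[orderOf e] i = i by rw [← Equiv.Perm.coe_pow, pow_orderOf_eq_one]; rfl)
    have hset : (Finset.univ.filter fun j => Quotient.mk (Equiv.Perm.SameCycle.setoid e) j =
        Quotient.mk (Equiv.Perm.SameCycle.setoid e) i) = (Finset.range c).image fun t => e^[t] i := by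
      ext j
      simp only [Finset.mem_filter, Finset.mem_univ, true_and, Finset.mem_image, Finset.mem_range,
        Quotient.eq]
      constructor
      · intro hj
        obtain ⟨t, ht⟩ := (Equiv.Perm.SameCycle.symm hj).exists_nat_pow_eq
        refine ⟨t % c, Nat.mod_lt _ hc, ?_⟩
        rw [Function.iterate_mod_minimalPeriod_eq, ← Equiv.Perm.coe_pow]
        exact ht
      · rintro ⟨t, -, rfl⟩
        exact Equiv.Perm.SameCycle.symm ⟨t, by rw [zpow_natCast, Equiv.Perm.coe_pow]⟩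
    rw [hset, Finset.sum_image fun a ha b hb hab =>
      Function.iterate_injOn_Iio_minimalPeriod (Finset.mem_range.mp ha) (Finset.mem_range.mp hb) hab]
    have hfix : trIdx hg (γ ^ c) i = i := by
      rw [trPerm_pow]; exact Function.iterate_minimalPeriod (f := e) (x := i)
    have := trCoef_pow_apply hg (χ : Additive (Gamma0 N) →+ A) γ c i
    rw [χ.2 _ (by
      show (gMat (trCoef hg (γ ^ c) i)).trace ^ 2 = 4
      rw [trace_trCoef_of_fixed hg hfix, gMat_pow]
      exact trace_pow_sq_eq_four _ (gMat_det γ) hγ c)] at this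
    exact this.symm

/-- The Hecke operator on parabolic homomorphisms. -/
def heckeHom (hg : GoodIndex N ℓ) : Module.End ℤ (ParHom N A) :=
  AddMonoidHom.toIntLinearMap
    { toFun := fun χ => ⟨transferHom hg (χ : Additive (Gamma0 N) →+ A), transferHom_mem hg χ⟩
      map_zero' := Subtype.ext (AddMonoidHom.ext fun x => by
        obtain ⟨γ, rfl⟩ := Additive.ofMul.surjective x
        show ∑ i, (0 : Additive (Gamma0 N) →+ A) (Additive.ofMul (trCoef hg γ i)) = 0
        simp)
      map_add' := fun χ χ' => Subtype.ext (transferHom_add hg _ _) }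

@[simp] theorem coe_heckeHom (χ : ParHom N A) :
    ((heckeHom hg χ : ParHom N A) : Additive (Gamma0 N) →+ A) =
      transferHom hg (χ : Additive (Gamma0 N) →+ A) := rfl

theorem isHeckeTransfer_heckeHom (χ : ParHom N A) :
    IsHeckeTransfer N ℓ (χ : Additive (Gamma0 N) →+ A)
      ((heckeHom hg χ : ParHom N A) : Additive (Gamma0 N) →+ A) :=
  isHeckeTransfer_transferHom hg _

theorem eq_heckeHom {χ χ' : ParHom N A}
    (h : IsHeckeTransfer N ℓ (χ : Additive (Gamma0 N) →+ A) (χ' : Additive (Gamma0 N) →+ A)) :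
    χ' = heckeHom hg χ :=
  Subtype.ext (eq_transferHom hg h)

/-! ### Commutation -/

theorem transferHom_comm {m : ℕ} (hm : GoodIndex N m) (χ : Additive (Gamma0 N) →+ A) :
    transferHom hg (transferHom hm χ) = transferHom hm (transferHom hg χ) := by
  classical
  by_cases hlm : ℓ = m
  · subst hlm; rfl
  have hcop : ¬ (ℓ : ℤ) ∣ (m : ℤ) := fun h =>
    hlm ((Nat.prime_dvd_prime_iff_eq hg.prime hm.prime).mp (Int.natCast_dvd_natCast.mp h))
  have hcop' : ¬ (m : ℤ) ∣ (ℓ : ℤ) := fun h =>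
    hlm ((Nat.prime_dvd_prime_iff_eq hm.prime hg.prime).mp (Int.natCast_dvd_natCast.mp h)).symm
  -- the two families of products
  let P : Option (Fin ℓ) × Option (Fin m) → IMat := fun x => heckeRep m x.2 * heckeRep ℓ x.1
  let Q : Option (Fin ℓ) × Option (Fin m) → IMat := fun x => heckeRep ℓ x.1 * heckeRep m x.2
  have hPQ : ∀ x, ∃ y, ∃ h : Gamma0 N, Q x = gMat h * P y := by
    intro x
    obtain ⟨i, M, hM⟩ := exists_eq_mul_heckeRep hg.prime (Q x)
      ⟨m, by simp only [Q, Matrix.det_mul, det_heckeRep]⟩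
    have hMdet : M.det = m := by
      have := congrArg Matrix.det hM
      simp only [Q, Matrix.det_mul, det_heckeRep] at this
      exact mul_right_cancel₀ (Int.natCast_ne_zero.mpr hg.prime.ne_zero) (by rw [← this, mul_comm])
    obtain ⟨j, M', hM'⟩ := exists_eq_mul_heckeRep hm.prime M ⟨1, by rw [hMdet, mul_one]⟩
    have hdet : M'.det = 1 := by
      have := congrArg Matrix.det hM'
      rw [Matrix.det_mul, det_heckeRep, hMdet] at this
      exact mul_right_cancel₀ (Int.natCast_ne_zero.mpr hm.prime.ne_zero) (this.symm.trans (one_mul _).symm)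
    have h10 : M' 1 0 = 0 := by
      have := congrArg (fun X : IMat => X 1 0) hM
      simp only [Q, hM', Matrix.mul_apply, Fin.sum_univ_two, heckeRep_one_zero] at this
      have a1 : heckeRep m j 0 0 ≠ 0 := by
        cases j <;> simp [heckeRep, hm.prime.ne_zero]
      have a2 : heckeRep ℓ i 0 0 ≠ 0 := by
        cases i <;> simp [heckeRep, hg.prime.ne_zero]
      simpa [a1, a2] using this
    exact ⟨(i, j), ⟨⟨M', hdet⟩, Gamma0_mem.mpr (by simp [h10])⟩, by
      show Q x = M' * (heckeRep m j * heckeRep ℓ i)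
      rw [hM, hM', mul_assoc]⟩
  choose β η hβ using hPQ
  have hPinj : ∀ (g g' : Gamma0 N) x y, gMat g * P x = gMat g' * P y → x = y ∧ g = g' := by
    intro g g' x y h
    simp only [P, ← mul_assoc] at h
    have h1 : x.1 = y.1 := heckeRep_unique hg.prime (by
      rw [Matrix.det_mul, gMat_det, det_heckeRep, one_mul]; exact hcop) h
    rw [h1] at h
    have h' := mul_heckeRep_cancel hg.prime.ne_zero _ h
    have h2 : x.2 = y.2 := heckeRep_unique hm.prime (by
      rw [gMat_det]; exact_mod_cast hm.prime.not_dvd_one) h'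
    rw [h2] at h'
    exact ⟨Prod.ext h1 h2, gMat_injective (mul_heckeRep_cancel hm.prime.ne_zero _ h')⟩
  have hQinj : ∀ (g g' : Gamma0 N) x y, gMat g * Q x = gMat g' * Q y → x = y ∧ g = g' := by
    intro g g' x y h
    simp only [Q, ← mul_assoc] at h
    have h1 : x.2 = y.2 := heckeRep_unique hm.prime (by
      rw [Matrix.det_mul, gMat_det, det_heckeRep, one_mul]; exact hcop') h
    rw [h1] at h
    have h' := mul_heckeRep_cancel hm.prime.ne_zero _ h
    have h2 : x.1 = y.1 := heckeRep_unique hg.prime (by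
      rw [gMat_det]; exact_mod_cast hg.prime.not_dvd_one) h'
    rw [h2] at h'
    exact ⟨Prod.ext h2 h1, gMat_injective (mul_heckeRep_cancel hg.prime.ne_zero _ h')⟩
  have hβinj : Function.Injective β := fun x y hxy => by
    refine (hQinj (η x)⁻¹ (η y)⁻¹ x y ?_).1
    rw [hβ x, hβ y, hxy, ← mul_assoc (gMat _) (gMat _), ← mul_assoc (gMat _) (gMat _),
      ← gMat_mul, ← gMat_mul, inv_mul_cancel, inv_mul_cancel]
  let βe := Equiv.ofBijective β (Finite.injective_iff_bijective.mp hβinj)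
  refine AddMonoidHom.ext fun z => ?_
  obtain ⟨γ, rfl⟩ := Additive.ofMul.surjective z
  -- factorisations for the two products
  let πP : Option (Fin ℓ) × Option (Fin m) → Option (Fin ℓ) × Option (Fin m) := fun x =>
    (trIdx hg γ x.1, trIdx hm (trCoef hg γ x.1) x.2)
  let cP : Option (Fin ℓ) × Option (Fin m) → Gamma0 N := fun x =>
    trCoef hm (trCoef hg γ x.1) x.2
  let πQ : Option (Fin ℓ) × Option (Fin m) → Option (Fin ℓ) × Option (Fin m) := fun x =>
    (trIdx hg (trCoef hm γ x.2) x.1, trIdx hm γ x.2)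
  let cQ : Option (Fin ℓ) × Option (Fin m) → Gamma0 N := fun x =>
    trCoef hg (trCoef hm γ x.2) x.1
  have hP : ∀ x, P x * gMat γ = gMat (cP x) * P (πP x) := fun x => by
    simp only [P, cP, πP]
    rw [mul_assoc, trSpec hg γ x.1, ← mul_assoc, trSpec hm (trCoef hg γ x.1) x.2, mul_assoc]
  have hQ : ∀ x, Q x * gMat γ = gMat (cQ x) * Q (πQ x) := fun x => by
    simp only [Q, cQ, πQ]
    rw [mul_assoc, trSpec hm γ x.2, ← mul_assoc, trSpec hg (trCoef hm γ x.2) x.1, mul_assoc]
  have hrel : ∀ x, β (πQ x) = πP (β x) ∧ cQ x * η (πQ x) = η x * cP (β x) := fun x => by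
    have h1 : gMat (cQ x * η (πQ x)) * P (β (πQ x)) = gMat (η x * cP (β x)) * P (πP (β x)) := by
      rw [gMat_mul, gMat_mul, mul_assoc, mul_assoc, ← hβ, ← hQ, ← hP, hβ, mul_assoc]
    exact hPinj _ _ _ _ h1
  have hπQ : Function.Bijective πQ := by
    refine Finite.injective_iff_bijective.mp fun x y hxy => ?_
    have hx2 : x.2 = y.2 := (trPerm hm γ).injective (congrArg Prod.snd hxy)
    refine Prod.ext ((trPerm hg (trCoef hm γ y.2)).injective ?_) hx2
    have := congrArg Prod.fst hxy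
    simp only [πQ, hx2] at this
    exact this
  let c : Gamma0 N → A := fun g => χ (Additive.ofMul g)
  have hc : ∀ g g', c (g * g') = c g + c g' := fun g g' => map_add χ _ _
  have hlhs : transferHom hg (transferHom hm χ) (Additive.ofMul γ) = ∑ x, c (cP x) := by
    rw [Fintype.sum_prod_type, transferHom_apply]
    exact Finset.sum_congr rfl fun i _ => transferHom_apply hm χ _
  have hrhs : transferHom hm (transferHom hg χ) (Additive.ofMul γ) = ∑ x, c (cQ x) := by
    rw [Fintype.sum_prod_type_right, transferHom_apply]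
    exact Finset.sum_congr rfl fun i _ => transferHom_apply hg χ _
  rw [hlhs, hrhs]
  have hsum : ∑ x, (c (cQ x) + c (η (πQ x))) = ∑ x, (c (η x) + c (cP (β x))) :=
    Finset.sum_congr rfl fun x _ => by rw [← hc, ← hc, (hrel x).2]
  rw [Finset.sum_add_distrib, Finset.sum_add_distrib, hπQ.sum_comp (fun x => c (η x)), add_comm,
    add_right_inj] at hsum
  rw [hsum]
  exact (βe.sum_comp (fun x => c (cP x))).symm

theorem heckeHom_commute {m : ℕ} (hm : GoodIndex N m) :
    Commute (heckeHom (A := A) hg) (heckeHom hm) :=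
  LinearMap.ext fun χ => Subtype.ext (transferHom_comm hg hm (χ : Additive (Gamma0 N) →+ A))

/-- The Hecke operator at a good prime. -/
abbrev heckeHomAt (p : GoodPrime N) : Module.End ℤ (ParHom N A) := heckeHom (goodIndex p)

end Fermat.Agent.GalRep
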