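import Fermat.Agent.GalRep.KummerGalois
import Fermat.Agent.GalRep.HeckeHom
import Mathlib.RingTheory.RootsOfUnity.Complex

/-!
# Hecke transfer of Kummer representatives

`T F = ∏ F (heckeRep i • τ)` represents the transfer. Its series of width `ℓ` is
`f(Q ^ ℓ²) ∏_{ω^ℓ=1} f(ω Q)`, so conjugation commutes with the transfer.
-/

set_option autoImplicit false

noncomputable section

namespace Fermat.Agent.GalRep

open UpperHalfPlane CongruenceSubgroup Filter Topology
open scoped MatrixGroups Manifold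

/-! ## Functions composed with matrices -/

theorem hasSeriesAtCusps_comp_posMat {F : ℍ → ℂ} (hF : HasSeriesAtCusps F)
    (M : Matrix (Fin 2) (Fin 2) ℤ) (h : 0 < M.det) :
    HasSeriesAtCusps (fun τ => F (posMat M h • τ)) := by
  intro δ
  obtain ⟨g, a, d, b, ha, hd, -, heq⟩ := exists_hermite (M * (δ : Matrix (Fin 2) (Fin 2) ℤ))
    (by rw [Matrix.det_mul, δ.det_coe, mul_one]; exact h)
  obtain ⟨w, f, hw, hf⟩ := hF g
  exact ⟨_, _, Nat.mul_pos hw hd, (hf.comp_upper hw b ha hd).congr (.of_forall fun τ => by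
    show F _ = F _
    rw [posMat_smul_eq h (det_upper_pos b ha hd) δ g heq τ])⟩

theorem hasSeriesAtCusps_prod {ι : Type*} (s : Finset ι) {F : ι → ℍ → ℂ}
    (h : ∀ i ∈ s, HasSeriesAtCusps (F i)) : HasSeriesAtCusps (∏ i ∈ s, F i) := by
  classical
  induction s using Finset.induction with
  | empty => exact hasSeriesAtCusps_const 1
  | insert a s ha ih =>
    rw [Finset.prod_insert ha]
    exact (h a (Finset.mem_insert_self a s)).mul (ih fun i hi => h i (Finset.mem_insert_of_mem hi))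

theorem prod_holo {ι : Type*} (s : Finset ι) {F : ι → ℍ → ℂ}
    (h : ∀ i ∈ s, MDifferentiable 𝓘(ℂ) 𝓘(ℂ) (F i) ∧ F i ≠ 0) :
    MDifferentiable 𝓘(ℂ) 𝓘(ℂ) (∏ i ∈ s, F i) ∧ (∏ i ∈ s, F i) ≠ 0 := by
  classical
  induction s using Finset.induction with
  | empty => exact ⟨mdifferentiable_const, fun h0 => one_ne_zero (congrFun h0 UpperHalfPlane.I)⟩
  | insert a s ha ih =>
    rw [Finset.prod_insert ha]
    obtain ⟨h1, h2⟩ := h a (Finset.mem_insert_self a s)
    obtain ⟨h3, h4⟩ := ih fun i hi => h i (Finset.mem_insert_of_mem hi)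
    exact ⟨h1.mul h3, fun h0 => (Hecke.eq_zero_or_eq_zero_of_holo_mul h1 h3 h0).elim h2 h4⟩

theorem addChar_sum {A M ι : Type*} [AddCommMonoid A] [CommMonoid M] (ψ : AddChar A M)
    (s : Finset ι) (x : ι → A) : ψ (∑ i ∈ s, x i) = ∏ i ∈ s, ψ (x i) := by
  classical
  induction s using Finset.induction with
  | empty => simp
  | insert a s ha ih =>
    rw [Finset.sum_insert ha, Finset.prod_insert ha, AddChar.map_add_eq_mul, ih]

variable {N : ℕ} {ℓ : ℕ}

theorem det_heckeRep_pos (hg : GoodIndex N ℓ) (i : Option (Fin ℓ)) : 0 < (heckeRep ℓ i).det := by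
  rw [det_heckeRep]
  exact_mod_cast hg.prime.pos

/-- The multiplicative transfer of a function. -/
def heckeProd (hg : GoodIndex N ℓ) (F : ℍ → ℂ) : ℍ → ℂ :=
  ∏ i : Option (Fin ℓ), fun τ => F (posMat (heckeRep ℓ i) (det_heckeRep_pos hg i) • τ)

theorem heckeProd_mul (hg : GoodIndex N ℓ) (F G : ℍ → ℂ) :
    heckeProd hg (F * G) = heckeProd hg F * heckeProd hg G := by
  funext τ
  simp only [heckeProd, Finset.prod_apply, Pi.mul_apply, Finset.prod_mul_distrib]

variable [NeZero N]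

theorem heckeProd_rep {n : ℕ} [NeZero n] (hg : GoodIndex N ℓ) {χ χ' : ParHom N (ZMod n)}
    {F : ℍ → ℂ} (hF : IsKummerRep N n χ F)
    (h : IsHeckeTransfer N ℓ (χ : Additive (Gamma0 N) →+ ZMod n)
      (χ' : Additive (Gamma0 N) →+ ZMod n)) :
    IsKummerRep N n χ' (heckeProd hg F) := by
  obtain ⟨hd, hne⟩ := prod_holo (Finset.univ : Finset (Option (Fin ℓ)))
    (F := fun i τ => F (posMat (heckeRep ℓ i) (det_heckeRep_pos hg i) • τ)) fun i _ =>
      ⟨mdifferentiable_comp_posMat hF.holo _ _, fun h0 => hF.ne_zero (funext fun τ => by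
        have h1 := congrFun h0 ((posMat (heckeRep ℓ i) (det_heckeRep_pos hg i))⁻¹ • τ)
        simp only [smul_inv_smul, Pi.zero_apply] at h1
        exact h1)⟩
  refine ⟨hd, hne, fun γ τ => ?_, hasSeriesAtCusps_prod _ fun i _ =>
    hasSeriesAtCusps_comp_posMat hF.cusps _ _⟩
  obtain ⟨e, g, heq, hsum⟩ := h γ
  rw [hsum, addChar_sum]
  simp only [heckeProd, Finset.prod_apply]
  have hstep : ∀ i, F (posMat (heckeRep ℓ i) (det_heckeRep_pos hg i) • ((γ : SL(2, ℤ)) • τ)) =
      ZMod.stdAddChar ((χ : Additive (Gamma0 N) →+ ZMod n) (Additive.ofMul (g i))) *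
        F (posMat (heckeRep ℓ (e i)) (det_heckeRep_pos hg (e i)) • τ) := fun i => by
    rw [posMat_smul_eq (det_heckeRep_pos hg i) (det_heckeRep_pos hg (e i)) _ _ (heq i) τ,
      hF.equivariant]
  simp only [hstep, Finset.prod_mul_distrib]
  congr 1
  exact Equiv.prod_comp e fun i => F (posMat (heckeRep ℓ i) (det_heckeRep_pos hg i) • τ)

local instance instFintypeRootsLocal (k : ℕ) [NeZero k] : Fintype (rootsOfUnity k ℂ) :=
  Fintype.ofFinite _

/-- The series of width `ℓ` of the transfer. -/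
def heckeSeries (ℓ : ℕ) [NeZero ℓ] (f : LaurentSeries ℂ) : LaurentSeries ℂ :=
  expand ℓ (NeZero.ne ℓ) (expand ℓ (NeZero.ne ℓ) f) *
    ∏ ω : rootsOfUnity ℓ ℂ, twist (ω : ℂˣ) f

theorem hasQSeries_heckeProd [NeZero ℓ] (hg : GoodIndex N ℓ) {F : ℍ → ℂ} {f : LaurentSeries ℂ}
    (hf : HasQSeries 1 F f) : HasQSeries ℓ (heckeProd hg F) (heckeSeries ℓ f) := by
  have hℓ : 0 < ℓ := hg.prime.pos
  set z : ℂˣ := Units.mk0 (Complex.exp (2 * Real.pi * Complex.I / ℓ)) (Complex.exp_ne_zero _)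
    with hz
  have hzp : IsPrimitiveRoot z ℓ :=
    IsPrimitiveRoot.coe_units_iff.mp (Complex.isPrimitiveRoot_exp ℓ hℓ.ne')
  let ψ : Fin ℓ → rootsOfUnity ℓ ℂ := fun b =>
    ⟨z ^ (b : ℕ), by rw [mem_rootsOfUnity, ← pow_mul, mul_comm, pow_mul, hzp.pow_eq_one, one_pow]⟩
  have hψ : Function.Bijective ψ := by
    rw [Fintype.bijective_iff_injective_and_card, Fintype.card_fin, ← Nat.card_eq_fintype_card,
      Complex.card_rootsOfUnity]
    exact ⟨fun a b h => Fin.ext (hzp.pow_inj a.2 b.2 (congrArg Subtype.val h)), rfl⟩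
  rw [heckeProd, heckeSeries, Fintype.prod_option,
    ← Equiv.prod_comp (Equiv.ofBijective ψ hψ) (fun ω => twist (ω : ℂˣ) f)]
  refine HasQSeries.mul ?_ (HasQSeries.prod _ fun b _ => ?_)
  · have h1 := hf.comp_affine one_pos ℓ 1 hℓ.ne' one_pos 0
      (fun τ => posMat (heckeRep ℓ none) (det_heckeRep_pos hg none) • τ)
      (fun τ => by rw [coe_posMat_smul]; simp [heckeRep]) 1 (by simp)
    rw [twist_one, mul_one] at h1
    have h2 := h1.refine_width one_pos ℓ hℓ.ne'
    rwa [one_mul] at h2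
  · have h1 := hf.comp_affine one_pos 1 ℓ one_ne_zero hℓ (b : ℕ)
      (fun τ => posMat (heckeRep ℓ (some b)) (det_heckeRep_pos hg (some b)) • τ)
      (fun τ => by rw [coe_posMat_smul]; simp [heckeRep]) (z ^ (b : ℕ)) (by
        rw [hz, Units.val_pow_eq_pow_val, Units.val_mk0, ← Complex.exp_nat_mul]
        congr 1
        push_cast
        ring)
    rw [expand_one, one_mul] at h1
    exact h1

theorem lmap_heckeSeries [NeZero ℓ] (σ : ℂ ≃+* ℂ) (f : LaurentSeries ℂ) :
    lmap σ.toRingHom (heckeSeries ℓ f) = heckeSeries ℓ (lmap σ.toRingHom f) := by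
  rw [heckeSeries, heckeSeries, map_mul, lmap_expand, lmap_expand, map_prod]
  congr 1
  let e : rootsOfUnity ℓ ℂ → rootsOfUnity ℓ ℂ :=
    fun ω => ⟨Units.map ((σ.toRingHom : ℂ →+* ℂ) : ℂ →* ℂ) (ω : ℂˣ), by
      rw [mem_rootsOfUnity, ← map_pow, (mem_rootsOfUnity _ _).mp ω.2, map_one]⟩
  have he : Function.Bijective e := Finite.injective_iff_bijective.mp fun a b h =>
    Subtype.ext (Units.map_injective (f := ((σ.toRingHom : ℂ →+* ℂ) : ℂ →* ℂ)) σ.injective
      (congrArg Subtype.val h))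
  exact Fintype.prod_equiv (Equiv.ofBijective e he) _ _ fun ω => lmap_twist σ.toRingHom _ f

variable {n : ℕ} [NeZero n]

theorem autChar_transfer (hg : GoodIndex N ℓ) (σ : ℂ ≃+* ℂ) (χ : ParHom N (ZMod n)) :
    autChar σ (heckeHom hg χ) = heckeHom hg (autChar σ χ) := by
  haveI : NeZero ℓ := ⟨hg.prime.ne_zero⟩
  obtain ⟨F, hF, -⟩ := exists_cuspBound_rep χ
  obtain ⟨f, hf, -⟩ := hF.exists_series_one
  obtain ⟨F', hF', hf', -⟩ := autChar_spec σ hF hf
  have hT := heckeProd_rep hg hF (isHeckeTransfer_heckeHom hg χ)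
  have hT' := heckeProd_rep hg hF' (isHeckeTransfer_heckeHom hg (autChar σ χ))
  obtain ⟨g, hgser, -⟩ := hT.exists_series_one
  obtain ⟨g', hgser', -⟩ := hT'.exists_series_one
  have hexp : ∀ {H : ℍ → ℂ} {u : LaurentSeries ℂ}, HasQSeries 1 H u →
      HasQSeries ℓ H (expand ℓ (NeZero.ne ℓ) u) := fun hu => by
    have := hu.refine_width one_pos ℓ (NeZero.ne ℓ)
    rwa [one_mul] at this
  have h1 := (hexp hgser).unique (NeZero.pos ℓ) (hasQSeries_heckeProd hg hf)
  have h2 := (hexp hgser').unique (NeZero.pos ℓ) (hasQSeries_heckeProd hg hf')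
  have : g' = lmap σ.toRingHom g := by
    refine expand_injective ℓ (NeZero.ne ℓ) ?_
    rw [h2, ← lmap_heckeSeries, ← h1, lmap_expand]
  exact (eq_autChar σ hT hgser hT' (this ▸ hgser')).symm

/-- The Galois action commutes with the Hecke transfer. -/
theorem kummerHeckeComm (N n : ℕ) [NeZero N] [NeZero n] : KummerHeckeComm N n := by
  intro K p s χ χ' h
  have hp := goodIndex p
  rw [K.galois_eq, K.galois_eq, eq_heckeHom hp h, autChar_transfer]
  exact isHeckeTransfer_heckeHom hp _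

end Fermat.Agent.GalRep
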