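/-
The representation of a Hecke algebra is unramified outside the level and `p`.
-/
import Mathlib
import Fermat.Agent.Deform.TraceEquiv
import Fermat.Agent.GalRep.Assembly

set_option autoImplicit false

noncomputable section

namespace Fermat.Agent.GalRep

open Fermat.Agent.Galois (GQ)
open Fermat.Agent.Deform
open IsLocalRing Polynomial

theorem trace_pow_eq_frobPoly {R : Type} [CommRing R] (M : Mat2 R) :
    ∀ n : ℕ, (M ^ n).trace = frobPoly M.trace M.det n
  | 0 => by simp [frobPoly]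
  | 1 => by simp [frobPoly]
  | n + 2 => by
    have hch : M * M = M.trace • M - M.det • 1 := by
      ext i j
      fin_cases i <;> fin_cases j <;>
        simp [Matrix.mul_apply, Fin.sum_univ_two, Matrix.trace_fin_two, Matrix.det_fin_two] <;>
        ring
    rw [frobPoly, ← trace_pow_eq_frobPoly M (n + 1), ← trace_pow_eq_frobPoly M n, pow_add, pow_two,
      hch, mul_sub, mul_smul_comm, mul_smul_comm, mul_one, ← pow_succ, Matrix.trace_sub,
      Matrix.trace_smul, Matrix.trace_smul, smul_eq_mul, smul_eq_mul]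

variable {N p : ℕ} [NeZero N] [Fact p.Prime]

/-- A representation with the Frobenius polynomials of an eigen-system has as trace its value at
the universal trace. -/
theorem trace_eq_uTrace (D : EichlerShimuraDatum N p) (S : Finset ℕ) (hdens : FrobeniusPowDensity)
    {R : Type} [CommRing R] [IsLocalRing R] [IsHausdorff (maximalIdeal R) R] [Algebra ℤ_[p] R]
    (χ : CuspForm.heckeAlgebra N 2 (↑S : Set ℕ) →+* R)
    (ψ : heckeClosure D (↑S : Set ℕ) →ₐ[ℤ_[p]] R)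
    (hψ : ∀ i, ψ (heckeGen D _ i) = χ (CuspForm.heckeAlgebra.T i.1.1.2 i.1.2 i.2))
    (hψc : ∀ k, ∃ m : ℕ, ∀ c : heckeClosure D (↑S : Set ℕ),
      (∃ f, (c : Module.End ℤ_[p] D.L) = (p ^ m : ℤ_[p]) • f) → ψ c ∈ maximalIdeal R ^ k)
    (ρ : GaloisRepAdic R)
    (hchar : ∀ (ℓ : ℕ) (hℓ : ℓ.Prime) (hℓN : ¬ ℓ ∣ N) (hℓS : ℓ ∉ (↑S : Set ℕ)),
      ∀ A : ValuationSubring (AlgebraicClosure ℚ), A.LiesOverPrime ℓ →
        ∀ σ : GQ, A.IsFrobeniusAt σ ℓ → LinearMap.charpoly (ρ.ρ σ) =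
          X ^ 2 - C (χ (CuspForm.heckeAlgebra.T hℓ hℓN hℓS)) * X + C ((ℓ : R)))
    {r : GQ →* Mat2 R} (hr : HasMatrix ρ r) (g : GQ) :
    (r g).trace = ψ ⟨uTrace D g, uTrace_mem D hdens S g⟩ := by
  refine IsHausdorff.eq_iff_smodEq (I := maximalIdeal R) |>.mpr fun k => ?_
  rw [SModEq.sub_mem, smul_eq_mul, Ideal.mul_top]
  obtain ⟨m, hm⟩ := hψc k
  obtain ⟨F, hF, hF'⟩ := exists_level_eigen D S ψ hm hdens
  obtain ⟨L, hL, hrL⟩ := hr.matCts k
  obtain ⟨ℓ, hℓ, hbad, A, hA, σ, hσ, b, hb⟩ := hdens (F ⊔ L) (S ∪ {p} ∪ N.primeFactors) g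
  simp only [Finset.mem_union, Finset.mem_singleton, not_or] at hbad
  have hℓN : ¬ ℓ ∣ N := fun h => hbad.2 (Nat.mem_primeFactors.mpr ⟨hℓ, h, NeZero.ne N⟩)
  have hℓS : ℓ ∉ (↑S : Set ℕ) := fun h => hbad.1.1 (by simpa using h)
  let i : GoodPrimeOff N (↑S : Set ℕ) := ⟨⟨⟨ℓ, hℓ⟩, hℓN⟩, hℓS⟩
  have h1 := hF' g σ i A b hbad.1.2 hA hσ fun x hx => hb x ((le_sup_left : F ≤ F ⊔ L) hx)
  rw [hψ i] at h1
  have hfix : ∀ x ∈ L, ((σ ^ b)⁻¹ * g) x = x := fun x hx => by
    rw [AlgEquiv.mul_apply, ← hb x ((le_sup_right : L ≤ F ⊔ L) hx)]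
    exact (σ ^ b).symm_apply_apply x
  have hm' := hrL _ hfix
  have h2 : (r g).trace - (r σ ^ b).trace ∈ maximalIdeal R ^ k := by
    have e : r g - r σ ^ b = r σ ^ b * (r ((σ ^ b)⁻¹ * g) - 1) := by
      rw [mul_sub, mul_one, ← map_pow, ← map_mul, mul_inv_cancel_left]
    rw [← Matrix.trace_sub, e, Matrix.trace_fin_two, Matrix.mul_apply, Matrix.mul_apply]
    exact add_mem (Ideal.sum_mem _ fun x _ => Ideal.mul_mem_left _ _ (hm' _ _))
      (Ideal.sum_mem _ fun x _ => Ideal.mul_mem_left _ _ (hm' _ _))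
  have h3 : (r σ ^ b).trace =
      frobPoly (χ (CuspForm.heckeAlgebra.T hℓ hℓN hℓS)) (ℓ : R) b := by
    obtain ⟨bas, hbas⟩ := hr
    have hc := hchar ℓ hℓ hℓN hℓS A hA σ hσ
    rw [← LinearMap.charpoly_toMatrix _ bas, hbas, Matrix.charpoly_fin_two] at hc
    have ht := congrArg (fun P => Polynomial.coeff P 1) hc
    have hd := congrArg (fun P => Polynomial.coeff P 0) hc
    simp [coeff_X_pow, coeff_C] at ht hd
    rw [trace_pow_eq_frobPoly, ht, hd]
  rw [h3] at h2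
  have := sub_mem h2 h1
  rwa [sub_sub_sub_cancel_right] at this

/-- A representation with the Frobenius polynomials of an eigen-system, residually absolutely
irreducible, is unramified outside `Np`. -/
theorem isUnramifiedAt_of_charpoly (D : EichlerShimuraDatum N p) (S : Finset ℕ)
    (hdens : FrobeniusPowDensity)
    {R : Type} [CommRing R] [IsLocalRing R] [IsHausdorff (maximalIdeal R) R] [Algebra ℤ_[p] R]
    (hp : (p : R) ∈ maximalIdeal R) (χ : CuspForm.heckeAlgebra N 2 (↑S : Set ℕ) →+* R)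
    (ρ : GaloisRepAdic R) (habs : ρ.residual.IsAbsolutelyIrreducible)
    (hchar : ∀ (ℓ : ℕ) (hℓ : ℓ.Prime) (hℓN : ¬ ℓ ∣ N) (hℓS : ℓ ∉ (↑S : Set ℕ)),
      ∀ A : ValuationSubring (AlgebraicClosure ℚ), A.LiesOverPrime ℓ →
        ∀ σ : GQ, A.IsFrobeniusAt σ ℓ → LinearMap.charpoly (ρ.ρ σ) =
          X ^ 2 - C (χ (CuspForm.heckeAlgebra.T hℓ hℓN hℓS)) * X + C ((ℓ : R)))
    {q : ℕ} (hq : q.Prime) (hqN : ¬ q ∣ N) (hqp : q ≠ p) : ρ.IsUnramifiedAt q := by
  intro A hA τ hτ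
  obtain ⟨ψ, hψ, hψc⟩ := exists_extension (D := D) hp
    (fun x hx => IsHausdorff.haus (inferInstance : IsHausdorff (maximalIdeal R) R) x fun k => by
      rw [SModEq.zero, smul_eq_mul, Ideal.mul_top]; exact hx k) χ
  obtain ⟨r, hr⟩ := exists_hasMatrix ρ
  have htr := trace_eq_uTrace D S hdens χ ψ hψ hψc ρ hchar hr
  have hg1 : D.galois τ = 1 := D.unramified q hq hqN hqp A hA τ hτ
  have hc1 : cyc p τ = 1 := cyc_inertia p hq hqp hA hτ
  have hg1' : D.galois τ⁻¹ = 1 := by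
    have h := map_mul D.galois τ τ⁻¹
    rwa [mul_inv_cancel, map_one, hg1, one_mul, eq_comm] at h
  have hu : ∀ g, uTrace D (τ * g) = uTrace D g := fun g => by
    rw [uTrace, uTrace, map_mul, mul_inv_rev, map_mul, map_mul, hg1, hg1', hc1, one_mul, mul_one,
      one_mul]
  have hzero : ∀ g, ((r τ - 1) * r g).trace = 0 := fun g => by
    rw [sub_mul, one_mul, Matrix.trace_sub, ← map_mul, htr, htr, sub_eq_zero]
    congr 1
    exact Subtype.ext (hu g)
  obtain ⟨σ, hσc, hσg⟩ := exists_frame ((HasMatrix.residual hr).traceNondeg habs)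
  have hπ : ∀ a : R, residue R a ≠ 0 → IsUnit a := fun a ha =>
    notMem_maximalIdeal.mp fun h => ha ((residue_eq_zero_iff a).mpr h)
  have hg := isUnit_gram (π := residue R) (r := r) hπ (fun g => rfl) hσg
  have hc := isUnit_coord (π := residue R) (r := r) hπ (fun g => rfl) hσc
  have h0 : frameCoeff r σ (r τ - 1) = 0 := by
    rw [frameCoeff, show (fun s => (r (σ s) * (r τ - 1)).trace) = 0 from
      funext fun s => by rw [Matrix.trace_mul_comm]; exact hzero _, Matrix.mulVec_zero]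
  have h1 : r τ = 1 := by
    rw [← sub_eq_zero, ← sum_frameCoeff hg hc (r τ - 1), h0]
    simp
  obtain ⟨bas, hbas⟩ := hr
  refine (LinearMap.toMatrix bas bas).injective ?_
  rw [hbas, h1, LinearMap.toMatrix_one]

end Fermat.Agent.GalRep
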