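/-
The Galois representations, from the reduction lemma for Kummer classes.
-/
import Fermat.Agent.GalRep.Glue
import Fermat.Agent.GalRep.KummerGalois
import Fermat.Agent.GalRep.KummerHecke
import Fermat.Agent.GalRep.KummerCongr
import Fermat.Agent.GalRep.Adic
import Fermat.Agent.GalRep.FreyAttach
import Fermat.Agent.GalRep.Unramified

set_option autoImplicit false

noncomputable section

namespace Fermat.Agent.GalRep

/-- Data at every level and prime, from the reduction lemma. -/
theorem nonempty_datum (hred : ∀ (M : ℕ) [NeZero M], KummerReduction M) (M q : ℕ) [NeZero M]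
    [Fact q.Prime] : Nonempty (EichlerShimuraDatum M q) :=
  haveI : ∀ k, NeZero (q ^ k) := fun k => ⟨pow_ne_zero k (Fact.out (p := q.Prime)).ne_zero⟩
  ⟨eichlerShimuraDatum (K := fun k => kummerGalois M (q ^ k)) (kummerCompat M)
    (fun k => kummerHeckeComm M (q ^ k)) (kummerFrobenius M (hred M))⟩

end Fermat.Agent.GalRep
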