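import Fermat.Agent.GalRep.QSeries
import Fermat.Agent.Period.JInjective
import Fermat.Agent.Period.Coset
import Fermat.Agent.Period.Primitive

/-!
# The rings of holomorphic modular functions

`modFuns Γ`, translation by `SL(2,ℤ)`, width `N` series, the level one ring `ℂ[j]`, and `j(Nτ)`
with pairwise distinct translates.
-/

set_option autoImplicit false

noncomputable section

namespace Fermat.Agent.GalRep

open UpperHalfPlane Filter Topology CongruenceSubgroup ModularGroup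
open Fermat.Agent.Period (jFun Coset)
open scoped MatrixGroups Manifold ModularForm

/-! ## Orders under the two series operations -/

theorem order_twist (ζ : ℂˣ) (f : LaurentSeries ℂ) : (twist ζ f).order = f.order := by
  rcases eq_or_ne f 0 with rfl | hf
  · simp
  have hne : (twist ζ f).coeff f.order ≠ 0 := by
    simp [HahnSeries.coeff_order_eq_zero, hf, zpow_ne_zero]
  refine le_antisymm (HahnSeries.order_le_of_coeff_ne_zero hne) ?_
  refine HahnSeries.order_le_of_coeff_ne_zero fun h => ?_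
  have h0 : twist ζ f ≠ 0 := fun h0 => hne (by simp [h0])
  refine h0 (HahnSeries.coeff_order_eq_zero.mp ?_)
  simp [h]

theorem expand_ne_zero {a : ℕ} (ha : a ≠ 0) {f : LaurentSeries ℂ} (hf : f ≠ 0) :
    expand a ha f ≠ 0 := (map_ne_zero (expand a ha)).mpr hf

theorem order_expand {a : ℕ} (ha : a ≠ 0) (f : LaurentSeries ℂ) :
    (expand a ha f).order = a * f.order := by
  rcases eq_or_ne f 0 with rfl | hf
  · simp
  refine le_antisymm (HahnSeries.order_le_of_coeff_ne_zero ?_) ?_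
  · rw [expand_coeff_mul]; simp [HahnSeries.coeff_order_eq_zero, hf]
  · have hne : (expand a ha f).coeff (expand a ha f).order ≠ 0 := by
      simp [HahnSeries.coeff_order_eq_zero, expand_ne_zero ha hf]
    by_cases hd : (a : ℤ) ∣ (expand a ha f).order
    · obtain ⟨k, hk⟩ := hd
      rw [hk, expand_coeff_mul] at hne
      rw [hk]
      exact mul_le_mul_of_nonneg_left (HahnSeries.order_le_of_coeff_ne_zero hne) (by positivity)
    · exact absurd (expand_coeff_of_not_dvd a ha f _ hd) hne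

/-! ## The rings -/

theorem hasSeriesAtCusps_const (c : ℂ) : HasSeriesAtCusps (fun _ => c) :=
  fun _ => ⟨1, _, one_pos, HasQSeries.const 1 c⟩

theorem HasSeriesAtCusps.add {F G : ℍ → ℂ} (hF : HasSeriesAtCusps F) (hG : HasSeriesAtCusps G) :
    HasSeriesAtCusps (F + G) := fun δ => by
  obtain ⟨w, f, hw, hf⟩ := hF δ
  obtain ⟨v, g, hv, hg⟩ := hG δ
  exact ⟨w * v, _, Nat.mul_pos hw hv,
    (hf.refine_width hw v hv.ne').add (mul_comm v w ▸ hg.refine_width hv w hw.ne')⟩

theorem HasSeriesAtCusps.mul {F G : ℍ → ℂ} (hF : HasSeriesAtCusps F) (hG : HasSeriesAtCusps G) :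
    HasSeriesAtCusps (F * G) := fun δ => by
  obtain ⟨w, f, hw, hf⟩ := hF δ
  obtain ⟨v, g, hv, hg⟩ := hG δ
  exact ⟨w * v, _, Nat.mul_pos hw hv,
    (hf.refine_width hw v hv.ne').mul (mul_comm v w ▸ hg.refine_width hv w hw.ne')⟩

theorem HasSeriesAtCusps.pow {F : ℍ → ℂ} (hF : HasSeriesAtCusps F) (n : ℕ) :
    HasSeriesAtCusps (F ^ n) := fun δ => by
  obtain ⟨w, f, hw, hf⟩ := hF δ
  exact ⟨w, _, hw, hf.pow n⟩

/-- The algebra of holomorphic modular functions for `Γ`. -/
def modFuns (Γ : Subgroup SL(2, ℤ)) : Subalgebra ℂ (ℍ → ℂ) where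
  carrier := {F | IsModFun Γ F}
  mul_mem' {a b} ha hb :=
    ⟨ha.holo.mul hb.holo, fun γ hγ τ => by
      show a (γ • τ) * b (γ • τ) = a τ * b τ
      rw [ha.invariant γ hγ, hb.invariant γ hγ],
      ha.cusps.mul hb.cusps⟩
  one_mem' := ⟨mdifferentiable_const, fun _ _ _ => rfl, hasSeriesAtCusps_const 1⟩
  add_mem' {a b} ha hb :=
    ⟨ha.holo.add hb.holo, fun γ hγ τ => by
      show a (γ • τ) + b (γ • τ) = a τ + b τ
      rw [ha.invariant γ hγ, hb.invariant γ hγ],
      ha.cusps.add hb.cusps⟩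
  zero_mem' := ⟨mdifferentiable_const, fun _ _ _ => rfl, hasSeriesAtCusps_const 0⟩
  algebraMap_mem' c := ⟨mdifferentiable_const, fun _ _ _ => rfl, hasSeriesAtCusps_const c⟩

theorem mem_modFuns {Γ : Subgroup SL(2, ℤ)} {F : ℍ → ℂ} : F ∈ modFuns Γ ↔ IsModFun Γ F := Iff.rfl

theorem modFuns_anti {Γ Γ' : Subgroup SL(2, ℤ)} (h : Γ' ≤ Γ) : modFuns Γ ≤ modFuns Γ' :=
  fun _ hF => ⟨hF.holo, fun γ hγ => hF.invariant γ (h hγ), hF.cusps⟩

/-- Identity theorem: a holomorphic function vanishing near infinity vanishes. -/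
theorem eq_zero_of_eventually_zero {F : ℍ → ℂ} (hF : MDifferentiable 𝓘(ℂ) 𝓘(ℂ) F)
    (h : ∀ᶠ τ in atImInfty, F τ = 0) : F = 0 := by
  obtain ⟨A, hA⟩ := (atImInfty_mem _).mp h
  have han : AnalyticOnNhd ℂ (F ∘ ofComplex) upperHalfPlaneSet :=
    (UpperHalfPlane.mdifferentiable_iff.mp hF).analyticOnNhd isOpen_upperHalfPlaneSet
  set z₀ : ℂ := ((|A| + 1 : ℝ) : ℂ) * Complex.I with hz₀
  have hz₀im : z₀.im = |A| + 1 := by simp [hz₀]
  have hz₀' : z₀ ∈ upperHalfPlaneSet := by show 0 < z₀.im; rw [hz₀im]; positivity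
  have hev : ∀ᶠ z in 𝓝 z₀, (F ∘ ofComplex) z = 0 := by
    have ho : IsOpen {z : ℂ | A < z.im ∧ 0 < z.im} :=
      (isOpen_lt continuous_const Complex.continuous_im).inter
        (isOpen_lt continuous_const Complex.continuous_im)
    have hmem : A < z₀.im ∧ 0 < z₀.im :=
      ⟨by rw [hz₀im]; linarith [le_abs_self A], hz₀'⟩
    filter_upwards [ho.mem_nhds hmem] with z hz
    rw [Function.comp_apply, ofComplex_apply_of_im_pos hz.2]
    exact hA ⟨z, hz.2⟩ hz.1.le
  have h0 := han.eqOn_zero_of_preconnected_of_eventuallyEq_zero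
    (convex_halfSpace_im_gt 0).isPreconnected hz₀' hev
  funext τ
  simpa [Function.comp, ofComplex_apply] using h0 τ.im_pos

/-- Functions with the same series are equal. -/
theorem eq_of_hasQSeries {F G : ℍ → ℂ} {w : ℕ} {f : LaurentSeries ℂ}
    (hF : MDifferentiable 𝓘(ℂ) 𝓘(ℂ) F) (hG : MDifferentiable 𝓘(ℂ) 𝓘(ℂ) G)
    (hf : HasQSeries w F f) (hg : HasQSeries w G f) : F = G := by
  refine sub_eq_zero.mp (eq_zero_of_eventually_zero (hF.sub hG) ?_)
  have := hf.sub hg
  rw [sub_self] at this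
  exact this.mono fun τ hτ => hτ.unique (by simp [hasSum_zero])

theorem mdifferentiable_comp_smul {F : ℍ → ℂ} (hF : MDifferentiable 𝓘(ℂ) 𝓘(ℂ) F) (g : SL(2, ℤ)) :
    MDifferentiable 𝓘(ℂ) 𝓘(ℂ) (fun τ => F (g • τ)) :=
  hF.comp (mdifferentiable_smul (g := (g : GL (Fin 2) ℝ)) (by simp))

/-- Precomposition with an element of `SL(2,ℤ)` on functions of level `Γ(N)`. -/
def shift (N : ℕ) (g : SL(2, ℤ)) : modFuns (Gamma N) →ₐ[ℂ] modFuns (Gamma N) where
  toFun F := ⟨fun τ => (F : ℍ → ℂ) (g • τ), ⟨mdifferentiable_comp_smul F.2.holo g,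
    fun γ hγ τ => by
      have hc : g * γ * g⁻¹ ∈ Gamma N := (Gamma_normal N).conj_mem γ hγ g
      have := F.2.invariant _ hc (g • τ)
      simp only [← mul_smul] at this ⊢
      rwa [inv_mul_cancel_right] at this,
    fun δ => by
      obtain ⟨w, f, hw, hf⟩ := F.2.cusps (g * δ)
      exact ⟨w, f, hw, by simpa [mul_smul] using hf⟩⟩⟩
  map_one' := rfl
  map_mul' _ _ := rfl
  map_zero' := rfl
  map_add' _ _ := rfl
  commutes' _ := rfl

@[simp] theorem shift_apply (N : ℕ) (g : SL(2, ℤ)) (F : modFuns (Gamma N)) (τ : ℍ) :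
    ((shift N g F : modFuns (Gamma N)) : ℍ → ℂ) τ = (F : ℍ → ℂ) (g • τ) := rfl

theorem shift_shift (N : ℕ) (g h : SL(2, ℤ)) (F : modFuns (Gamma N)) :
    shift N g (shift N h F) = shift N (h * g) F := by
  ext τ; simp [mul_smul]

theorem Gamma_le_Gamma0 (N : ℕ) : Gamma N ≤ Gamma0 N := fun γ hγ =>
  Gamma0_mem.mpr (Gamma_mem.mp hγ).2.2.1

/-- Level `Γ₀(N)` functions inside level `Γ(N)`. -/
abbrev incl (N : ℕ) : modFuns (Gamma0 N) →ₐ[ℂ] modFuns (Gamma N) :=
  Subalgebra.inclusion (modFuns_anti (Gamma_le_Gamma0 N))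

/-- The conjugate of a `Γ₀(N)`-invariant function attached to a coset. -/
def conjugate {N : ℕ} (q : Coset N) : modFuns (Gamma0 N) →ₐ[ℂ] modFuns (Gamma N) :=
  (shift N q.out⁻¹).comp (incl N)

theorem conjugate_mk {N : ℕ} (g : SL(2, ℤ)) (F : modFuns (Gamma0 N)) (τ : ℍ) :
    ((conjugate (g : Coset N) F : modFuns (Gamma N)) : ℍ → ℂ) τ = (F : ℍ → ℂ) (g⁻¹ • τ) := by
  obtain ⟨⟨h, hh⟩, hg⟩ := QuotientGroup.mk_out_eq_mul (Gamma0 N) g
  show (F : ℍ → ℂ) ((g : Coset N).out⁻¹ • τ) = _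
  rw [hg, mul_inv_rev, mul_smul]
  exact F.2.invariant _ (inv_mem hh) _

theorem shift_conjugate {N : ℕ} (g : SL(2, ℤ)) (q : Coset N) (F : modFuns (Gamma0 N)) :
    shift N g (conjugate q F) = conjugate (g⁻¹ • q) F := by
  obtain ⟨h, rfl⟩ := QuotientGroup.mk_surjective q
  ext τ
  rw [shift_apply, conjugate_mk, MulAction.Quotient.smul_mk, smul_eq_mul, conjugate_mk,
    mul_inv_rev, inv_inv, mul_smul]

theorem conjugate_baseCoset {N : ℕ} (F : modFuns (Gamma0 N)) :
    conjugate (Period.baseCoset N) F = incl N F := by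
  ext τ
  rw [Period.baseCoset, conjugate_mk, inv_one, one_smul]
  rfl

/-! ## Series of width `N` -/

/-- The chosen series of width `w`, if there is one. -/
def qser (w : ℕ) (F : ℍ → ℂ) : LaurentSeries ℂ :=
  open scoped Classical in if h : ∃ f, HasQSeries w F f then h.choose else 0

theorem qser_eq {w : ℕ} (hw : 0 < w) {F : ℍ → ℂ} {f : LaurentSeries ℂ} (h : HasQSeries w F f) :
    qser w F = f := by
  have h' : ∃ f, HasQSeries w F f := ⟨f, h⟩
  rw [qser, dif_pos h']
  exact h'.choose_spec.unique hw h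

theorem exists_hasQSeries_of_periodic {N : ℕ} [NeZero N] {F : ℍ → ℂ}
    (hF : MDifferentiable 𝓘(ℂ) 𝓘(ℂ) F) (hper : ∀ τ : ℍ, F ((N : ℝ) +ᵥ τ) = F τ)
    {w : ℕ} (hw : 0 < w) {f : LaurentSeries ℂ} (hf : HasQSeries w F f) :
    ∃ g, HasQSeries N F g := by
  obtain ⟨C, hC⟩ := hf.growth hw (m₀ := f.order) fun m hm => HahnSeries.coeff_eq_zero_of_lt_order hm
  have hNw : ∀ τ : ℍ, qq w τ = Complex.exp (2 * Real.pi * Complex.I * (τ : ℂ) / w) := fun τ => rfl
  obtain ⟨B, hB⟩ : ∃ B : ℕ, -((B : ℤ) * w) ≤ (N : ℤ) * f.order :=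
    ⟨((N : ℤ) * |f.order|).toNat, by
      have hN : (0 : ℤ) ≤ (N : ℤ) * |f.order| := by positivity
      rw [Int.toNat_of_nonneg hN]
      have h1 : (N : ℤ) * |f.order| * 1 ≤ (N : ℤ) * |f.order| * w :=
        mul_le_mul_of_nonneg_left (by exact_mod_cast hw) hN
      nlinarith [neg_abs_le f.order, (by positivity : (0:ℤ) ≤ (N:ℤ))]⟩
  refine (exists_hasQSeries (NeZero.pos N) hF hper (C := |C|) (B := B) ?_).imp fun _ h => h.1
  filter_upwards [hC] with τ hτ
  refine hτ.trans ?_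
  refine mul_le_mul (le_abs_self C) ?_ (by positivity) (abs_nonneg _)
  rw [qq, qq, ← norm_zpow, ← norm_zpow, ← Complex.exp_int_mul, ← Complex.exp_int_mul, Complex.norm_exp, Complex.norm_exp,
    Real.exp_le_exp]
  simp only [Complex.div_natCast_re, Complex.mul_re, Complex.mul_im, Complex.I_re, Complex.I_im,
    Complex.re_ofNat, Complex.im_ofNat, Complex.ofReal_re, Complex.ofReal_im]
  have hw' : (0 : ℝ) < w := by exact_mod_cast hw
  have hN' : (0 : ℝ) < N := by exact_mod_cast NeZero.pos N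
  have hB' : -((B : ℝ) * w) ≤ (N : ℝ) * f.order := by exact_mod_cast hB
  have hy : 0 < 2 * Real.pi * τ.im := by have := τ.im_pos; positivity
  push_cast
  have key : (f.order : ℝ) / w ≥ -(B : ℝ) / N := by
    rw [ge_iff_le, div_le_div_iff₀ hN' hw']; linarith
  calc _ = -(2 * Real.pi * τ.im) * ((f.order : ℝ) / w) := by simp; ring
  _ ≤ -(2 * Real.pi * τ.im) * (-(B : ℝ) / N) := mul_le_mul_of_nonpos_left key (by linarith)
  _ = _ := by simp; ring

theorem exists_hasQSeries_modFuns {N : ℕ} [NeZero N] (F : modFuns (Gamma N)) :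
    ∃ f, HasQSeries N (F : ℍ → ℂ) f := by
  obtain ⟨w, f, hw, hf⟩ := F.2.cusps 1
  simp only [one_smul] at hf
  refine exists_hasQSeries_of_periodic F.2.holo (fun τ => ?_) hw hf
  have := F.2.invariant _ (ModularGroup_T_pow_mem_Gamma N N dvd_rfl) τ
  rwa [modular_T_zpow_smul, Int.cast_natCast] at this

theorem hasQSeries_qser {N : ℕ} [NeZero N] (F : modFuns (Gamma N)) :
    HasQSeries N (F : ℍ → ℂ) (qser N (F : ℍ → ℂ)) := by
  obtain ⟨f, hf⟩ := exists_hasQSeries_modFuns F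
  rwa [qser_eq (NeZero.pos N) hf]

/-- The series of width `N` at infinity. -/
def serHom (N : ℕ) [NeZero N] : modFuns (Gamma N) →+* LaurentSeries ℂ where
  toFun F := qser N (F : ℍ → ℂ)
  map_one' := qser_eq (NeZero.pos N) (HasQSeries.one N)
  map_mul' F G := qser_eq (NeZero.pos N) ((hasQSeries_qser F).mul (hasQSeries_qser G))
  map_zero' := qser_eq (NeZero.pos N) (HasQSeries.zero N)
  map_add' F G := qser_eq (NeZero.pos N) ((hasQSeries_qser F).add (hasQSeries_qser G))

theorem hasQSeries_serHom {N : ℕ} [NeZero N] (F : modFuns (Gamma N)) :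
    HasQSeries N (F : ℍ → ℂ) (serHom N F) := hasQSeries_qser F

theorem serHom_algebraMap {N : ℕ} [NeZero N] (c : ℂ) :
    serHom N (algebraMap ℂ (modFuns (Gamma N)) c) = HahnSeries.C c :=
  qser_eq (NeZero.pos N) (HasQSeries.const N c)

theorem serHom_injective (N : ℕ) [NeZero N] : Function.Injective (serHom N) := by
  rw [injective_iff_map_eq_zero]
  intro F hF
  have h := hasQSeries_serHom F
  rw [hF] at h
  exact Subtype.ext (eq_of_hasQSeries F.2.holo mdifferentiable_const h (HasQSeries.zero N))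

instance instIsDomainModFuns {N : ℕ} [NeZero N] : IsDomain (modFuns (Gamma N)) :=
  (serHom_injective N).isDomain

/-! ## Matrices of positive determinant -/

/-- An integral matrix of positive determinant in `GL₂(ℝ)`. -/
def posMat (M : Matrix (Fin 2) (Fin 2) ℤ) (h : 0 < M.det) : GL (Fin 2) ℝ :=
  Matrix.GeneralLinearGroup.mkOfDetNeZero (M.map (Int.castRingHom ℝ)) (by
    rw [← RingHom.mapMatrix_apply, ← RingHom.map_det]
    exact Int.cast_ne_zero.mpr h.ne')

theorem coe_posMat (M : Matrix (Fin 2) (Fin 2) ℤ) (h : 0 < M.det) :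
    ((posMat M h : GL (Fin 2) ℝ) : Matrix (Fin 2) (Fin 2) ℝ) = M.map (Int.castRingHom ℝ) := rfl

theorem det_posMat_pos (M : Matrix (Fin 2) (Fin 2) ℤ) (h : 0 < M.det) :
    0 < (posMat M h).det.val := by
  rw [Matrix.GeneralLinearGroup.val_det_apply, coe_posMat, ← RingHom.mapMatrix_apply,
    ← RingHom.map_det]
  exact Int.cast_pos.mpr h

theorem coe_posMat_smul (M : Matrix (Fin 2) (Fin 2) ℤ) (h : 0 < M.det) (τ : ℍ) :
    ((posMat M h • τ : ℍ) : ℂ) = ((M 0 0 : ℂ) * τ + M 0 1) / ((M 1 0 : ℂ) * τ + M 1 1) := by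
  rw [coe_smul_of_det_pos (det_posMat_pos M h), num, denom]
  simp [coe_posMat]

theorem posMat_smul_eq {M M' : Matrix (Fin 2) (Fin 2) ℤ} (h : 0 < M.det) (h' : 0 < M'.det)
    (g g' : SL(2, ℤ)) (heq : M * (g : Matrix (Fin 2) (Fin 2) ℤ) = (g' : Matrix (Fin 2) (Fin 2) ℤ) * M')
    (τ : ℍ) : posMat M h • (g • τ) = g' • (posMat M' h' • τ) := by
  rw [ModularGroup.sl_moeb, ModularGroup.sl_moeb, ← mul_smul, ← mul_smul]
  congr 1
  apply Units.ext
  have := congrArg (fun A : Matrix (Fin 2) (Fin 2) ℤ => A.map (Int.castRingHom ℝ)) heq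
  simp only [Matrix.map_mul] at this
  exact this

/-- Hermite form. -/
theorem exists_hermite (M : Matrix (Fin 2) (Fin 2) ℤ) (h : 0 < M.det) :
    ∃ (g : SL(2, ℤ)) (a d : ℕ) (b : ℤ), 0 < a ∧ 0 < d ∧ ((a : ℤ) * d = M.det) ∧
      M = (g : Matrix (Fin 2) (Fin 2) ℤ) * !![(a : ℤ), b; 0, (d : ℤ)] := by
  rw [Matrix.det_fin_two] at h
  have hne : 0 < Int.gcd (M 0 0) (M 1 0) := by
    rw [Nat.pos_iff_ne_zero, Ne, Int.gcd_eq_zero_iff]
    rintro ⟨h1, h2⟩
    simp [h1, h2] at h
  obtain ⟨c, p, q, hc, hco, hp, hq⟩ := Int.exists_gcd_one' (m := M 0 0) (n := M 1 0) hne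
  obtain ⟨u, v, huv⟩ : IsCoprime p q := Int.isCoprime_iff_gcd_eq_one.mpr hco
  have hdval : (c : ℤ) * (p * M 1 1 - q * M 0 1) = M.det := by
    rw [Matrix.det_fin_two, hp, hq]; ring
  have hdpos : 0 < p * M 1 1 - q * M 0 1 := by
    refine pos_of_mul_pos_right (a := (c : ℤ)) ?_ (by positivity)
    rw [hdval, Matrix.det_fin_two]; exact h
  refine ⟨⟨!![p, -v; q, u], by rw [Matrix.det_fin_two_of]; linarith⟩, c,
    (p * M 1 1 - q * M 0 1).toNat, u * M 0 1 + v * M 1 1, hc, ?_, ?_, ?_⟩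
  · omega
  · rw [Int.toNat_of_nonneg hdpos.le, hdval]
  · rw [Int.toNat_of_nonneg hdpos.le]
    ext i j
    fin_cases i <;> fin_cases j <;> simp [Matrix.mul_apply, Fin.sum_univ_two]
    · linarith
    · linear_combination (-(M 0 1)) * huv
    · linarith
    · linear_combination (-(M 1 1)) * huv

theorem coe_posMat_upper (a d : ℕ) (b : ℤ) (h : 0 < (!![(a : ℤ), b; 0, (d : ℤ)]).det) (τ : ℍ) :
    ((posMat _ h • τ : ℍ) : ℂ) = ((a : ℂ) * τ + b) / d := by
  rw [coe_posMat_smul]; simp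

theorem det_upper_pos {a d : ℕ} (b : ℤ) (ha : 0 < a) (hd : 0 < d) :
    0 < (!![(a : ℤ), b; 0, (d : ℤ)]).det := by
  rw [Matrix.det_fin_two_of]
  simp only [mul_zero, sub_zero]
  positivity

theorem mdifferentiable_comp_posMat {F : ℍ → ℂ} (hF : MDifferentiable 𝓘(ℂ) 𝓘(ℂ) F)
    (M : Matrix (Fin 2) (Fin 2) ℤ) (h : 0 < M.det) :
    MDifferentiable 𝓘(ℂ) 𝓘(ℂ) (fun τ => F (posMat M h • τ)) :=
  hF.comp (mdifferentiable_smul (g := posMat M h) (det_posMat_pos M h))

/-- The series of `F ((aτ+b)/d)`. -/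
theorem HasQSeries.comp_upper {w : ℕ} {F : ℍ → ℂ} {f : LaurentSeries ℂ} (hw : 0 < w)
    (hF : HasQSeries w F f) {a d : ℕ} (b : ℤ) (ha : 0 < a) (hd : 0 < d) :
    HasQSeries (w * d) (fun τ => F (posMat _ (det_upper_pos b ha hd) • τ))
      (expand a ha.ne' (twist (Units.mk0 (Complex.exp (2 * Real.pi * Complex.I * b / (d * w : ℕ)))
        (Complex.exp_ne_zero _)) f)) :=
  hF.comp_affine hw a d ha.ne' hd b _ (coe_posMat_upper a d b _) _ rfl

/-! ## The modular invariant -/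

theorem mdifferentiable_jFun : MDifferentiable 𝓘(ℂ) 𝓘(ℂ) jFun :=
  UpperHalfPlane.mdifferentiable_iff.mpr Period.analyticOnNhd_jFun.differentiableOn

theorem tendsto_discriminant_div_qq :
    Tendsto (fun τ : ℍ => ModularForm.discriminant τ / qq 1 τ) atImInfty (𝓝 1) := by
  refine (ModularForm.tendsto_atImInfty_tprod_one_sub_eta_q_pow).congr fun τ => ?_
  rw [ModularForm.discriminant_eq_q_prod, qq_eq_qParam, Nat.cast_one,
    mul_div_cancel_left₀ _ (Function.Periodic.qParam_ne_zero _)]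

theorem tendsto_jFun_mul_qq : Tendsto (fun τ : ℍ => jFun τ * qq 1 τ) atImInfty (𝓝 1) := by
  have h := (Period.tendsto_E4.pow 3).div tendsto_discriminant_div_qq one_ne_zero
  simp only [one_pow, div_one] at h
  refine h.congr fun τ => ?_
  simp only [Pi.div_apply, jFun]
  field_simp [qq_ne_zero, ModularForm.discriminant_ne_zero]

theorem exists_hasQSeries_jFun :
    ∃ f, HasQSeries 1 jFun f ∧ f.order = -1 ∧ f.coeff (-1) = 1 := by
  have hper : ∀ τ : ℍ, jFun (((1 : ℕ) : ℝ) +ᵥ τ) = jFun τ := fun τ => by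
    rw [Nat.cast_one, ← UpperHalfPlane.modular_T_smul, Period.jFun_smul]
  have hC : ∀ᶠ τ in atImInfty, ‖jFun τ‖ ≤ 2 * ‖qq 1 τ‖ ^ (-((1 : ℕ) : ℤ)) := by
    filter_upwards [tendsto_jFun_mul_qq.norm.eventually (eventually_le_nhds
      (by simp : ‖(1 : ℂ)‖ < 2))] with τ hτ
    rw [norm_mul] at hτ
    rwa [Nat.cast_one, zpow_neg_one, ← div_eq_mul_inv,
      le_div_iff₀ (norm_pos_iff.mpr (qq_ne_zero 1 τ))]
  obtain ⟨f, hf, hf0⟩ := exists_hasQSeries one_pos mdifferentiable_jFun hper hC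
  have h1 : Tendsto (fun τ => jFun τ / qq 1 τ ^ (-1 : ℤ)) atImInfty (𝓝 (f.coeff (-1))) :=
    hf.tendsto_div one_pos hf0
  have hcoeff : f.coeff (-1) = 1 := by
    refine tendsto_nhds_unique h1 (tendsto_jFun_mul_qq.congr fun τ => ?_)
    rw [zpow_neg_one, div_inv_eq_mul]
  refine ⟨f, hf, le_antisymm (HahnSeries.order_le_of_coeff_ne_zero (by simp [hcoeff])) ?_, hcoeff⟩
  by_contra hlt
  have hne : f ≠ 0 := fun h => by simp [h] at hcoeff
  exact hne (HahnSeries.coeff_order_eq_zero.mp (hf0 _ (by omega)))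

/-- The series of `j`. -/
def jq : LaurentSeries ℂ := qser 1 jFun

theorem hasQSeries_jq : HasQSeries 1 jFun jq := by
  obtain ⟨f, hf, -⟩ := exists_hasQSeries_jFun
  rwa [jq, qser_eq one_pos hf]

theorem order_jq : jq.order = -1 := by
  obtain ⟨f, hf, h, -⟩ := exists_hasQSeries_jFun
  rwa [jq, qser_eq one_pos hf]

theorem coeff_jq_neg_one : jq.coeff (-1) = 1 := by
  obtain ⟨f, hf, -, h⟩ := exists_hasQSeries_jFun
  rwa [jq, qser_eq one_pos hf]

theorem jq_ne_zero : jq ≠ 0 := fun h => by simpa [h] using coeff_jq_neg_one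

theorem isModFun_jFun : IsModFun ⊤ jFun :=
  ⟨mdifferentiable_jFun, fun γ _ τ => Period.jFun_smul γ τ, fun δ =>
    ⟨1, jq, one_pos, hasQSeries_jq.congr (.of_forall fun τ => (Period.jFun_smul δ τ).symm)⟩⟩

/-- `j` as an element of `modFuns Γ`. -/
def jMF (Γ : Subgroup SL(2, ℤ)) : modFuns Γ := ⟨jFun, modFuns_anti le_top isModFun_jFun⟩

theorem hasQSeries_aeval_jFun (P : Polynomial ℂ) :
    HasQSeries 1 (fun τ => P.eval (jFun τ)) (Polynomial.aeval jq P) := by
  induction P using Polynomial.induction_on' with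
  | add p q hp hq =>
    simp only [Polynomial.eval_add, map_add]; exact hp.add hq
  | monomial n c =>
    simp only [Polynomial.eval_monomial, Polynomial.aeval_monomial]
    rw [show algebraMap ℂ (LaurentSeries ℂ) c = HahnSeries.C c from by
      simp [HahnSeries.algebraMap_apply']]
    exact (hasQSeries_jq.pow n).smul c

theorem order_aeval_jq {P : Polynomial ℂ} (hP : P ≠ 0) :
    Polynomial.aeval jq P ≠ 0 ∧ (Polynomial.aeval jq P).order = -(P.natDegree : ℤ) := by
  have hpow : ∀ i : ℕ, (jq ^ i).order = -(i : ℤ) ∧ (jq ^ i).coeff (-(i : ℤ)) = 1 := fun i => by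
    have ho : (jq ^ i).order = -(i : ℤ) := by
      induction i with
      | zero => simp
      | succ i ih =>
        rw [pow_succ, HahnSeries.order_mul (pow_ne_zero _ jq_ne_zero) jq_ne_zero, ih, order_jq]
        push_cast; ring
    refine ⟨ho, ?_⟩
    rw [← ho, ← HahnSeries.leadingCoeff_eq]
    have : jq.leadingCoeff = 1 := by rw [HahnSeries.leadingCoeff_eq, order_jq, coeff_jq_neg_one]
    clear ho
    induction i with
    | zero => simp
    | succ i ih => rw [pow_succ, HahnSeries.leadingCoeff_mul, ih, this, mul_one]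
  have key : (Polynomial.aeval jq P).coeff (-(P.natDegree : ℤ)) = P.leadingCoeff ∧
      ∀ m < -(P.natDegree : ℤ), (Polynomial.aeval jq P).coeff m = 0 := by
    rw [Polynomial.aeval_eq_sum_range]
    simp only [HahnSeries.coeff_sum, Algebra.smul_def, HahnSeries.algebraMap_apply', HahnSeries.C_apply,
      PowerSeries.algebraMap_eq, HahnSeries.ofPowerSeries_C, HahnSeries.coeff_single_zero_mul]
    refine ⟨?_, fun m hm => Finset.sum_eq_zero fun i hi => ?_⟩
    · rw [Finset.sum_range_succ, (hpow _).2, mul_one, Finset.sum_eq_zero, zero_add]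
      · rfl
      intro i hi
      rw [Finset.mem_range] at hi
      rw [HahnSeries.coeff_eq_zero_of_lt_order (by rw [(hpow i).1]; omega), mul_zero]
    · rw [Finset.mem_range] at hi
      rw [HahnSeries.coeff_eq_zero_of_lt_order (by rw [(hpow i).1]; omega), mul_zero]
  have hne : Polynomial.aeval jq P ≠ 0 := fun h => by
    simpa [h, hP] using key.1.symm
  refine ⟨hne, le_antisymm (HahnSeries.order_le_of_coeff_ne_zero (by simp [key.1, hP])) ?_⟩
  by_contra hlt
  exact hne (HahnSeries.coeff_order_eq_zero.mp (key.2 _ (by omega)))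

theorem eq_zero_of_eval_jFun {P : Polynomial ℂ} (h : ∀ τ, P.eval (jFun τ) = 0) : P = 0 := by
  by_contra hP
  refine (order_aeval_jq hP).1 ?_
  refine ((hasQSeries_aeval_jFun P).congr (G := 0) (.of_forall fun τ => ?_)).eq_zero one_pos
  simp [h τ]

/-- Level one functions are polynomials in `j`. -/
theorem exists_eq_eval_jFun {F : ℍ → ℂ} (hF : IsModFun ⊤ F) :
    ∃ P : Polynomial ℂ, ∀ τ, F τ = P.eval (jFun τ) := by
  have hper : ∀ τ : ℍ, F (((1 : ℕ) : ℝ) +ᵥ τ) = F τ := fun τ => by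
    rw [Nat.cast_one, ← UpperHalfPlane.modular_T_smul, hF.invariant _ (Subgroup.mem_top _)]
  suffices key : ∀ B : ℕ, ∀ G : ℍ → ℂ, IsModFun ⊤ G → ∀ g, HasQSeries 1 G g →
      (∀ m < -(B : ℤ), g.coeff m = 0) → ∃ P : Polynomial ℂ, ∀ τ, G τ = P.eval (jFun τ) by
    obtain ⟨g, hg⟩ := exists_hasQSeries_modFuns (N := 1)
      ⟨F, modFuns_anti (Γ := ⊤) le_top hF⟩
    refine key (-g.order).toNat F hF g hg fun m hm => HahnSeries.coeff_eq_zero_of_lt_order ?_
    omega
  intro B
  induction B with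
  | zero =>
    intro G hG g hg h0
    have hlim := hg.tendsto_div one_pos (m₀ := 0) (by simpa using h0)
    simp only [zpow_zero, div_one] at hlim
    let f : ModularForm 𝒮ℒ 0 :=
      { toFun := G
        slash_action_eq' := fun A hA => by
          obtain ⟨γ, rfl⟩ := hA
          funext τ
          show (G ∣[(0 : ℤ)] γ) τ = G τ
          rw [ModularForm.SL_slash_apply, hG.invariant γ (Subgroup.mem_top _)]
          simp
        holo' := hG.holo
        bdd_at_cusps' := fun {c} hc => by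
          rw [Subgroup.IsArithmetic.isCusp_iff_isCusp_SL2Z] at hc
          refine (OnePoint.isBoundedAt_iff_exists_SL2Z hc).mpr ?_
          obtain ⟨γ, hγ⟩ := isCusp_SL2Z_iff'.mp hc
          refine ⟨γ, hγ.symm, ?_⟩
          refine (hlim.isBigO_one ℝ).congr_left fun τ => ?_
          rw [ModularForm.SL_slash_apply, hG.invariant γ (Subgroup.mem_top _)]
          simp }
    obtain ⟨c, hc⟩ := ModularFormClass.levelOne_weight_zero_const f
    exact ⟨Polynomial.C c, fun τ => (congrFun hc τ).trans Polynomial.eval_C.symm⟩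
  | succ B ih =>
    intro G hG g hg hB
    set c := g.coeff (-((B + 1 : ℕ) : ℤ)) with hc
    set G' : ℍ → ℂ := fun τ => G τ - c * jFun τ ^ (B + 1)
    have hG' : IsModFun ⊤ G' :=
      (sub_mem (mem_modFuns.mpr hG) (Subalgebra.smul_mem _ (pow_mem (mem_modFuns.mpr isModFun_jFun)
        (B + 1)) c) :)
    have hX : Polynomial.aeval jq (Polynomial.C c * Polynomial.X ^ (B + 1)) =
        HahnSeries.C c * jq ^ (B + 1) := by
      simp [HahnSeries.algebraMap_apply']
    obtain ⟨P, hP⟩ := ih G' hG' _ (hg.sub ((hasQSeries_jq.pow (B + 1)).smul c)) fun m hm => by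
      rw [HahnSeries.coeff_sub, HahnSeries.C_apply, HahnSeries.coeff_single_zero_mul]
      have ho := order_aeval_jq (P := Polynomial.X ^ (B + 1)) (pow_ne_zero _ Polynomial.X_ne_zero)
      simp only [map_pow, Polynomial.aeval_X, Polynomial.natDegree_X_pow] at ho
      rcases lt_or_eq_of_le (show m ≤ -((B + 1 : ℕ) : ℤ) by push_cast; omega) with h | h
      · rw [hB m h, HahnSeries.coeff_eq_zero_of_lt_order (by rw [ho.2]; exact h), mul_zero, sub_zero]
      · subst h
        have : (jq ^ (B + 1)).coeff (-((B + 1 : ℕ) : ℤ)) = 1 := by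
          rw [← ho.2, ← HahnSeries.leadingCoeff_eq, ← Polynomial.aeval_X (R := ℂ) jq, ← map_pow]
          clear hX hm
          induction B + 1 with
          | zero => simp
          | succ i ih' =>
            rw [pow_succ, map_mul, HahnSeries.leadingCoeff_mul, ih', one_mul, Polynomial.aeval_X,
              HahnSeries.leadingCoeff_eq, order_jq, coeff_jq_neg_one]
        rw [this, mul_one, sub_self]
    refine ⟨P + Polynomial.C c * Polynomial.X ^ (B + 1), fun τ => ?_⟩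
    have := hP τ
    simp only [G'] at this
    simp [← this]

/-! ## `j(Nτ)` -/

theorem det_diagN (N : ℕ) [NeZero N] : 0 < (!![(N : ℤ), 0; 0, 1]).det := by
  rw [Matrix.det_fin_two_of]
  simpa using NeZero.pos N

/-- `τ ↦ j(Nτ)`. -/
def jNFun (N : ℕ) [NeZero N] (τ : ℍ) : ℂ := jFun (posMat _ (det_diagN N) • τ)

theorem jNFun_smul_eq {N : ℕ} [NeZero N] (δ : SL(2, ℤ)) :
    ∃ (a d : ℕ) (b : ℤ) (ha : 0 < a) (hd : 0 < d), a * d = N ∧
      (∀ τ : ℍ, jNFun N (δ • τ) = jFun (posMat _ (det_upper_pos b ha hd) • τ)) ∧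
      (d = 1 → δ ∈ Gamma0 N) := by
  have hdet : 0 < (!![(N : ℤ), 0; 0, 1] * (δ : Matrix (Fin 2) (Fin 2) ℤ)).det := by
    rw [Matrix.det_mul, δ.det_coe, mul_one]; exact det_diagN N
  obtain ⟨g, a, d, b, ha, hd, had, heq⟩ := exists_hermite _ hdet
  rw [Matrix.det_mul, δ.det_coe, Matrix.det_fin_two_of] at had
  have hadN : a * d = N := by
    have : ((a * d : ℕ) : ℤ) = (N : ℤ) := by push_cast; linarith
    exact_mod_cast this
  refine ⟨a, d, b, ha, hd, hadN, fun τ => ?_, fun hd1 => ?_⟩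
  · rw [jNFun, posMat_smul_eq (det_diagN N) (det_upper_pos b ha hd) δ g heq τ, Period.jFun_smul]
  · subst hd1
    have h10 := congrFun (congrFun heq 1) 0
    simp [Matrix.mul_apply, Fin.sum_univ_two] at h10
    rw [mul_one] at hadN
    rw [Gamma0_mem, h10, hadN]
    simp

theorem isModFun_jNFun (N : ℕ) [NeZero N] : IsModFun (Gamma0 N) (jNFun N) := by
  refine ⟨mdifferentiable_comp_posMat mdifferentiable_jFun _ _, fun γ hγ τ => ?_, fun δ => ?_⟩
  · obtain ⟨k, hk⟩ : (N : ℤ) ∣ γ 1 0 :=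
      (ZMod.intCast_zmod_eq_zero_iff_dvd _ N).mp (Gamma0_mem.mp hγ)
    have hdet : γ 0 0 * γ 1 1 - γ 0 1 * γ 1 0 = 1 := by
      rw [← Matrix.det_fin_two (γ : Matrix (Fin 2) (Fin 2) ℤ)]; exact γ.det_coe
    let g : SL(2, ℤ) := ⟨!![γ 0 0, (N : ℤ) * γ 0 1; k, γ 1 1],
      by rw [Matrix.det_fin_two_of]; linear_combination hdet + γ 0 1 * hk⟩
    have heq : !![(N : ℤ), 0; 0, 1] * (γ : Matrix (Fin 2) (Fin 2) ℤ) =
        (g : Matrix (Fin 2) (Fin 2) ℤ) * !![(N : ℤ), 0; 0, 1] := by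
      ext i j
      fin_cases i <;> fin_cases j <;> simp [g, Matrix.mul_apply, Fin.sum_univ_two] <;>
        linarith [hk]
    rw [jNFun, jNFun, posMat_smul_eq (det_diagN N) (det_diagN N) γ g heq τ, Period.jFun_smul]
  · obtain ⟨a, d, b, ha, hd, -, heq, -⟩ := jNFun_smul_eq (N := N) δ
    exact ⟨1 * d, _, by omega,
      (hasQSeries_jq.comp_upper one_pos b ha hd).congr (.of_forall fun τ => (heq τ).symm)⟩

/-- `j(Nτ)` as an element of `modFuns (Γ₀ N)`. -/
def jNMF (N : ℕ) [NeZero N] : modFuns (Gamma0 N) := ⟨jNFun N, isModFun_jNFun N⟩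

theorem hasQSeries_jNFun (N : ℕ) [NeZero N] :
    HasQSeries 1 (jNFun N) (expand N (NeZero.ne N) jq) := by
  have := hasQSeries_jq.comp_affine one_pos N 1 (NeZero.ne N) one_pos 0
    (fun τ => posMat _ (det_diagN N) • τ) (fun τ => by rw [coe_posMat_smul]; simp) 1 (by simp)
  have h1 : twist (1 : ℂˣ) jq = jq := by ext; simp
  rw [h1, mul_one] at this
  exact this

theorem mem_Gamma0_of_jNFun_eq {N : ℕ} [NeZero N] {δ : SL(2, ℤ)}
    (h : ∀ τ : ℍ, jNFun N (δ • τ) = jNFun N τ) : δ ∈ Gamma0 N := by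
  obtain ⟨a, d, b, ha, hd, hadN, heq, hmem⟩ := jNFun_smul_eq (N := N) δ
  apply hmem
  have h1 := (hasQSeries_jq.comp_upper one_pos b ha hd).congr
    (G := jNFun N) (.of_forall fun τ => (heq τ).symm.trans (h τ))
  have h2 := (hasQSeries_jNFun N).refine_width one_pos d hd.ne'
  have := congrArg HahnSeries.order (h1.unique (by omega) h2)
  rw [order_expand, order_twist, order_expand, order_expand, order_jq] at this
  have h3 : (a : ℤ) = (d : ℤ) * N := by linarith
  rw [← hadN] at h3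
  push_cast at h3
  have h4 : (d : ℤ) * d = 1 := mul_left_cancel₀ (a := (a : ℤ)) (by exact_mod_cast ha.ne') (by linarith)
  have h5 : d * d = 1 := by exact_mod_cast h4
  exact Nat.eq_one_of_mul_eq_one_right h5

theorem conjugate_jNMF_injective (N : ℕ) [NeZero N] :
    Function.Injective fun q : Coset N => conjugate q (jNMF N) := by
  intro q r h
  obtain ⟨g, rfl⟩ := QuotientGroup.mk_surjective q
  obtain ⟨g', rfl⟩ := QuotientGroup.mk_surjective r
  apply QuotientGroup.eq.mpr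
  refine mem_Gamma0_of_jNFun_eq fun τ => ?_
  have := congrFun (congrArg Subtype.val h) (g' • τ)
  simp only [conjugate_mk] at this
  rw [mul_smul]
  exact this.trans (by rw [inv_smul_smul]; rfl)

end Fermat.Agent.GalRep
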