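import Fermat.Agent.GalRep.Datum

/-!
# Laurent series at infinity of functions on the upper half plane

The calculus of `HasQSeries`: ring operations, uniqueness, growth, substitutions
`τ ↦ (a τ + b) / d`, and existence from periodicity and growth.
-/

set_option autoImplicit false

noncomputable section

namespace Fermat.Agent.GalRep

open UpperHalfPlane Filter Topology
open scoped Manifold

/-! ## Two operations on Laurent series -/

section Ops

variable {K : Type*} [Field K]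

/-- `f(Q) ↦ f(ζ Q)`. -/
def twist (ζ : Kˣ) : LaurentSeries K →+* LaurentSeries K where
  toFun f :=
    { coeff := fun m => f.coeff m * ((ζ ^ m : Kˣ) : K)
      isPWO_support' := f.isPWO_support.mono (Function.support_mul_subset_left _ _) }
  map_one' := by
    ext m
    simp only [HahnSeries.coeff_one]
    split_ifs with h
    · simp [h]
    · simp
  map_zero' := by ext; simp
  map_add' x y := by ext; simp [add_mul]
  map_mul' x y := by
    ext m
    rw [HahnSeries.coeff_mul]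
    show (∑ ij ∈ Finset.antidiagonal x.isPWO_support y.isPWO_support m,
      x.coeff ij.1 * y.coeff ij.2) * ((ζ ^ m : Kˣ) : K) = _
    rw [Finset.sum_mul]
    refine Finset.sum_congr ?_ fun ij hij => ?_
    · ext ij; simp [Finset.mem_antidiagonal, HahnSeries.mem_support, zpow_ne_zero]
    · have h := hij
      simp [Finset.mem_antidiagonal] at h
      rw [← h.2.2, zpow_add, Units.val_mul]; ring

@[simp] theorem twist_coeff (ζ : Kˣ) (f : LaurentSeries K) (m : ℤ) :
    (twist ζ f).coeff m = f.coeff m * ((ζ ^ m : Kˣ) : K) := rfl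

/-- `f(Q) ↦ f(Q ^ a)`. -/
def expand (a : ℕ) (ha : a ≠ 0) : LaurentSeries K →+* LaurentSeries K :=
  HahnSeries.embDomainRingHom (AddMonoidHom.mulLeft (a : ℤ))
    (fun _ _ h => mul_left_cancel₀ (by exact_mod_cast ha) h)
    (fun _ _ => mul_le_mul_iff_right₀ (by positivity))

theorem expand_coeff_mul (a : ℕ) (ha : a ≠ 0) (f : LaurentSeries K) (m : ℤ) :
    (expand a ha f).coeff ((a : ℤ) * m) = f.coeff m :=
  HahnSeries.embDomain_coeff

theorem expand_coeff_of_not_dvd (a : ℕ) (ha : a ≠ 0) (f : LaurentSeries K) (m : ℤ)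
    (h : ¬ (a : ℤ) ∣ m) : (expand a ha f).coeff m = 0 :=
  HahnSeries.embDomain_of_notMem_range (by rintro ⟨k, rfl⟩; exact h (dvd_mul_right _ _))

end Ops

/-! ## The local parameter -/

/-- `exp(2πiτ/w)`. -/
def qq (w : ℕ) (τ : ℍ) : ℂ := Complex.exp (2 * Real.pi * Complex.I * (τ : ℂ) / w)

theorem qq_ne_zero (w : ℕ) (τ : ℍ) : qq w τ ≠ 0 := Complex.exp_ne_zero _

theorem qq_eq_qParam (w : ℕ) (τ : ℍ) : qq w τ = Function.Periodic.qParam (w : ℝ) τ := by
  simp [qq, Function.Periodic.qParam]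

theorem exp_eq_qq_zpow (w : ℕ) (τ : ℍ) (m : ℤ) :
    Complex.exp (2 * Real.pi * Complex.I * m * (τ : ℂ) / w) = qq w τ ^ m := by
  rw [qq, ← Complex.exp_int_mul]; congr 1; ring

theorem qq_add_nat (w : ℕ) (hw : 0 < w) (τ : ℍ) : qq w ((w : ℝ) +ᵥ τ) = qq w τ := by
  have hw' : (w : ℂ) ≠ 0 := Nat.cast_ne_zero.mpr hw.ne'
  rw [qq, qq, coe_vadd, Complex.exp_eq_exp_iff_exists_int]
  exact ⟨1, by push_cast; field_simp; ring⟩

theorem tendsto_qq (w : ℕ) (hw : 0 < w) : Tendsto (qq w) atImInfty (𝓝 0) := by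
  have := qParam_tendsto_atImInfty (h := (w : ℝ)) (by exact_mod_cast hw)
  simpa [Function.comp_def, ← qq_eq_qParam] using this

theorem norm_qq_lt_one (w : ℕ) (hw : 0 < w) (τ : ℍ) : ‖qq w τ‖ < 1 := by
  rw [qq_eq_qParam]; exact Function.Periodic.norm_qParam_lt_one (by exact_mod_cast hw) τ.im_pos

theorem hasQSeries_iff {w : ℕ} {F : ℍ → ℂ} {f : LaurentSeries ℂ} :
    HasQSeries w F f ↔
      ∀ᶠ τ : ℍ in atImInfty, HasSum (fun m : ℤ => f.coeff m * qq w τ ^ m) (F τ) := by
  simp only [HasQSeries, exp_eq_qq_zpow]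

/-- Cauchy product of two convergent Laurent series. -/
theorem hasSum_mul_series {f g : LaurentSeries ℂ} {q a b : ℂ} (hq0 : q ≠ 0)
    (h1 : HasSum (fun m : ℤ => f.coeff m * q ^ m) a)
    (h2 : HasSum (fun m : ℤ => g.coeff m * q ^ m) b) :
    HasSum (fun m : ℤ => (f * g).coeff m * q ^ m) (a * b) := by
  let P : ℤ × ℤ → ℂ := fun x => (f.coeff x.1 * q ^ x.1) * (g.coeff x.2 * q ^ x.2)
  have n1 : Summable fun m : ℤ => ‖f.coeff m * q ^ m‖ := h1.summable.norm
  have n2 : Summable fun m : ℤ => ‖g.coeff m * q ^ m‖ := h2.summable.norm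
  have hsum : Summable P := summable_mul_of_summable_norm (R := ℂ)
    (f := fun m : ℤ => f.coeff m * q ^ m) (g := fun m : ℤ => g.coeff m * q ^ m) n1 n2
  have hP : HasSum P (a * b) := HasSum.mul (f := fun m : ℤ => f.coeff m * q ^ m)
    (g := fun m : ℤ => g.coeff m * q ^ m) h1 h2 hsum
  have key := hP.tsum_fiberwise (fun x : ℤ × ℤ => x.1 + x.2)
  refine HasSum.congr_fun key fun m => ?_
  rw [HahnSeries.coeff_mul, Finset.sum_mul, tsum_subtype ((fun x : ℤ × ℤ => x.1 + x.2) ⁻¹' {m}) P,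
    tsum_eq_sum (s := Finset.antidiagonal f.isPWO_support g.isPWO_support m)]
  · refine Finset.sum_congr rfl fun x hx => ?_
    simp only [Finset.mem_antidiagonal] at hx
    rw [Set.indicator_of_mem (show x ∈ (fun x : ℤ × ℤ => x.1 + x.2) ⁻¹' {m} from hx.2.2), ← hx.2.2,
      zpow_add₀ hq0]
    simp only [P]
    ring
  · intro x hx
    by_cases hm : x ∈ (fun x : ℤ × ℤ => x.1 + x.2) ⁻¹' {m}
    · rw [Set.indicator_of_mem hm]
      simp only [Finset.mem_antidiagonal, HahnSeries.mem_support, not_and_or, not_not] at hx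
      rcases hx with hx | hx | hx
      · simp [P, hx]
      · simp [P, hx]
      · exact absurd hm hx
    · rw [Set.indicator_of_notMem hm]

namespace HasQSeries

variable {w : ℕ} {F G : ℍ → ℂ} {f g : LaurentSeries ℂ}

theorem congr (hF : HasQSeries w F f) (h : ∀ᶠ τ in atImInfty, F τ = G τ) : HasQSeries w G f :=
  (Eventually.and hF h).mono fun _ ⟨h1, h2⟩ => h2 ▸ h1

theorem zero (w : ℕ) : HasQSeries w 0 0 := .of_forall fun τ => by simp [hasSum_zero]

theorem single (w : ℕ) (m : ℤ) (c : ℂ) :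
    HasQSeries w (fun τ => c * qq w τ ^ m) (HahnSeries.single m c) := by
  rw [hasQSeries_iff]
  refine .of_forall fun τ => ?_
  convert! hasSum_ite_eq m (c * qq w τ ^ m) using 2 with k
  by_cases h : k = m <;> simp [h]

theorem const (w : ℕ) (c : ℂ) : HasQSeries w (fun _ => c) (HahnSeries.C c) := by
  simpa [HahnSeries.C_apply] using HasQSeries.single w 0 c

theorem one (w : ℕ) : HasQSeries w 1 1 := by
  have := HasQSeries.const w 1; rw [map_one] at this; exact this

theorem add (hF : HasQSeries w F f) (hG : HasQSeries w G g) : HasQSeries w (F + G) (f + g) := by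
  rw [hasQSeries_iff] at *
  filter_upwards [hF, hG] with τ h1 h2
  simpa [add_mul] using h1.add h2

theorem neg (hF : HasQSeries w F f) : HasQSeries w (-F) (-f) := by
  rw [hasQSeries_iff] at *
  filter_upwards [hF] with τ h1
  simpa using h1.neg

theorem sub (hF : HasQSeries w F f) (hG : HasQSeries w G g) : HasQSeries w (F - G) (f - g) := by
  rw [sub_eq_add_neg, sub_eq_add_neg]; exact hF.add hG.neg

theorem mul (hF : HasQSeries w F f) (hG : HasQSeries w G g) : HasQSeries w (F * G) (f * g) := by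
  rw [hasQSeries_iff] at *
  filter_upwards [hF, hG] with τ h1 h2
  exact hasSum_mul_series (qq_ne_zero w τ) h1 h2

theorem pow (hF : HasQSeries w F f) : ∀ n : ℕ, HasQSeries w (F ^ n) (f ^ n)
  | 0 => by simpa using HasQSeries.one w
  | n + 1 => by rw [pow_succ, pow_succ]; exact (pow hF n).mul hF

theorem smul (hF : HasQSeries w F f) (c : ℂ) :
    HasQSeries w (fun τ => c * F τ) (HahnSeries.C c * f) :=
  (HasQSeries.const w c).mul hF

theorem sum {ι : Type*} (s : Finset ι) {F : ι → ℍ → ℂ} {f : ι → LaurentSeries ℂ}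
    (h : ∀ i ∈ s, HasQSeries w (F i) (f i)) : HasQSeries w (∑ i ∈ s, F i) (∑ i ∈ s, f i) := by
  classical
  induction s using Finset.induction with
  | empty => simpa using HasQSeries.zero w
  | insert a s ha ih =>
    rw [Finset.sum_insert ha, Finset.sum_insert ha]
    exact (h a (s.mem_insert_self a)).add (ih fun i hi => h i (Finset.mem_insert_of_mem hi))

theorem prod {ι : Type*} (s : Finset ι) {F : ι → ℍ → ℂ} {f : ι → LaurentSeries ℂ}
    (h : ∀ i ∈ s, HasQSeries w (F i) (f i)) : HasQSeries w (∏ i ∈ s, F i) (∏ i ∈ s, f i) := by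
  classical
  induction s using Finset.induction with
  | empty => simpa using HasQSeries.one w
  | insert a s ha ih =>
    rw [Finset.prod_insert ha, Finset.prod_insert ha]
    exact (h a (s.mem_insert_self a)).mul (ih fun i hi => h i (Finset.mem_insert_of_mem hi))

/-- The leading coefficient is the limit of `F / q ^ m₀`. -/
theorem tendsto_div (hw : 0 < w) (hF : HasQSeries w F f) {m₀ : ℤ} (h : ∀ m < m₀, f.coeff m = 0) :
    Tendsto (fun τ => F τ / qq w τ ^ m₀) atImInfty (𝓝 (f.coeff m₀)) := by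
  rw [hasQSeries_iff] at hF
  obtain ⟨τ₁, hτ₁⟩ := hF.exists
  set r := ‖qq w τ₁‖ with hr
  have hr0 : 0 < r := norm_pos_iff.mpr (qq_ne_zero w τ₁)
  have hS : Summable fun m : ℤ => ‖f.coeff m‖ * r ^ m := by
    simpa [norm_mul, norm_zpow] using hτ₁.summable.norm
  rw [← tendsto_sub_nhds_zero_iff, tendsto_zero_iff_norm_tendsto_zero]
  have hsmall : ∀ᶠ τ in atImInfty, ‖qq w τ‖ ≤ r :=
    (tendsto_zero_iff_norm_tendsto_zero.mp (tendsto_qq w hw)).eventually (eventually_le_nhds hr0)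
  refine squeeze_zero' (.of_forall fun τ => norm_nonneg _) (?_ : ∀ᶠ τ in atImInfty,
    ‖F τ / qq w τ ^ m₀ - f.coeff m₀‖ ≤ ‖qq w τ‖ *
      (r ^ (-(m₀ + 1)) * ∑' m : ℤ, ‖f.coeff m‖ * r ^ m)) ?_
  · filter_upwards [hF, hsmall] with τ hτ hle
    set q := qq w τ with hq
    have hq0 : q ≠ 0 := qq_ne_zero w τ
    have h1 : HasSum (fun m : ℤ => f.coeff m * q ^ (m - m₀) -
        (if m = m₀ then f.coeff m₀ else 0)) (F τ / q ^ m₀ - f.coeff m₀) := by
      refine HasSum.sub ?_ (hasSum_ite_eq m₀ _)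
      simpa [zpow_sub₀ hq0, mul_div_assoc] using hτ.div_const (q ^ m₀)
    have hb : ∀ m : ℤ, ‖f.coeff m * q ^ (m - m₀) - (if m = m₀ then f.coeff m₀ else 0)‖ ≤
        ‖q‖ * (r ^ (-(m₀ + 1)) * (‖f.coeff m‖ * r ^ m)) := by
      intro m
      rcases lt_trichotomy m m₀ with hm | hm | hm
      · simp [h m hm, hm.ne]
      · subst hm; simp; positivity
      · rw [if_neg hm.ne', sub_zero, norm_mul, norm_zpow]
        have hqn : ‖q‖ ^ (m - m₀) ≤ ‖q‖ * r ^ (m - m₀ - 1) := by
          obtain ⟨k, hk⟩ : ∃ k : ℕ, m - m₀ = (k : ℤ) + 1 := ⟨(m - m₀ - 1).toNat, by omega⟩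
          rw [hk, add_sub_cancel_right, zpow_add_one₀ (norm_ne_zero_iff.mpr hq0), mul_comm,
            zpow_natCast, zpow_natCast]
          gcongr
        calc ‖f.coeff m‖ * ‖q‖ ^ (m - m₀) ≤ ‖f.coeff m‖ * (‖q‖ * r ^ (m - m₀ - 1)) := by gcongr
        _ = ‖q‖ * (r ^ (-(m₀ + 1)) * (‖f.coeff m‖ * r ^ m)) := by
          rw [show m - m₀ - 1 = -(m₀ + 1) + m by ring, zpow_add₀ hr0.ne']; ring
    calc ‖F τ / q ^ m₀ - f.coeff m₀‖ = ‖∑' m : ℤ, (f.coeff m * q ^ (m - m₀) -
          (if m = m₀ then f.coeff m₀ else 0))‖ := by rw [h1.tsum_eq]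
    _ ≤ _ := tsum_of_norm_bounded (((hS.hasSum).mul_left _).mul_left _) hb
  · simpa using ((tendsto_zero_iff_norm_tendsto_zero.mp (tendsto_qq w hw)).mul_const _)

theorem eq_zero (hw : 0 < w) (hF : HasQSeries w 0 f) : f = 0 := by
  by_contra hne
  have h := hF.tendsto_div hw (m₀ := f.order) fun m hm => HahnSeries.coeff_eq_zero_of_lt_order hm
  simp only [Pi.zero_apply, zero_div] at h
  exact (fun h0 => hne (HahnSeries.coeff_order_eq_zero.mp h0)) (tendsto_nhds_unique h tendsto_const_nhds)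

theorem unique (hw : 0 < w) (hF : HasQSeries w F f) (hG : HasQSeries w F g) : f = g := by
  have := hF.sub hG
  rw [sub_self] at this
  exact sub_eq_zero.mp (this.eq_zero hw)

theorem tendsto_leading (hw : 0 < w) (hF : HasQSeries w F f) :
    Tendsto (fun τ => F τ / qq w τ ^ f.order) atImInfty (𝓝 (f.coeff f.order)) :=
  hF.tendsto_div hw fun _ hm => HahnSeries.coeff_eq_zero_of_lt_order hm

theorem eventually_ne_zero (hw : 0 < w) (hF : HasQSeries w F f) (hf : f ≠ 0) :
    ∀ᶠ τ in atImInfty, F τ ≠ 0 := by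
  filter_upwards [(hF.tendsto_leading hw).eventually_ne ((fun h0 => hf (HahnSeries.coeff_order_eq_zero.mp h0)))]
    with τ hτ h0
  exact hτ (by rw [h0, zero_div])

theorem growth (hw : 0 < w) (hF : HasQSeries w F f) {m₀ : ℤ} (h : ∀ m < m₀, f.coeff m = 0) :
    ∃ C, ∀ᶠ τ in atImInfty, ‖F τ‖ ≤ C * ‖qq w τ‖ ^ m₀ := by
  refine ⟨‖f.coeff m₀‖ + 1, ?_⟩
  filter_upwards [(hF.tendsto_div hw h).norm.eventually (eventually_le_nhds (lt_add_one _))]
    with τ hτ
  rwa [norm_div, norm_zpow, div_le_iff₀ (by have := qq_ne_zero w τ; positivity)] at hτ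

/-- A growth bound bounds the order of the series from below. -/
theorem coeff_eq_zero_of_growth (hw : 0 < w) (hF : HasQSeries w F f) {C : ℝ} {m₀ : ℤ}
    (hC : ∀ᶠ τ in atImInfty, ‖F τ‖ ≤ C * ‖qq w τ‖ ^ m₀) {m : ℤ} (hm : m < m₀) : f.coeff m = 0 := by
  by_contra hne
  have hf : f ≠ 0 := fun h => hne (by simp [h])
  have hord : f.order ≤ m := HahnSeries.order_le_of_coeff_ne_zero hne
  obtain ⟨k, hk⟩ : ∃ k : ℕ, m₀ - f.order = (k : ℤ) + 1 := ⟨(m₀ - f.order - 1).toNat, by omega⟩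
  refine (fun h0 => hf (HahnSeries.coeff_order_eq_zero.mp h0))
    (tendsto_nhds_unique (hF.tendsto_leading hw)
      (squeeze_zero_norm' (a := fun τ => C * ‖qq w τ‖ ^ (k + 1)) ?_ ?_))
  · filter_upwards [hC] with τ hτ
    have h0 : 0 < ‖qq w τ‖ := norm_pos_iff.mpr (qq_ne_zero w τ)
    rw [norm_div, norm_zpow, div_le_iff₀ (zpow_pos h0 _)]
    refine hτ.trans_eq ?_
    rw [show m₀ = ((k + 1 : ℕ) : ℤ) + f.order by push_cast; omega, zpow_add₀ h0.ne', zpow_natCast]
    ring
  · have := ((tendsto_zero_iff_norm_tendsto_zero.mp (tendsto_qq w hw)).pow (k + 1)).const_mul C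
    simpa using this

/-- Substitution `τ ↦ (a τ + b) / d`. -/
theorem comp_affine (hw : 0 < w) (hF : HasQSeries w F f) (a d : ℕ) (ha : a ≠ 0) (hd : 0 < d)
    (b : ℤ) (φ : ℍ → ℍ) (hφ : ∀ τ : ℍ, (φ τ : ℂ) = ((a : ℂ) * τ + b) / d) (ζ : ℂˣ)
    (hζ : (ζ : ℂ) = Complex.exp (2 * Real.pi * Complex.I * b / (d * w : ℕ))) :
    HasQSeries (w * d) (fun τ => F (φ τ)) (expand a ha (twist ζ f)) := by
  rw [hasQSeries_iff] at *
  have hd' : (d : ℝ) ≠ 0 := by positivity
  have htend : Tendsto φ atImInfty atImInfty := by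
    rw [atImInfty, tendsto_comap_iff]
    have hev : (fun τ : ℍ => (φ τ).im) = fun τ : ℍ => (a : ℝ) / d * τ.im := by
      funext τ
      rw [← coe_im, hφ, Complex.div_natCast_im]
      simp; ring
    show Tendsto (fun τ : ℍ => (φ τ).im) _ _
    rw [hev]
    exact tendsto_comap.const_mul_atTop (by positivity)
  filter_upwards [htend.eventually hF] with τ hτ
  have hinj : Function.Injective fun m : ℤ => (a : ℤ) * m :=
    fun _ _ h => mul_left_cancel₀ (by exact_mod_cast ha) h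
  refine (hinj.hasSum_iff fun m hm => ?_).mp ?_
  · rw [expand_coeff_of_not_dvd a ha _ m (fun ⟨k, hk⟩ => hm ⟨k, hk.symm⟩), zero_mul]
  · convert! hτ using 2 with m
    simp only [Function.comp, expand_coeff_mul, twist_coeff, Units.val_zpow_eq_zpow_val, hζ,
      qq, ← Complex.exp_int_mul, mul_assoc, ← Complex.exp_add]
    rw [hφ]
    congr 2
    have hw' : (w : ℂ) ≠ 0 := Nat.cast_ne_zero.mpr hw.ne'
    have hd'' : (d : ℂ) ≠ 0 := Nat.cast_ne_zero.mpr hd.ne'
    push_cast
    field_simp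
    ring

theorem refine_width (hw : 0 < w) (hF : HasQSeries w F f) (k : ℕ) (hk : k ≠ 0) :
    HasQSeries (w * k) F (expand k hk f) := by
  have := hF.comp_affine hw k k hk (Nat.pos_of_ne_zero hk) 0 id
    (fun τ => by have : (k : ℂ) ≠ 0 := Nat.cast_ne_zero.mpr hk; simp; field_simp) 1 (by simp)
  have h1 : twist (1 : ℂˣ) f = f := by ext; simp
  rwa [h1] at this

/-- A function given by a series of width `w` near infinity is eventually `w`-periodic. -/
theorem eventually_periodic (hw : 0 < w) (hF : HasQSeries w F f) :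
    ∀ᶠ τ in atImInfty, F ((w : ℝ) +ᵥ τ) = F τ := by
  rw [hasQSeries_iff] at hF
  obtain ⟨A, hA⟩ := (atImInfty_mem _).mp hF
  refine (atImInfty_mem _).mpr ⟨A, fun τ hτ => ?_⟩
  have h1 := hA ((w : ℝ) +ᵥ τ) (by rwa [vadd_im])
  simp only [Set.mem_ofPred_eq, qq_add_nat w hw] at h1
  exact h1.unique (hA τ hτ)

end HasQSeries

/-- A periodic holomorphic function of moderate growth has a Laurent series. -/
theorem exists_hasQSeries {w : ℕ} (hw : 0 < w) {F : ℍ → ℂ} (hF : MDifferentiable 𝓘(ℂ) 𝓘(ℂ) F)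
    (hper : ∀ τ : ℍ, F ((w : ℝ) +ᵥ τ) = F τ) {C : ℝ} {B : ℕ}
    (hC : ∀ᶠ τ in atImInfty, ‖F τ‖ ≤ C * ‖qq w τ‖ ^ (-(B : ℤ))) :
    ∃ f : LaurentSeries ℂ, HasQSeries w F f ∧ ∀ m < -(B : ℤ), f.coeff m = 0 := by
  set G : ℍ → ℂ := fun τ => F τ * qq w τ ^ B with hG
  have hh : (0 : ℝ) < w := by exact_mod_cast hw
  have hGper : Function.Periodic (G ∘ ofComplex) (w : ℝ) := by
    intro z
    rcases lt_or_ge 0 z.im with hz | hz
    · have hz' : 0 < (z + ((w : ℝ) : ℂ)).im := by simp [hz]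
      have e : (⟨z + ((w : ℝ) : ℂ), hz'⟩ : ℍ) = (w : ℝ) +ᵥ (⟨z, hz⟩ : ℍ) :=
        UpperHalfPlane.ext (by rw [coe_vadd]; exact add_comm _ _)
      simp only [Function.comp, ofComplex_apply_of_im_pos hz, ofComplex_apply_of_im_pos hz', e, hG,
        hper, qq_add_nat w hw]
    · have hz' : (z + ((w : ℝ) : ℂ)).im ≤ 0 := by simp [hz]
      simp only [Function.comp, ofComplex_apply_of_im_nonpos hz, ofComplex_apply_of_im_nonpos hz']
  have hGhol : MDifferentiable 𝓘(ℂ) 𝓘(ℂ) G := by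
    rw [UpperHalfPlane.mdifferentiable_iff] at hF ⊢
    have h2 : DifferentiableOn ℂ (fun z : ℂ => Complex.exp (2 * Real.pi * Complex.I * z / w) ^ B)
        upperHalfPlaneSet := by
      apply Differentiable.differentiableOn
      fun_prop
    refine (hF.mul h2).congr fun z hz => ?_
    simp [hG, qq, ofComplex_apply_of_im_pos hz]
  have hGbdd : IsBoundedAtImInfty G := by
    refine Asymptotics.IsBigO.of_bound C ?_
    filter_upwards [hC] with τ hτ
    rw [hG, norm_mul, norm_pow]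
    have h0 : 0 < ‖qq w τ‖ := norm_pos_iff.mpr (qq_ne_zero w τ)
    simp only [Pi.one_apply, norm_one, mul_one]
    calc ‖F τ‖ * ‖qq w τ‖ ^ B ≤ C * ‖qq w τ‖ ^ (-(B : ℤ)) * ‖qq w τ‖ ^ B := by gcongr
    _ = C := by rw [mul_assoc, ← zpow_natCast, ← zpow_add₀ h0.ne']; simp
  set P := qExpansion (w : ℝ) G with hP
  refine ⟨HahnSeries.single (-(B : ℤ)) 1 * HahnSeries.ofPowerSeries ℤ ℂ P, ?_, ?_⟩
  · refine ((HasQSeries.single w (-(B : ℤ)) 1).mul (?_ : HasQSeries w G _)).congr ?_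
    · rw [hasQSeries_iff]
      refine .of_forall fun τ => ?_
      refine (Nat.cast_injective.hasSum_iff fun m hm => ?_).mp ?_
      · rw [HahnSeries.ofPowerSeries_apply, HahnSeries.embDomain_of_notMem_range, zero_mul]
        rintro ⟨k, hk⟩; exact hm ⟨k, hk⟩
      · simpa [Function.comp_def, qq_eq_qParam, HahnSeries.ofPowerSeries_apply_coeff, hP, smul_eq_mul]
          using hasSum_qExpansion hh hGper hGhol hGbdd τ
    · refine .of_forall fun τ => ?_
      simp only [Pi.mul_apply, one_mul, hG, zpow_neg, zpow_natCast]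
      field_simp [qq_ne_zero w τ]
  · intro m hm
    rw [HahnSeries.coeff_single_mul, HahnSeries.ofPowerSeries_apply,
      HahnSeries.embDomain_of_notMem_range, mul_zero]
    rintro ⟨k, hk⟩
    simp at hk
    omega

end Fermat.Agent.GalRep
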