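import Fermat.Agent.GalRep.KummerAut

/-!
# Algebra of Kummer representatives

Products, differences, cusp bounds, the bound on the order at infinity, and conjugation by
automorphisms of `ℂ`.
-/

set_option autoImplicit false

noncomputable section

namespace Fermat.Agent.GalRep

open UpperHalfPlane CongruenceSubgroup Filter Topology ModularGroup
open Fermat.Agent.Period (jFun Coset baseCoset)
open scoped MatrixGroups Manifold

variable {N : ℕ} [NeZero N] {n : ℕ} [NeZero n]

theorem le_order_of_coeff {f : LaurentSeries ℂ} (hf : f ≠ 0) {b : ℤ}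
    (h : ∀ m < b, f.coeff m = 0) : b ≤ f.order := by
  by_contra hlt
  exact HahnSeries.coeff_order_eq_zero.not.mpr hf (h _ (not_le.mp hlt))

theorem coeff_mul_eq_zero {f g : LaurentSeries ℂ} {a b : ℤ} (hf : ∀ m < a, f.coeff m = 0)
    (hg : ∀ m < b, g.coeff m = 0) {m : ℤ} (hm : m < a + b) : (f * g).coeff m = 0 := by
  rw [HahnSeries.coeff_mul]
  refine Finset.sum_eq_zero fun ij hij => ?_
  simp only [Finset.mem_antidiagonal] at hij
  rcases lt_or_ge ij.1 a with h | h
  · rw [hf _ h, zero_mul]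
  · rw [hg _ (by linarith [hij.2.2]), mul_zero]

/-- The poles at all cusps have order at most `b N` in the parameter of width `N`. -/
def CuspBound (N b : ℕ) (F : ℍ → ℂ) : Prop :=
  ∀ δ : SL(2, ℤ), ∃ h : LaurentSeries ℂ, HasQSeries N (fun τ => F (δ • τ)) h ∧
    ∀ m < -((b * N : ℕ) : ℤ), h.coeff m = 0

namespace CuspBound

variable {F G : ℍ → ℂ} {a b : ℕ}

theorem const (c : ℂ) : CuspBound N 0 (fun _ => c) := fun _ =>
  ⟨HahnSeries.C c, HasQSeries.const N c, fun m hm => by
    rw [zero_mul, Nat.cast_zero, neg_zero] at hm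
    simp [hm.ne]⟩

theorem mul (hF : CuspBound N a F) (hG : CuspBound N b G) : CuspBound N (a + b) (F * G) :=
  fun δ => by
    obtain ⟨f, hf, hf0⟩ := hF δ
    obtain ⟨g, hg, hg0⟩ := hG δ
    exact ⟨f * g, hf.mul hg, fun m hm => coeff_mul_eq_zero hf0 hg0
      (by rw [add_mul] at hm; push_cast at hm ⊢; linarith)⟩

theorem pow (hF : CuspBound N a F) : ∀ k : ℕ, CuspBound N (k * a) (F ^ k)
  | 0 => by rw [zero_mul, pow_zero]; exact CuspBound.const 1
  | k + 1 => by rw [pow_succ, add_mul, one_mul]; exact (hF.pow k).mul hF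

theorem sub (hF : CuspBound N a F) (hG : CuspBound N a G) : CuspBound N a (F - G) := fun δ => by
  obtain ⟨f, hf, hf0⟩ := hF δ
  obtain ⟨g, hg, hg0⟩ := hG δ
  exact ⟨f - g, hf.sub hg, fun m hm => by
    rw [HahnSeries.coeff_sub, hf0 m hm, hg0 m hm, sub_zero]⟩

end CuspBound

theorem cuspBound_iff_poleBound {χ : ParHom N (ZMod n)} {F : ℍ → ℂ}
    (hF : IsKummerRep N n χ F) {G : Polynomial (Polynomial ℂ)} (hnum : IsNum N n F G) (B : ℕ) :
    CuspBound N B F ↔ PoleBound N n B G := by
  rw [poleBound_iff hF hnum]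
  constructor
  · intro hb δ h hh
    obtain ⟨h', hh', h0⟩ := exists_series_rep hF δ
    obtain rfl := hh.unique (NeZero.pos N) hh'
    obtain ⟨h'', hh'', hc⟩ := hb δ
    obtain rfl := hh.unique (NeZero.pos N) hh''
    exact le_order_of_coeff h0 hc
  · intro hb δ
    obtain ⟨h, hh, -⟩ := exists_series_rep hF δ
    exact ⟨h, hh, fun m hm => HahnSeries.coeff_eq_zero_of_lt_order (hm.trans_le (hb δ h hh))⟩

theorem exists_cuspBound_rep (χ : ParHom N (ZMod n)) :
    ∃ F, IsKummerRep N n χ F ∧ CuspBound N 1 F := by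
  obtain ⟨F, G, hF, -, hnum, hb⟩ := exists_rep_poleBound χ
  exact ⟨F, hF, (cuspBound_iff_poleBound hF hnum 1).mpr hb⟩

namespace IsKummerRep

variable {χ χ' : ParHom N (ZMod n)} {F F' : ℍ → ℂ}

theorem char_unique (hF : IsKummerRep N n χ F) (hF' : IsKummerRep N n χ' F) : χ = χ' := by
  obtain ⟨τ, hτ⟩ := Function.ne_iff.mp hF.ne_zero
  refine Subtype.ext (AddMonoidHom.ext fun x => ?_)
  obtain ⟨γ, rfl⟩ := Additive.ofMul.surjective x
  refine ZMod.injective_stdAddChar (mul_right_cancel₀ hτ ?_)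
  exact (hF.equivariant γ τ).symm.trans (hF'.equivariant γ τ)

theorem mul (hF : IsKummerRep N n χ F) (hF' : IsKummerRep N n χ' F') :
    IsKummerRep N n (χ + χ') (F * F') where
  holo := hF.holo.mul hF'.holo
  ne_zero h := (Hecke.eq_zero_or_eq_zero_of_holo_mul hF.holo hF'.holo h).elim hF.ne_zero hF'.ne_zero
  equivariant γ τ := by
    show F _ * F' _ = _
    rw [hF.equivariant, hF'.equivariant, Submodule.coe_add, AddMonoidHom.add_apply,
      AddChar.map_add_eq_mul]
    show _ = _ * (F τ * F' τ)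
    ring
  cusps := hF.cusps.mul hF'.cusps

theorem one : IsKummerRep N n (0 : ParHom N (ZMod n)) 1 where
  holo := mdifferentiable_const
  ne_zero h := one_ne_zero (congrFun h UpperHalfPlane.I)
  equivariant γ τ := by simp
  cusps := hasSeriesAtCusps_const 1

theorem pow (hF : IsKummerRep N n χ F) : ∀ k : ℕ, IsKummerRep N n (k • χ) (F ^ k)
  | 0 => by rw [zero_smul, pow_zero]; exact IsKummerRep.one
  | k + 1 => by rw [succ_nsmul, pow_succ]; exact (hF.pow k).mul hF

theorem const_mul (hF : IsKummerRep N n χ F) {c : ℂ} (hc : c ≠ 0) :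
    IsKummerRep N n χ (fun τ => c * F τ) where
  holo := mdifferentiable_const.mul hF.holo
  ne_zero h := hF.ne_zero (funext fun τ => (mul_eq_zero.mp (congrFun h τ)).resolve_left hc)
  equivariant γ τ := by rw [hF.equivariant]; ring
  cusps := (hasSeriesAtCusps_const c).mul hF.cusps

theorem sub (hF : IsKummerRep N n χ F) (hF' : IsKummerRep N n χ F') (h : F - F' ≠ 0) :
    IsKummerRep N n χ (F - F') where
  holo := hF.holo.sub hF'.holo
  ne_zero := h
  equivariant γ τ := by
    show F _ - F' _ = _ * (F τ - F' τ)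
    rw [hF.equivariant, hF'.equivariant]; ring
  cusps δ := by
    obtain ⟨f, hf, -⟩ := exists_series_rep hF δ
    obtain ⟨g, hg, -⟩ := exists_series_rep hF' δ
    exact ⟨N, f - g, NeZero.pos N, hf.sub hg⟩

/-- A representative of the trivial character is a modular function. -/
theorem isModFun (hF : IsKummerRep N n (0 : ParHom N (ZMod n)) F) : IsModFun (Gamma0 N) F :=
  ⟨hF.holo, fun γ hγ τ => by simpa using hF.equivariant ⟨γ, hγ⟩ τ, hF.cusps⟩

theorem exists_series_one (hF : IsKummerRep N n χ F) :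
    ∃ f, HasQSeries 1 F f ∧ f ≠ 0 := by
  obtain ⟨w, f₀, hw, hf₀⟩ := hF.cusps 1
  simp only [one_smul] at hf₀
  have hper : ∀ τ : ℍ, F ((1 : ℝ) +ᵥ τ) = F τ := fun τ => by
    have hT : (1 : SL(2, ℤ)) * T ^ (1 : ℤ) * 1⁻¹ ∈ Gamma0 N := by
      simp [Gamma0_mem, ModularGroup.coe_T]
    simpa using hF.periodic 1 1 hT τ
  have hperN : ∀ (k : ℕ) (τ : ℍ), F ((k : ℝ) +ᵥ τ) = F τ := by
    intro k
    induction k with
    | zero => intro τ; simp
    | succ k ih =>
      intro τ
      rw [Nat.cast_succ, add_vadd, ih, hper]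
  obtain ⟨C, hC⟩ := hf₀.growth hw (m₀ := f₀.order) fun m hm =>
    HahnSeries.coeff_eq_zero_of_lt_order hm
  obtain ⟨f, hf, -⟩ := exists_hasQSeries one_pos hF.holo (fun τ => by
      rw [Nat.cast_one]; exact hper τ)
    (C := |C|) (B := f₀.order.natAbs) (by
      filter_upwards [hC] with τ hτ
      refine hτ.trans (mul_le_mul (le_abs_self C) ?_ (by positivity) (abs_nonneg _))
      have hq : qq 1 τ = qq w τ ^ w := by
        rw [qq, qq, ← Complex.exp_nat_mul]
        congr 1
        have : (w : ℂ) ≠ 0 := Nat.cast_ne_zero.mpr hw.ne'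
        push_cast
        field_simp
      rw [hq, norm_pow, ← zpow_natCast ‖qq w τ‖ w, ← zpow_mul]
      refine zpow_le_zpow_right_of_le_one₀ (norm_pos_iff.mpr (qq_ne_zero w τ))
        (norm_qq_lt_one w hw τ).le ?_
      have : (1 : ℤ) ≤ w := by exact_mod_cast hw
      nlinarith [Int.natCast_natAbs f₀.order, neg_abs_le f₀.order, abs_nonneg f₀.order])
  refine ⟨f, hf, fun h0 => hF.ne_zero ?_⟩
  rw [h0] at hf
  exact eq_of_hasQSeries hF.holo mdifferentiable_const hf (HasQSeries.zero 1)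

end IsKummerRep

theorem hasQSeries_expand {F : ℍ → ℂ} {f : LaurentSeries ℂ} (hf : HasQSeries 1 F f) :
    HasQSeries N (fun τ => F ((1 : SL(2, ℤ)) • τ)) (expand N (NeZero.ne N) f) := by
  have := hf.refine_width one_pos N (NeZero.ne N)
  rw [one_mul] at this
  simpa only [one_smul] using this

theorem one_inv_coset : (((1 : SL(2, ℤ))⁻¹ : SL(2, ℤ)) : Coset N) = baseCoset N := by
  rw [inv_one]; rfl

/-- The fundamental relation at infinity in width one. -/
theorem series_one_eq {F : ℍ → ℂ} {G : Polynomial (Polynomial ℂ)} (hnum : IsNum N n F G)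
    {f : LaurentSeries ℂ} (hf : HasQSeries 1 F f) :
    expand N (NeZero.ne N) f ^ n * biEval (jqN N) (serAlg N (node (baseCoset N)))
        (Polynomial.derivative (modPoly N)) =
      biEval (jqN N) (serAlg N (node (baseCoset N))) G := by
  have := series_rep_eq hnum 1 (hasQSeries_expand hf)
  rwa [one_inv_coset] at this

theorem exists_root_unity_of_pow_eq {a b : LaurentSeries ℂ} (hb : b ≠ 0) (h : a ^ n = b ^ n) :
    ∃ ω : ℂ, ω ^ n = 1 ∧ a = HahnSeries.C ω * b := by
  have hn : 0 < n := NeZero.pos n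
  have hprim := (Complex.isPrimitiveRoot_exp n hn.ne').map_of_injective
    (f := (HahnSeries.C : ℂ →+* LaurentSeries ℂ)) HahnSeries.C_injective
  obtain ⟨i, -, hi⟩ := hprim.eq_pow_of_pow_eq_one
    (show (a / b) ^ n = 1 by rw [div_pow, h, div_self (pow_ne_zero _ hb)])
  refine ⟨Complex.exp (2 * Real.pi * Complex.I / n) ^ i, ?_, ?_⟩
  · rw [← pow_mul, mul_comm i, pow_mul, (Complex.isPrimitiveRoot_exp n hn.ne').pow_eq_one, one_pow]
  · rw [map_pow, hi, div_mul_cancel₀ _ hb]

/-- Conjugation of representatives. -/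
theorem exists_conj_rep (σ : ℂ ≃+* ℂ) {χ : ParHom N (ZMod n)} {F : ℍ → ℂ}
    (hF : IsKummerRep N n χ F) {f : LaurentSeries ℂ} (hf : HasQSeries 1 F f) :
    ∃ (χ' : ParHom N (ZMod n)) (F' : ℍ → ℂ), IsKummerRep N n χ' F' ∧
      HasQSeries 1 F' (lmap σ.toRingHom f) ∧ ∀ B, CuspBound N B F → CuspBound N B F' := by
  obtain ⟨G, -, hnum⟩ := exists_num_of_rep hF
  obtain ⟨χ', F', hF', hnum'⟩ := rep_of_crit ((crit_of_rep hF hnum).map σ)
  obtain ⟨f', hf', hf'0⟩ := hF'.exists_series_one
  have h := congrArg (lmap σ.toRingHom) (series_one_eq hnum hf)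
  rw [map_mul, map_pow, lmap_expand, lmap_biEval, lmap_biEval, lmap_jqN, serAlg_node_base,
    lmap_expand, lmap_expand, lmap_jq, gmap_derivative_modPoly, ← serAlg_node_base,
    ← series_one_eq hnum' hf'] at h
  have hd := den_series_ne_zero (N := N) (baseCoset N)
  obtain ⟨ω, hωn, hω⟩ := exists_root_unity_of_pow_eq (n := n)
    (a := expand N (NeZero.ne N) (lmap σ.toRingHom f)) (b := expand N (NeZero.ne N) f')
    (fun h0 => hf'0 (expand_injective N (NeZero.ne N) (h0.trans (map_zero _).symm)))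
    (mul_right_cancel₀ hd h)
  have hω0 : ω ≠ 0 := fun h0 => by simp [h0, zero_pow (NeZero.ne n)] at hωn
  have hfω : lmap σ.toRingHom f = HahnSeries.C ω * f' := by
    apply expand_injective N (NeZero.ne N)
    rw [hω, map_mul]
    congr 1
    ext m
    by_cases hm : (N : ℤ) ∣ m
    · obtain ⟨k, rfl⟩ := hm
      rw [expand_coeff_mul]
      simp [HahnSeries.coeff_single, NeZero.ne N]
    · rw [expand_coeff_of_not_dvd _ _ _ _ hm]
      have : m ≠ 0 := fun h0 => hm (h0 ▸ dvd_zero _)
      simp [this]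
  have hrep := hF'.const_mul hω0
  have hnum'' : IsNum N n (fun τ => ω * F' τ) (gmap σ G) := fun τ => by
    rw [mul_pow, hωn, one_mul]; exact hnum' τ
  refine ⟨χ', _, hrep, hfω ▸ hf'.smul ω, fun B hB => ?_⟩
  exact (cuspBound_iff_poleBound hrep hnum'' B).mpr
    (((cuspBound_iff_poleBound hF hnum B).mp hB).map σ)

/-- The conjugate character does not depend on the representative. -/
theorem conj_char_unique (σ : ℂ ≃+* ℂ) {χ χ₁ χ₂ : ParHom N (ZMod n)} {E F E' F' : ℍ → ℂ}
    {e f : LaurentSeries ℂ} (hE : IsKummerRep N n χ E) (he : HasQSeries 1 E e)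
    (hF : IsKummerRep N n χ F) (hf : HasQSeries 1 F f)
    (hE' : IsKummerRep N n χ₁ E') (he' : HasQSeries 1 E' (lmap σ.toRingHom e))
    (hF' : IsKummerRep N n χ₂ F') (hf' : HasQSeries 1 F' (lmap σ.toRingHom f)) : χ₁ = χ₂ := by
  have hn : 0 < n := NeZero.pos n
  have hzero : ∀ ψ : ParHom N (ZMod n), ψ + (n - 1) • ψ = 0 := fun ψ => by
    rw [← succ_nsmul', show n - 1 + 1 = n by omega]
    refine Subtype.ext (AddMonoidHom.ext fun x => ?_)
    simp
  have hP := hF.mul (hE.pow (n - 1))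
  rw [hzero] at hP
  have hφ : IsKummerRep N 1 (0 : ParHom N (ZMod 1)) (F * E ^ (n - 1)) :=
    ⟨hP.holo, hP.ne_zero, fun γ τ => by
      simpa using hP.isModFun.invariant _ γ.2 τ, hP.cusps⟩
  obtain ⟨χ₃, φ', hφ', hφs, -⟩ := exists_conj_rep σ hφ (hf.mul (he.pow (n - 1)))
  rw [map_mul, map_pow] at hφs
  have hP' := hF'.mul (hE'.pow (n - 1))
  have heq : F' * E' ^ (n - 1) = φ' :=
    eq_of_hasQSeries hP'.holo hφ'.holo (hf'.mul (he'.pow (n - 1))) hφs
  have h0 : IsKummerRep N n (0 : ParHom N (ZMod n)) (F' * E' ^ (n - 1)) :=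
    ⟨hP'.holo, hP'.ne_zero, fun γ τ => by
      rw [heq, hφ'.equivariant γ τ,
        Subsingleton.elim ((χ₃ : Additive (Gamma0 N) →+ ZMod 1) (Additive.ofMul γ)) 0]
      simp, hP'.cusps⟩
  have h1 := hP'.char_unique h0
  exact add_right_cancel (b := (n - 1) • χ₁) ((hzero χ₁).trans h1.symm)

/-! ## The bound on the order at infinity -/

attribute [local instance] Classical.decEq

theorem order_prod_series {ι : Type*} (s : Finset ι) {f : ι → LaurentSeries ℂ}
    (h : ∀ i ∈ s, f i ≠ 0) : (∏ i ∈ s, f i).order = ∑ i ∈ s, (f i).order := by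
  induction s using Finset.induction with
  | empty => simp
  | insert a s ha ih =>
    have hs : ∀ i ∈ s, f i ≠ 0 := fun i hi => h i (Finset.mem_insert_of_mem hi)
    rw [Finset.prod_insert ha, Finset.sum_insert ha, HahnSeries.order_mul
      (h a (Finset.mem_insert_self a s)) (Finset.prod_ne_zero_iff.mpr hs), ih hs]

local instance instFintypeCosetRep : Fintype (Coset N) := Fintype.ofFinite _

theorem order_le_of_modFun {φ : ℍ → ℂ} (hφ : IsModFun (Gamma0 N) φ) {b : ℕ}
    (hb : CuspBound N b φ) {f : LaurentSeries ℂ} (hf : HasQSeries 1 φ f) (hf0 : f ≠ 0) :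
    f.order ≤ ((idx N - 1) * b : ℕ) := by
  set Φ : modFuns (Gamma0 N) := ⟨φ, hφ⟩ with hΦ
  have hser : ∀ q : Coset N, serAlg N (conjugate q Φ) ≠ 0 ∧
      -((b * N : ℕ) : ℤ) ≤ (serAlg N (conjugate q Φ)).order := fun q => by
    obtain ⟨h, hh, hc⟩ := hb q.out⁻¹
    have he : serAlg N (conjugate q Φ) = h :=
      (hasQSeries_serHom _).unique (NeZero.pos N) hh
    have hne : serAlg N (conjugate q Φ) ≠ 0 := by
      rw [ne_eq, map_eq_zero_iff _ (serAlg_injective N)]
      intro h0
      refine hf0 (hf.unique one_pos ?_)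
      have hz : φ = 0 := funext fun τ => by
        have h1 : φ (q.out⁻¹ • (q.out • τ)) = 0 := congrFun (congrArg Subtype.val h0) (q.out • τ)
        rwa [inv_smul_smul] at h1
      rw [hz]; exact HasQSeries.zero 1
    exact ⟨hne, by rw [he]; exact le_order_of_coeff (he ▸ hne) hc⟩
  obtain ⟨P, hP⟩ := exists_evJ_eq (N := N) (c := ∏ q, conjugate q Φ) fun g => by
    rw [map_prod]
    exact Fintype.prod_equiv (MulAction.toPerm g⁻¹) _ _ fun q => by simp [shift_conjugate]
  have hsum : ∑ q, (serAlg N (conjugate q Φ)).order ≤ 0 := by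
    have hprod : serAlg N (evJ (Gamma N) P) = ∏ q, serAlg N (conjugate q Φ) := by rw [hP, map_prod]
    have hP0 : P ≠ 0 := fun h0 => Finset.prod_ne_zero_iff.mpr (fun q _ => (hser q).1)
      (by rw [← hprod, h0, map_zero, map_zero])
    have h1 := congrArg HahnSeries.order hprod
    rw [order_prod_series _ (fun q _ => (hser q).1)] at h1
    rw [← h1]
    have h2 := (hasQSeries_aeval_jFun P).refine_width one_pos N (NeZero.ne N)
    rw [one_mul] at h2
    have h3 : serAlg N (evJ (Gamma N) P) = expand N (NeZero.ne N) (Polynomial.aeval jq P) :=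
      (hasQSeries_serHom _).unique (NeZero.pos N)
        (h2.congr (.of_forall fun τ => (evJ_apply _ P τ).symm))
    rw [h3, order_expand, (order_aeval_jq hP0).2]
    have : (0 : ℤ) ≤ (N : ℤ) * P.natDegree := by positivity
    linarith
  have hbase : (serAlg N (conjugate (baseCoset N) Φ)).order = (N : ℤ) * f.order := by
    have : serAlg N (conjugate (baseCoset N) Φ) = expand N (NeZero.ne N) f := by
      refine (hasQSeries_serHom _).unique (NeZero.pos N) ?_
      rw [conjugate_baseCoset]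
      have := hf.refine_width one_pos N (NeZero.ne N)
      rwa [one_mul] at this
    rw [this, order_expand]
  rw [← Finset.add_sum_erase _ _ (Finset.mem_univ (baseCoset N)), hbase] at hsum
  have hrest : ((idx N - 1 : ℕ) : ℤ) * -((b * N : ℕ) : ℤ) ≤
      ∑ q ∈ Finset.univ.erase (baseCoset N), (serAlg N (conjugate q Φ)).order := by
    refine le_trans (le_of_eq ?_) (Finset.card_nsmul_le_sum _ _ _ fun q _ => (hser q).2)
    rw [Finset.card_erase_of_mem (Finset.mem_univ _), Finset.card_univ, Fintype.card_eq_nat_card,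
      nsmul_eq_mul]
  have hN : (0 : ℤ) < N := by exact_mod_cast NeZero.pos N
  push_cast at hrest ⊢
  nlinarith

theorem order_le_of_rep {χ : ParHom N (ZMod n)} {F : ℍ → ℂ} (hF : IsKummerRep N n χ F) {b : ℕ}
    (hb : CuspBound N b F) {f : LaurentSeries ℂ} (hf : HasQSeries 1 F f) :
    f.order ≤ ((idx N - 1) * b : ℕ) := by
  obtain ⟨f', hf', hf0⟩ := hF.exists_series_one
  obtain rfl := hf.unique one_pos hf'
  have := order_le_of_modFun hF.isModFun_pow (hb.pow n) (hf.pow n) (pow_ne_zero _ hf0)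
  rw [HahnSeries.order_pow, nsmul_eq_mul] at this
  have hn : (0 : ℤ) < n := by exact_mod_cast NeZero.pos n
  push_cast at this ⊢
  nlinarith

end Fermat.Agent.GalRep
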