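import Mathlib

/-!
# Taylor series of germs, local coordinates and roots of holomorphic functions
-/

set_option autoImplicit false

noncomputable section

namespace Fermat.Agent.GalRep

open Filter Topology Metric
open UpperHalfPlane (upperHalfPlaneSet)

/-! ## Taylor series -/

/-- The Taylor series at `0`. -/
def taylorSeries (G : ℂ → ℂ) : PowerSeries ℂ :=
  .mk fun m => (↑m.factorial)⁻¹ * iteratedDeriv m G 0

theorem taylorSeries_congr {F G : ℂ → ℂ} (h : F =ᶠ[𝓝 0] G) : taylorSeries F = taylorSeries G := by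
  ext m; simp [taylorSeries, h.iteratedDeriv_eq m]

/-- Functions analytic at `0`. -/
def germs : Subring (ℂ → ℂ) where
  carrier := {F | AnalyticAt ℂ F 0}
  mul_mem' ha hb := ha.mul hb
  one_mem' := analyticAt_const
  add_mem' ha hb := ha.add hb
  zero_mem' := analyticAt_const
  neg_mem' ha := ha.neg

theorem taylorSeries_const (c : ℂ) : taylorSeries (fun _ => c) = PowerSeries.C c := by
  ext m
  rcases m with _ | m
  · simp [taylorSeries]
  · simp [taylorSeries, iteratedDeriv_const, PowerSeries.coeff_C]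

theorem taylorSeries_add {F G : ℂ → ℂ} (hF : AnalyticAt ℂ F 0) (hG : AnalyticAt ℂ G 0) :
    taylorSeries (F + G) = taylorSeries F + taylorSeries G := by
  ext m
  simp [taylorSeries, iteratedDeriv_add (hF.contDiffAt (n := m)) (hG.contDiffAt (n := m)), mul_add]

theorem taylorSeries_mul {F G : ℂ → ℂ} (hF : AnalyticAt ℂ F 0) (hG : AnalyticAt ℂ G 0) :
    taylorSeries (F * G) = taylorSeries F * taylorSeries G := by
  ext m
  simp only [taylorSeries, PowerSeries.coeff_mk, iteratedDeriv_mul hF.contDiffAt hG.contDiffAt,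
    Finset.mul_sum, PowerSeries.coeff_mul, Finset.Nat.sum_antidiagonal_eq_sum_range_succ_mk,
    Nat.succ_eq_add_one]
  refine Finset.sum_congr rfl fun i hi => ?_
  rw [Nat.cast_choose _ (by grind)]
  field_simp [Nat.factorial_ne_zero]

/-- The Taylor series as a ring homomorphism. -/
def taylorHom : germs →+* PowerSeries ℂ where
  toFun F := taylorSeries F.1
  map_one' := by
    show taylorSeries (fun _ => (1 : ℂ)) = 1
    rw [taylorSeries_const, map_one]
  map_mul' F G := taylorSeries_mul F.2 G.2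
  map_zero' := by
    show taylorSeries (fun _ => (0 : ℂ)) = 0
    rw [taylorSeries_const, map_zero]
  map_add' F G := taylorSeries_add F.2 G.2

theorem order_taylorSeries {F : ℂ → ℂ} (hF : AnalyticAt ℂ F 0) :
    (taylorSeries F).order = analyticOrderAt F 0 := by
  apply ENat.eq_of_forall_natCast_le_iff
  intro k
  rw [natCast_le_analyticOrderAt_iff_iteratedDeriv_eq_zero hF]
  constructor
  · intro h i hi
    have := PowerSeries.coeff_of_lt_order i (lt_of_lt_of_le (by exact_mod_cast hi) h)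
    simpa [taylorSeries, Nat.factorial_ne_zero] using this
  · intro h
    refine PowerSeries.nat_le_order _ _ fun i hi => ?_
    simp [taylorSeries, h i hi]

/-- Local coordinate in which a function is a shifted power. -/
theorem exists_local_coord {f : ℂ → ℂ} {z₀ : ℂ} (hf : AnalyticAt ℂ f z₀) {e : ℕ} (he : 0 < e)
    (hord : analyticOrderAt (fun z => f z - f z₀) z₀ = (e : ℕ∞)) :
    ∃ ψ : ℂ → ℂ, AnalyticAt ℂ ψ 0 ∧ ψ 0 = z₀ ∧ deriv ψ 0 ≠ 0 ∧
      ∀ᶠ u in 𝓝 0, f (ψ u) = f z₀ + u ^ e := by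
  obtain ⟨h, hh, hh0, hev⟩ :=
    (AnalyticAt.analyticOrderAt_eq_natCast (hf.sub analyticAt_const)).mp hord
  have he' : (e : ℂ) ≠ 0 := Nat.cast_ne_zero.mpr he.ne'
  set r : ℂ → ℂ := fun z => Complex.exp ((Complex.log (h z / h z₀) + Complex.log (h z₀)) / e) with hr
  have hra : AnalyticAt ℂ r z₀ := by
    refine AnalyticAt.cexp' (AnalyticAt.div_const (AnalyticAt.add ?_ analyticAt_const))
    exact (hh.div_const).clog (by rw [div_self hh0]; exact Complex.one_mem_slitPlane)
  have hre : ∀ᶠ z in 𝓝 z₀, r z ^ e = h z := by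
    filter_upwards [hh.continuousAt.eventually_ne hh0] with z hz
    rw [hr, ← Complex.exp_nat_mul, mul_div_cancel₀ _ he', Complex.exp_add,
      Complex.exp_log (div_ne_zero hz hh0), Complex.exp_log hh0, div_mul_cancel₀ _ hh0]
  set u : ℂ → ℂ := fun z => (z - z₀) * r z with hu
  have hua : AnalyticAt ℂ u z₀ := (analyticAt_id.sub analyticAt_const).mul hra
  have hu' : deriv u z₀ ≠ 0 := by
    have hd : HasDerivAt u (r z₀) z₀ :=
      (((hasDerivAt_id z₀).sub_const z₀).mul hra.differentiableAt.hasDerivAt).congr_deriv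
        (by simp)
    rw [hd.deriv]
    exact Complex.exp_ne_zero _
  set ψ := hua.hasStrictDerivAt.localInverse _ _ _ hu' with hψ
  have hu0 : u z₀ = 0 := by simp [hu]
  have hψa : AnalyticAt ℂ ψ 0 := hu0 ▸ hua.analyticAt_localInverse hu'
  have hψ0 : ψ 0 = z₀ := by
    rw [← hu0]
    exact HasStrictFDerivAt.localInverse_apply_image _
  refine ⟨ψ, hψa, hψ0, ?_, ?_⟩
  · have hd := hua.hasStrictDerivAt.to_localInverse hu'
    rw [hu0] at hd
    rw [hd.hasDerivAt.deriv]
    exact inv_ne_zero hu'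
  · have hright : ∀ᶠ y in 𝓝 0, u (ψ y) = y := hu0 ▸
      HasStrictDerivAt.eventually_right_inverse hua.hasStrictDerivAt hu'
    have htend : Tendsto ψ (𝓝 0) (𝓝 z₀) := hψ0 ▸ hψa.continuousAt.tendsto
    filter_upwards [hright, htend.eventually hev, htend.eventually hre] with y h1 h2 h3
    simp only [smul_eq_mul, Pi.sub_apply] at h2
    have h4 : (ψ y - z₀) ^ e * h (ψ y) = y ^ e := by
      conv_rhs => rw [← h1]
      rw [← h3, hu, mul_pow]
    linear_combination h2 + h4

/-! ## Roots -/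

/-- Two continuous `n`-th roots of the same function agreeing at a nonvanishing point agree nearby. -/
theorem eventuallyEq_of_pow_eq {X : Type*} [TopologicalSpace X] {n : ℕ} (hn : 0 < n)
    {g₁ g₂ : X → ℂ} {x : X} (h1 : ContinuousAt g₁ x) (h2 : ContinuousAt g₂ x)
    (heq : g₁ x = g₂ x) (hne : g₁ x ≠ 0) (hpow : ∀ᶠ z in 𝓝 x, g₁ z ^ n = g₂ z ^ n) :
    g₁ =ᶠ[𝓝 x] g₂ := by
  have hfin : ({c : ℂ | c ^ n = 1} \ {1}).Finite := by
    refine ((Polynomial.nthRoots n (1 : ℂ)).toFinset.finite_toSet).subset fun c hc => ?_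
    simpa [Polynomial.mem_nthRoots hn] using hc.1
  have hr : ContinuousAt (fun z => g₁ z / g₂ z) x := h1.div h2 (heq ▸ hne)
  have h1' : ∀ᶠ z in 𝓝 x, g₁ z / g₂ z ∉ ({c : ℂ | c ^ n = 1} \ {1}) :=
    hr.eventually_mem (hfin.isClosed.isOpen_compl.mem_nhds
      (fun hmem => hmem.2 (by simp [heq, div_self (heq ▸ hne)])))
  filter_upwards [h1', hpow, h2.eventually_ne (heq ▸ hne)] with z hz hp hne2
  by_contra hzz
  refine hz ⟨?_, ?_⟩
  · show (g₁ z / g₂ z) ^ n = 1
    rw [div_pow, hp, div_self (pow_ne_zero _ hne2)]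
  · rw [Set.mem_singleton_iff, div_eq_one_iff_eq hne2]; exact hzz

/-- A root on a disc when all orders are divisible by `n` and the zeros are finite in number. -/
theorem exists_root_ball_of_finite {n : ℕ} (hn : 0 < n) {c : ℂ} {r : ℝ} (S : Finset ℂ) :
    ∀ {f : ℂ → ℂ}, AnalyticOnNhd ℂ f (ball c r) → (∀ z ∈ ball c r, f z = 0 → z ∈ S) →
      (∀ z ∈ ball c r, ∃ k : ℕ, analyticOrderAt f z = ((n * k : ℕ) : ℕ∞)) →
      ∃ g : ℂ → ℂ, AnalyticOnNhd ℂ g (ball c r) ∧ ∀ z ∈ ball c r, g z ^ n = f z := by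
  induction S using Finset.induction with
  | empty =>
    intro f hf hzero _
    rcases le_or_gt r 0 with hr | hr
    · exact ⟨0, by simp [ball_eq_empty.mpr hr, AnalyticOnNhd],
        by simp [ball_eq_empty.mpr hr]⟩
    have hne : ∀ z ∈ ball c r, f z ≠ 0 := fun z hz h0 => Finset.notMem_empty z (hzero z hz h0)
    have hdd : DifferentiableOn ℂ (fun z => deriv f z / f z) (ball c r) :=
      ((hf.deriv).differentiableOn).div hf.differentiableOn hne
    obtain ⟨L, hL0, hL⟩ := hdd.isExactOn_ball.with_val_at c (Complex.log (f c))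
    have hLd : DifferentiableOn ℂ L (ball c r) :=
      fun z hz => (hL z hz).differentiableAt.differentiableWithinAt
    have hconst : ∀ z ∈ ball c r, Complex.exp (L z) = f z := by
      intro z hz
      have hd : ∀ y ∈ ball c r, HasDerivAt (fun y => f y * Complex.exp (-L y)) 0 y := by
        intro y hy
        refine (((hf y hy).differentiableAt.hasDerivAt).mul ((hL y hy).neg.cexp)).congr_deriv ?_
        field_simp [hne y hy]; ring
      have heq : f z * Complex.exp (-L z) = f c * Complex.exp (-L c) :=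
        isOpen_ball.is_const_of_deriv_eq_zero (convex_ball c r).isPreconnected
          (fun y hy => (hd y hy).differentiableAt.differentiableWithinAt)
          (fun y hy => (hd y hy).deriv) hz (mem_ball_self hr)
      rw [hL0, Complex.exp_neg (Complex.log _), Complex.exp_log (hne c (mem_ball_self hr)),
        mul_inv_cancel₀ (hne c (mem_ball_self hr)), Complex.exp_neg,
        mul_inv_eq_one₀ (Complex.exp_ne_zero _)] at heq
      exact heq.symm
    refine ⟨fun z => Complex.exp (L z / n),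
      (hLd.div_const (n : ℂ)).cexp.analyticOnNhd isOpen_ball, fun z hz => ?_⟩
    rw [← Complex.exp_nat_mul, mul_div_cancel₀ _ (Nat.cast_ne_zero.mpr hn.ne'), hconst z hz]
  | insert a S ha ih =>
    intro f hf hzero hord
    by_cases haB : a ∈ ball c r
    swap
    · exact ih hf (fun z hz h0 => (Finset.mem_insert.mp (hzero z hz h0)).resolve_left
        fun h => haB (h ▸ hz)) hord
    obtain ⟨k, hk⟩ := hord a haB
    obtain ⟨h, hha, hh0, hev⟩ := ((hf a haB).analyticOrderAt_eq_natCast).mp hk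
    simp only [smul_eq_mul] at hev
    set f₁ : ℂ → ℂ := Function.update (fun z => f z / (z - a) ^ (n * k)) a (h a) with hf₁
    have hf₁a : f₁ =ᶠ[𝓝 a] h := by
      filter_upwards [hev] with z hz
      rcases eq_or_ne z a with rfl | hza
      · simp [hf₁]
      · rw [hf₁, Function.update_of_ne hza, hz]
        field_simp [sub_ne_zero.mpr hza]
    have hf₁e : ∀ z, z ≠ a → f₁ =ᶠ[𝓝 z] fun y => f y / (y - a) ^ (n * k) := fun z hz => by
      filter_upwards [isOpen_ne.mem_nhds hz] with y hy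
      rw [hf₁, Function.update_of_ne hy]
    have hf₁an : AnalyticOnNhd ℂ f₁ (ball c r) := by
      intro z hz
      rcases eq_or_ne z a with rfl | hza
      · exact hha.congr hf₁a.symm
      · exact ((hf z hz).div ((analyticAt_id.sub analyticAt_const).pow _)
          (pow_ne_zero _ (sub_ne_zero.mpr hza))).congr (hf₁e z hza).symm
    have hzero₁ : ∀ z ∈ ball c r, f₁ z = 0 → z ∈ S := by
      intro z hz h0
      rcases eq_or_ne z a with rfl | hza
      · exact absurd (hf₁a.eq_of_nhds ▸ h0) hh0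
      · rw [hf₁, Function.update_of_ne hza, div_eq_zero_iff] at h0
        exact (Finset.mem_insert.mp (hzero z hz (h0.resolve_right
          (pow_ne_zero _ (sub_ne_zero.mpr hza))))).resolve_left hza
    have hord₁ : ∀ z ∈ ball c r, ∃ k' : ℕ, analyticOrderAt f₁ z = ((n * k' : ℕ) : ℕ∞) := by
      intro z hz
      rcases eq_or_ne z a with rfl | hza
      · refine ⟨0, ?_⟩
        rw [analyticOrderAt_congr hf₁a, mul_zero, Nat.cast_zero, hha.analyticOrderAt_eq_zero]
        exact hh0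
      · obtain ⟨k', hk'⟩ := hord z hz
        refine ⟨k', ?_⟩
        rw [analyticOrderAt_congr (hf₁e z hza), ← hk']
        have hinv : AnalyticAt ℂ (fun y => ((y - a) ^ (n * k))⁻¹) z :=
          ((analyticAt_id.sub analyticAt_const).pow _).inv (pow_ne_zero _ (sub_ne_zero.mpr hza))
        simp only [div_eq_mul_inv]
        rw [show (fun y => f y * ((y - a) ^ (n * k))⁻¹) = f * fun y => ((y - a) ^ (n * k))⁻¹ from rfl,
          analyticOrderAt_mul (hf z hz) hinv,
          (hinv.analyticOrderAt_eq_zero).mpr (inv_ne_zero (pow_ne_zero _ (sub_ne_zero.mpr hza))),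
          add_zero]
    obtain ⟨g, hg, hgeq⟩ := ih hf₁an hzero₁ hord₁
    refine ⟨fun z => (z - a) ^ k * g z,
      fun z hz => ((analyticAt_id.sub analyticAt_const).pow _).mul (hg z hz), fun z hz => ?_⟩
    rw [mul_pow, hgeq z hz, ← pow_mul, mul_comm k n]
    rcases eq_or_ne z a with rfl | hza
    · rw [hf₁a.eq_of_nhds]; exact hev.self_of_nhds.symm
    · rw [hf₁, Function.update_of_ne hza]
      field_simp [sub_ne_zero.mpr hza]

/-- A root on the unit disc. -/
theorem exists_root_unitBall {n : ℕ} (hn : 0 < n) {f : ℂ → ℂ}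
    (hf : AnalyticOnNhd ℂ f (ball 0 1))
    (hord : ∀ z ∈ ball (0 : ℂ) 1, ∃ k : ℕ, analyticOrderAt f z = ((n * k : ℕ) : ℕ∞)) :
    ∃ g : ℂ → ℂ, AnalyticOnNhd ℂ g (ball 0 1) ∧ ∀ z ∈ ball (0 : ℂ) 1, g z ^ n = f z := by
  classical
  -- the zeros are isolated
  have hiso : ∀ z ∈ ball (0 : ℂ) 1, ∀ᶠ y in 𝓝[≠] z, f y ≠ 0 := by
    intro z hz
    rcases (hf z hz).eventually_eq_zero_or_eventually_ne_zero with h | h
    · obtain ⟨k, hk⟩ := hord z hz
      rw [analyticOrderAt_eq_top.mpr h] at hk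
      exact absurd hk.symm (ENat.natCast_ne_top _)
    · exact h
  obtain ⟨z₀, hz₀, hfz₀⟩ : ∃ z₀ ∈ ball (0 : ℂ) (1/2), f z₀ ≠ 0 := by
    have := ((hiso 0 (mem_ball_self one_pos)).and
      (nhdsWithin_le_nhds (ball_mem_nhds (0 : ℂ) (by norm_num : (0 : ℝ) < 1/2)))).exists
    obtain ⟨y, h1, h2⟩ := this
    exact ⟨y, h2, h1⟩
  obtain ⟨w₀, hw₀⟩ := IsAlgClosed.exists_pow_nat_eq (f z₀) hn
  let ρ : ℕ → ℝ := fun m => 1 - 1 / (m + 2)
  have hρ1 : ∀ m, ρ m < 1 := fun m => by
    simp only [ρ, sub_lt_self_iff]; positivity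
  have hρ0 : ∀ m, 1/2 ≤ ρ m := fun m => by
    simp only [ρ]
    have h2 : (2 : ℝ) ≤ (m : ℝ) + 2 := le_add_of_nonneg_left (Nat.cast_nonneg m)
    have h3 : 1 / ((m : ℝ) + 2) ≤ 1 / 2 := one_div_le_one_div_of_le two_pos h2
    linarith
  have hloc : ∀ m, ∃ g : ℂ → ℂ, AnalyticOnNhd ℂ g (ball 0 (ρ m)) ∧
      (∀ z ∈ ball (0 : ℂ) (ρ m), g z ^ n = f z) ∧ g z₀ = w₀ := by
    intro m
    have hsub : closedBall (0 : ℂ) (ρ m) ⊆ ball 0 1 := closedBall_subset_ball (hρ1 m)
    obtain ⟨t, -, ht⟩ := (isCompact_closedBall (0 : ℂ) (ρ m)).elim_nhds_subcover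
      (fun z => {y | y ≠ z → f y ≠ 0})
      (fun z hz => eventually_nhdsWithin_iff.mp (hiso z (hsub hz)))
    have hfin : ∀ z ∈ ball (0 : ℂ) (ρ m), f z = 0 → z ∈ t := by
      intro z hz h0
      obtain ⟨y, hyt, hy⟩ := Set.mem_iUnion₂.mp (ht (ball_subset_closedBall hz))
      by_contra hzt
      exact hy (fun h => hzt (h ▸ hyt)) h0
    have hsub' : ball (0 : ℂ) (ρ m) ⊆ ball 0 1 := ball_subset_ball (hρ1 m).le
    obtain ⟨g, hg, hgeq⟩ := exists_root_ball_of_finite hn t (hf.mono hsub') hfin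
      (fun z hz => hord z (hsub' hz))
    have hz₀m : z₀ ∈ ball (0 : ℂ) (ρ m) := ball_subset_ball (hρ0 m) hz₀
    have hg0 : g z₀ ≠ 0 := fun h => hfz₀ (by rw [← hgeq z₀ hz₀m, h, zero_pow hn.ne'])
    refine ⟨fun z => w₀ / g z₀ * g z, fun z hz => analyticAt_const.mul (hg z hz), fun z hz => ?_,
      div_mul_cancel₀ _ hg0⟩
    rw [mul_pow, div_pow, hw₀, hgeq z₀ hz₀m, div_self hfz₀, one_mul, hgeq z hz]
  choose g hg hgeq hg0 using hloc
  have hagree : ∀ m m', ρ m ≤ ρ m' → Set.EqOn (g m) (g m') (ball 0 (ρ m)) := by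
    intro m m' hle
    have hz₀m : z₀ ∈ ball (0 : ℂ) (ρ m) := ball_subset_ball (hρ0 m) hz₀
    refine (hg m).eqOn_of_preconnected_of_eventuallyEq ((hg m').mono (ball_subset_ball hle))
      (convex_ball _ _).isPreconnected hz₀m ?_
    refine eventuallyEq_of_pow_eq hn (hg m z₀ hz₀m).continuousAt
      (hg m' z₀ (ball_subset_ball hle hz₀m)).continuousAt (by rw [hg0, hg0]) ?_ ?_
    · rw [hg0]; intro h; exact hfz₀ (by rw [← hw₀, h, zero_pow hn.ne'])
    · filter_upwards [isOpen_ball.mem_nhds hz₀m] with z hz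
      rw [hgeq m z hz, hgeq m' z (ball_subset_ball hle hz)]
  have hex : ∀ z ∈ ball (0 : ℂ) 1, ∃ m, z ∈ ball (0 : ℂ) (ρ m) := by
    intro z hz
    rw [mem_ball_zero_iff] at hz
    obtain ⟨m, hm⟩ := exists_nat_one_div_lt (sub_pos.mpr hz)
    refine ⟨m, mem_ball_zero_iff.mpr ?_⟩
    have : 1 / ((m : ℝ) + 2) ≤ 1 / ((m : ℝ) + 1) :=
      one_div_le_one_div_of_le (Nat.cast_add_one_pos m) (by linarith)
    simp only [ρ]
    linarith
  let G : ℂ → ℂ := fun z => if h : ∃ m, z ∈ ball (0 : ℂ) (ρ m) then g (Nat.find h) z else 0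
  have hG : ∀ m, ∀ z ∈ ball (0 : ℂ) (ρ m), G z = g m z := by
    intro m z hz
    have hex' : ∃ m, z ∈ ball (0 : ℂ) (ρ m) := ⟨m, hz⟩
    simp only [G, dif_pos hex']
    rcases le_total (ρ (Nat.find hex')) (ρ m) with hle | hle
    · exact hagree _ _ hle (Nat.find_spec hex')
    · exact (hagree _ _ hle hz).symm
  refine ⟨G, fun z hz => ?_, fun z hz => ?_⟩
  · obtain ⟨m, hm⟩ := hex z hz
    exact (hg m z hm).congr (by
      filter_upwards [isOpen_ball.mem_nhds hm] with y hy using (hG m y hy).symm)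
  · obtain ⟨m, hm⟩ := hex z hz
    rw [hG m z hm, hgeq m z hm]

/-- The quotient `a / b` has an `n`-th root on the upper half plane when the orders differ by
nonnegative multiples of `n`. -/
theorem exists_root_upperHalfPlane {n : ℕ} (hn : 0 < n) {a b : ℂ → ℂ}
    (ha : AnalyticOnNhd ℂ a upperHalfPlaneSet) (hb : AnalyticOnNhd ℂ b upperHalfPlaneSet)
    (hbfin : ∀ z ∈ upperHalfPlaneSet, analyticOrderAt b z ≠ ⊤)
    (hord : ∀ z ∈ upperHalfPlaneSet, ∃ k : ℕ,
      analyticOrderAt a z = analyticOrderAt b z + ((n * k : ℕ) : ℕ∞)) :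
    ∃ F : ℂ → ℂ, AnalyticOnNhd ℂ F upperHalfPlaneSet ∧
      ∀ z ∈ upperHalfPlaneSet, F z ^ n * b z = a z := by
  let f : ℂ → ℂ := fun z => limUnder (𝓝[≠] z) fun y => a y / b y
  have key : ∀ z ∈ upperHalfPlaneSet, AnalyticAt ℂ f z ∧ (∀ᶠ y in 𝓝 z, f y * b y = a y) := by
    intro z hz
    obtain ⟨kb, hkb⟩ := ENat.ne_top_iff_exists.mp (hbfin z hz)
    obtain ⟨k, hk⟩ := hord z hz
    obtain ⟨B, hB, hB0, hbev⟩ := ((hb z hz).analyticOrderAt_eq_natCast).mp hkb.symm
    rw [← hkb, ← Nat.cast_add] at hk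
    obtain ⟨A, hA, hA0, haev⟩ := ((ha z hz).analyticOrderAt_eq_natCast).mp hk
    simp only [smul_eq_mul] at hbev haev
    set g : ℂ → ℂ := fun y => (y - z) ^ (n * k) * (A y / B y) with hg
    have hga : AnalyticAt ℂ g z :=
      ((analyticAt_id.sub analyticAt_const).pow _).mul (hA.div hB hB0)
    have hgood : ∀ᶠ y in 𝓝 z, (y ≠ z → a y / b y = g y) ∧ g y * b y = a y := by
      filter_upwards [haev, hbev, hB.continuousAt.eventually_ne hB0] with y h1 h2 h3
      refine ⟨fun hy => ?_, ?_⟩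
      · rw [h1, h2, hg, pow_add]; field_simp [sub_ne_zero.mpr hy]
      · rw [h1, h2, hg, pow_add]; field_simp
    have hfg : f =ᶠ[𝓝 z] g := by
      have h2 : ∀ᶠ y in 𝓝 z, ContinuousAt g y :=
        hga.eventually_analyticAt.mono fun y hy => hy.continuousAt
      filter_upwards [hgood.eventually_nhds, h2] with y hy hc
      have hh : (fun w => a w / b w) =ᶠ[𝓝[≠] y] g := by
        rcases eq_or_ne y z with rfl | hyz
        · exact eventually_nhdsWithin_iff.mpr (hy.mono fun w hw hwz => hw.1 hwz)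
        · exact nhdsWithin_le_nhds
            ((hy.and (isOpen_ne.mem_nhds hyz)).mono fun w hw => hw.1.1 hw.2)
      exact ((hc.tendsto.mono_left nhdsWithin_le_nhds).congr' hh.symm).limUnder_eq
    refine ⟨hga.congr hfg.symm, ?_⟩
    filter_upwards [hfg, hgood] with y h1 h2
    rw [h1]; exact h2.2
  have hfan : AnalyticOnNhd ℂ f upperHalfPlaneSet := fun z hz => (key z hz).1
  have hford : ∀ z ∈ upperHalfPlaneSet, ∃ k : ℕ, analyticOrderAt f z = ((n * k : ℕ) : ℕ∞) := by
    intro z hz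
    obtain ⟨k, hk⟩ := hord z hz
    refine ⟨k, ?_⟩
    obtain ⟨kb, hkb⟩ := ENat.ne_top_iff_exists.mp (hbfin z hz)
    have h1 : analyticOrderAt (f * b) z = analyticOrderAt a z := analyticOrderAt_congr (key z hz).2
    rw [analyticOrderAt_mul (hfan z hz) (hb z hz), hk, add_comm (analyticOrderAt b z), ← hkb] at h1
    exact WithTop.add_right_cancel (ENat.natCast_ne_top kb) h1
  -- transport to the unit disc
  let C : ℂ → ℂ := fun w => Complex.I * (1 + w) / (1 - w)
  let D : ℂ → ℂ := fun z => (z - Complex.I) / (z + Complex.I)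
  have h1w : ∀ w ∈ ball (0 : ℂ) 1, (1 : ℂ) - w ≠ 0 := by
    intro w hw h
    rw [mem_ball_zero_iff, ← sub_eq_zero.mp h] at hw
    simp at hw
  have hC : ∀ w ∈ ball (0 : ℂ) 1, C w ∈ upperHalfPlaneSet := by
    intro w hw
    have h1 : Complex.normSq w < 1 := by
      rw [Complex.normSq_eq_norm_sq]
      rw [mem_ball_zero_iff] at hw
      nlinarith [norm_nonneg w]
    show 0 < (C w).im
    have h2 : 0 < Complex.normSq (1 - w) := Complex.normSq_pos.mpr (h1w w hw)
    have h3 : (C w).im = (1 - Complex.normSq w) / Complex.normSq (1 - w) := by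
      simp only [C, Complex.div_im, Complex.mul_re, Complex.mul_im, Complex.I_re, Complex.I_im,
        Complex.add_re, Complex.add_im, Complex.sub_re, Complex.sub_im, Complex.one_re,
        Complex.one_im, Complex.normSq_apply]
      ring
    rw [h3]
    exact div_pos (by linarith) h2
  have hzI : ∀ z ∈ upperHalfPlaneSet, z + Complex.I ≠ 0 := fun z hz h => by
    have him : (0 : ℝ) < z.im := hz
    have := congrArg Complex.im h
    simp at this; linarith
  have hD : ∀ z ∈ upperHalfPlaneSet, D z ∈ ball (0 : ℂ) 1 := by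
    intro z hz
    have him : (0 : ℝ) < z.im := hz
    rw [mem_ball_zero_iff]
    simp only [D, norm_div]
    rw [div_lt_one (norm_pos_iff.mpr (hzI z hz))]
    refine lt_of_pow_lt_pow_left₀ 2 (norm_nonneg _) ?_
    rw [← Complex.normSq_eq_norm_sq, ← Complex.normSq_eq_norm_sq, Complex.normSq_apply,
      Complex.normSq_apply]
    simp; nlinarith
  have hCD : ∀ z ∈ upperHalfPlaneSet, C (D z) = z := by
    intro z hz
    have h1 := hzI z hz
    simp only [C, D]
    field_simp
    ring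
  have hCan : ∀ w ∈ ball (0 : ℂ) 1, AnalyticAt ℂ C w := fun w hw =>
    ((analyticAt_const.mul (analyticAt_const.add analyticAt_id)).div
      (analyticAt_const.sub analyticAt_id) (h1w w hw))
  have hC' : ∀ w ∈ ball (0 : ℂ) 1, deriv C w ≠ 0 := by
    intro w hw
    have hd : HasDerivAt C (Complex.I * 2 / (1 - w) ^ 2) w := by
      refine ((((hasDerivAt_id w).const_add 1).const_mul Complex.I).div
        ((hasDerivAt_id w).const_sub 1) (h1w w hw)).congr_deriv ?_
      simp only [id_eq]; ring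
    rw [hd.deriv]
    exact div_ne_zero (mul_ne_zero Complex.I_ne_zero two_ne_zero) (pow_ne_zero _ (h1w w hw))
  obtain ⟨g, hg, hgeq⟩ := exists_root_unitBall hn (f := f ∘ C)
    (fun w hw => (hfan _ (hC w hw)).comp (hCan w hw)) fun w hw => by
      obtain ⟨k, hk⟩ := hford _ (hC w hw)
      exact ⟨k, by rw [analyticOrderAt_comp_of_deriv_ne_zero (hCan w hw) (hC' w hw)]; exact hk⟩
  refine ⟨g ∘ D, fun z hz => (hg _ (hD z hz)).comp
    ((analyticAt_id.sub analyticAt_const).div (analyticAt_id.add analyticAt_const) (hzI z hz)),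
    fun z hz => ?_⟩
  show g (D z) ^ n * b z = a z
  rw [hgeq _ (hD z hz), Function.comp, hCD z hz]
  exact (key z hz).2.self_of_nhds

end Fermat.Agent.GalRep
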