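import Fermat.Agent.GalRep.FieldLemma
import Fermat.Agent.GalRep.LocalSeries

/-!
# Taylor embeddings at the points of the upper half plane

`jFun` is surjective, `j - c` has order `3`, `2`, `1`, and the Taylor series in the coordinate `u`
with `j = c + uᵉ` give the embeddings `localAlg`.
-/

set_option autoImplicit false

noncomputable section

namespace Fermat.Agent.GalRep

open UpperHalfPlane CongruenceSubgroup Filter Topology EisensteinSeries ModularForm
open Fermat.Agent.Period (jFun Coset)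
open scoped MatrixGroups Manifold Modular

theorem jFun_surjective : Function.Surjective jFun := by
  have hclosed : IsClosed (Set.range jFun) := by
    rw [← closure_subset_iff_isClosed]
    intro c hc
    obtain ⟨u, hu, hlim⟩ := mem_closure_iff_seq_limit.mp hc
    choose a ha using hu
    choose g hg hg' using fun n => Period.exists_smul_fd_jFun (a n)
    obtain ⟨R, hR⟩ := hlim.norm.bddAbove_range
    obtain ⟨Y, hY⟩ := atImInfty_mem _ |>.mp (Period.tendsto_norm_jFun.eventually_gt_atTop R)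
    have hmem : ∀ n, g n • a n ∈ ModularGroup.truncatedFundamentalDomain Y := fun n => by
      refine ⟨hg n, le_of_not_gt fun hlt => ?_⟩
      have h1 : R < ‖jFun (g n • a n)‖ := hY _ hlt.le
      rw [hg', ha] at h1
      exact absurd (hR ⟨n, rfl⟩) (not_le.mpr h1)
    obtain ⟨w, -, φ, hφ, hw⟩ := (ModularGroup.isCompact_truncatedFundamentalDomain Y).tendsto_subseq hmem
    refine ⟨w, tendsto_nhds_unique ((Period.continuous_jFun.tendsto w).comp hw) ?_⟩
    have := hlim.comp hφ.tendsto_atTop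
    refine this.congr fun n => ?_
    simp only [Function.comp, hg', ha]
  have hopen : IsOpen (Set.range jFun) := by
    rw [← Set.image_univ]; exact Period.isOpen_image_jFun isOpen_univ
  exact Set.range_eq_univ.mp ((isClopen_iff.mp ⟨hclosed, hopen⟩).resolve_left
    (Set.range_nonempty _).ne_empty)

/-- The ramification index of `j` over `c`. -/
def eOf (c : ℂ) : ℕ := if c = 0 then 3 else if c = 1728 then 2 else 1

theorem eOf_pos (c : ℂ) : 0 < eOf c := by unfold eOf; split_ifs <;> norm_num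

theorem analyticAt_comp_ofComplex {F : ℍ → ℂ} (hF : MDifferentiable 𝓘(ℂ) 𝓘(ℂ) F) (τ : ℍ) :
    AnalyticAt ℂ (F ∘ ofComplex) (τ : ℂ) :=
  ((UpperHalfPlane.mdifferentiable_iff.mp hF).analyticOnNhd isOpen_upperHalfPlaneSet) _ τ.im_pos

theorem analyticOrderAt_eq_one_of_D {F : ℍ → ℂ} (hF : MDifferentiable 𝓘(ℂ) 𝓘(ℂ) F) {τ : ℍ}
    (h0 : F τ = 0) (hD : Derivative.normalizedDerivOfComplex F τ ≠ 0) :
    analyticOrderAt (F ∘ ofComplex) (τ : ℂ) = 1 := by
  refine (analyticAt_comp_ofComplex hF τ).analyticOrderAt_eq_one_of_zero_deriv_ne_zero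
    (by simp [h0]) ?_
  rw [(Period.hasDerivAt_of_D hF τ).deriv]
  exact mul_ne_zero (by simp) hD

theorem analyticOrderAt_jFun_sub (τ : ℍ) :
    analyticOrderAt (fun z => (jFun ∘ ofComplex) z - (jFun ∘ ofComplex) (τ : ℂ)) (τ : ℂ) =
      (eOf (jFun τ) : ℕ∞) := by
  have hE4 : MDifferentiable 𝓘(ℂ) 𝓘(ℂ) (E₄ : ℍ → ℂ) := ModularFormClass.holo E₄
  have hE6 : MDifferentiable 𝓘(ℂ) 𝓘(ℂ) (E₆ : ℍ → ℂ) := ModularFormClass.holo E₆
  have hΔ : MDifferentiable 𝓘(ℂ) 𝓘(ℂ) ModularForm.discriminant := by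
    rw [← CuspForm.coe_discriminant]; exact CuspFormClass.holo CuspForm.discriminant
  have hΔa := analyticAt_comp_ofComplex hΔ τ
  have hΔ0 : (ModularForm.discriminant ∘ ofComplex) (τ : ℂ) ≠ 0 := by
    simp [ModularForm.discriminant_ne_zero]
  have hinv : AnalyticAt ℂ (fun z => ((ModularForm.discriminant ∘ ofComplex) z)⁻¹) (τ : ℂ) :=
    hΔa.inv hΔ0
  have hinv0 : analyticOrderAt (fun z => ((ModularForm.discriminant ∘ ofComplex) z)⁻¹) (τ : ℂ) = 0 :=
    hinv.analyticOrderAt_eq_zero.mpr (inv_ne_zero hΔ0)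
  have hjτ : (jFun ∘ ofComplex) (τ : ℂ) = jFun τ := by simp
  by_cases h4 : E₄ τ = 0
  · have hc : jFun τ = 0 := by simp [Period.jFun, h4]
    have h6 := Period.not_common_zero τ h4
    rw [hjτ, hc, eOf, if_pos rfl]
    have : (fun z => (jFun ∘ ofComplex) z - 0) =
        ((E₄ : ℍ → ℂ) ∘ ofComplex) ^ 3 * fun z => ((ModularForm.discriminant ∘ ofComplex) z)⁻¹ := by
      funext z; simp [Period.jFun, div_eq_mul_inv]
    rw [this, analyticOrderAt_mul ((analyticAt_comp_ofComplex hE4 τ).pow 3) hinv, hinv0, add_zero,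
      analyticOrderAt_pow (analyticAt_comp_ofComplex hE4 τ),
      analyticOrderAt_eq_one_of_D hE4 h4 (by rw [Period.D_E4, h4]; simp [h6])]
    simp
  by_cases h6 : E₆ τ = 0
  · have hc : jFun τ = 1728 := by
      have := Period.E4_cube_sub_E6_sq τ
      rw [h6, zero_pow two_ne_zero, sub_zero] at this
      rw [Period.jFun, this, mul_div_cancel_right₀ _ (ModularForm.discriminant_ne_zero τ)]
    rw [hjτ, hc, eOf, if_neg (by norm_num), if_pos rfl]
    have : (fun z => (jFun ∘ ofComplex) z - 1728) =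
        ((E₆ : ℍ → ℂ) ∘ ofComplex) ^ 2 * fun z => ((ModularForm.discriminant ∘ ofComplex) z)⁻¹ := by
      funext z
      have := Period.E4_cube_sub_E6_sq (ofComplex z)
      simp only [Pi.mul_apply, Pi.pow_apply, Function.comp, Period.jFun]
      field_simp [ModularForm.discriminant_ne_zero]
      linear_combination this
    rw [this, analyticOrderAt_mul ((analyticAt_comp_ofComplex hE6 τ).pow 2) hinv, hinv0, add_zero,
      analyticOrderAt_pow (analyticAt_comp_ofComplex hE6 τ),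
      analyticOrderAt_eq_one_of_D hE6 h6 (by rw [Period.D_E6, h6]; simp [h4])]
    simp
  have hd := Period.hasDerivAt_jFun τ
  have hd0 : deriv (jFun ∘ ofComplex) (τ : ℂ) ≠ 0 := by
    rw [hd.deriv]
    simp [h4, h6, ModularForm.discriminant_ne_zero]
  have hc0 : jFun τ ≠ 0 := by simp [Period.jFun, h4, ModularForm.discriminant_ne_zero]
  have hc1 : jFun τ ≠ 1728 := by
    intro h
    rw [Period.jFun, div_eq_iff (ModularForm.discriminant_ne_zero τ)] at h
    exact pow_ne_zero 2 h6 (by linear_combination h - Period.E4_cube_sub_E6_sq τ)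
  rw [eOf, if_neg hc0, if_neg hc1]
  simpa using (Period.analyticOnNhd_jFun _ τ.im_pos).analyticOrderAt_sub_eq_one_of_deriv_ne_zero hd0

variable (N : ℕ)

/-- Taylor series along a germ `ψ` with values in the upper half plane. -/
def localAlg {ψ : ℂ → ℂ} (hψ : AnalyticAt ℂ ψ 0) (h0 : ψ 0 ∈ upperHalfPlaneSet) :
    modFuns (Gamma N) →ₐ[ℂ] PowerSeries ℂ :=
  let germ : modFuns (Gamma N) →+* germs :=
    { toFun := fun F => ⟨((F : ℍ → ℂ) ∘ ofComplex) ∘ ψ,
        (((UpperHalfPlane.mdifferentiable_iff.mp F.2.holo).analyticOnNhd isOpen_upperHalfPlaneSet)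
          _ h0).comp hψ⟩
      map_one' := rfl
      map_mul' := fun _ _ => rfl
      map_zero' := rfl
      map_add' := fun _ _ => rfl }
  { taylorHom.comp germ with
    commutes' := fun c => by
      show taylorSeries (fun _ => c) = _
      rw [taylorSeries_const]; rfl }

variable {N}

theorem localAlg_apply {ψ : ℂ → ℂ} (hψ : AnalyticAt ℂ ψ 0) (h0 : ψ 0 ∈ upperHalfPlaneSet)
    (F : modFuns (Gamma N)) :
    localAlg N hψ h0 F = taylorSeries (((F : ℍ → ℂ) ∘ ofComplex) ∘ ψ) := rfl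

theorem order_localAlg {ψ : ℂ → ℂ} (hψ : AnalyticAt ℂ ψ 0) (h0 : ψ 0 ∈ upperHalfPlaneSet)
    (hd : deriv ψ 0 ≠ 0) (F : modFuns (Gamma N)) :
    (localAlg N hψ h0 F).order = analyticOrderAt ((F : ℍ → ℂ) ∘ ofComplex) (ψ 0) := by
  rw [localAlg_apply, order_taylorSeries, analyticOrderAt_comp_of_deriv_ne_zero hψ hd]
  exact (((UpperHalfPlane.mdifferentiable_iff.mp F.2.holo).analyticOnNhd isOpen_upperHalfPlaneSet)
    _ h0).comp hψ

theorem analyticOrderAt_modFun_ne_top {F : ℍ → ℂ} (hF : MDifferentiable 𝓘(ℂ) 𝓘(ℂ) F) (hF0 : F ≠ 0)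
    {z : ℂ} (hz : z ∈ upperHalfPlaneSet) : analyticOrderAt (F ∘ ofComplex) z ≠ ⊤ := by
  intro h
  refine hF0 (funext fun τ => ?_)
  have h0 := ((UpperHalfPlane.mdifferentiable_iff.mp hF).analyticOnNhd isOpen_upperHalfPlaneSet
    ).eqOn_zero_of_preconnected_of_eventuallyEq_zero (convex_halfSpace_im_gt 0).isPreconnected hz
      (analyticOrderAt_eq_top.mp h)
  simpa using h0 τ.im_pos

theorem localAlg_injective {ψ : ℂ → ℂ} (hψ : AnalyticAt ℂ ψ 0) (h0 : ψ 0 ∈ upperHalfPlaneSet)
    (hd : deriv ψ 0 ≠ 0) : Function.Injective (localAlg N hψ h0) := by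
  rw [injective_iff_map_eq_zero]
  intro F hF
  by_contra hne
  have := order_localAlg hψ h0 hd F
  rw [hF, PowerSeries.order_zero] at this
  exact analyticOrderAt_modFun_ne_top F.2.holo (fun h => hne (Subtype.ext h)) h0 this.symm

theorem taylorSeries_id : taylorSeries id = PowerSeries.X := by
  ext m
  rcases m with _ | _ | m
  · simp [taylorSeries]
  · simp [taylorSeries]
  · simp [taylorSeries, iteratedDeriv_succ', PowerSeries.coeff_X, iteratedDeriv_const]

/-- A coordinate adapted to `j` at `τ`. -/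
theorem exists_jCoord (N : ℕ) (τ : ℍ) :
    ∃ (ψ : ℂ → ℂ) (hψ : AnalyticAt ℂ ψ 0) (h0 : ψ 0 ∈ upperHalfPlaneSet), ψ 0 = (τ : ℂ) ∧
      deriv ψ 0 ≠ 0 ∧
      localAlg N hψ h0 (jMF (Gamma N)) = PowerSeries.C (jFun τ) + PowerSeries.X ^ eOf (jFun τ) := by
  obtain ⟨ψ, hψ, hψ0, hd, hev⟩ := exists_local_coord
    (analyticAt_comp_ofComplex mdifferentiable_jFun τ) (eOf_pos _) (analyticOrderAt_jFun_sub τ)
  refine ⟨ψ, hψ, hψ0 ▸ τ.im_pos, hψ0, hd, ?_⟩
  rw [localAlg_apply]
  refine (taylorSeries_congr (G := (fun _ => jFun τ) + id ^ eOf (jFun τ)) ?_).trans ?_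
  · filter_upwards [hev] with u hu
    simpa [jMF] using hu
  · rw [taylorSeries_add analyticAt_const (analyticAt_id.pow _), taylorSeries_const]
    congr 1
    rw [← taylorSeries_id]
    exact map_pow taylorHom (⟨id, analyticAt_id⟩ : germs) _

end Fermat.Agent.GalRep
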