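import Fermat.Agent.GalRep.Criterion
import Mathlib.NumberTheory.ModularForms.EisensteinSeries.Basic

/-!
# Existence of Kummer representatives

For a parabolic `χ : Γ₀(N) → ℤ/n` the Eisenstein series of weight twelve with coefficients
`exp(-2πi χ(γ)/n)` over the bottom rows of `γ ∈ Γ₀(N)`, divided by `Δ`, is a representative with
poles bounded by the width at every cusp.
-/

set_option autoImplicit false

noncomputable section

namespace Fermat.Agent.GalRep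

open UpperHalfPlane CongruenceSubgroup Filter Topology ModularGroup Matrix EisensteinSeries
open scoped MatrixGroups Manifold

local notation "Δ" => ModularForm.discriminant

/-- A weighted sum over the lattice. -/
def latticeSum (a : (Fin 2 → ℤ) → ℂ) (τ : ℍ) : ℂ := ∑' v, a v * eisSummand 12 v τ

theorem norm_latticeTerm_le {a : (Fin 2 → ℤ) → ℂ} (ha : ∀ v, ‖a v‖ ≤ 1) (τ : ℍ) (v : Fin 2 → ℤ) :
    ‖a v * eisSummand 12 v τ‖ ≤ ‖eisSummand 12 v τ‖ := by
  rw [norm_mul]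
  exact mul_le_of_le_one_left (norm_nonneg _) (ha v)

theorem summable_latticeTerm {a : (Fin 2 → ℤ) → ℂ} (ha : ∀ v, ‖a v‖ ≤ 1) (τ : ℍ) :
    Summable fun v => ‖a v * eisSummand 12 v τ‖ :=
  (summable_norm_eisSummand (k := 12) (by norm_num) τ).of_nonneg_of_le (fun _ => norm_nonneg _)
    (norm_latticeTerm_le ha τ)

theorem norm_eisSummand_le {A B : ℝ} (hB : 0 < B) {τ : ℍ} (hτ : τ ∈ verticalStrip A B)
    (v : Fin 2 → ℤ) :
    ‖eisSummand 12 v τ‖ ≤ r ⟨⟨A, B⟩, hB⟩ ^ (-(12 : ℝ)) * ‖v‖ ^ (-(12 : ℝ)) := by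
  have h := summand_bound_of_mem_verticalStrip (k := (12 : ℝ)) (by norm_num) v hB hτ
  rw [eisSummand, norm_zpow, ← Real.rpow_intCast]
  exact le_trans (le_of_eq (by norm_num)) h

theorem mdifferentiable_latticeSum {a : (Fin 2 → ℤ) → ℂ} (ha : ∀ v, ‖a v‖ ≤ 1) :
    MDifferentiable 𝓘(ℂ) 𝓘(ℂ) (latticeSum a) := by
  rw [UpperHalfPlane.mdifferentiable_iff]
  intro z hz
  set A : ℝ := |z.re| + 1
  set B : ℝ := z.im / 2
  have hB : 0 < B := half_pos hz
  set U : Set ℂ := {w | |w.re| < A ∧ B < w.im} with hU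
  have hUo : IsOpen U :=
    (isOpen_lt (continuous_abs.comp Complex.continuous_re) continuous_const).inter
      (isOpen_lt continuous_const Complex.continuous_im)
  have hzU : z ∈ U := ⟨lt_add_one _, half_lt_self hz⟩
  have hUsub : U ⊆ upperHalfPlaneSet := fun w hw => hB.trans hw.2
  have hd : DifferentiableOn ℂ (fun w => ∑' v, a v * (((v 0 : ℂ) * w + v 1) ^ (-(12 : ℤ)))) U := by
    refine Complex.differentiableOn_tsum_of_summable_norm
      ((summable_one_div_norm_rpow (k := (12 : ℝ)) (by norm_num)).mul_left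
        (r ⟨⟨A, B⟩, hB⟩ ^ (-(12 : ℝ)))) (fun v => ?_) hUo fun v w hw => ?_
    · exact (differentiableOn_const _).mul
        ((div_linear_zpow_differentiableOn 12 v).mono hUsub)
    · have hw0 : 0 < w.im := hB.trans hw.2
      refine (norm_latticeTerm_le ha ⟨w, hw0⟩ v).trans (norm_eisSummand_le hB ?_ v)
      exact ⟨hw.1.le, hw.2.le⟩
  refine ((hd.differentiableAt (hUo.mem_nhds hzU)).congr_of_eventuallyEq ?_).differentiableWithinAt
  filter_upwards [hUo.mem_nhds hzU] with w hw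
  simp only [Function.comp, ofComplex_apply_of_im_pos (hB.trans hw.2), latticeSum, eisSummand]

/-- Right multiplication by `δ` on the lattice. -/
def rowEquiv (δ : SL(2, ℤ)) : (Fin 2 → ℤ) ≃ (Fin 2 → ℤ) where
  toFun v := v ᵥ* (δ : Matrix (Fin 2) (Fin 2) ℤ)
  invFun v := v ᵥ* ((δ⁻¹ : SL(2, ℤ)) : Matrix (Fin 2) (Fin 2) ℤ)
  left_inv v := by
    show (v ᵥ* (δ : Matrix (Fin 2) (Fin 2) ℤ)) ᵥ* ((δ⁻¹ : SL(2, ℤ)) : Matrix (Fin 2) (Fin 2) ℤ) = v
    rw [vecMul_vecMul, ← Matrix.SpecialLinearGroup.coe_mul, mul_inv_cancel,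
      Matrix.SpecialLinearGroup.coe_one, vecMul_one]
  right_inv v := by
    show (v ᵥ* ((δ⁻¹ : SL(2, ℤ)) : Matrix (Fin 2) (Fin 2) ℤ)) ᵥ* (δ : Matrix (Fin 2) (Fin 2) ℤ) = v
    rw [vecMul_vecMul, ← Matrix.SpecialLinearGroup.coe_mul, inv_mul_cancel,
      Matrix.SpecialLinearGroup.coe_one, vecMul_one]

theorem latticeSum_smul (a : (Fin 2 → ℤ) → ℂ) (δ : SL(2, ℤ)) (τ : ℍ) :
    latticeSum a (δ • τ) = denom δ τ ^ (12 : ℤ) * latticeSum (a ∘ (rowEquiv δ).symm) τ := by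
  rw [latticeSum, latticeSum, ← tsum_mul_left]
  refine Eq.trans (tsum_congr fun v => ?_) ((rowEquiv δ).tsum_eq fun w =>
    denom δ τ ^ (12 : ℤ) * ((a ∘ (rowEquiv δ).symm) w * eisSummand 12 w τ))
  rw [eisSummand_SL2_apply, Function.comp_apply, Equiv.symm_apply_apply]
  show a v * (_ * eisSummand 12 (v ᵥ* _) τ) = _ * (a v * eisSummand 12 (v ᵥ* _) τ)
  ring

theorem discriminant_smul (δ : SL(2, ℤ)) (τ : ℍ) :
    Δ (δ • τ) = denom δ τ ^ (12 : ℤ) * Δ τ := by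
  simpa using Period.levelOne_smul (ModularFormClass.modularForm CuspForm.discriminant) δ τ

/-- `latticeSum a / Δ`. -/
def eisQuot (a : (Fin 2 → ℤ) → ℂ) (τ : ℍ) : ℂ := latticeSum a τ / Δ τ

theorem eisQuot_smul (a : (Fin 2 → ℤ) → ℂ) (δ : SL(2, ℤ)) (τ : ℍ) :
    eisQuot a (δ • τ) = eisQuot (a ∘ (rowEquiv δ).symm) τ := by
  rw [eisQuot, eisQuot, latticeSum_smul, discriminant_smul,
    mul_div_mul_left _ _ (zpow_ne_zero _ (denom_ne_zero _ _))]

theorem mdifferentiable_eisQuot {a : (Fin 2 → ℤ) → ℂ} (ha : ∀ v, ‖a v‖ ≤ 1) :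
    MDifferentiable 𝓘(ℂ) 𝓘(ℂ) (eisQuot a) := by
  rw [UpperHalfPlane.mdifferentiable_iff]
  exact (UpperHalfPlane.mdifferentiable_iff.mp (mdifferentiable_latticeSum ha)).div
    (UpperHalfPlane.mdifferentiable_iff.mp CuspForm.discriminant.holo')
    fun z _ => ModularForm.discriminant_ne_zero _

theorem norm_latticeSum_vadd_int (τ : ℍ) (k : ℤ) :
    ∑' v, ‖eisSummand 12 v ((k : ℝ) +ᵥ τ)‖ = ∑' v, ‖eisSummand 12 v τ‖ := by
  refine Eq.trans (tsum_congr fun v => ?_)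
    ((rowEquiv (T ^ k)).tsum_eq fun w => ‖eisSummand 12 w τ‖)
  rw [← modular_T_zpow_smul, eisSummand_SL2_apply]
  have : denom (T ^ k : SL(2, ℤ)) (τ : ℂ) = 1 := by rw [ModularGroup.denom_apply]; simp [coe_T_zpow]
  rw [this, _root_.one_zpow, one_mul]
  rfl

theorem exists_eisQuot_growth :
    ∃ C : ℝ, ∀ a : (Fin 2 → ℤ) → ℂ, (∀ v, ‖a v‖ ≤ 1) →
      ∀ᶠ τ in atImInfty, ‖eisQuot a τ‖ ≤ C * ‖qq 1 τ‖ ^ (-1 : ℤ) := by
  set M : ℝ := ∑' v : Fin 2 → ℤ, r ⟨⟨1, 2⟩, two_pos⟩ ^ (-(12 : ℝ)) * ‖v‖ ^ (-(12 : ℝ))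
  refine ⟨2 * M, fun a ha => ?_⟩
  filter_upwards [(atImInfty_mem _).mpr ⟨2, fun _ => id⟩,
    (tendsto_discriminant_div_qq.norm.eventually
      (eventually_ge_nhds (show (1 / 2 : ℝ) < ‖(1 : ℂ)‖ by norm_num)))] with τ hτ hΔ
  have hτ' : (2 : ℝ) ≤ τ.im := hτ
  have hM0 : ‖latticeSum a τ‖ ≤ M := by
    refine (norm_tsum_le_tsum_norm (summable_latticeTerm ha τ)).trans ?_
    refine le_trans ((summable_latticeTerm ha τ).tsum_le_tsum (norm_latticeTerm_le ha τ)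
      (summable_norm_eisSummand (by norm_num) τ)) ?_
    rw [← norm_latticeSum_vadd_int τ (-⌊τ.re⌋)]
    refine (summable_norm_eisSummand (by norm_num) _).tsum_le_tsum
      (fun v => norm_eisSummand_le two_pos ?_ v)
      ((summable_one_div_norm_rpow (by norm_num)).mul_left _)
    constructor
    · rw [vadd_re, Int.cast_neg, abs_le]
      constructor <;> linarith [Int.floor_le τ.re, Int.lt_floor_add_one τ.re]
    · simpa [vadd_im] using hτ'
  have hq : (0 : ℝ) < ‖qq 1 τ‖ := norm_pos_iff.mpr (qq_ne_zero 1 τ)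
  rw [norm_div, le_div_iff₀ hq] at hΔ
  rw [eisQuot, norm_div, _root_.zpow_neg_one, div_le_iff₀ (norm_pos_iff.mpr (ModularForm.discriminant_ne_zero τ))]
  have hM : 0 ≤ M := (norm_nonneg _).trans hM0
  refine hM0.trans ?_
  rw [show 2 * M * ‖qq 1 τ‖⁻¹ * ‖Δ τ‖ = M * (2 * ‖Δ τ‖ / ‖qq 1 τ‖) by ring]
  refine le_mul_of_one_le_right hM ?_
  rw [one_le_div hq]
  linarith

variable (N : ℕ) [NeZero N] {n : ℕ} [NeZero n] (χ : ParHom N (ZMod n))

/-- The bottom row. -/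
def bottomRow (γ : SL(2, ℤ)) : Fin 2 → ℤ := fun j => γ 1 j

/-- The coefficients. -/
def eisCoeff (v : Fin 2 → ℤ) : ℂ :=
  letI := Classical.propDecidable
  if h : ∃ γ : ↥(Gamma0 N), bottomRow (Subtype.val γ) = v then
    ZMod.stdAddChar (-(χ : Additive (Gamma0 N) →+ ZMod n) (Additive.ofMul h.choose)) else 0

variable {N}

theorem bottomRow_mul (γ γ' : SL(2, ℤ)) :
    bottomRow (γ * γ') = bottomRow γ ᵥ* (γ' : Matrix (Fin 2) (Fin 2) ℤ) := by
  ext j
  simp [bottomRow, vecMul, dotProduct, Matrix.mul_apply]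

theorem trace_sq_of_bottomRow {g : SL(2, ℤ)} (h : bottomRow g = bottomRow 1) :
    ((g : Matrix (Fin 2) (Fin 2) ℤ)).trace ^ 2 = 4 := by
  have h0 : g 1 0 = 0 := congrFun h 0
  have h1 : g 1 1 = 1 := congrFun h 1
  have := g.det_coe
  rw [Matrix.det_fin_two, h0, h1] at this
  rw [Matrix.trace_fin_two, h1, show g 0 0 = 1 by linarith]
  norm_num

theorem eisCoeff_eq (γ : Gamma0 N) :
    eisCoeff N χ (bottomRow (γ : SL(2, ℤ))) =
      ZMod.stdAddChar (-(χ : Additive (Gamma0 N) →+ ZMod n) (Additive.ofMul γ)) := by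
  rw [eisCoeff, dif_pos ⟨γ, rfl⟩]
  set h : ∃ γ' : Gamma0 N, bottomRow (γ' : SL(2, ℤ)) = bottomRow (γ : SL(2, ℤ)) := ⟨γ, rfl⟩
  have hs : bottomRow ((h.choose : SL(2, ℤ)) * (γ : SL(2, ℤ))⁻¹) = bottomRow 1 := by
    rw [bottomRow_mul, h.choose_spec, ← bottomRow_mul, mul_inv_cancel]
  have h0 := χ.2 (h.choose * γ⁻¹) (trace_sq_of_bottomRow hs)
  rw [ofMul_mul, map_add, ofMul_inv, map_neg, ← sub_eq_add_neg, sub_eq_zero] at h0
  rw [h0]

theorem eisCoeff_of_not (v : Fin 2 → ℤ) (h : ¬ ∃ γ : Gamma0 N, bottomRow (γ : SL(2, ℤ)) = v) :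
    eisCoeff N χ v = 0 := by
  classical
  simp [eisCoeff, h]

theorem norm_eisCoeff_le (v : Fin 2 → ℤ) : ‖eisCoeff N χ v‖ ≤ 1 := by
  by_cases h : ∃ γ : Gamma0 N, bottomRow (γ : SL(2, ℤ)) = v
  · obtain ⟨γ, rfl⟩ := h
    rw [eisCoeff_eq, AddChar.norm_apply]
  · simp [eisCoeff_of_not χ v h]

theorem eisCoeff_comp (γ : Gamma0 N) (v : Fin 2 → ℤ) :
    eisCoeff N χ ((rowEquiv (γ : SL(2, ℤ))).symm v) =
      ZMod.stdAddChar ((χ : Additive (Gamma0 N) →+ ZMod n) (Additive.ofMul γ)) * eisCoeff N χ v := by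
  by_cases h : ∃ γ' : Gamma0 N, bottomRow (γ' : SL(2, ℤ)) = v
  · obtain ⟨γ', rfl⟩ := h
    show eisCoeff N χ (bottomRow (γ' : SL(2, ℤ)) ᵥ* _) = _
    rw [← bottomRow_mul, ← InvMemClass.coe_inv, ← Subgroup.coe_mul, eisCoeff_eq, eisCoeff_eq,
      ← AddChar.map_add_eq_mul, ofMul_mul, map_add (χ : Additive (Gamma0 N) →+ ZMod n), ofMul_inv,
      map_neg (χ : Additive (Gamma0 N) →+ ZMod n)]
    congr 1
    abel
  · rw [eisCoeff_of_not χ v h, mul_zero, eisCoeff_of_not]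
    rintro ⟨γ', hγ'⟩
    refine h ⟨γ' * γ, ?_⟩
    rw [Subgroup.coe_mul, bottomRow_mul, hγ']
    exact (rowEquiv (γ : SL(2, ℤ))).apply_symm_apply v

/-- The representative. -/
def eisRep : ℍ → ℂ := eisQuot (eisCoeff N χ)

theorem eisRep_smul (γ : Gamma0 N) (τ : ℍ) :
    eisRep χ ((γ : SL(2, ℤ)) • τ) =
      ZMod.stdAddChar ((χ : Additive (Gamma0 N) →+ ZMod n) (Additive.ofMul γ)) * eisRep χ τ := by
  rw [eisRep, eisQuot_smul, eisQuot, eisQuot, latticeSum, latticeSum, ← mul_div_assoc,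
    ← tsum_mul_left]
  congr 1
  refine tsum_congr fun v => ?_
  rw [Function.comp_apply, eisCoeff_comp, mul_assoc]

theorem exists_series_eisRep (δ : SL(2, ℤ)) :
    ∃ f, HasQSeries N (fun τ => eisRep χ (δ • τ)) f ∧ ∀ m < -(N : ℤ), f.coeff m = 0 := by
  obtain ⟨C, hC⟩ := exists_eisQuot_growth
  refine exists_hasQSeries (NeZero.pos N)
    (mdifferentiable_comp_smul (mdifferentiable_eisQuot (norm_eisCoeff_le χ)) δ) (fun τ => ?_)
    (C := C) ?_
  · have hmem : δ * T ^ (N : ℤ) * δ⁻¹ ∈ Gamma0 N := Period.T_pow_conj_mem_Gamma0 N δ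
    have h0 := χ.2 ⟨_, hmem⟩ (by rw [trace_conj_T_pow]; norm_num)
    have h := eisRep_smul χ ⟨_, hmem⟩ (δ • τ)
    rw [h0, AddChar.map_zero_eq_one, one_mul] at h
    rw [show (N : ℝ) = (((N : ℕ) : ℤ) : ℝ) by simp, smul_vadd_eq]
    exact h
  · filter_upwards [hC (eisCoeff N χ ∘ (rowEquiv δ).symm) fun v => norm_eisCoeff_le χ _] with τ hτ
    show ‖eisQuot (eisCoeff N χ) (δ • τ)‖ ≤ _
    rw [eisQuot_smul]
    refine hτ.trans_eq ?_
    congr 1
    have : qq 1 τ = qq N τ ^ N := by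
      rw [qq, qq, ← Complex.exp_nat_mul]
      congr 1
      have : (N : ℂ) ≠ 0 := Nat.cast_ne_zero.mpr (NeZero.ne N)
      push_cast
      field_simp
    rw [this, norm_pow, _root_.zpow_neg_one, _root_.zpow_neg, zpow_natCast]

theorem tendsto_latticeSum_eisCoeff :
    Tendsto (fun k : ℕ => latticeSum (eisCoeff N χ)
      ⟨Complex.I * ((k : ℂ) + 1), by simp; positivity⟩) atTop (𝓝 2) := by
  set g : (Fin 2 → ℤ) → ℂ :=
    fun v => if v 0 = 0 then eisCoeff N χ v * (v 1 : ℂ) ^ (-(12 : ℤ)) else 0 with hg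
  have hpm : ∀ (γ : Gamma0 N), ((γ : SL(2, ℤ)) : Matrix (Fin 2) (Fin 2) ℤ).trace ^ 2 = 4 →
      eisCoeff N χ (bottomRow (γ : SL(2, ℤ))) = 1 := fun γ h => by
    rw [eisCoeff_eq, χ.2 γ h, neg_zero, AddChar.map_zero_eq_one]
  have he : bottomRow (1 : SL(2, ℤ)) = ![0, 1] := by ext j; fin_cases j <;> rfl
  have hn : bottomRow (-1 : SL(2, ℤ)) = ![0, -1] := by
    ext j; fin_cases j <;> simp [bottomRow]
  have hgsum : ∑' v, g v = 2 := by
    rw [tsum_eq_sum (s := ({![0, 1], ![0, -1]} : Finset (Fin 2 → ℤ))) fun v hv => ?_]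
    · rw [Finset.sum_pair (by simp)]
      have h1 : eisCoeff N χ ![0, 1] = 1 := by
        rw [← he]; exact hpm 1 (by simp)
      have h2 : eisCoeff N χ ![0, -1] = 1 := by
        rw [← hn]
        exact hpm ⟨-1, Period.neg_one_mem_Gamma0'⟩ (by simp)
      simp [hg, h1, h2]
      norm_num
    · simp only [hg]
      split_ifs with h0
      · rw [eisCoeff_of_not, zero_mul]
        rintro ⟨γ, rfl⟩
        refine hv ?_
        have h0' : (γ : SL(2, ℤ)) 1 0 = 0 := h0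
        obtain ⟨k, hk | hk⟩ := exists_eq_T_zpow_of_upper h0'
        · rw [Finset.mem_insert]; left
          ext j; fin_cases j <;> simp [bottomRow, hk, coe_T_zpow]
        · rw [Finset.mem_insert, Finset.mem_singleton]; right
          ext j; fin_cases j <;> simp [bottomRow, hk, coe_T_zpow]
      · rfl
  rw [← hgsum]
  refine tendsto_tsum_of_dominated_convergence
    ((summable_one_div_norm_rpow (k := (12 : ℝ)) (by norm_num)).mul_left
      (r ⟨⟨1, 1⟩, one_pos⟩ ^ (-(12 : ℝ)))) (fun v => ?_) (.of_forall fun k v => ?_)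
  · simp only [hg, eisSummand]
    split_ifs with h0
    · simp [h0]
    · have hv : (v 0 : ℂ) ≠ 0 := Int.cast_ne_zero.mpr h0
      rw [← mul_zero (eisCoeff N χ v)]
      refine Tendsto.const_mul _ ?_
      rw [tendsto_zero_iff_norm_tendsto_zero]
      refine squeeze_zero (fun k => norm_nonneg _) (fun k => ?_)
        tendsto_one_div_add_atTop_nhds_zero_nat
      have h1 : (1 : ℝ) ≤ |(v 0 : ℝ)| := by exact_mod_cast Int.one_le_abs h0
      have hge : (k : ℝ) + 1 ≤ ‖(v 0 : ℂ) * (Complex.I * ((k : ℂ) + 1)) + v 1‖ := by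
        refine le_trans ?_ (Complex.abs_im_le_norm _)
        simp [abs_mul]
        rw [abs_of_pos (by positivity : (0 : ℝ) < k + 1)]
        exact le_mul_of_one_le_left (by positivity) h1
      rw [norm_zpow, _root_.zpow_neg, one_div, show ((12 : ℤ)) = ((12 : ℕ) : ℤ) from rfl,
        zpow_natCast]
      refine inv_anti₀ (by positivity) (hge.trans (le_self_pow₀ ?_ (by norm_num)))
      linarith [k.cast_nonneg (α := ℝ)]
  · refine (norm_latticeTerm_le (norm_eisCoeff_le χ) _ v).trans (norm_eisSummand_le one_pos ?_ v)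
    constructor
    · show |(Complex.I * ((k : ℂ) + 1)).re| ≤ 1
      simp
    · show (1 : ℝ) ≤ (Complex.I * ((k : ℂ) + 1)).im
      simp

theorem eisRep_ne_zero : eisRep χ ≠ 0 := by
  intro h
  refine two_ne_zero (tendsto_nhds_unique (tendsto_latticeSum_eisCoeff χ)
    (tendsto_const_nhds.congr fun k => ?_) : (2 : ℂ) = 0)
  have := congrFun h ⟨Complex.I * ((k : ℂ) + 1), by simp; positivity⟩
  rw [eisRep, eisQuot, Pi.zero_apply, div_eq_zero_iff] at this
  exact (this.resolve_right (ModularForm.discriminant_ne_zero _)).symm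

theorem isKummerRep_eisRep : IsKummerRep N n χ (eisRep χ) where
  holo := mdifferentiable_eisQuot (norm_eisCoeff_le χ)
  ne_zero := eisRep_ne_zero χ
  equivariant := eisRep_smul χ
  cusps δ := by
    obtain ⟨f, hf, -⟩ := exists_series_eisRep χ δ
    exact ⟨N, f, NeZero.pos N, hf⟩

/-- Every parabolic character has a representative with pole bound one. -/
theorem exists_rep_poleBound : ∃ (F : ℍ → ℂ) (G : Polynomial (Polynomial ℂ)),
    IsKummerRep N n χ F ∧ G.natDegree < idx N ∧ IsNum N n F G ∧ PoleBound N n 1 G := by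
  obtain ⟨G, hdeg, hG⟩ := exists_num_of_rep (isKummerRep_eisRep χ)
  refine ⟨_, G, isKummerRep_eisRep χ, hdeg, hG,
    (poleBound_iff (isKummerRep_eisRep χ) hG 1).mpr fun δ h hh => ?_⟩
  obtain ⟨f, hf, hf0⟩ := exists_series_eisRep χ δ
  obtain rfl := hh.unique (NeZero.pos N) hf
  rw [one_mul]
  by_contra hlt
  have hne : h ≠ 0 := fun h0 => by simp [h0] at hlt
  exact HahnSeries.coeff_order_eq_zero.not.mpr hne (hf0 _ (by omega))

end Fermat.Agent.GalRep
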