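import Fermat.Agent.GalRep.Eisenstein
import Fermat.Agent.Hecke.LevelOneSpan

/-!
# Automorphisms of `ℂ` acting on Kummer representatives

`j` and the modular polynomial have rational coefficients, so the algebraic criterion is stable
under `Aut ℂ`: conjugating the series at infinity of a representative gives another representative.
-/

set_option autoImplicit false

noncomputable section

namespace Fermat.Agent.GalRep

open UpperHalfPlane CongruenceSubgroup Filter Topology
open Fermat.Agent.Period (jFun Coset baseCoset)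
open scoped MatrixGroups Manifold

/-! ## Coefficientwise maps of Laurent series -/

section LMap

variable {R S : Type*} [CommRing R] [CommRing S] (φ : R →+* S)

/-- Coefficientwise image of a Laurent series. -/
def lmap : LaurentSeries R →+* LaurentSeries S where
  toFun f := f.map φ
  map_one' := by
    ext m
    simp only [HahnSeries.map_coeff, HahnSeries.coeff_one]
    split_ifs <;> simp
  map_zero' := by ext; simp
  map_add' f g := by ext; simp
  map_mul' f g := HahnSeries.map_mul φ.toNonUnitalRingHom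

@[simp] theorem lmap_coeff (f : LaurentSeries R) (m : ℤ) :
    (lmap φ f).coeff m = φ (f.coeff m) := rfl

theorem lmap_injective {φ : R →+* S} (hφ : Function.Injective φ) :
    Function.Injective (lmap φ) := fun f g h => by
  ext m
  exact hφ (by rw [← lmap_coeff, ← lmap_coeff, h])

theorem lmap_lmap {T : Type*} [CommRing T] (ψ : S →+* T) (f : LaurentSeries R) :
    lmap ψ (lmap φ f) = lmap (ψ.comp φ) f := by ext; simp

theorem lmap_C (a : R) : lmap φ (HahnSeries.C a) = HahnSeries.C (φ a) := by
  ext m
  simp only [lmap_coeff, HahnSeries.C_apply, HahnSeries.coeff_single]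
  split_ifs <;> simp

theorem order_lmap {φ : R →+* S} (hφ : Function.Injective φ) (f : LaurentSeries R) :
    (lmap φ f).order = f.order := by
  rcases eq_or_ne f 0 with rfl | hf
  · simp
  refine le_antisymm (HahnSeries.order_le_of_coeff_ne_zero ?_) ?_
  · rw [lmap_coeff]
    exact fun h => hf (HahnSeries.coeff_order_eq_zero.mp (hφ (h.trans (map_zero φ).symm)))
  · refine HahnSeries.order_le_of_coeff_ne_zero fun h => ?_
    have h' : (lmap φ f).coeff (lmap φ f).order = 0 := by rw [lmap_coeff, h, map_zero]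
    exact hf (lmap_injective hφ ((HahnSeries.coeff_order_eq_zero.mp h').trans (map_zero _).symm))

end LMap

section FieldOps

variable {K L : Type*} [Field K] [Field L] (φ : K →+* L)

theorem lmap_expand (a : ℕ) (ha : a ≠ 0) (f : LaurentSeries K) :
    lmap φ (expand a ha f) = expand a ha (lmap φ f) := by
  ext m
  by_cases h : (a : ℤ) ∣ m
  · obtain ⟨k, rfl⟩ := h
    rw [lmap_coeff, expand_coeff_mul, expand_coeff_mul, lmap_coeff]
  · rw [lmap_coeff, expand_coeff_of_not_dvd _ _ _ _ h, expand_coeff_of_not_dvd _ _ _ _ h, map_zero]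

theorem lmap_twist (ζ : Kˣ) (f : LaurentSeries K) :
    lmap φ (twist ζ f) = twist (Units.map (φ : K →* L) ζ) (lmap φ f) := by
  ext m
  simp [Units.val_zpow_eq_zpow_val]

theorem expand_injective (a : ℕ) (ha : a ≠ 0) :
    Function.Injective (expand (K := K) a ha) := fun f g h => by
  ext m
  rw [← expand_coeff_mul a ha f m, h, expand_coeff_mul]

end FieldOps

variable (σ : ℂ ≃+* ℂ)

theorem map_ratCast_of_ringEquiv (r : ℚ) : σ (r : ℂ) = r := map_ratCast σ r

/-- Coefficientwise action on polynomials in two variables. -/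
def gmap : Polynomial (Polynomial ℂ) →+* Polynomial (Polynomial ℂ) :=
  Polynomial.mapRingHom (Polynomial.mapRingHom σ.toRingHom)

/-- Semilinear naturality of evaluation. -/
theorem map_biEval_semilinear {K L : Type*} [CommRing K] [Algebra ℂ K] [CommRing L] [Algebra ℂ L]
    (φ : K →+* L) (h : ∀ c : ℂ, φ (algebraMap ℂ K c) = algebraMap ℂ L (σ c)) (s r : K)
    (P : Polynomial (Polynomial ℂ)) :
    φ (biEval s r P) = biEval (φ s) (φ r) (gmap σ P) := by
  suffices h' : φ.comp (biEval s r) = (biEval (φ s) (φ r)).comp (gmap σ) from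
    RingHom.congr_fun h' P
  refine Polynomial.ringHom_ext (fun a => ?_) (by simp [biEval, gmap])
  simp only [RingHom.comp_apply, biEval, gmap, Polynomial.coe_mapRingHom, Polynomial.map_C,
    Polynomial.coe_eval₂RingHom, Polynomial.eval₂_C, AlgHom.toRingHom_eq_coe, RingHom.coe_coe,
    Polynomial.aeval_def, Polynomial.hom_eval₂, Polynomial.eval₂_map]
  congr 1
  ext c
  exact h c

theorem lmap_algebraMap (c : ℂ) :
    lmap σ.toRingHom (algebraMap ℂ (LaurentSeries ℂ) c) = algebraMap ℂ (LaurentSeries ℂ) (σ c) := by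
  have e : ∀ x : ℂ, algebraMap ℂ (LaurentSeries ℂ) x = HahnSeries.C x := fun x => by
    simp [HahnSeries.algebraMap_apply']
  rw [e, e, lmap_C]
  rfl

theorem lmap_biEval (s r : LaurentSeries ℂ) (P : Polynomial (Polynomial ℂ)) :
    lmap σ.toRingHom (biEval s r P) =
      biEval (lmap σ.toRingHom s) (lmap σ.toRingHom r) (gmap σ P) :=
  map_biEval_semilinear σ _ (lmap_algebraMap σ) s r P

/-! ## `j` has rational coefficients -/

theorem hasQSeries_qExp (F : Hecke.qFunctions) :
    HasQSeries 1 (F : ℍ → ℂ) (HahnSeries.ofPowerSeries ℤ ℂ (Hecke.qExp F)) := by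
  rw [hasQSeries_iff]
  refine .of_forall fun τ => ?_
  refine (Nat.cast_injective.hasSum_iff fun m hm => ?_).mp ?_
  · rw [HahnSeries.ofPowerSeries_apply, HahnSeries.embDomain_of_notMem_range, zero_mul]
    rintro ⟨k, hk⟩; exact hm ⟨k, hk⟩
  · simpa [Function.comp_def, qq_eq_qParam, HahnSeries.ofPowerSeries_apply_coeff, Hecke.qExp_apply,
      smul_eq_mul] using hasSum_qExpansion (h := 1) one_pos (by exact_mod_cast F.2.1) F.2.2.1 F.2.2.2 τ

theorem lmap_ofPowerSeries_of_int {P : PowerSeries ℂ} (hP : P ∈ Hecke.intSeries) :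
    lmap σ.toRingHom (HahnSeries.ofPowerSeries ℤ ℂ P) = HahnSeries.ofPowerSeries ℤ ℂ P := by
  obtain ⟨Q, rfl⟩ := hP
  ext m
  rw [lmap_coeff, HahnSeries.ofPowerSeries_apply]
  by_cases hm : ∃ k : ℕ, (k : ℤ) = m
  · obtain ⟨k, rfl⟩ := hm
    rw [← HahnSeries.ofPowerSeries_apply, HahnSeries.ofPowerSeries_apply_coeff, PowerSeries.coeff_map]
    exact map_intCast σ _
  · rw [HahnSeries.embDomain_of_notMem_range, map_zero]
    rintro ⟨k, hk⟩; exact hm ⟨k, hk⟩

theorem lmap_jq : lmap σ.toRingHom jq = jq := by
  set D := HahnSeries.ofPowerSeries ℤ ℂ (Hecke.qExp ((1728 : ℂ) • Hecke.delta)) with hD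
  set E := HahnSeries.ofPowerSeries ℤ ℂ (Hecke.qExp Hecke.eis4) with hE
  have hrel : jq * D = HahnSeries.C (1728 : ℂ) * E ^ 3 := by
    refine ((hasQSeries_jq.mul (hasQSeries_qExp _)).congr (.of_forall fun τ => ?_)).unique one_pos
      (((hasQSeries_qExp Hecke.eis4).pow 3).smul 1728)
    show jFun τ * ((1728 : ℂ) * ModularForm.discriminant τ) = 1728 * ModularForm.E₄ τ ^ 3
    simp only [jFun]
    field_simp [ModularForm.discriminant_ne_zero τ]
  have hD0 : D ≠ 0 := by
    rw [hD, ne_eq, map_eq_zero_iff _ HahnSeries.ofPowerSeries_injective,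
      map_eq_zero_iff _ Hecke.qExp_injective, smul_eq_zero, not_or]
    exact ⟨by norm_num, fun h => ModularForm.discriminant_ne_zero UpperHalfPlane.I
      (congrFun (congrArg Subtype.val h) UpperHalfPlane.I)⟩
  have h := congrArg (lmap σ.toRingHom) hrel
  rw [map_mul, map_mul, map_pow, lmap_C, hD, hE, lmap_ofPowerSeries_of_int σ Hecke.scaled_delta_int,
    lmap_ofPowerSeries_of_int σ Hecke.eis4_int, ← hD, ← hE,
    show σ.toRingHom (1728 : ℂ) = 1728 from map_ofNat σ 1728, ← hrel] at h
  exact mul_right_cancel₀ hD0 h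

variable {N : ℕ} [NeZero N]

theorem jqN_eq : jqN N = expand N (NeZero.ne N) jq := by
  have h := hasQSeries_jq.refine_width one_pos N (NeZero.ne N)
  rw [one_mul] at h
  exact (hasQSeries_serHom (jMF (Gamma N))).unique (NeZero.pos N) h

theorem lmap_jqN : lmap σ.toRingHom (jqN N) = jqN N := by
  rw [jqN_eq, lmap_expand, lmap_jq]

theorem serAlg_node_base :
    serAlg N (node (baseCoset N)) = expand N (NeZero.ne N) (expand N (NeZero.ne N) jq) := by
  have h := (hasQSeries_jNFun N).refine_width one_pos N (NeZero.ne N)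
  rw [one_mul] at h
  refine (hasQSeries_serHom _).unique (NeZero.pos N) ?_
  rw [node, conjugate_baseCoset]
  exact h

theorem gmap_modPoly : gmap σ (modPoly N) = modPoly N := by
  have hinj : Function.Injective (Polynomial.mapRingHom σ.toRingHom) :=
    Polynomial.map_injective _ σ.injective
  have hm : (modPoly N).Monic := orbitPoly_monic _
  have hm' : (gmap σ (modPoly N)).Monic := hm.map _
  have hd : (gmap σ (modPoly N)).natDegree = (modPoly N).natDegree :=
    Polynomial.natDegree_map_eq_of_injective hinj _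
  refine sub_eq_zero.mp (eq_of_biEval_eq (N := N) (Q := 0) ?_ (by simpa using idx_pos) ?_)
  · rcases eq_or_ne (gmap σ (modPoly N) - modPoly N) 0 with h | h
    · rw [h, Polynomial.natDegree_zero]; exact idx_pos
    · rw [← natDegree_orbitPoly (jNMF N), ← modPoly, ← hd]
      refine Polynomial.natDegree_lt_natDegree h (Polynomial.degree_sub_lt_left ?_ hm'.ne_zero ?_)
      · rw [Polynomial.degree_eq_natDegree hm'.ne_zero, Polynomial.degree_eq_natDegree hm.ne_zero, hd]
      · rw [hm'.leadingCoeff, hm.leadingCoeff]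
  · rw [map_sub, map_zero, biEval_modPoly_base, sub_zero]
    refine Subalgebra.inclusion_injective (modFuns_anti (Gamma_le_Gamma0 N)) ?_
    show incl N _ = incl N _
    rw [map_zero, incl_biEval]
    refine serAlg_injective N ?_
    rw [map_zero, map_biEval]
    have h0 : biEval (jqN N) (serAlg N (node (baseCoset N))) (modPoly N) = 0 :=
      (biEval_modPoly_eq_zero_iff (serAlg N) _).mpr ⟨_, rfl⟩
    have h := congrArg (lmap σ.toRingHom) h0
    rw [map_zero, lmap_biEval, lmap_jqN, serAlg_node_base, lmap_expand, lmap_expand, lmap_jq,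
      ← serAlg_node_base] at h
    exact h

theorem gmap_derivative_modPoly :
    gmap σ (Polynomial.derivative (modPoly N)) = Polynomial.derivative (modPoly N) := by
  conv_rhs => rw [← gmap_modPoly σ]
  exact (Polynomial.derivative_map _ _).symm

/-! ## Stability of the criterion -/

theorem eOf_map (c : ℂ) : eOf (σ c) = eOf c := by
  have h0 : σ c = 0 ↔ c = 0 := by simp
  have h1 : σ c = 1728 ↔ c = 1728 := by
    rw [← σ.injective.eq_iff (a := c), map_ofNat]
  simp only [eOf, h0, h1]

theorem order_powerSeries_map {R S : Type*} [CommRing R] [CommRing S] {φ : R →+* S}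
    (hφ : Function.Injective φ) (f : PowerSeries R) : (PowerSeries.map φ f).order = f.order := by
  refine le_antisymm ?_ (PowerSeries.le_order_map φ)
  refine PowerSeries.le_order _ _ fun i hi => ?_
  have := PowerSeries.coeff_of_lt_order i hi
  rw [PowerSeries.coeff_map] at this
  exact hφ (this.trans (map_zero φ).symm)

theorem Crit.map {n : ℕ} {G : Polynomial (Polynomial ℂ)} (h : Crit N n G) :
    Crit N n (gmap σ G) := by
  constructor
  · intro c r hr
    set φ := PowerSeries.map σ.toRingHom with hφ
    have hφc : ∀ x, φ (algebraMap ℂ (PowerSeries ℂ) x) = algebraMap ℂ (PowerSeries ℂ) (σ x) :=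
      fun x => by
        rw [← PowerSeries.C_eq_algebraMap, PowerSeries.map_C]; rfl
    set c₀ := σ.symm c with hc₀
    set r₀ := PowerSeries.map σ.symm.toRingHom r with hr₀
    have hs : φ (PowerSeries.C c₀ + PowerSeries.X ^ eOf c₀) =
        PowerSeries.C c + PowerSeries.X ^ eOf c := by
      rw [map_add, map_pow, hφ, PowerSeries.map_C, PowerSeries.map_X, ← eOf_map σ c₀, hc₀]
      simp
    have hr' : φ r₀ = r := by
      ext i
      simp [hφ, hr₀]
    have hroot : biEval (PowerSeries.C c₀ + PowerSeries.X ^ eOf c₀) r₀ (modPoly N) = 0 := by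
      refine PowerSeries.map_injective σ.toRingHom σ.injective ?_
      rw [← hφ, map_biEval_semilinear σ φ hφc, hs, hr', gmap_modPoly, hr, map_zero]
    obtain ⟨k, hk⟩ := h.finite c₀ r₀ hroot
    refine ⟨k, ?_⟩
    rw [← hs, ← hr', ← map_biEval_semilinear σ φ hφc, ← gmap_derivative_modPoly σ,
      ← map_biEval_semilinear σ φ hφc, hφ, order_powerSeries_map σ.injective,
      order_powerSeries_map σ.injective]
    exact hk
  · intro r hr
    set r₀ := lmap σ.symm.toRingHom r with hr₀
    have hr' : lmap σ.toRingHom r₀ = r := by ext i; simp [hr₀]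
    have hroot : biEval (jqN N) r₀ (modPoly N) = 0 := by
      refine lmap_injective (φ := σ.toRingHom) σ.injective ?_
      rw [lmap_biEval, lmap_jqN, hr', gmap_modPoly, hr, map_zero]
    obtain ⟨hne, d, hd, hfix⟩ := h.infty r₀ hroot
    have e : ∀ P, biEval (jqN N) r (gmap σ P) = lmap σ.toRingHom (biEval (jqN N) r₀ P) :=
      fun P => by rw [lmap_biEval, lmap_jqN, hr']
    refine ⟨?_, d, ?_, fun ζ hζ htw => ?_⟩
    · rw [e]
      exact fun h0 => hne (lmap_injective (φ := σ.toRingHom) σ.injective (h0.trans (map_zero _).symm))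
    · rw [← gmap_derivative_modPoly σ, e, e, order_lmap (φ := σ.toRingHom) σ.injective,
        order_lmap (φ := σ.toRingHom) σ.injective]
      exact hd
    · set ζ₀ := Units.map ((σ.symm.toRingHom : ℂ →+* ℂ) : ℂ →* ℂ) ζ with hζ₀
      have h0 : ζ₀ ^ N = 1 := by rw [hζ₀, ← map_pow, hζ, map_one]
      have h1 : twist ζ₀ r₀ = r₀ := by rw [hr₀, hζ₀, ← lmap_twist, htw]
      have h2 := hfix ζ₀ h0 h1
      rw [hζ₀, ← map_zpow] at h2
      exact Units.map_injective (f := ((σ.symm.toRingHom : ℂ →+* ℂ) : ℂ →* ℂ)) σ.symm.injective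
        (h2.trans (map_one _).symm)

theorem PoleBound.map {n B : ℕ} {G : Polynomial (Polynomial ℂ)} (h : PoleBound N n B G) :
    PoleBound N n B (gmap σ G) := by
  intro r hr
  set r₀ := lmap σ.symm.toRingHom r with hr₀
  have hr' : lmap σ.toRingHom r₀ = r := by ext i; simp [hr₀]
  have hroot : biEval (jqN N) r₀ (modPoly N) = 0 := by
    refine lmap_injective (φ := σ.toRingHom) σ.injective ?_
    rw [lmap_biEval, lmap_jqN, hr', gmap_modPoly, hr, map_zero]
  have e : ∀ P, biEval (jqN N) r (gmap σ P) = lmap σ.toRingHom (biEval (jqN N) r₀ P) :=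
    fun P => by rw [lmap_biEval, lmap_jqN, hr']
  rw [← gmap_derivative_modPoly σ, e, e, order_lmap (φ := σ.toRingHom) σ.injective,
    order_lmap (φ := σ.toRingHom) σ.injective]
  exact h r₀ hroot

end Fermat.Agent.GalRep
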