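import Fermat.Agent.GalRep.ModFun

/-!
# The field lemma

Every `Γ₀(N)`-modular function is `G(j, jN) / Φ'(j, jN)`; the conjugates attached to the cosets
are all the embeddings over `ℂ[j]`.
-/

set_option autoImplicit false

noncomputable section

namespace Fermat.Agent.GalRep

open UpperHalfPlane CongruenceSubgroup Polynomial
open Fermat.Agent.Period (jFun Coset baseCoset)
open scoped MatrixGroups Manifold

variable {N : ℕ}

/-- `P ↦ P(j)`. -/
abbrev evJ (Γ : Subgroup SL(2, ℤ)) : ℂ[X] →ₐ[ℂ] modFuns Γ := Polynomial.aeval (jMF Γ)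

theorem evJ_apply (Γ : Subgroup SL(2, ℤ)) (P : ℂ[X]) (τ : ℍ) :
    ((evJ Γ P : modFuns Γ) : ℍ → ℂ) τ = P.eval (jFun τ) := by
  have h := Polynomial.aeval_algHom_apply
    ((Pi.evalAlgHom ℂ (fun _ : ℍ => ℂ) τ).comp (modFuns Γ).val) (jMF Γ) P
  simp only [AlgHom.comp_apply, Subalgebra.coe_val, Pi.evalAlgHom_apply] at h
  rw [evJ, ← h]
  exact congrArg (fun f => f P) (Polynomial.coe_aeval_eq_eval (R := ℂ) (jFun τ))

theorem evJ_injective (Γ : Subgroup SL(2, ℤ)) : Function.Injective (evJ Γ) := by
  rw [injective_iff_map_eq_zero]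
  intro P hP
  exact eq_zero_of_eval_jFun fun τ => by rw [← evJ_apply Γ P τ, hP]; rfl

theorem shift_jMF (g : SL(2, ℤ)) : shift N g (jMF (Gamma N)) = jMF (Gamma N) :=
  Subtype.ext (funext fun τ => Period.jFun_smul g τ)

theorem shift_evJ (g : SL(2, ℤ)) (P : ℂ[X]) : shift N g (evJ (Gamma N) P) = evJ (Gamma N) P := by
  rw [← Polynomial.aeval_algHom_apply, shift_jMF]

theorem conjugate_jMF (q : Coset N) : conjugate q (jMF (Gamma0 N)) = jMF (Gamma N) :=
  shift_jMF _

theorem conjugate_evJ (q : Coset N) (P : ℂ[X]) :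
    conjugate q (evJ (Gamma0 N) P) = evJ (Gamma N) P := by
  rw [← Polynomial.aeval_algHom_apply, conjugate_jMF]

/-- A shift invariant function is a polynomial in `j`. -/
theorem exists_evJ_eq {c : modFuns (Gamma N)} (h : ∀ g, shift N g c = c) :
    ∃ P : ℂ[X], evJ (Gamma N) P = c := by
  have hinv : ∀ (g : SL(2, ℤ)) (τ : ℍ), (c : ℍ → ℂ) (g • τ) = (c : ℍ → ℂ) τ := fun g τ =>
    congrFun (congrArg Subtype.val (h g)) τ
  obtain ⟨P, hP⟩ := exists_eq_eval_jFun (F := (c : ℍ → ℂ))
    ⟨c.2.holo, fun g _ τ => hinv g τ, c.2.cusps⟩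
  exact ⟨P, Subtype.ext (funext fun τ => by rw [evJ_apply, hP])⟩

theorem exists_map_evJ_eq {p : (modFuns (Gamma N))[X]}
    (h : ∀ g, p.map (shift N g).toRingHom = p) :
    ∃ P : ℂ[X][X], P.map (evJ (Gamma N)).toRingHom = p := by
  refine (Polynomial.mem_lifts p).mp ((Polynomial.lifts_iff_coeff_lifts p).mpr fun n => ?_)
  obtain ⟨P, hP⟩ := exists_evJ_eq (N := N) (c := p.coeff n) fun g => by
    conv_rhs => rw [← h g]
    rw [Polynomial.coeff_map]; rfl
  exact ⟨P, hP⟩

section Eval

variable {K L : Type*} [CommRing K] [Algebra ℂ K] [CommRing L] [Algebra ℂ L]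

/-- Evaluation of a polynomial in `(j, jN)`. -/
def biEval (s r : K) : ℂ[X][X] →+* K := Polynomial.eval₂RingHom (Polynomial.aeval s).toRingHom r

theorem biEval_apply (s r : K) (P : ℂ[X][X]) :
    biEval s r P = (P.map (Polynomial.aeval s).toRingHom).eval r := by
  rw [biEval, coe_eval₂RingHom, Polynomial.eval_map]

theorem map_biEval (φ : K →ₐ[ℂ] L) (s r : K) (P : ℂ[X][X]) :
    φ (biEval s r P) = biEval (φ s) (φ r) P := by
  suffices h : (φ : K →+* L).comp (biEval s r) = biEval (φ s) (φ r) from RingHom.congr_fun h P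
  refine Polynomial.ringHom_ext (fun a => ?_) ?_
  · simp [biEval, Polynomial.aeval_algHom_apply]
  · simp [biEval]

end Eval

variable [NeZero N]

attribute [local instance] Classical.decEq

local instance instFintypeCosetLocal : Fintype (Coset N) := Fintype.ofFinite _

/-- The index of `Γ₀(N)`. -/
abbrev idx (N : ℕ) : ℕ := Nat.card (Coset N)

theorem idx_pos : 0 < idx N := Nat.card_pos

/-- The conjugates of `j(Nτ)`. -/
abbrev node (q : Coset N) : modFuns (Gamma N) := conjugate q (jNMF N)

theorem node_injective : Function.Injective (node : Coset N → modFuns (Gamma N)) :=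
  conjugate_jNMF_injective N

theorem shift_node (g : SL(2, ℤ)) (q : Coset N) : shift N g (node q) = node (g⁻¹ • q) :=
  shift_conjugate g q _

theorem map_shift_orbit (F : modFuns (Gamma0 N)) (g : SL(2, ℤ)) :
    (Lagrange.nodal Finset.univ fun q => conjugate q F).map (shift N g).toRingHom =
      Lagrange.nodal Finset.univ fun q => conjugate q F := by
  simp only [Lagrange.nodal_eq, Polynomial.map_prod]
  refine Fintype.prod_equiv (MulAction.toPerm g⁻¹) _ _ fun q => ?_
  simp [shift_conjugate]

theorem exists_orbitPoly (F : modFuns (Gamma0 N)) : ∃ P : ℂ[X][X],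
    P.map (evJ (Gamma N)).toRingHom = Lagrange.nodal Finset.univ fun q => conjugate q F :=
  exists_map_evJ_eq (map_shift_orbit F)

/-- The monic polynomial with roots the conjugates of `F`. -/
def orbitPoly (F : modFuns (Gamma0 N)) : ℂ[X][X] := (exists_orbitPoly F).choose

theorem map_orbitPoly (F : modFuns (Gamma0 N)) :
    (orbitPoly F).map (evJ (Gamma N)).toRingHom =
      Lagrange.nodal Finset.univ fun q => conjugate q F :=
  (exists_orbitPoly F).choose_spec

theorem orbitPoly_monic (F : modFuns (Gamma0 N)) : (orbitPoly F).Monic :=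
  Polynomial.monic_of_injective (f := (evJ (Gamma N)).toRingHom) (evJ_injective _)
    (by rw [map_orbitPoly]; exact Lagrange.nodal_monic)

theorem natDegree_orbitPoly (F : modFuns (Gamma0 N)) : (orbitPoly F).natDegree = idx N := by
  rw [← Polynomial.natDegree_map_eq_of_injective (f := (evJ (Gamma N)).toRingHom) (evJ_injective _),
    map_orbitPoly, Lagrange.natDegree_nodal, Finset.card_univ, Fintype.card_eq_nat_card]

/-- The modular polynomial `Φ_N(j, X)`. -/
def modPoly (N : ℕ) [NeZero N] : ℂ[X][X] := orbitPoly (jNMF N)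

theorem biEval_evJ (r : modFuns (Gamma N)) (P : ℂ[X][X]) :
    biEval (jMF (Gamma N)) r P = (P.map (evJ (Gamma N)).toRingHom).eval r :=
  biEval_apply _ _ _

theorem biEval_modPoly (r : modFuns (Gamma N)) :
    biEval (jMF (Gamma N)) r (modPoly N) = ∏ q, (r - node q) := by
  rw [biEval_evJ, modPoly, map_orbitPoly, Lagrange.eval_nodal]

theorem biEval_modPoly_deriv (q : Coset N) :
    biEval (jMF (Gamma N)) (node q) (derivative (modPoly N)) =
      ∏ r ∈ Finset.univ.erase q, (node q - node r) := by
  rw [biEval_evJ, modPoly, ← Polynomial.derivative_map, map_orbitPoly,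
    Lagrange.eval_nodal_derivative_eval_node_eq (Finset.mem_univ q), Lagrange.eval_nodal]

theorem biEval_modPoly_deriv_ne_zero (q : Coset N) :
    biEval (jMF (Gamma N)) (node q) (derivative (modPoly N)) ≠ 0 := by
  rw [biEval_modPoly_deriv, Finset.prod_ne_zero_iff]
  intro r hr
  exact sub_ne_zero.mpr fun h => (Finset.mem_erase.mp hr).1 (node_injective h).symm

theorem incl_biEval (P : ℂ[X][X]) :
    incl N (biEval (jMF (Gamma0 N)) (jNMF N) P) =
      biEval (jMF (Gamma N)) (node (baseCoset N)) P := by
  rw [map_biEval, node, conjugate_baseCoset]; rfl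

theorem conjugate_biEval (q : Coset N) (P : ℂ[X][X]) :
    conjugate q (biEval (jMF (Gamma0 N)) (jNMF N) P) =
      biEval (jMF (Gamma N)) (node q) P := by
  rw [map_biEval, conjugate_jMF]

theorem biEval_modPoly_base : biEval (jMF (Gamma0 N)) (jNMF N) (modPoly N) = 0 := by
  have h := incl_biEval (N := N) (modPoly N)
  rw [biEval_modPoly, Finset.prod_eq_zero (Finset.mem_univ (baseCoset N)) (sub_self _)] at h
  exact Subalgebra.inclusion_injective _ (h.trans (map_zero _).symm)

/-- Interpolation: `F · Φ'(j, jN) = G(j, jN)` with `G` of degree less than the index. -/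
theorem exists_interp (F : modFuns (Gamma0 N)) : ∃ G : ℂ[X][X], G.natDegree < idx N ∧
    F * biEval (jMF (Gamma0 N)) (jNMF N) (derivative (modPoly N)) =
      biEval (jMF (Gamma0 N)) (jNMF N) G := by
  set p : (modFuns (Gamma N))[X] :=
    ∑ q, Polynomial.C (conjugate q F) * Lagrange.nodal (Finset.univ.erase q) node with hp
  have hinv : ∀ g, p.map (shift N g).toRingHom = p := by
    intro g
    rw [hp, Polynomial.map_sum]
    refine Fintype.sum_equiv (MulAction.toPerm g⁻¹) _ _ fun q => ?_
    simp only [Polynomial.map_mul, Polynomial.map_C, Lagrange.nodal_eq, Polynomial.map_prod,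
      Polynomial.map_sub, Polynomial.map_X]
    refine congrArg₂ (fun a b : (modFuns (Gamma N))[X] => a * b) ?_ ?_
    · rw [AlgHom.toRingHom_eq_coe, RingHom.coe_coe, shift_conjugate]
      rfl
    · refine Finset.prod_equiv (MulAction.toPerm g⁻¹) (fun r => by simp) fun r _ => ?_
      simp [shift_node]
  obtain ⟨G, hG⟩ := exists_map_evJ_eq hinv
  refine ⟨G, ?_, ?_⟩
  · rw [← Polynomial.natDegree_map_eq_of_injective (f := (evJ (Gamma N)).toRingHom) (evJ_injective _),
      hG]
    refine lt_of_le_of_lt (Polynomial.natDegree_sum_le_of_forall_le _ _ (n := idx N - 1) fun q _ => ?_)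
      (Nat.sub_lt idx_pos one_pos)
    refine (Polynomial.natDegree_C_mul_le _ _).trans ?_
    rw [Lagrange.natDegree_nodal, Finset.card_erase_of_mem (Finset.mem_univ q), Finset.card_univ,
      Fintype.card_eq_nat_card]
  · refine Subalgebra.inclusion_injective (modFuns_anti (Gamma_le_Gamma0 N)) ?_
    show incl N _ = incl N _
    rw [map_mul, incl_biEval, incl_biEval, ← conjugate_baseCoset, biEval_modPoly_deriv, biEval_evJ,
      hG, hp, Polynomial.eval_finset_sum, Finset.sum_eq_single (baseCoset N)]
    · rw [Polynomial.eval_mul, Polynomial.eval_C, Lagrange.eval_nodal]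
    · intro q _ hq
      rw [Polynomial.eval_mul,
        Lagrange.eval_nodal_at_node (Finset.mem_erase.mpr ⟨Ne.symm hq, Finset.mem_univ _⟩), mul_zero]
    · exact fun h => absurd (Finset.mem_univ _) h

/-- Polynomials of degree less than the index are determined by their value at `(j, jN)`. -/
theorem eq_of_biEval_eq {P Q : ℂ[X][X]} (hP : P.natDegree < idx N) (hQ : Q.natDegree < idx N)
    (h : biEval (jMF (Gamma0 N)) (jNMF N) P = biEval (jMF (Gamma0 N)) (jNMF N) Q) : P = Q := by
  have hall : ∀ q : Coset N, biEval (jMF (Gamma N)) (node q) P = biEval (jMF (Gamma N)) (node q) Q :=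
    fun q => by rw [← conjugate_biEval, ← conjugate_biEval, h]
  apply Polynomial.map_injective (evJ (Gamma N)).toRingHom (evJ_injective _)
  refine sub_eq_zero.mp (Polynomial.eq_zero_of_natDegree_lt_card_of_eval_eq_zero _
    (node_injective (N := N)) (fun q => ?_) ?_)
  · rw [Polynomial.eval_sub, ← biEval_evJ, ← biEval_evJ, hall q, sub_self]
  · rw [Fintype.card_eq_nat_card]
    refine lt_of_le_of_lt (Polynomial.natDegree_sub_le _ _) (max_lt ?_ ?_) <;>
      exact lt_of_le_of_lt Polynomial.natDegree_map_le (by assumption)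

section Target

variable {K : Type*} [CommRing K] [IsDomain K] [Algebra ℂ K]

/-- The roots of the modular polynomial over `φ(j)` are the images of the conjugates of `jN`. -/
theorem biEval_modPoly_eq_zero_iff (φ : modFuns (Gamma N) →ₐ[ℂ] K) (r : K) :
    biEval (φ (jMF (Gamma N))) r (modPoly N) = 0 ↔ ∃ q : Coset N, r = φ (node q) := by
  have h : (modPoly N).map (Polynomial.aeval (φ (jMF (Gamma N)))).toRingHom =
      ∏ q : Coset N, (Polynomial.X - Polynomial.C (φ (node q))) := by
    have e : (Polynomial.aeval (φ (jMF (Gamma N)))).toRingHom =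
        (φ : modFuns (Gamma N) →+* K).comp (evJ (Gamma N)).toRingHom := by
      ext1
      · ext c; simp
      · simp
    rw [e, ← Polynomial.map_map, modPoly, map_orbitPoly, Lagrange.nodal_eq, Polynomial.map_prod]
    simp
  rw [biEval_apply, h, Polynomial.eval_prod, Finset.prod_eq_zero_iff]
  simp [sub_eq_zero]

/-- The conjugates are all the embeddings over `ℂ[j]`. -/
theorem exists_eq_comp_conjugate (φ : modFuns (Gamma N) →ₐ[ℂ] K) (hφ : Function.Injective φ)
    (ι : modFuns (Gamma0 N) →ₐ[ℂ] K) (hι : ι (jMF (Gamma0 N)) = φ (jMF (Gamma N))) :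
    ∃ q : Coset N, ι = φ.comp (conjugate q) := by
  have h0 := congrArg ι (biEval_modPoly_base (N := N))
  rw [map_biEval, map_zero, hι] at h0
  obtain ⟨q, hq⟩ := (biEval_modPoly_eq_zero_iff φ _).mp h0
  refine ⟨q, AlgHom.ext fun F => ?_⟩
  obtain ⟨G, -, hG⟩ := exists_interp F
  have h1 := congrArg ι hG
  rw [map_mul, map_biEval, map_biEval, hι, hq, ← map_biEval, ← map_biEval] at h1
  have h2 := congrArg (φ.comp (conjugate q)) hG
  rw [map_mul, AlgHom.comp_apply, AlgHom.comp_apply, AlgHom.comp_apply, conjugate_biEval,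
    conjugate_biEval] at h2
  refine mul_right_cancel₀ ?_ (h1.trans h2.symm)
  exact fun h => biEval_modPoly_deriv_ne_zero q (hφ (h.trans (map_zero φ).symm))

/-- The embeddings attached to distinct cosets are distinct. -/
theorem comp_conjugate_injective (φ : modFuns (Gamma N) →ₐ[ℂ] K) (hφ : Function.Injective φ) :
    Function.Injective fun q : Coset N => φ.comp (conjugate q) := fun _ _ h =>
  node_injective (hφ (DFunLike.congr_fun h (jNMF N)))

end Target

/-- The series of width `N` as an algebra homomorphism. -/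
def serAlg (N : ℕ) [NeZero N] : modFuns (Gamma N) →ₐ[ℂ] LaurentSeries ℂ :=
  { serHom N with
    commutes' := fun c => by
      show serHom N (algebraMap ℂ _ c) = _
      rw [serHom_algebraMap]
      simp [HahnSeries.algebraMap_apply'] }

theorem serAlg_injective (N : ℕ) [NeZero N] : Function.Injective (serAlg N) := serHom_injective N

end Fermat.Agent.GalRep
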