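import Fermat.Agent.GalRep.Embeddings
import Fermat.Agent.Period.MaxPrinciple
import Fermat.Agent.Hecke.LevelForms

/-!
# The algebraic criterion for Kummer representatives

`G(j, jN) / Φ'(j, jN)` is the `n`-th power of a Kummer representative iff the orders of the series
`G(r) / Φ'(r)` at the roots `r` of the modular polynomial are divisible by `n`, with a rationality
condition at infinity. The criterion is visibly stable under automorphisms of `ℂ`.
-/

set_option autoImplicit false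

noncomputable section

namespace Fermat.Agent.GalRep

open UpperHalfPlane CongruenceSubgroup Filter Topology ModularGroup
open Fermat.Agent.Period (jFun Coset baseCoset)
open scoped MatrixGroups Manifold

variable (N : ℕ) [NeZero N]

/-- The series of `j` of width `N`. -/
def jqN : LaurentSeries ℂ := serAlg N (jMF (Gamma N))

/-- `G(j, jN)` as a modular function. -/
def numVal (G : Polynomial (Polynomial ℂ)) : modFuns (Gamma0 N) :=
  biEval (jMF (Gamma0 N)) (jNMF N) G

/-- `Φ'(j, jN)`. -/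
def denVal : modFuns (Gamma0 N) := numVal N (Polynomial.derivative (modPoly N))

/-- `F ^ n = G(j, jN) / Φ'(j, jN)`. -/
def IsNum (n : ℕ) (F : ℍ → ℂ) (G : Polynomial (Polynomial ℂ)) : Prop :=
  ∀ τ : ℍ, F τ ^ n * (denVal N : ℍ → ℂ) τ = (numVal N G : ℍ → ℂ) τ

/-- The criterion. -/
structure Crit (n : ℕ) (G : Polynomial (Polynomial ℂ)) : Prop where
  finite : ∀ (c : ℂ) (r : PowerSeries ℂ),
    biEval (PowerSeries.C c + PowerSeries.X ^ eOf c) r (modPoly N) = 0 →
    ∃ k : ℕ, (biEval (PowerSeries.C c + PowerSeries.X ^ eOf c) r G).order =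
      (biEval (PowerSeries.C c + PowerSeries.X ^ eOf c) r (Polynomial.derivative (modPoly N))).order
        + ((n * k : ℕ) : ℕ∞)
  infty : ∀ r : LaurentSeries ℂ, biEval (jqN N) r (modPoly N) = 0 →
    biEval (jqN N) r G ≠ 0 ∧ ∃ d : ℤ, (biEval (jqN N) r G).order =
      (biEval (jqN N) r (Polynomial.derivative (modPoly N))).order + n * d ∧
      ∀ ζ : ℂˣ, ζ ^ N = 1 → twist ζ r = r → ζ ^ d = 1

/-- All pole orders (in the parameter of width `N`) are at most `B * N`. -/
def PoleBound (n B : ℕ) (G : Polynomial (Polynomial ℂ)) : Prop :=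
  ∀ r : LaurentSeries ℂ, biEval (jqN N) r (modPoly N) = 0 →
    (biEval (jqN N) r (Polynomial.derivative (modPoly N))).order - n * (B * N : ℕ) ≤
      (biEval (jqN N) r G).order

variable {N}

/-! ## Auxiliary facts -/

theorem exists_exp_eq_of_pow_eq_one {ζ : ℂˣ} (h : ζ ^ N = 1) :
    ∃ k : ℤ, (ζ : ℂ) = Complex.exp (2 * Real.pi * Complex.I * k / N) := by
  have h' : (ζ : ℂ) ^ N = 1 := by rw [← Units.val_pow_eq_pow_val, h, Units.val_one]
  obtain ⟨i, -, hi⟩ := (Complex.isPrimitiveRoot_exp N (NeZero.ne N)).eq_pow_of_pow_eq_one h'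
  refine ⟨i, hi.symm.trans ?_⟩
  rw [← Complex.exp_nat_mul]
  congr 1; push_cast; ring

theorem twist_one (f : LaurentSeries ℂ) : twist (1 : ℂˣ) f = f := by ext; simp

theorem expand_one (f : LaurentSeries ℂ) : expand 1 one_ne_zero f = f := by
  ext m
  have h := expand_coeff_mul 1 one_ne_zero f m
  rwa [Nat.cast_one, one_mul] at h

/-- The series of a translate. -/
theorem HasQSeries.comp_vadd {w : ℕ} {F : ℍ → ℂ} {f : LaurentSeries ℂ} (hw : 0 < w)
    (hF : HasQSeries w F f) (k : ℤ) (ζ : ℂˣ)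
    (hζ : (ζ : ℂ) = Complex.exp (2 * Real.pi * Complex.I * k / w)) :
    HasQSeries w (fun τ => F ((k : ℝ) +ᵥ τ)) (twist ζ f) := by
  have := hF.comp_affine hw 1 1 one_ne_zero one_pos k (fun τ => (k : ℝ) +ᵥ τ)
    (fun τ => by rw [coe_vadd]; push_cast; ring) ζ (by rw [hζ]; simp)
  rwa [expand_one, mul_one] at this

theorem twist_eq_of_periodic {w : ℕ} {F : ℍ → ℂ} {f : LaurentSeries ℂ} (hw : 0 < w)
    (hF : HasQSeries w F f) (k : ℤ) (ζ : ℂˣ)
    (hζ : (ζ : ℂ) = Complex.exp (2 * Real.pi * Complex.I * k / w))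
    (hper : ∀ τ : ℍ, F ((k : ℝ) +ᵥ τ) = F τ) : twist ζ f = f :=
  ((hF.comp_vadd hw k ζ hζ).congr (.of_forall hper)).unique hw hF

theorem zpow_eq_one_of_twist {ζ : ℂˣ} {f : LaurentSeries ℂ} (hf : f ≠ 0) (h : twist ζ f = f) :
    ζ ^ f.order = 1 := by
  have hne : f.coeff f.order ≠ 0 := fun h0 => hf (HahnSeries.coeff_order_eq_zero.mp h0)
  have := congrArg (fun g : LaurentSeries ℂ => g.coeff f.order) h
  simp only [twist_coeff] at this
  exact Units.ext (mul_left_cancel₀ hne (by rw [this, Units.val_one, mul_one]))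

/-- Two holomorphic functions with equal `n`-th powers differ by a root of unity. -/
theorem exists_const_of_pow_eq {n : ℕ} (hn : 0 < n) {F G : ℍ → ℂ}
    (hF : MDifferentiable 𝓘(ℂ) 𝓘(ℂ) F) (hG : MDifferentiable 𝓘(ℂ) 𝓘(ℂ) G) (hG0 : G ≠ 0)
    (h : ∀ τ, F τ ^ n = G τ ^ n) : ∃ ω : ℂ, ω ^ n = 1 ∧ ∀ τ, F τ = ω * G τ := by
  obtain ⟨τ₀, hτ₀⟩ := Function.ne_iff.mp hG0
  have hτ₀' : G τ₀ ≠ 0 := hτ₀
  set ω := F τ₀ / G τ₀ with hω
  have hωn : ω ^ n = 1 := by rw [hω, div_pow, h, div_self (pow_ne_zero _ hτ₀')]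
  refine ⟨ω, hωn, ?_⟩
  have hFa := (UpperHalfPlane.mdifferentiable_iff.mp hF).analyticOnNhd isOpen_upperHalfPlaneSet
  have hGa := (UpperHalfPlane.mdifferentiable_iff.mp hG).analyticOnNhd isOpen_upperHalfPlaneSet
  have hev : (F ∘ ofComplex) =ᶠ[𝓝 (τ₀ : ℂ)] fun z => ω * (G ∘ ofComplex) z := by
    refine eventuallyEq_of_pow_eq hn (hFa _ τ₀.im_pos).continuousAt
      (continuousAt_const.mul (hGa _ τ₀.im_pos).continuousAt) ?_ ?_ (.of_forall fun z => ?_)
    · simp [hω, hτ₀']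
    · simp only [Function.comp, ofComplex_apply]
      intro h0
      refine hτ₀' (pow_eq_zero_iff hn.ne' |>.mp ?_)
      rw [← h, h0, zero_pow hn.ne']
    · simp [mul_pow, hωn, h]
  have hmul : AnalyticOnNhd ℂ (fun z => ω * (G ∘ ofComplex) z) upperHalfPlaneSet :=
    fun z hz => analyticAt_const.mul (hGa z hz)
  have := hFa.eqOn_of_preconnected_of_eventuallyEq hmul
    (convex_halfSpace_im_gt 0).isPreconnected τ₀.im_pos hev
  intro τ
  simpa using this τ.im_pos

theorem trace_conj_T_pow (δ : SL(2, ℤ)) (k : ℤ) :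
    ((δ * T ^ k * δ⁻¹ : SL(2, ℤ)) : Matrix (Fin 2) (Fin 2) ℤ).trace = 2 := by
  rw [Matrix.SpecialLinearGroup.coe_mul, Matrix.trace_mul_comm,
    ← Matrix.SpecialLinearGroup.coe_mul, ← mul_assoc, inv_mul_cancel, one_mul, coe_T_zpow,
    Matrix.trace_fin_two_of]
  norm_num

theorem smul_vadd_eq (δ : SL(2, ℤ)) (k : ℤ) (τ : ℍ) :
    δ • ((k : ℝ) +ᵥ τ) = (δ * T ^ k * δ⁻¹) • (δ • τ) := by
  rw [← modular_T_zpow_smul, ← mul_smul, ← mul_smul, inv_mul_cancel_right]

/-- Periodicity at a cusp of a Kummer representative. -/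
theorem IsKummerRep.periodic {n : ℕ} [NeZero n] {χ : ParHom N (ZMod n)} {F : ℍ → ℂ}
    (hF : IsKummerRep N n χ F) (δ : SL(2, ℤ)) (k : ℤ) (h : δ * T ^ k * δ⁻¹ ∈ Gamma0 N) (τ : ℍ) :
    F (δ • ((k : ℝ) +ᵥ τ)) = F (δ • τ) := by
  have he := hF.equivariant ⟨_, h⟩ (δ • τ)
  have hχ : (χ : Additive (Gamma0 N) →+ ZMod n) (Additive.ofMul ⟨_, h⟩) = 0 :=
    χ.2 ⟨_, h⟩ (by rw [trace_conj_T_pow]; norm_num)
  rw [hχ, AddChar.map_zero_eq_one, one_mul] at he
  rw [smul_vadd_eq]
  exact he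

theorem IsKummerRep.isModFun_pow {n : ℕ} [NeZero n] {χ : ParHom N (ZMod n)} {F : ℍ → ℂ}
    (hF : IsKummerRep N n χ F) : IsModFun (Gamma0 N) (F ^ n) := by
  refine ⟨hF.holo.pow n, fun γ hγ τ => ?_, hF.cusps.pow n⟩
  show F (γ • τ) ^ n = F τ ^ n
  rw [hF.equivariant ⟨γ, hγ⟩ τ, mul_pow, ← AddChar.map_nsmul_eq_pow, ← Nat.cast_smul_eq_nsmul (ZMod n),
    ZMod.natCast_self, zero_smul, AddChar.map_zero_eq_one, one_mul]

theorem exists_num_of_rep {n : ℕ} [NeZero n] {χ : ParHom N (ZMod n)} {F : ℍ → ℂ}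
    (hF : IsKummerRep N n χ F) :
    ∃ G : Polynomial (Polynomial ℂ), G.natDegree < idx N ∧ IsNum N n F G := by
  obtain ⟨G, hdeg, hG⟩ := exists_interp ⟨F ^ n, hF.isModFun_pow⟩
  exact ⟨G, hdeg, fun τ => congrFun (congrArg Subtype.val hG) τ⟩

/-- The translated equation `(F ∘ δ) ^ n · Φ'(node) = G(node)`. -/
theorem IsNum.conjugate_eq {n : ℕ} {F : ℍ → ℂ} {G : Polynomial (Polynomial ℂ)}
    (h : IsNum N n F G) (δ : SL(2, ℤ)) (τ : ℍ) :
    F (δ • τ) ^ n *
      ((biEval (jMF (Gamma N)) (node ((δ⁻¹ : SL(2, ℤ)) : Coset N))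
        (Polynomial.derivative (modPoly N)) : modFuns (Gamma N)) : ℍ → ℂ) τ =
      ((biEval (jMF (Gamma N)) (node ((δ⁻¹ : SL(2, ℤ)) : Coset N)) G : modFuns (Gamma N)) :
        ℍ → ℂ) τ := by
  rw [← conjugate_biEval, ← conjugate_biEval, conjugate_mk, conjugate_mk, inv_inv]
  exact h (δ • τ)

theorem out_mk (q : Coset N) : (((q.out⁻¹)⁻¹ : SL(2, ℤ)) : Coset N) = q := by
  rw [inv_inv, QuotientGroup.out_eq']

/-! ## The series of a representative at a cusp -/

theorem exists_series_rep {n : ℕ} [NeZero n] {χ : ParHom N (ZMod n)} {F : ℍ → ℂ}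
    (hF : IsKummerRep N n χ F) (δ : SL(2, ℤ)) :
    ∃ h, HasQSeries N (fun τ => F (δ • τ)) h ∧ h ≠ 0 := by
  obtain ⟨w, f, hw, hf⟩ := hF.cusps δ
  obtain ⟨h, hh⟩ := exists_hasQSeries_of_periodic (mdifferentiable_comp_smul hF.holo δ)
    (fun τ => by
      rw [show (N : ℝ) = (((N : ℕ) : ℤ) : ℝ) by simp]
      exact hF.periodic δ N (Period.T_pow_conj_mem_Gamma0 N δ) τ) hw hf
  refine ⟨h, hh, fun h0 => hF.ne_zero ?_⟩
  rw [h0] at hh
  have := eq_of_hasQSeries (mdifferentiable_comp_smul hF.holo δ) mdifferentiable_const hh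
    (HasQSeries.zero N)
  funext τ
  exact (congrArg F (smul_inv_smul δ τ)).symm.trans (congrFun this (δ⁻¹ • τ))

theorem series_rep_eq {n : ℕ} {F : ℍ → ℂ} {G : Polynomial (Polynomial ℂ)}
    (hnum : IsNum N n F G) (δ : SL(2, ℤ)) {h : LaurentSeries ℂ}
    (hh : HasQSeries N (fun τ => F (δ • τ)) h) :
    h ^ n * biEval (jqN N) (serAlg N (node ((δ⁻¹ : SL(2, ℤ)) : Coset N)))
        (Polynomial.derivative (modPoly N)) =
      biEval (jqN N) (serAlg N (node ((δ⁻¹ : SL(2, ℤ)) : Coset N))) G := by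
  simp only [jqN, ← map_biEval]
  refine (((hh.pow n).mul (hasQSeries_serHom _)).congr (.of_forall fun τ => ?_)).unique
    (NeZero.pos N) (hasQSeries_serHom _)
  exact hnum.conjugate_eq δ τ

theorem den_series_ne_zero (q : Coset N) :
    biEval (jqN N) (serAlg N (node q)) (Polynomial.derivative (modPoly N)) ≠ 0 := by
  rw [jqN, ← map_biEval, ne_eq, map_eq_zero_iff _ (serAlg_injective N)]
  exact biEval_modPoly_deriv_ne_zero q

theorem order_series_rep {n : ℕ} {F : ℍ → ℂ} {G : Polynomial (Polynomial ℂ)}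
    (hnum : IsNum N n F G) (δ : SL(2, ℤ)) {h : LaurentSeries ℂ} (h0 : h ≠ 0)
    (hh : HasQSeries N (fun τ => F (δ • τ)) h) :
    (biEval (jqN N) (serAlg N (node ((δ⁻¹ : SL(2, ℤ)) : Coset N))) G).order =
      (biEval (jqN N) (serAlg N (node ((δ⁻¹ : SL(2, ℤ)) : Coset N)))
        (Polynomial.derivative (modPoly N))).order + n * h.order := by
  rw [← series_rep_eq hnum δ hh, HahnSeries.order_mul (pow_ne_zero _ h0) (den_series_ne_zero _),
    HahnSeries.order_pow, nsmul_eq_mul, add_comm]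

theorem exists_root_eq {r : LaurentSeries ℂ} (hr : biEval (jqN N) r (modPoly N) = 0) :
    ∃ δ : SL(2, ℤ), r = serAlg N (node ((δ⁻¹ : SL(2, ℤ)) : Coset N)) := by
  obtain ⟨q, rfl⟩ := (biEval_modPoly_eq_zero_iff (serAlg N) r).mp hr
  exact ⟨q.out⁻¹, by rw [out_mk]⟩

/-! ## The criterion holds for representatives -/

theorem crit_of_rep {n : ℕ} [NeZero n] {χ : ParHom N (ZMod n)} {F : ℍ → ℂ}
    (hF : IsKummerRep N n χ F) {G : Polynomial (Polynomial ℂ)} (hnum : IsNum N n F G) :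
    Crit N n G := by
  constructor
  · intro c r hr
    obtain ⟨τ, rfl⟩ := jFun_surjective c
    obtain ⟨ψ, hψ, h0, hψτ, hd, hjψ⟩ := exists_jCoord N τ
    rw [← hjψ] at hr ⊢
    obtain ⟨q, rfl⟩ := (biEval_modPoly_eq_zero_iff (localAlg N hψ h0) r).mp hr
    rw [← map_biEval, ← map_biEval]
    obtain ⟨k, hk⟩ := ENat.ne_top_iff_exists.mp (analyticOrderAt_modFun_ne_top
      (mdifferentiable_comp_smul hF.holo q.out⁻¹)
      (fun h => hF.ne_zero (funext fun z => by simpa using congrFun h (q.out • z))) h0)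
    refine ⟨k, ?_⟩
    have hfun : biEval (jMF (Gamma N)) (node q) G =
        conjugate q ⟨F ^ n, hF.isModFun_pow⟩ *
          biEval (jMF (Gamma N)) (node q) (Polynomial.derivative (modPoly N)) := by
      ext τ'
      have := hnum.conjugate_eq q.out⁻¹ τ'
      rw [out_mk] at this
      exact this.symm
    rw [hfun, map_mul, PowerSeries.order_mul, add_comm]
    congr 1
    rw [order_localAlg hψ h0 hd, Nat.cast_mul, hk]
    have : (((conjugate q ⟨F ^ n, hF.isModFun_pow⟩ : modFuns (Gamma N)) : ℍ → ℂ) ∘ ofComplex) =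
        ((fun z => F (q.out⁻¹ • z)) ∘ ofComplex) ^ n := rfl
    rw [this, analyticOrderAt_pow
      (analyticAt_comp_ofComplex (mdifferentiable_comp_smul hF.holo q.out⁻¹) ⟨_, h0⟩)]
    simp
  · intro r hr
    obtain ⟨δ, rfl⟩ := exists_root_eq hr
    obtain ⟨h, hh, hh0⟩ := exists_series_rep hF δ
    refine ⟨?_, h.order, order_series_rep hnum δ hh0 hh, fun ζ hζ hfix => ?_⟩
    · rw [← series_rep_eq hnum δ hh]
      exact mul_ne_zero (pow_ne_zero _ hh0) (den_series_ne_zero _)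
    · obtain ⟨k, hk⟩ := exists_exp_eq_of_pow_eq_one hζ
      have hs := hasQSeries_serHom (node ((δ⁻¹ : SL(2, ℤ)) : Coset N))
      have hs' : HasQSeries N _ (twist ζ _) := hs.comp_vadd (NeZero.pos N) k ζ hk
      rw [show serHom N (node ((δ⁻¹ : SL(2, ℤ)) : Coset N)) =
        serAlg N (node ((δ⁻¹ : SL(2, ℤ)) : Coset N)) from rfl, hfix] at hs'
      have hd1 : MDifferentiable 𝓘(ℂ) 𝓘(ℂ) fun τ : ℍ =>
          ((node ((δ⁻¹ : SL(2, ℤ)) : Coset N) : modFuns (Gamma N)) : ℍ → ℂ) ((k : ℝ) +ᵥ τ) := by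
        have := mdifferentiable_comp_smul
          (node ((δ⁻¹ : SL(2, ℤ)) : Coset N)).2.holo (T ^ k)
        simpa only [modular_T_zpow_smul] using this
      have hper := eq_of_hasQSeries hd1 (node ((δ⁻¹ : SL(2, ℤ)) : Coset N)).2.holo hs' hs
      have hmem : δ * T ^ k * δ⁻¹ ∈ Gamma0 N := mem_Gamma0_of_jNFun_eq fun σ => by
        have := congrFun hper (δ⁻¹ • σ)
        rw [conjugate_mk, conjugate_mk, inv_inv, smul_inv_smul, smul_vadd_eq, smul_inv_smul] at this
        exact this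
      exact zpow_eq_one_of_twist hh0
        (twist_eq_of_periodic (NeZero.pos N) hh k ζ hk fun τ => hF.periodic δ k hmem τ)

theorem poleBound_iff {n : ℕ} [NeZero n] {χ : ParHom N (ZMod n)} {F : ℍ → ℂ}
    (hF : IsKummerRep N n χ F) {G : Polynomial (Polynomial ℂ)} (hnum : IsNum N n F G) (B : ℕ) :
    PoleBound N n B G ↔ ∀ (δ : SL(2, ℤ)) (h : LaurentSeries ℂ),
      HasQSeries N (fun τ => F (δ • τ)) h → -((B * N : ℕ) : ℤ) ≤ h.order := by
  have hn : (0 : ℤ) < n := by exact_mod_cast NeZero.pos n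
  constructor
  · intro hP δ h hh
    have h0 : h ≠ 0 := by
      obtain ⟨h', hh', h0'⟩ := exists_series_rep hF δ
      rwa [hh.unique (NeZero.pos N) hh']
    have hroot := (biEval_modPoly_eq_zero_iff (serAlg N) _).mpr
      ⟨((δ⁻¹ : SL(2, ℤ)) : Coset N), rfl⟩
    have := hP _ hroot
    rw [order_series_rep hnum δ h0 hh] at this
    nlinarith
  · intro hall r hr
    obtain ⟨δ, rfl⟩ := exists_root_eq hr
    obtain ⟨h, hh, h0⟩ := exists_series_rep hF δ
    rw [order_series_rep hnum δ h0 hh]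
    nlinarith [hall δ h hh]

/-! ## Representatives from the criterion -/

/-- The key periodicity: an `n`-th root of `G(r)/Φ'(r)` has no monodromy at a cusp. -/
theorem periodic_of_crit {n : ℕ} [NeZero n] {F : ℍ → ℂ} (hF : MDifferentiable 𝓘(ℂ) 𝓘(ℂ) F)
    (hF0 : F ≠ 0) {G : Polynomial (Polynomial ℂ)} (hnum : IsNum N n F G) (hcrit : Crit N n G)
    (δ : SL(2, ℤ)) :
    ∃ d : ℤ, (∀ k : ℤ, δ * T ^ k * δ⁻¹ ∈ Gamma0 N → ∀ τ, F (δ • ((k : ℝ) +ᵥ τ)) = F (δ • τ)) ∧
      ∃ C : ℝ, ∀ᶠ τ in atImInfty, ‖F (δ • τ)‖ ≤ C * ‖qq N τ‖ ^ d := by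
  set q : Coset N := ((δ⁻¹ : SL(2, ℤ)) : Coset N) with hq
  have hn : 0 < n := NeZero.pos n
  have hNpos : 0 < N := NeZero.pos N
  have hroot := (biEval_modPoly_eq_zero_iff (serAlg N) _).mpr ⟨q, rfl⟩
  obtain ⟨hne, d, hord, hfix⟩ := hcrit.infty _ hroot
  set a : modFuns (Gamma N) := biEval (jMF (Gamma N)) (node q) G with ha
  set b : modFuns (Gamma N) := biEval (jMF (Gamma N)) (node q) (Polynomial.derivative (modPoly N))
    with hb
  have hra : biEval (serAlg N (jMF (Gamma N))) (serAlg N (node q)) G = serHom N a :=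
    (map_biEval _ _ _ _).symm
  have hrb : biEval (serAlg N (jMF (Gamma N))) (serAlg N (node q))
      (Polynomial.derivative (modPoly N)) = serHom N b := (map_biEval _ _ _ _).symm
  rw [jqN, hra, hrb] at hord
  rw [jqN, hra] at hne
  have hsa := hasQSeries_serHom a
  have hsb := hasQSeries_serHom b
  have hb0 : serHom N b ≠ 0 := by rw [← hrb, ← jqN]; exact den_series_ne_zero q
  set H : ℍ → ℂ := fun τ => F (δ • τ) with hH
  set K : ℍ → ℂ := fun τ => H τ / qq N τ ^ d with hK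
  set La := (serHom N a).coeff (serHom N a).order
  set Lb := (serHom N b).coeff (serHom N b).order
  have hLa : La ≠ 0 := fun h => hne (HahnSeries.coeff_order_eq_zero.mp h)
  have hLb : Lb ≠ 0 := fun h => hb0 (HahnSeries.coeff_order_eq_zero.mp h)
  set L := La / Lb with hL
  have hL0 : L ≠ 0 := div_ne_zero hLa hLb
  have hlim : Tendsto (fun τ => K τ ^ n) atImInfty (𝓝 L) := by
    refine ((hsa.tendsto_leading hNpos).div (hsb.tendsto_leading hNpos) hLb).congr' ?_
    filter_upwards [hsb.eventually_ne_zero hNpos hb0] with τ hτ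
    simp only [Pi.div_apply, hK, hH]
    rw [div_pow, ← hnum.conjugate_eq δ τ, hord, zpow_add₀ (qq_ne_zero N τ), mul_comm (n : ℤ),
      zpow_mul, zpow_natCast]
    field_simp [qq_ne_zero N τ]
    ring
  refine ⟨d, fun k hk => ?_, ?_⟩
  · -- no monodromy
    have hHdiff : MDifferentiable 𝓘(ℂ) 𝓘(ℂ) H := mdifferentiable_comp_smul hF δ
    have hH0 : H ≠ 0 := fun h => hF0 (funext fun τ => by simpa [hH] using congrFun h (δ⁻¹ • τ))
    set ζ : ℂˣ := Units.mk0 (Complex.exp (2 * Real.pi * Complex.I * k / N)) (Complex.exp_ne_zero _)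
      with hζ
    have hζN : ζ ^ N = 1 := by
      ext
      rw [Units.val_pow_eq_pow_val, Units.val_mk0, Units.val_one, ← Complex.exp_nat_mul,
        mul_div_cancel₀ _ (Nat.cast_ne_zero.mpr hNpos.ne'), mul_comm]
      exact Complex.exp_int_mul_two_pi_mul_I k
    have hnode : ∀ P : Polynomial (Polynomial ℂ), ∀ τ : ℍ,
        ((biEval (jMF (Gamma N)) (node q) P : modFuns (Gamma N)) : ℍ → ℂ) ((k : ℝ) +ᵥ τ) =
        ((biEval (jMF (Gamma N)) (node q) P : modFuns (Gamma N)) : ℍ → ℂ) τ := fun P τ => by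
      rw [← conjugate_biEval, hq, conjugate_mk, conjugate_mk, inv_inv, smul_vadd_eq]
      exact (biEval (jMF (Gamma0 N)) (jNMF N) P).2.invariant _ hk _
    have hζd : ζ ^ d = 1 := by
      refine hfix ζ hζN (twist_eq_of_periodic hNpos (hasQSeries_serHom (node q)) k ζ (by simp [hζ]) ?_)
      intro τ
      rw [hq, conjugate_mk, conjugate_mk, inv_inv, smul_vadd_eq]
      exact (jNMF N).2.invariant _ hk _
    obtain ⟨ω, hωn, hω⟩ := exists_const_of_pow_eq hn
      (F := fun τ => H ((k : ℝ) +ᵥ τ)) (by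
        simpa only [modular_T_zpow_smul] using mdifferentiable_comp_smul hHdiff (T ^ k))
      hHdiff hH0 (fun τ => by
        have hne' : b ≠ 0 := fun h => hb0 (by rw [h, map_zero])
        have heq : ∀ τ : ℍ, (H ((k : ℝ) +ᵥ τ) ^ n - H τ ^ n) * (b : ℍ → ℂ) τ = 0 := fun τ => by
          have h1 := hnum.conjugate_eq δ ((k : ℝ) +ᵥ τ)
          have h2 := hnum.conjugate_eq δ τ
          rw [← hq, hnode, hnode] at h1
          rw [← hq] at h2
          simp only [hH, hb]
          linear_combination h1 - h2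
        have hz := Hecke.eq_zero_or_eq_zero_of_holo_mul
          ((((by simpa only [modular_T_zpow_smul] using mdifferentiable_comp_smul hHdiff (T ^ k) :
            MDifferentiable 𝓘(ℂ) 𝓘(ℂ) fun τ => H ((k : ℝ) +ᵥ τ))).pow n).sub (hHdiff.pow n))
          b.2.holo (funext heq)
        rcases hz with hz | hz
        · exact sub_eq_zero.mp (congrFun hz τ)
        · exact absurd (Subtype.ext hz) hne')
    have hqq : ∀ τ : ℍ, qq N ((k : ℝ) +ᵥ τ) = (ζ : ℂ) * qq N τ := fun τ => by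
      rw [qq, qq, hζ, Units.val_mk0, ← Complex.exp_add, coe_vadd]
      congr 1; push_cast; ring
    have hKper : ∀ τ, K ((k : ℝ) +ᵥ τ) = ω * K τ := fun τ => by
      simp only [hK]
      rw [hω τ, hqq, mul_zpow, ← Units.val_zpow_eq_zpow_val, hζd, Units.val_one, one_mul,
        mul_div_assoc]
    obtain ⟨A, hA⟩ := (atImInfty_mem _).mp (hlim.eventually
      (((continuous_id.div_const L).continuousAt (x := L)).eventually_mem
        (Complex.isOpen_slitPlane.mem_nhds (by simp [div_self hL0]))))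
    let U : Set ℂ := {z | max A 0 < z.im}
    have hU : IsPreconnected U := (convex_halfSpace_im_gt _).isPreconnected
    let Kc : ℂ → ℂ := K ∘ ofComplex
    let ρ : ℂ → ℂ := fun z => Kc z / Complex.exp (Complex.log (Kc z ^ n / L) / n)
    have hslit : ∀ z ∈ U, Kc z ^ n / L ∈ Complex.slitPlane := fun z hz => by
      have hz0 : (0 : ℝ) < z.im := lt_of_le_of_lt (le_max_right _ _) hz
      simp only [Kc, Function.comp, ofComplex_apply_of_im_pos hz0]
      exact hA ⟨z, hz0⟩ (le_of_lt (lt_of_le_of_lt (le_max_left _ _) hz))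
    have hρn : ∀ z ∈ U, ρ z ^ n = L := fun z hz => by
      have h1 := Complex.slitPlane_ne_zero (hslit z hz)
      rw [div_pow, ← Complex.exp_nat_mul, mul_div_cancel₀ _ (Nat.cast_ne_zero.mpr hn.ne'),
        Complex.exp_log h1]
      have h2 : Kc z ^ n ≠ 0 := fun h => h1 (by rw [h, zero_div])
      field_simp
    have hρc : ContinuousOn ρ U := by
      have hKc : ContinuousOn Kc U := by
        have h1 : DifferentiableOn ℂ (fun z => (H ∘ ofComplex) z /
            Complex.exp (2 * Real.pi * Complex.I * z / N) ^ d) upperHalfPlaneSet := by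
          refine (UpperHalfPlane.mdifferentiable_iff.mp hHdiff).div ?_
            (fun z _ => zpow_ne_zero _ (Complex.exp_ne_zero _))
          exact DifferentiableOn.zpow (by fun_prop) (Or.inl fun z _ => Complex.exp_ne_zero _)
        refine (h1.continuousOn.mono fun z hz =>
          (lt_of_le_of_lt (le_max_right A 0) hz : (0 : ℝ) < z.im)).congr fun z hz => ?_
        have hz0 : (0 : ℝ) < z.im := lt_of_le_of_lt (le_max_right _ _) hz
        simp [Kc, hK, qq, ofComplex_apply_of_im_pos hz0]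
      exact hKc.div ((((hKc.pow n).div_const L).clog hslit).div_const _).cexp
        fun z _ => Complex.exp_ne_zero _
    have hfin : {w : ℂ | w ^ n = L}.Finite :=
      ((Polynomial.nthRoots n L).toFinset.finite_toSet).subset fun w hw => by
        simpa [Polynomial.mem_nthRoots hn] using hw
    have hconst : ∀ x ∈ U, ∀ y ∈ U, ρ x = ρ y := fun x hx y hy =>
      hU.constant_of_mapsTo hfin.isDiscrete hρc hρn hx hy
    have hω1 : ω = 1 := by
      set τ₀ : ℍ := ⟨Complex.I * ((max A 0 + 1 : ℝ) : ℂ),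
        by simp; positivity⟩ with hτ₀
      have hτ₀U : (τ₀ : ℂ) ∈ U := by show max A 0 < _; simp [hτ₀]
      have hτ₁U : (((k : ℝ) +ᵥ τ₀ : ℍ) : ℂ) ∈ U := by show max A 0 < _; simp [hτ₀]
      have h1 := hconst _ hτ₁U _ hτ₀U
      have hK0 : Kc τ₀ ≠ 0 := fun h => Complex.slitPlane_ne_zero (hslit _ hτ₀U)
        (by rw [h, zero_pow hn.ne', zero_div])
      simp only [ρ] at h1
      rw [show Kc (((k : ℝ) +ᵥ τ₀ : ℍ) : ℂ) = ω * Kc τ₀ by
        show (K ∘ ofComplex) _ = ω * (K ∘ ofComplex) _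
        simp only [Function.comp, ofComplex_apply]
        exact hKper τ₀, mul_pow, hωn,
        one_mul, mul_div_assoc] at h1
      exact mul_eq_right₀ (div_ne_zero hK0 (Complex.exp_ne_zero _)) |>.mp h1
    intro τ
    have := hω τ
    rw [hω1, one_mul] at this
    exact this
  · refine ⟨max 1 (‖L‖ + 1), ?_⟩
    filter_upwards [hlim.norm.eventually (eventually_le_nhds (lt_add_one ‖L‖))] with τ hτ
    have hKle : ‖K τ‖ ≤ max 1 (‖L‖ + 1) := by
      rcases le_total ‖K τ‖ 1 with h | h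
      · exact le_max_of_le_left h
      · rw [norm_pow] at hτ
        exact le_max_of_le_right (le_trans (le_self_pow₀ h hn.ne') hτ)
    simp only [hK, norm_div, norm_zpow] at hKle
    rwa [div_le_iff₀ (zpow_pos (norm_pos_iff.mpr (qq_ne_zero N τ)) d)] at hKle

theorem exists_eq_T_zpow_of_upper {g : SL(2, ℤ)} (h : g 1 0 = 0) :
    ∃ k : ℤ, g = T ^ k ∨ g = -T ^ k := by
  have hdet : g 0 0 * g 1 1 = 1 := by
    have := g.det_coe
    rw [Matrix.det_fin_two, h, mul_zero, sub_zero] at this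
    exact this
  rcases Int.eq_one_or_neg_one_of_mul_eq_one' hdet with ⟨h0, h1⟩ | ⟨h0, h1⟩
  · refine ⟨g 0 1, Or.inl (Subtype.ext ?_)⟩
    ext i j; fin_cases i <;> fin_cases j <;> simp [coe_T_zpow, h, h0, h1]
  · refine ⟨-g 0 1, Or.inr (Subtype.ext ?_)⟩
    ext i j; fin_cases i <;> fin_cases j <;> simp [coe_T_zpow, h, h0, h1]

/-- A representative with prescribed `n`-th power. -/
theorem rep_of_crit {n : ℕ} [NeZero n] {G : Polynomial (Polynomial ℂ)} (hcrit : Crit N n G) :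
    ∃ (χ : ParHom N (ZMod n)) (F : ℍ → ℂ), IsKummerRep N n χ F ∧ IsNum N n F G := by
  have hn : 0 < n := NeZero.pos n
  have hG0 : numVal N G ≠ 0 := by
    intro h
    refine (hcrit.infty _ ((biEval_modPoly_eq_zero_iff (serAlg N) _).mpr ⟨baseCoset N, rfl⟩)).1 ?_
    rw [jqN, ← map_biEval, ← incl_biEval]
    show serAlg N (incl N (numVal N G)) = 0
    rw [h, map_zero, map_zero]
  have hD0 : denVal N ≠ 0 := fun h => biEval_modPoly_deriv_ne_zero (baseCoset N) (by
    rw [← incl_biEval]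
    show incl N (denVal N) = 0
    rw [h, map_zero])
  obtain ⟨Fc, hFc, hFeq⟩ := exists_root_upperHalfPlane hn
    ((UpperHalfPlane.mdifferentiable_iff.mp (numVal N G).2.holo).analyticOnNhd isOpen_upperHalfPlaneSet)
    ((UpperHalfPlane.mdifferentiable_iff.mp (denVal N).2.holo).analyticOnNhd isOpen_upperHalfPlaneSet)
    (fun z hz => analyticOrderAt_modFun_ne_top (denVal N).2.holo (fun h => hD0 (Subtype.ext h)) hz)
    (fun z hz => by
      obtain ⟨ψ, hψ, h0, hψτ, hd, hjψ⟩ := exists_jCoord N ⟨z, hz⟩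
      have hroot := (biEval_modPoly_eq_zero_iff (localAlg N hψ h0) _).mpr ⟨baseCoset N, rfl⟩
      rw [hjψ] at hroot
      obtain ⟨k, hk⟩ := hcrit.finite _ _ hroot
      refine ⟨k, ?_⟩
      rw [← hjψ, ← map_biEval, ← map_biEval, order_localAlg hψ h0 hd, order_localAlg hψ h0 hd,
        hψτ, ← incl_biEval, ← incl_biEval] at hk
      exact hk)
  set F : ℍ → ℂ := fun τ => Fc (τ : ℂ) with hFdef
  have hF : MDifferentiable 𝓘(ℂ) 𝓘(ℂ) F :=
    UpperHalfPlane.mdifferentiable_iff.mpr (hFc.differentiableOn.congr fun z hz => by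
      simp [hFdef, ofComplex_apply_of_im_pos (hz : 0 < z.im)])
  have hnum : IsNum N n F G := fun τ => by simpa using hFeq τ τ.im_pos
  have hF0 : F ≠ 0 := fun h => hG0 (Subtype.ext (funext fun τ => by
    rw [← hnum τ, h]; simp [zero_pow hn.ne']))
  -- the character
  have hchar : ∀ γ : Gamma0 N, ∃ a : ZMod n,
      ∀ τ, F ((γ : SL(2, ℤ)) • τ) = ZMod.stdAddChar a * F τ := fun γ => by
    obtain ⟨ω, hωn, hω⟩ := exists_const_of_pow_eq hn (mdifferentiable_comp_smul hF (γ : SL(2, ℤ)))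
      hF hF0 (fun τ => by
        have heq : ∀ τ : ℍ, (F ((γ : SL(2, ℤ)) • τ) ^ n - F τ ^ n) *
            (denVal N : ℍ → ℂ) τ = 0 := fun τ => by
          have h1 := hnum ((γ : SL(2, ℤ)) • τ)
          rw [(denVal N).2.invariant _ γ.2, (numVal N G).2.invariant _ γ.2] at h1
          linear_combination h1 - hnum τ
        rcases Hecke.eq_zero_or_eq_zero_of_holo_mul
          (((mdifferentiable_comp_smul hF (γ : SL(2, ℤ))).pow n).sub (hF.pow n))
          (denVal N).2.holo (funext heq) with hz | hz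
        · exact sub_eq_zero.mp (congrFun hz τ)
        · exact absurd (Subtype.ext hz) hD0)
    obtain ⟨i, -, hi⟩ := (Complex.isPrimitiveRoot_exp n hn.ne').eq_pow_of_pow_eq_one hωn
    refine ⟨((i : ℤ) : ZMod n), fun τ => ?_⟩
    rw [hω τ, ZMod.stdAddChar_coe, ← hi, ← Complex.exp_nat_mul]
    congr 2; push_cast; ring
  choose a ha using hchar
  have hinj : ∀ x y : ZMod n, (∀ τ, ZMod.stdAddChar x * F τ = ZMod.stdAddChar y * F τ) → x = y :=
    fun x y h => by
      obtain ⟨τ, hτ⟩ := Function.ne_iff.mp hF0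
      exact ZMod.injective_stdAddChar (mul_right_cancel₀ hτ (h τ))
  let χ0 : Additive (Gamma0 N) →+ ZMod n :=
    { toFun := fun γ => a (Additive.toMul γ)
      map_zero' := hinj _ _ fun τ => by
        rw [toMul_zero, ← ha, AddChar.map_zero_eq_one]; simp
      map_add' := fun γ γ' => hinj _ _ fun τ => by
        rw [toMul_add, ← ha, AddChar.map_add_eq_mul, Subgroup.coe_mul, mul_smul, ha, ha]; ring }
  have hχ : χ0 ∈ ParHom N (ZMod n) := by
    intro γ hγ
    obtain ⟨δ, hδ⟩ := Period.exists_conj_upper_of_trace_sq (γ : SL(2, ℤ)) hγ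
    obtain ⟨k, hk⟩ := exists_eq_T_zpow_of_upper hδ
    obtain ⟨d, hper, -⟩ := periodic_of_crit hF hF0 hnum hcrit δ
    refine hinj _ _ fun τ => ?_
    rw [AddChar.map_zero_eq_one, one_mul]
    show ZMod.stdAddChar (a γ) * F τ = F τ
    rw [← ha]
    have hmem : δ * T ^ k * δ⁻¹ ∈ Gamma0 N := by
      rcases hk with hk | hk
      · rw [← hk, ← mul_assoc, ← mul_assoc, mul_inv_cancel, one_mul, mul_inv_cancel_right]
        exact γ.2
      · have hneg : T ^ k = -(δ⁻¹ * (γ : SL(2, ℤ)) * δ) := by rw [hk, neg_neg]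
        rw [hneg, mul_neg, neg_mul, ← mul_assoc, ← mul_assoc, mul_inv_cancel, one_mul,
          mul_inv_cancel_right, ← neg_one_mul]
        exact mul_mem Period.neg_one_mem_Gamma0' γ.2
    have h := hper k hmem (δ⁻¹ • τ)
    rw [smul_vadd_eq, smul_inv_smul] at h
    refine Eq.trans ?_ h
    congr 1
    rcases hk with hk | hk
    · rw [← hk, ← mul_assoc, ← mul_assoc, mul_inv_cancel, one_mul, mul_inv_cancel_right]
    · have hneg : T ^ k = -(δ⁻¹ * (γ : SL(2, ℤ)) * δ) := by rw [hk, neg_neg]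
      rw [hneg, mul_neg, neg_mul, ← mul_assoc, ← mul_assoc, mul_inv_cancel, one_mul,
        mul_inv_cancel_right, SL_neg_smul]
  refine ⟨⟨χ0, hχ⟩, F, ⟨hF, hF0, fun γ τ => ha γ τ, fun δ => ?_⟩, hnum⟩
  obtain ⟨d, hper, C, hC⟩ := periodic_of_crit hF hF0 hnum hcrit δ
  obtain ⟨f, hf, -⟩ := exists_hasQSeries (NeZero.pos N) (mdifferentiable_comp_smul hF δ)
    (fun τ => by
      have := hper N (Period.T_pow_conj_mem_Gamma0 N δ) τ
      rwa [Int.cast_natCast] at this)
    (C := |C|) (B := d.natAbs) (by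
      filter_upwards [hC] with τ hτ
      refine hτ.trans (mul_le_mul (le_abs_self C) ?_ (by positivity) (abs_nonneg _))
      exact zpow_le_zpow_right_of_le_one₀ (norm_pos_iff.mpr (qq_ne_zero N τ))
        (norm_qq_lt_one N (NeZero.pos N) τ).le (by omega))
  exact ⟨N, f, NeZero.pos N, hf⟩

end Fermat.Agent.GalRep
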