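import Fermat.Agent.GalRep.HeckeHom
import Fermat.Agent.Period.MaxPrinciple
import Fermat.Prelude.Def_CuspForm_HeckeAlgebra

/-!
Periods of weight two cusp forms are equivariant for the Hecke transfer, and injective.
-/

set_option autoImplicit false

noncomputable section

namespace Fermat.Agent.GalRep

open UpperHalfPlane CongruenceSubgroup Filter Topology ModularForm
open scoped MatrixGroups Manifold
open Fermat.Agent.Period (IsPrim)

variable {N : ℕ} {ℓ : ℕ}

/-- The representative as an element of `GL₂(ℝ)`. -/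
def repGL (ℓ : ℕ) : Option (Fin ℓ) → GL (Fin 2) ℝ
  | none => heckeDiagMatrix ℓ
  | some b => heckeMatrix ℓ (b : ℕ)

theorem val_repGL (hℓ : ℓ ≠ 0) (i : Option (Fin ℓ)) :
    ((repGL ℓ i : GL (Fin 2) ℝ) : Matrix (Fin 2) (Fin 2) ℝ) =
      (heckeRep ℓ i).map (Int.cast : ℤ → ℝ) := by
  cases i <;> ext a b <;> fin_cases a <;> fin_cases b <;> simp [repGL, heckeRep, hℓ]

theorem repGL_mul_eq (hℓ : ℓ ≠ 0) {i j : Option (Fin ℓ)} {γ δ : SL(2, ℤ)}
    (h : heckeRep ℓ i * (γ : Matrix (Fin 2) (Fin 2) ℤ) =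
      (δ : Matrix (Fin 2) (Fin 2) ℤ) * heckeRep ℓ j) (τ : ℍ) :
    repGL ℓ i • (γ • τ) = δ • (repGL ℓ j • τ) := by
  show repGL ℓ i • ((γ : GL (Fin 2) ℝ) • τ) = (δ : GL (Fin 2) ℝ) • (repGL ℓ j • τ)
  rw [← mul_smul, ← mul_smul]
  congr 1
  refine Units.ext ?_
  rw [Units.val_mul, Units.val_mul, val_repGL hℓ, val_repGL hℓ]
  have := congrArg (fun X : Matrix (Fin 2) (Fin 2) ℤ => X.map (Int.castRingHom ℝ)) h
  simp only [Matrix.map_mul] at this
  exact this

theorem im_repGL_smul (hℓ : ℓ ≠ 0) (i : Option (Fin ℓ)) :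
    ∃ c : ℝ, 0 < c ∧ ∀ τ : ℍ, (repGL ℓ i • τ).im = c * τ.im := by
  have hℓ' : (0 : ℝ) < ℓ := Nat.cast_pos.mpr (Nat.pos_of_ne_zero hℓ)
  cases i with
  | none =>
    refine ⟨ℓ, hℓ', fun τ => ?_⟩
    rw [← UpperHalfPlane.coe_im, repGL, coe_heckeDiagMatrix_smul hℓ]
    simp
  | some b =>
    refine ⟨(ℓ : ℝ)⁻¹, inv_pos.mpr hℓ', fun τ => ?_⟩
    rw [← UpperHalfPlane.coe_im, repGL, coe_heckeMatrix_smul hℓ,
      show (ℓ : ℂ) = ((ℓ : ℝ) : ℂ) from rfl, Complex.div_ofReal_im]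
    simp [mul_comm, div_eq_mul_inv]

theorem tendsto_repGL_smul (hℓ : ℓ ≠ 0) (i : Option (Fin ℓ)) :
    Tendsto (fun τ : ℍ => repGL ℓ i • τ) atImInfty atImInfty := by
  obtain ⟨c, hc, him⟩ := im_repGL_smul hℓ i
  refine tendsto_comap_iff.mpr ((tendsto_comap.const_mul_atTop hc).congr fun τ => ?_)
  exact (him τ).symm

/-- Derivative of a composite with a representative. -/
theorem hasDerivAt_comp_repGL (hℓ : ℓ ≠ 0) {F f : ℍ → ℂ} (hF : IsPrim F f) (i : Option (Fin ℓ))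
    (τ : ℍ) :
    HasDerivAt ((fun τ => F (repGL ℓ i • τ)) ∘ ofComplex) ((f ∣[(2 : ℤ)] repGL ℓ i) τ) (τ : ℂ) := by
  have hℓC : (ℓ : ℂ) ≠ 0 := Nat.cast_ne_zero.mpr hℓ
  obtain ⟨a, b, ha, hval, hslash⟩ : ∃ a b : ℂ, a ≠ 0 ∧
      (∀ σ : ℍ, ((repGL ℓ i • σ : ℍ) : ℂ) = a * σ + b) ∧
      ∀ σ : ℍ, (f ∣[(2 : ℤ)] repGL ℓ i) σ = a * f (repGL ℓ i • σ) := by
    cases i with
    | none =>
      refine ⟨ℓ, 0, hℓC, fun σ => ?_, fun σ => ?_⟩
      · simp [repGL, coe_heckeDiagMatrix_smul hℓ]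
      · rw [repGL, slash_heckeDiagMatrix_apply 2 hℓ]
        norm_num
    | some c =>
      refine ⟨(ℓ : ℂ)⁻¹, ((c : ℕ) : ℂ) / ℓ, inv_ne_zero hℓC, fun σ => ?_, fun σ => ?_⟩
      · rw [repGL, coe_heckeMatrix_smul hℓ]
        ring
      · rw [repGL, slash_heckeMatrix_apply 2 hℓ]
  have h1 := hF (repGL ℓ i • τ)
  rw [hval τ] at h1
  have h2 := h1.comp (τ : ℂ) (((hasDerivAt_id (τ : ℂ)).const_mul a).add_const b)
  rw [mul_one, mul_comm] at h2
  rw [hslash τ]
  refine h2.congr_of_eventuallyEq ?_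
  filter_upwards [isOpen_upperHalfPlaneSet.mem_nhds τ.im_pos] with z hz
  have hz' : ofComplex z = ⟨z, hz⟩ := ofComplex_apply_of_im_pos hz
  simp only [Function.comp_apply, id_eq, hz']
  have := hval ⟨z, hz⟩
  rw [show a * z + b = ((repGL ℓ i • (⟨z, hz⟩ : ℍ) : ℍ) : ℂ) from this.symm, ofComplex_apply]

variable [NeZero N]

/-- The primitive of `T_ℓ f` built from that of `f`. -/
theorem hasEquivariantPrimitive_hecke (hg : GoodIndex N ℓ) (f : CuspForm (Gamma0 N) 2)
    {F : ℍ → ℂ} (hF : ModularCurve.HasEquivariantPrimitive N f F) :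
    ModularCurve.HasEquivariantPrimitive N (CuspForm.heckeTLin 2 hg.prime hg.not_dvd f)
      (fun τ => ∑ i, F (repGL ℓ i • τ)) := by
  have hℓ := hg.prime.ne_zero
  refine ⟨fun τ => ?_, ?_, fun γ => ?_, fun δ => ?_⟩
  · have hsum := HasDerivAt.fun_sum (u := (Finset.univ : Finset (Option (Fin ℓ))))
      fun i _ => hasDerivAt_comp_repGL hℓ hF.1 i τ
    have heq : ((fun τ => ∑ i, F (repGL ℓ i • τ)) ∘ ofComplex) =
        fun z => ∑ i, ((fun τ => F (repGL ℓ i • τ)) ∘ ofComplex) z := rfl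
    rw [heq]
    refine hsum.congr_deriv ?_
    rw [CuspForm.heckeTLin_apply_apply, heckeT_def, Pi.add_apply, Finset.sum_apply,
      Fintype.sum_option, add_comm]
    congr 1
    exact Fin.sum_univ_eq_sum_range (fun j => ((f : ℍ → ℂ) ∣[(2 : ℤ)] heckeMatrix ℓ j) τ) ℓ
  · simpa using tendsto_finsetSum (Finset.univ : Finset (Option (Fin ℓ)))
      fun i _ => hF.2.1.comp (tendsto_repGL_smul hℓ i)
  · refine ⟨∑ i, hF.2.2.1.period (trCoef hg γ i), fun z => ?_⟩
    have key : ∀ i, F (repGL ℓ i • ((γ : SL(2, ℤ)) • z)) =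
        hF.2.2.1.period (trCoef hg γ i) + F (repGL ℓ (trIdx hg γ i) • z) := fun i => by
      rw [repGL_mul_eq hℓ (trSpec hg γ i) z]
      linear_combination hF.2.2.1.sub_eq_period (trCoef hg γ i) (repGL ℓ (trIdx hg γ i) • z)
    simp only [key, Finset.sum_add_distrib]
    rw [show ∑ i, F (repGL ℓ (trIdx hg γ i) • z) = ∑ i, F (repGL ℓ i • z) from
      Equiv.sum_comp (trPerm hg γ) (fun i => F (repGL ℓ i • z)), add_sub_cancel_right]
  · have hstep : ∀ i, ∃ (j : Option (Fin ℓ)) (δ' : SL(2, ℤ)),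
        heckeRep ℓ i * (δ : Matrix (Fin 2) (Fin 2) ℤ) = (δ' : Matrix (Fin 2) (Fin 2) ℤ) * heckeRep ℓ j := by
      intro i
      obtain ⟨j, M, hM⟩ := exists_eq_mul_heckeRep hg.prime (heckeRep ℓ i * (δ : Matrix (Fin 2) (Fin 2) ℤ))
        ⟨1, by rw [Matrix.det_mul, det_heckeRep, δ.2]⟩
      have hdet : M.det = 1 := by
        have := congrArg Matrix.det hM
        rw [Matrix.det_mul, Matrix.det_mul, det_heckeRep, det_heckeRep, δ.2, mul_one] at this
        exact mul_right_cancel₀ (Int.natCast_ne_zero.mpr hℓ) (this.symm.trans (one_mul _).symm)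
      exact ⟨j, ⟨M, hdet⟩, hM⟩
    choose j δ' hj using hstep
    choose L hL using fun i => hF.2.2.2 (δ' i)
    refine ⟨∑ i, L i, tendsto_finsetSum _ fun i _ => ?_⟩
    have : (fun w => F (repGL ℓ i • (δ • w))) = (fun w => F (δ' i • w)) ∘ fun w => repGL ℓ (j i) • w :=
      funext fun w => by rw [Function.comp_apply, repGL_mul_eq hℓ (hj i) w]
    rw [this]
    exact (hL i).comp (tendsto_repGL_smul hℓ (j i))

/-- The period map intertwines `T_ℓ` with the transfer. -/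
theorem periodMap_heckeTLin (hg : GoodIndex N ℓ) (f : CuspForm (Gamma0 N) 2) :
    ModularCurve.periodMap N (CuspForm.heckeTLin 2 hg.prime hg.not_dvd f) =
      transferHom hg (ModularCurve.periodMap N f) := by
  obtain ⟨F, hF⟩ := Period.exists_hasEquivariantPrimitive f
  refine AddMonoidHom.ext fun x => ?_
  obtain ⟨γ, rfl⟩ := Additive.ofMul.surjective x
  rw [transferHom_apply, Period.periodMap_apply _ (hasEquivariantPrimitive_hecke hg f hF) γ I]
  have key : ∀ i, ModularCurve.periodMap N f (Additive.ofMul (trCoef hg γ i)) =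
      F (repGL ℓ i • ((γ : SL(2, ℤ)) • I)) - F (repGL ℓ (trIdx hg γ i) • I) := fun i => by
    rw [repGL_mul_eq hg.prime.ne_zero (trSpec hg γ i) I,
      Period.periodMap_apply f hF (trCoef hg γ i) (repGL ℓ (trIdx hg γ i) • I)]
  simp only [key, Finset.sum_sub_distrib]
  rw [show ∑ i, F (repGL ℓ (trIdx hg γ i) • I) = ∑ i, F (repGL ℓ i • I) from
    Equiv.sum_comp (trPerm hg γ) (fun i => F (repGL ℓ i • I))]

theorem periodMap_mem_parHom (f : CuspForm (Gamma0 N) 2) :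
    ModularCurve.periodMap N f ∈ ParHom N ℂ := by
  obtain ⟨F, hF⟩ := Period.exists_hasEquivariantPrimitive f
  rw [Period.periodMap_eq f hF]
  exact Period.periodHom_isParabolic hF

/-- A weight two cusp form is determined by its periods. -/
theorem periodMap_injective {f g : CuspForm (Gamma0 N) 2}
    (h : ModularCurve.periodMap N f = ModularCurve.periodMap N g) : f = g := by
  obtain ⟨pml, hpml⟩ := Period.existsPeriodMapLinear N
  have h0 : pml (f - g) = 0 := by rw [map_sub, hpml, hpml, h, sub_self]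
  rw [hpml] at h0
  have h1 : ModularCurve.periodHomPair N (f - g, (0 : CuspForm (Gamma0 N) 2)) =
      ModularCurve.periodHomPair N (0, 0) := by
    have hz : ModularCurve.periodMap N (0 : CuspForm (Gamma0 N) 2) = 0 := by
      rw [← hpml, map_zero]
    refine AddMonoidHom.ext fun x => ?_
    obtain ⟨γ, rfl⟩ := Additive.ofMul.surjective x
    rw [Period.periodHomPair_apply, Period.periodHomPair_apply, h0, hz]
  exact sub_eq_zero.mp (congrArg Prod.fst (Period.periodHomPair_injective h1))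

end Fermat.Agent.GalRep
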