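/-
A representation of a Hecke algebra is unipotent on inertia at a prime exactly dividing the level,
from the vanishing of `(σ - 1) (τ - 1)` on Kummer classes.
-/
import Fermat.Agent.GalRep.Endgame
import Fermat.Prelude.Def_GaloisRep_LocalConditions

set_option autoImplicit false

noncomputable section

namespace Fermat.Agent.GalRep

open Fermat.Agent.Galois (GQ)
open Fermat.Agent.Deform
open IsLocalRing Polynomial

/-- For `σ`, `τ` in the inertia at a prime exactly dividing the level, `(σ - 1) (τ - 1) = 0` on the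
Kummer classes, up to a constant independent of `n`. -/
def InertiaProdZero (N : ℕ) [NeZero N] : Prop :=
  ∀ q : ℕ, q.Prime → q ∣ N → ¬ q ^ 2 ∣ N →
    ∀ A : ValuationSubring (AlgebraicClosure ℚ), A.LiesOverPrime q →
    ∀ σ ∈ A.inertiaSubgroupIn ℚ, ∀ τ ∈ A.inertiaSubgroupIn ℚ, ∃ D : ℕ, 0 < D ∧
      ∀ (n : ℕ) [NeZero n], ¬ q ∣ n → ∀ χ : ParHom N (ZMod n),
        D • ((kummerGalois N n).galois σ ((kummerGalois N n).galois τ χ - χ)
          - ((kummerGalois N n).galois τ χ - χ)) = 0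

/-- `σ + σ⁻¹ = 2` for the universal trace. -/
theorem uTrace_eq_two {N p : ℕ} [NeZero N] [Fact p.Prime] (D : EichlerShimuraDatum N p) {σ : GQ}
    (hc : cyc p σ = 1)
    (h : D.galois σ * D.galois σ - (2 : ℕ) • D.galois σ + 1 = 0) : uTrace D σ = 2 := by
  rw [uTrace, hc, Units.val_one, one_smul]
  have h1 := congrArg (fun z => z * D.galois σ⁻¹) h
  simp only [add_mul, sub_mul, mul_assoc, galois_mul_inv, mul_one, one_mul, smul_mul_assoc,
    zero_mul] at h1
  rw [sub_add_eq_add_sub, sub_eq_zero] at h1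
  rw [h1, two_nsmul, one_add_one_eq_two]

/-- The trace of the inertia at `q` is two. -/
theorem isUnipotentOnInertiaAt_of_charpoly {N p : ℕ} [NeZero N] [Fact p.Prime]
    (D : EichlerShimuraDatum N p) (S : Finset ℕ)
    {R : Type} [CommRing R] [IsLocalRing R] [IsHausdorff (maximalIdeal R) R] [Algebra ℤ_[p] R]
    (h2 : ∀ x : R, 2 * x = 0 → x = 0)
    (hp : (p : R) ∈ maximalIdeal R) (χ : CuspForm.heckeAlgebra N 2 (↑S : Set ℕ) →+* R)
    (ρ : GaloisRepAdic R)
    (hchar : ∀ (ℓ : ℕ) (hℓ : ℓ.Prime) (hℓN : ¬ ℓ ∣ N) (hℓS : ℓ ∉ (↑S : Set ℕ)),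
      ∀ A : ValuationSubring (AlgebraicClosure ℚ), A.LiesOverPrime ℓ →
        ∀ σ : GQ, A.IsFrobeniusAt σ ℓ → LinearMap.charpoly (ρ.ρ σ) =
          X ^ 2 - C (χ (CuspForm.heckeAlgebra.T hℓ hℓN hℓS)) * X + C ((ℓ : R)))
    {q : ℕ} (htwo : ∀ A : ValuationSubring (AlgebraicClosure ℚ), A.LiesOverPrime q →
      ∀ σ ∈ A.inertiaSubgroupIn ℚ, uTrace D σ = 2) :
    ρ.IsUnipotentOnInertiaAt q := by
  intro A hA σ hσ
  obtain ⟨ψ, hψ, hψc⟩ := exists_extension (D := D) hp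
    (fun x hx => IsHausdorff.haus (inferInstance : IsHausdorff (maximalIdeal R) R) x fun k => by
      rw [SModEq.zero, smul_eq_mul, Ideal.mul_top]; exact hx k) χ
  obtain ⟨r, hr⟩ := exists_hasMatrix ρ
  have htr := trace_eq_uTrace D S frobeniusPowDensity χ ψ hψ hψc ρ hchar hr
  have htr2 : ∀ τ ∈ A.inertiaSubgroupIn ℚ, (r τ).trace = 2 := fun τ hτ => by
    have hu : (⟨uTrace D τ, uTrace_mem D frobeniusPowDensity S τ⟩ :
        heckeClosure D (↑S : Set ℕ)) = 2 := Subtype.ext (htwo A hA τ hτ)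
    rw [htr, hu, map_ofNat]
  have h1 := htr2 σ hσ
  have hsq := htr2 (σ ^ 2) (pow_mem hσ 2)
  rw [map_pow, trace_pow_eq_frobPoly] at hsq
  simp only [frobPoly, h1] at hsq
  have hdet : (r σ).det = 1 := sub_eq_zero.mp (h2 _ (by linear_combination -hsq))
  obtain ⟨bas, hbas⟩ := hr
  rw [← LinearMap.charpoly_toMatrix _ bas, hbas, Matrix.charpoly_fin_two, h1, hdet, map_one,
    map_ofNat]
  ring

/-- On the datum, `(σ - 1) (τ - 1) = 0` for inertia at a prime exactly dividing the level. -/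
theorem galois_prod_zero {N p : ℕ} [NeZero N] [Fact p.Prime] [∀ k, NeZero (p ^ k)]
    (hred : KummerReduction N) (hsq : InertiaProdZero N) {q : ℕ} (hq : q.Prime) (hqp : q ≠ p)
    (hqN : q ∣ N) (hq2 : ¬ q ^ 2 ∣ N) {A : ValuationSubring (AlgebraicClosure ℚ)}
    (hA : A.LiesOverPrime q) {σ τ : GQ} (hσ : σ ∈ A.inertiaSubgroupIn ℚ)
    (hτ : τ ∈ A.inertiaSubgroupIn ℚ) :
    let D := eichlerShimuraDatum (p := p) (K := fun k => kummerGalois N (p ^ k)) (kummerCompat N)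
      (fun k => kummerHeckeComm N (p ^ k)) (kummerFrobenius N hred)
    (D.galois σ - 1) * (D.galois τ - 1) = 0 := by
  refine LinearMap.ext fun (v : Lat N p) => ?_
  obtain ⟨C, hC, hsqC⟩ := hsq q hq hqN hq2 A hA σ hσ τ hτ
  refine nsmul_eq_zero_lat hC fun k => ?_
  have := hsqC (p ^ k) (fun hdvd => hqp ((Nat.prime_dvd_prime_iff_eq hq Fact.out).mp
    (hq.dvd_of_dvd_pow hdvd))) (redPow k v)
  show C • redPow k ((latGalois _ (kummerCompat N) σ) ((latGalois _ (kummerCompat N) τ) v - v) -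
    ((latGalois _ (kummerCompat N) τ) v - v)) = 0
  simp only [map_sub, redPow_latGalois] at this ⊢
  exact this

/-- The unipotence of inertia, from the two inputs. -/
theorem isUnipotentOnInertiaAt_of_heckeDatum
    (hred : ∀ (M : ℕ) [NeZero M], KummerReduction M)
    {𝒪 : Type} [CommRing 𝒪] [IsDomain 𝒪] [IsDiscreteValuationRing 𝒪]
    [IsAdicComplete (maximalIdeal 𝒪) 𝒪] [CharZero 𝒪]
    {p : ℕ} (hp : p.Prime) (hp𝒪 : (p : 𝒪) ∈ maximalIdeal 𝒪)
    {N : ℕ} [NeZero N] (hsq : InertiaProdZero N) {S : Finset ℕ}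
    {θ : CuspForm.heckeAlgebra N 2 (↑S : Set ℕ) →+* ResidueField 𝒪}
    {T : Type} [CommRing T] [IsLocalRing T] [IsNoetherianRing T]
    [IsAdicComplete (maximalIdeal T) T] [Algebra 𝒪 T] [IsLocalHom (algebraMap 𝒪 T)]
    [Module.Finite 𝒪 T] [Module.Free 𝒪 T]
    (H : CuspForm.HeckeGaloisRepDatum N (↑S : Set ℕ) 𝒪 θ T)
    (q : ℕ) (hq : q.Prime) (hqp : q ≠ p) (hqN : q ∣ N) (hq2 : ¬ q ^ 2 ∣ N) :
    H.ρ.IsUnipotentOnInertiaAt q := by
  haveI : Fact p.Prime := ⟨hp⟩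
  have hpT : (p : T) ∈ maximalIdeal T := by
    have := map_nonunit (algebraMap 𝒪 T) _ hp𝒪
    rwa [map_natCast] at this
  letI : Algebra ℤ_[p] T := padicAlgebra hpT
  haveI : ∀ k, NeZero (p ^ k) := fun k => ⟨pow_ne_zero k hp.ne_zero⟩
  have h2 : ∀ x : T, 2 * x = 0 → x = 0 := fun x hx => by
    have : (2 : 𝒪) • x = 0 := by rw [Algebra.smul_def, map_ofNat, hx]
    exact (smul_eq_zero.mp this).resolve_left two_ne_zero
  let D : EichlerShimuraDatum N p :=
    eichlerShimuraDatum (K := fun k => kummerGalois N (p ^ k)) (kummerCompat N)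
      (fun k => kummerHeckeComm N (p ^ k)) (kummerFrobenius N (hred N))
  refine isUnipotentOnInertiaAt_of_charpoly D S h2 hpT H.π H.ρ H.charpoly_frob fun A hA σ hσ => ?_
  refine uTrace_eq_two D (cyc_inertia p hq hqp hA hσ) ?_
  have h := galois_prod_zero (p := p) (hred N) hsq hq hqp hqN hq2 hA hσ hσ
  simp only [sub_mul, mul_sub, one_mul, mul_one] at h
  rw [← h, two_nsmul]
  abel

end Fermat.Agent.GalRep
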