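/-
For two elements of inertia at a prime exactly dividing the level, `(σ - 1) (τ - 1)` kills the
Kummer classes up to a constant.
-/
import Fermat.Agent.GalRep.Semistable.InertiaBound
import Fermat.Agent.GalRep.Semistable.SemiModel
import Fermat.Agent.GalRep.InertiaBase.HasBase

set_option autoImplicit false
set_option linter.style.haveILetI false
set_option linter.unusedSectionVars false

noncomputable section

namespace Fermat.Agent.GalRep

/-- `(σ - 1) (τ - 1) = 0` on the classes, up to a constant. -/
theorem inertiaProdZero (N : ℕ) [NeZero N] : InertiaProdZero N :=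
  Semistable.inertiaProdZero_of_models N
    (fun _ _ _ hq hA hN hqm => Semistable.hasSemiModel hq hA
      (Nat.pos_of_ne_zero fun h => NeZero.ne N (by rw [hN, h, mul_zero])) hqm)
    fun _ _ _ _ hq hA hqm => InertiaBase.hasRamBase hq hA hqm

end Fermat.Agent.GalRep
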